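import Fermat.Agent.MCurve.Spec.Embed
import Fermat.Agent.MCurve.IgusaField

/-!
Reduction of the series at infinity of level `M`: on polynomials in `j` and `j (N τ)` with integral
coefficients it is nonzero at all cusps as soon as it is nonzero at infinity, and a Gauss valuation
whose residue map detects it.
-/

set_option autoImplicit false

noncomputable section

namespace Fermat.Agent.MCurve.Spec

open AlgebraicCurve ModularCurve Polynomial IsLocalRing CongruenceSubgroup
open Fermat.Agent.GalRep (modFuns jMF jNMF serHom shift qbarToC expand jq HasQSeries seriesToC)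
open Fermat.Agent.GalRep.Model (Lev WFld lvlField wShift wSer)
open scoped MatrixGroups

local notation "Q̄" => AlgebraicClosure ℚ
local notation "ℍ" => UpperHalfPlane

theorem jFn_eq_jFun : jFn = Period.jFun := rfl

theorem jScale_eq_jNFun (N : ℕ) [NeZero N] : jScale N = GalRep.jNFun N := by
  funext τ
  rw [jScale, GalRep.jNFun, jFn_eq_jFun]
  congr 1
  apply UpperHalfPlane.ext
  rw [coe_scalePt (NeZero.pos N), GalRep.coe_posMat_smul]
  simp

theorem hasQSeries_of_lExp {w : ℕ} {f : ℍ → ℂ} {s : LaurentSeries ℂ}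
    (h : LExp (w : ℝ) f s) : HasQSeries w f s := by
  obtain ⟨n, p, hp, rfl⟩ := h
  have h1 : HasQSeries w (fun τ : ℍ => Function.Periodic.qParam (w : ℝ) (τ : ℂ) ^ n * f τ)
      (HahnSeries.ofPowerSeries ℤ ℂ p) := by
    rw [GalRep.hasQSeries_iff]
    refine .of_forall fun τ => ?_
    refine (Nat.cast_injective.hasSum_iff fun m hm => ?_).mp ?_
    · rw [HahnSeries.ofPowerSeries_apply, HahnSeries.embDomain_of_notMem_range, zero_mul]
      rintro ⟨k, hk⟩; exact hm ⟨k, hk⟩
    · simpa [Function.comp_def, GalRep.qq_eq_qParam, HahnSeries.ofPowerSeries_apply_coeff] using hp τ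
  refine ((GalRep.HasQSeries.single w (-(n : ℤ)) 1).mul h1).congr (.of_forall fun τ => ?_)
  simp [← GalRep.qq_eq_qParam, GalRep.qq_ne_zero w τ]

section Base

variable (A : ValuationSubring Q̄)

/-- The valuation ring inside the complex numbers. -/
abbrev AC : Subring ℂ := A.toSubring.map qbarToC

/-- Its residue map. -/
def redC : AC A →+* ResidueField A :=
  (residue A).comp (A.toSubring.equivMapOfInjective qbarToC (RingHom.injective _)).symm.toRingHom

theorem redC_mk (a : A) : redC A ⟨qbarToC a, a, a.2, rfl⟩ = residue A a := by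
  show residue A _ = _
  congr 1
  exact (A.toSubring.equivMapOfInjective qbarToC (RingHom.injective _)).symm_apply_apply a

theorem redC_surjective : Function.Surjective (redC A) := fun r => by
  obtain ⟨a, rfl⟩ := residue_surjective r
  exact ⟨_, redC_mk A a⟩

variable {N M : ℕ} [NeZero N] [NeZero M] [hu : Fact (IsUnit (M : A))]

omit [NeZero N] in
theorem isUnit_of_dvd (h : N ∣ M) : IsUnit (N : A) :=
  isUnit_of_dvd_unit (Nat.cast_dvd_cast h) hu.out

omit [NeZero N] in
theorem isGoodRing_AC (h : N ∣ M) : IsGoodRing N (AC A) where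
  root_mem ζ hζ := by
    have hN : 0 < N := Nat.pos_of_dvd_of_pos h (NeZero.pos M)
    obtain ⟨z, rfl⟩ := GalRep.exists_qbarToC_eq
      (IsAlgebraic.of_pow hN (by rw [hζ]; exact isAlgebraic_one))
    rw [← map_pow, ← map_one qbarToC] at hζ
    exact ⟨z, Galois.integralClosure_le A ⟨z, IsIntegral.of_pow hN
      (by rw [RingHom.injective qbarToC hζ]; exact isIntegral_one)⟩, rfl⟩
  inv_mem := by
    obtain ⟨u, hu'⟩ := (isUnit_of_dvd A h).exists_right_inv
    refine ⟨u, u.2, ?_⟩
    have h1 := congrArg (fun a : A => qbarToC (a : Q̄)) hu'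
    simp only [MulMemClass.coe_mul, map_mul, OneMemClass.coe_one, map_one] at h1
    rw [← inv_eq_of_mul_eq_one_right h1]
    simp

omit [NeZero N] in
theorem natCast_residue_ne_zero (h : N ∣ M) : (N : ResidueField A) ≠ 0 := by
  rw [← map_natCast (residue A)]
  exact ((isUnit_of_dvd A h).map (residue A)).ne_zero

/-- The reduced powers of `j (q ^ N)` are independent over `k [j]`. -/
theorem redIndependent_residue (h : N ∣ M) : RedIndependent (ResidueField A) N :=
  redIndependent_of N (redC A) (redC_surjective A) (isGoodRing_AC A h)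
    (natCast_residue_ne_zero A h)

end Base

variable {M : ℕ} [NeZero M] (A : ValuationSubring Q̄) [hu : Fact (IsUnit (M : A))]

theorem intHol_series (x : intHol M A) :
    ∃ t : LaurentSeries (AC A), coeffMap (AC A).subtype t = wSer ((x : LK M A) : WFld M) :=
  exists_coeffMap_subtype_eq fun k => by
    have := x.2.2 1 k
    rwa [map_one] at this

theorem coe_series (x : intHol M A) {t : LaurentSeries (AC A)}
    (ht : coeffMap (AC A).subtype t = wSer ((x : LK M A) : WFld M)) :
    (intHol_series A x).choose = t :=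
  coeffMap_subtype_injective ((intHol_series A x).choose_spec.trans ht.symm)

/-- The series at infinity. -/
def serI : intHol M A →+* LaurentSeries (AC A) where
  toFun x := (intHol_series A x).choose
  map_one' := coe_series A 1 (by simp)
  map_mul' x y := coe_series A (x * y) (by
    rw [map_mul, (intHol_series A x).choose_spec, (intHol_series A y).choose_spec, ← map_mul]; rfl)
  map_zero' := coe_series A 0 (by simp)
  map_add' x y := coe_series A (x + y) (by
    rw [map_add, (intHol_series A x).choose_spec, (intHol_series A y).choose_spec, ← map_add]; rfl)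

/-- The reduced series at infinity. -/
def rS : intHol M A →+* LaurentSeries (ResidueField A) := (coeffMap (redC A)).comp (serI A)

theorem rS_eq (x : intHol M A) {t : LaurentSeries (AC A)}
    (ht : coeffMap (AC A).subtype t = wSer ((x : LK M A) : WFld M)) :
    rS A x = coeffMap (redC A) t := by
  show coeffMap (redC A) (intHol_series A x).choose = _
  rw [coe_series A x ht]

/-- Functions all of whose translates have series over the valuation ring. -/
def lvlHol : Subring (LK M A) where
  carrier := {x | ∃ Φ : modFuns (Gamma M),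
    (Φ : ℍ → ℂ) ∈ levelRing M (AC A) ∧ (x : WFld M) = algebraMap _ (WFld M) Φ}
  one_mem' := ⟨1, one_mem _, by simp⟩
  zero_mem' := ⟨0, zero_mem _, by simp⟩
  add_mem' := fun ⟨a, ha, ha'⟩ ⟨b, hb, hb'⟩ =>
    ⟨a + b, add_mem ha hb, by rw [map_add, ← ha', ← hb']; rfl⟩
  mul_mem' := fun ⟨a, ha, ha'⟩ ⟨b, hb, hb'⟩ =>
    ⟨a * b, mul_mem ha hb, by rw [map_mul, ← ha', ← hb']; rfl⟩
  neg_mem' := fun ⟨a, ha, ha'⟩ => ⟨-a, neg_mem ha, by rw [map_neg, ← ha']; rfl⟩

theorem serHom_shift {Φ : modFuns (Gamma M)} (h : (Φ : ℍ → ℂ) ∈ levelRing M (AC A)) (γ : SL(2, ℤ)) :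
    serHom M (shift M γ Φ) =
      coeffMap (AC A).subtype (aExp M (AC A) (translate M (AC A) γ ⟨_, h⟩)) :=
  GalRep.qser_eq (NeZero.pos M) (hasQSeries_of_lExp (lExp_aExp M (AC A) (translate M (AC A) γ ⟨_, h⟩)))

theorem coe_shiftA {x : LK M A} {Φ : modFuns (Gamma M)}
    (hx : (x : WFld M) = algebraMap _ (WFld M) Φ) (g : SL(2, ℤ)) :
    ((shiftA M A g x : LK M A) : WFld M) = algebraMap _ (WFld M) (shift M g⁻¹ Φ) := by
  rw [shiftA_apply, GalRep.Model.coe_fShift, hx, GalRep.Model.wShift_algebraMap]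

theorem lvlHol_le_intHol : lvlHol (M := M) A ≤ intHol M A := by
  rintro x ⟨Φ, hΦ, hx⟩
  refine ⟨⟨Φ, hx.symm⟩, fun g k => ?_⟩
  rw [coe_shiftA A hx, GalRep.Model.wSer_algebraMap, serHom_shift A hΦ, coeffMap_coeff]
  exact SetLike.coe_mem _

/-- Reduction is nonzero at every cusp when it is nonzero at infinity. -/
theorem rS_shiftA_ne_zero {x : LK M A} (hx : x ∈ lvlHol A)
    (h : rS A ⟨x, lvlHol_le_intHol A hx⟩ ≠ 0) (g : SL(2, ℤ)) :
    rS A ⟨shiftA M A g x, shiftA_mem_intHol A g (lvlHol_le_intHol A hx)⟩ ≠ 0 := by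
  obtain ⟨Φ, hΦ, hx'⟩ := hx
  have key : ∀ γ : SL(2, ℤ),
      rS A ⟨shiftA M A γ x, shiftA_mem_intHol A γ (lvlHol_le_intHol A ⟨Φ, hΦ, hx'⟩)⟩ =
        redExp M (redC A) (translate M (AC A) γ⁻¹ ⟨_, hΦ⟩) := fun γ => by
    refine rS_eq A _ ?_
    rw [← serHom_shift A hΦ]
    show _ = wSer ((shiftA M A γ x : LK M A) : WFld M)
    rw [coe_shiftA A hx', GalRep.Model.wSer_algebraMap]
  have h1 := key 1
  simp only [map_one, AlgEquiv.one_apply, inv_one, translate_one] at h1
  have htop := decompGp_eq_top M (redC A) (isGoodRing_AC A dvd_rfl) (natCast_residue_ne_zero A dvd_rfl)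
  rw [key g, Ne, (htop ▸ Subgroup.mem_top g⁻¹ : g⁻¹ ∈ decompGp M (redC A)) ⟨_, hΦ⟩, ← h1]
  exact h

theorem algebraMap_mem_lvlHol (a : A) : algebraMap Q̄ (LK M A) a ∈ lvlHol A :=
  ⟨algebraMap ℂ _ (qbarToC a),
    ⟨fun _ _ _ => rfl, fun _ => HasASeries.const (N := M) (A := AC A) ⟨qbarToC a, a, a.2, rfl⟩⟩,
    coe_algebraMap_LK M A a⟩

theorem rS_algebraMap (a : A) :
    rS (M := M) A ⟨_, lvlHol_le_intHol A (algebraMap_mem_lvlHol A a)⟩ =
      HahnSeries.C (residue A a) := by
  rw [rS_eq A _ (t := HahnSeries.C ⟨qbarToC a, a, a.2, rfl⟩) (by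
    show _ = wSer ((algebraMap Q̄ (LK M A) a : LK M A) : WFld M)
    rw [coe_algebraMap_LK, GalRep.Model.wSer_algebraMap, GalRep.serHom_algebraMap]
    exact coeffMap_single _ 0 _), ← redC_mk A a]
  exact coeffMap_single _ 0 _

variable (L : Lev M)

theorem jK_mem_lvlHol : jK A L ∈ lvlHol A :=
  ⟨jMF (Gamma M), by
    show Period.jFun ∈ _
    rw [← jFn_eq_jFun]
    exact jFn_mem_levelRing M (AC A), rfl⟩

theorem rS_jK : rS A ⟨_, lvlHol_le_intHol A (jK_mem_lvlHol A L)⟩ =
    qExpand (ResidueField A) M (jqModC (ResidueField A)) := by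
  rw [rS_eq A _ (t := qExpand (AC A) M (jqModC (AC A))) (by
    show _ = wSer (algebraMap (modFuns (Gamma M)) (WFld M) (jMF (Gamma M)))
    rw [GalRep.Model.wSer_algebraMap, serHom_jMF, qExpand_coeffMap, MCurve.coeffMap_jqModC,
      qExpand_eq_expand, GalRep.jq_eq_jqModC]),
    qExpand_coeffMap, MCurve.coeffMap_jqModC]

/-- Polynomials in `j`. -/
def polI : Polynomial A →+* intHol M A :=
  (polyA A (jK A L)).codRestrict _ fun P => by
    induction P using Polynomial.induction_on' with
    | add a b ha hb => rw [map_add]; exact add_mem ha hb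
    | monomial n a =>
      rw [← C_mul_X_pow_eq_monomial, map_mul, map_pow, polyA_C, polyA_X]
      exact mul_mem (lvlHol_le_intHol A (algebraMap_mem_lvlHol A a))
        (pow_mem (lvlHol_le_intHol A (jK_mem_lvlHol A L)) n)

theorem rS_polI (P : Polynomial A) : rS A (polI A L P) =
    qExpand (ResidueField A) M (jHom (ResidueField A) (P.map (residue A))) := by
  refine RingHom.congr_fun (f := (rS A).comp (polI A L))
    (g := ((qExpand (ResidueField A) M).comp (jHom _)).comp (mapRingHom (residue A)))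
    (Polynomial.ringHom_ext (fun a => ?_) ?_) P
  · simp only [RingHom.comp_apply, coe_mapRingHom, map_C, jHom, coe_eval₂RingHom, eval₂_C,
      qExpand_C]
    rw [← rS_algebraMap (M := M) A a]
    exact congrArg _ (Subtype.ext (polyA_C A _ a))
  · simp only [RingHom.comp_apply, coe_mapRingHom, map_X, jHom, coe_eval₂RingHom, eval₂_X]
    rw [← rS_jK A L]
    exact congrArg _ (Subtype.ext (polyA_X A _))

set_option maxHeartbeats 800000 in
theorem exists_gauss_rS : ∃ (V : ValuationSubring (LK M A)) (hle : intHol M A ≤ V.toSubring),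
    IsGauss A (jK A L) V ∧
      ∀ x : intHol M A, residue V (Subring.inclusion hle x) = 0 ↔ rS A x = 0 := by
  let p : Ideal (intHol M A) := RingHom.ker (rS A)
  haveI : p.IsPrime := RingHom.ker_isPrime _
  have hne : ∀ x : intHol M A, x ∉ p → (x : LK M A) ≠ 0 := fun x hx h => hx <| by
    rw [show x = 0 from Subtype.ext h]; exact zero_mem p
  let f : Localization.AtPrime p →+* LK M A := IsLocalization.lift
    (M := p.primeCompl) (g := (intHol M A).subtype) fun y => (hne y.1 y.2).isUnit
  obtain ⟨V, hV, hloc⟩ := IsLocalRing.exists_factor_valuationRing (R := Localization.AtPrime p) f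
  have hval : ∀ x : intHol M A, f (algebraMap _ _ x) = (x : LK M A) := fun x => IsLocalization.lift_eq _ x
  have hle : intHol M A ≤ V.toSubring := fun x hx => by
    have := hV (algebraMap _ _ (⟨x, hx⟩ : intHol M A))
    rwa [hval] at this
  have key : ∀ x : intHol M A, residue V (Subring.inclusion hle x) = 0 ↔ rS A x = 0 := by
    intro x
    rw [residue_eq_zero_iff, mem_maximalIdeal, mem_nonunits_iff]
    have e : f.codRestrict V.toSubring hV (algebraMap _ _ x) = Subring.inclusion hle x :=
      Subtype.ext (hval x)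
    have h1 := IsLocalization.AtPrime.isUnit_to_map_iff (Localization.AtPrime p) p x
    refine ⟨fun hn => not_not.mp fun h0 => hn ?_, fun h0 hu => ?_⟩
    · rw [← e]; exact (h1.mpr h0).map _
    · exact h1.mp (hloc.map_nonunit _ (by rw [e]; exact hu)) h0
  refine ⟨V, hle, ⟨fun a => hle (lvlHol_le_intHol A (algebraMap_mem_lvlHol A a)), fun a ha => ?_,
    fun P hP => ?_⟩, key⟩
  · refine (ValuationSubring.coe_mem_nonunits_iff (a := ⟨_, hle (lvlHol_le_intHol A
      (algebraMap_mem_lvlHol A a))⟩)).mpr ((residue_eq_zero_iff _).mp ((key ⟨_, lvlHol_le_intHol A (algebraMap_mem_lvlHol A a)⟩).mpr ?_))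
    rw [rS_algebraMap, (residue_eq_zero_iff a).mpr ha, map_zero]
  · have h1 : rS A (polI A L P) ≠ 0 := by
      rw [rS_polI, map_ne_zero_iff _ (qExpand_injective M), map_ne_zero_iff _ jHom_injective]
      exact hP
    have hu : IsUnit (Subring.inclusion hle (polI A L P) : V) := by
      have := mt (key (polI A L P)).mp h1
      rw [residue_eq_zero_iff, mem_maximalIdeal, mem_nonunits_iff, not_not] at this
      exact this
    refine ⟨hne _ h1, hle (polI A L P).2, ?_⟩
    obtain ⟨u, hu'⟩ := hu.exists_right_inv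
    have h2 : (polyA A (jK A L) P) * (u : LK M A) = 1 := congrArg Subtype.val hu'
    rw [inv_eq_of_mul_eq_one_right h2]
    exact u.2

/-! ## The field of level `Γ₀(N)` -/

variable {N : ℕ} [NeZero N] (hNM : N ∣ M) {ℓ : ℕ} [hℓ : Fact ℓ.Prime] (hA : A.LiesOverPrime ℓ)
  (hℓN : ¬ ℓ ∣ N)

variable (N) in
/-- `j (q ^ N)` in the function field. -/
def jNb : modularFunctionFieldBar N :=
  ⟨qExpand Q̄ N (jqModC Q̄), genAlg_le_bar (Algebra.subset_adjoin ⟨N, inferInstance, dvd_rfl, rfl⟩)⟩

theorem iotaBar_jNb_mem : iotaBar A L hNM hA hℓN (jNb N) ∈ lvlHol A := by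
  let y : barAlg N := ⟨jNb N, Algebra.subset_adjoin ⟨N, inferInstance, dvd_rfl, rfl⟩⟩
  have hy : toMod N y = jNMF N :=
    modFun_ext (hasQSeries_toMod N y) (seriesToC_gen N ▸ GalRep.hasQSeries_jNFun N)
  refine ⟨incM hNM (jNMF N), ?_, ?_⟩
  · show GalRep.jNFun N ∈ _
    rw [← jScale_eq_jNFun]
    exact jScale_mem_levelRing (isGoodRing_AC A dvd_rfl) hNM
  · rw [show jNb N = (y : modularFunctionFieldBar N) from rfl, iotaBar_algebraMap, ← hy]
    rfl

theorem rS_iotaBar_jNb :
    rS A ⟨_, lvlHol_le_intHol A (iotaBar_jNb_mem A L hNM hA hℓN)⟩ =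
      qExpand (ResidueField A) M (qExpand (ResidueField A) N (jqModC (ResidueField A))) := by
  let y : barAlg N := ⟨jNb N, Algebra.subset_adjoin ⟨N, inferInstance, dvd_rfl, rfl⟩⟩
  rw [rS_eq A _ (t := qExpand (AC A) M (qExpand (AC A) N (jqModC (AC A)))) (by
    show _ = wSer ((iotaBar A L hNM hA hℓN (y : modularFunctionFieldBar N) : LK M A) : WFld M)
    rw [iotaBar_algebraMap]
    show _ = wSer (algebraMap (modFuns (Gamma M)) (WFld M) (incM hNM (toMod N y)))
    rw [GalRep.Model.wSer_algebraMap, serHom_incM hNM (hasQSeries_toMod N y),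
      qExpand_coeffMap, qExpand_coeffMap, MCurve.coeffMap_jqModC, qExpand_eq_expand]
    show _ = expand M _ (seriesToC (qExpand Q̄ N (jqModC Q̄)))
    rw [seriesToC_gen, GalRep.jq_eq_jqModC, qExpand_eq_expand]),
    qExpand_coeffMap, qExpand_coeffMap, MCurve.coeffMap_jqModC]

end Fermat.Agent.MCurve.Spec
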