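import Fermat.Agent.MCurve.Spec.PlaceLift

/-!
Reduction of the places of `X₀(N)` at a good prime: the orders of a reduction are the push forward
of the orders.
-/

set_option autoImplicit false
set_option linter.style.haveILetI false
set_option linter.unusedSectionVars false
set_option maxHeartbeats 1000000
set_option synthInstance.maxHeartbeats 400000

noncomputable section

namespace Fermat.Agent.MCurve.Spec

open AlgebraicCurve ModularCurve IsLocalRing IntermediateField CongruenceSubgroup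

local notation "Q̄" => AlgebraicClosure ℚ

variable {N : ℕ} [NeZero N] {ℓ : ℕ} [hℓ : Fact ℓ.Prime] {A : ValuationSubring Q̄}
  (hA : A.LiesOverPrime ℓ) (hℓN : ¬ ℓ ∣ N)
  [∀ P : Place Q̄ (modularFunctionFieldBar N), Module.Finite Q̄ P.ResidueField]
  [∀ Q : Place (ResidueField A) (modularFunctionFieldFullC (ResidueField A) N),
    Module.Finite (ResidueField A) Q.ResidueField]

local notation "𝔽" => modularFunctionFieldBar N
local notation "k" => ResidueField A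
local notation "F'" => modularFunctionFieldFullC (ResidueField A) N

theorem cval_mul_pow {F : Type*} [Field F] [Algebra Q̄ F] (P : Place Q̄ F)
    [Module.Finite Q̄ P.ResidueField] {t₁ t₂ : F} (hP₁ : IsIntAt A P t₁) (hP₂ : IsIntAt A P t₂)
    (y : chart A t₁) (m : ℕ) (hy : (y : F) * t₂ ^ m ∈ chart A t₂) :
    cval A P t₁ hP₁ y * cval A P t₂ hP₂ ⟨t₂, self_mem_chart A t₂⟩ ^ m =
      cval A P t₂ hP₂ ⟨_, hy⟩ := by
  obtain ⟨a, ha⟩ := exists_hasVal_of_mem_chart P hP₁ y.2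
  obtain ⟨s, hs⟩ := exists_hasVal_of_mem_chart P hP₂ (self_mem_chart A t₂)
  rw [cval_of_hasVal P hP₁ y ha, cval_of_hasVal P hP₂ ⟨t₂, self_mem_chart A t₂⟩ hs, ← map_pow,
    ← map_mul]
  refine (cval_of_hasVal P hP₂ ⟨_, hy⟩ (a := a * s ^ m) ?_).symm
  rw [MulMemClass.coe_mul, SubmonoidClass.coe_pow]
  exact ha.mul P (hs.pow P m)

/-- The place `Q` modulo `ℓ` has the centre of `P` on the chart of `t`. -/
def RedCen {t : modularFunctionFieldBar N} (hv : ChartVar A t)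
    (Q : Place (ResidueField A) (modularFunctionFieldFullC (ResidueField A) N))
    (P : Place Q̄ (modularFunctionFieldBar N)) : Prop :=
  ∃ hQ : redT hA hℓN hv ∈ Q.toValuationSubring, AtCen t (cenQ hA hℓN hv Q hQ) P

section Fibre

variable {t : modularFunctionFieldBar N} (hv : ChartVar A t)

theorem sub_const_ne_zero (c : k) : redT hA hℓN hv - algebraMap k F' c ≠ 0 := fun h =>
  (isFinOver_redT hA hℓN hv).transcendental (sub_eq_zero.mp h ▸ isAlgebraic_algebraMap c)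

theorem mem_of_sub_pos {Q : Place k F'} {c : k}
    (hc : 0 < Q.ord (redT hA hℓN hv - algebraMap k F' c)) :
    redT hA hℓN hv ∈ Q.toValuationSubring := by
  rw [← sub_add_cancel (redT hA hℓN hv) (algebraMap k F' c)]
  exact add_mem ((mem_iff_ord_nonneg Q (sub_const_ne_zero hA hℓN hv c)).mpr hc.le)
    (Q.algebraMap_mem' c)

/-- A place with the centre of `P` lies over the value of the coordinate at `P`. -/
theorem RedCen.sub_pos {Q : Place k F'} {P : Place Q̄ 𝔽} (h : RedCen hA hℓN hv Q P)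
    (hP : IsIntAt A P t) :
    0 < Q.ord (redT hA hℓN hv - algebraMap k F' (cval A P t hP ⟨t, self_mem_chart A t⟩)) := by
  obtain ⟨hQ, hP', e⟩ := h
  obtain ⟨a, ha⟩ := residue_surjective (cval A P t hP ⟨t, self_mem_chart A t⟩)
  have h0 : cenQ hA hℓN hv Q hQ (⟨t, self_mem_chart A t⟩ - ⟨_, algebraMap_mem_chart A t a⟩) = 0 := by
    rw [map_sub, cenQ_cst, ← e, ha, sub_self]
  rw [cenQ_eq_zero_iff, map_sub, redFC_cst, ha] at h0
  exact h0.resolve_left (sub_const_ne_zero hA hℓN hv _)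

variable (hlift : ∀ u : redDom A N, ∃ a b : chart A t,
    redFC hA hℓN hv b ≠ 0 ∧ u.1 * b.1 = a.1)

include hlift in
/-- The proportionality factor is an integer. -/
theorem exists_factor {c : k} (hprop : OrdProp hA hℓN hv c) {Q : Place k F'}
    (hQ : redT hA hℓN hv ∈ Q.toValuationSubring)
    (hc : 0 < Q.ord (redT hA hℓN hv - algebraMap k F' c)) :
    ∃ g : ℤ, 0 < g ∧ ∀ u : redDom A N, redF hA hℓN u ≠ 0 →
      cenTot t (cenQ hA hℓN hv Q hQ) (u : 𝔽) = g * Q.ord (redF hA hℓN u) := by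
  letI : Algebra Q̄ ℂ := GalRep.qbarToC.toAlgebra
  haveI := (bar_isFinOver_and_finrank N Q̄).1.hasPrincipalDivisors
  obtain ⟨p, q, hp, hq, hpq⟩ := hprop Q hQ hc
  set χ := cenQ hA hℓN hv Q hQ
  have key : ∀ u : redDom A N, redF hA hℓN u ≠ 0 →
      p * Q.ord (redF hA hℓN u) = q * cenTot t χ (u : 𝔽) := fun u hu => by
    obtain ⟨a, b, hb, hab⟩ := hlift u
    have e : redF hA hℓN u * redFC hA hℓN hv b = redFC hA hℓN hv a := by
      rw [redFC, RingHom.comp_apply, RingHom.comp_apply, ← map_mul]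
      exact congrArg _ (Subtype.ext hab)
    have ha : redFC hA hℓN hv a ≠ 0 := e ▸ mul_ne_zero hu hb
    have h1 := hpq a ha
    have h2 := hpq b hb
    have hu0 : (u : 𝔽) ≠ 0 := fun h => hu (by rw [show u = 0 from Subtype.ext h, map_zero])
    have hb0 : (b : 𝔽) ≠ 0 := fun h => hb (by rw [show b = 0 from Subtype.ext h, map_zero])
    rw [← e, Q.ord_mul hu hb, ← hab, cenTot_mul χ hu0 hb0] at h1
    linarith
  obtain ⟨π, hπ, hπ1⟩ := exists_ord_eq_one Q
  obtain ⟨u₁, rfl⟩ := redF_surjective hA hℓN π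
  have h1 := key u₁ hπ
  rw [hπ1, mul_one] at h1
  refine ⟨cenTot t χ (u₁ : 𝔽), (pos_iff_pos_of_mul_pos (h1 ▸ hp)).mp hq, fun u hu => ?_⟩
  refine mul_left_cancel₀ hq.ne' ?_
  rw [← key u hu, h1]
  ring

include hlift in
/-- Over a point of the line the reduction of the orders is exact and every centre occurs once. -/
theorem fibre_facts {c : k} (hprop : OrdProp hA hℓN hv c)
    (hrank : (Gamma0 N).index ≤ Module.finrank k⟮redT hA hℓN hv⟯ F') :
    (∀ (Q : Place k F') (hQ : redT hA hℓN hv ∈ Q.toValuationSubring),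
      0 < Q.ord (redT hA hℓN hv - algebraMap k F' c) → ∀ u : redDom A N, redF hA hℓN u ≠ 0 →
        cenTot t (cenQ hA hℓN hv Q hQ) (u : 𝔽) = Q.ord (redF hA hℓN u)) ∧
    ∀ (P : Place Q̄ 𝔽) (hP : IsIntAt A P t), cval A P t hP ⟨t, self_mem_chart A t⟩ = c →
      ∃! Q : Place k F', RedCen hA hℓN hv Q P := by
  classical
  letI : Algebra Q̄ ℂ := GalRep.qbarToC.toAlgebra
  obtain ⟨Zf, hZf, hsumf⟩ := exists_fibre_zeros (isFinOver_redT hA hℓN hv) c
  have hmem : ∀ Q : {Q // Q ∈ Zf}, redT hA hℓN hv ∈ Q.1.toValuationSubring := fun Q =>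
    mem_of_sub_pos hA hℓN hv ((hZf _).mp Q.2)
  choose g hg hgS using fun Q : {Q // Q ∈ Zf} =>
    exists_factor hA hℓN hv hlift hprop (hmem Q) ((hZf _).mp Q.2)
  -- distinct places have distinct centres
  have hinj : ∀ (P : Place Q̄ 𝔽) (Q Q' : {Q // Q ∈ Zf}), AtCen t (cenQ hA hℓN hv Q.1 (hmem Q)) P →
      AtCen t (cenQ hA hℓN hv Q'.1 (hmem Q')) P → Q = Q' := fun P Q Q' ⟨h, e⟩ ⟨h', e'⟩ => by
    refine Subtype.ext (place_eq_of_le fun x hx => ?_)
    rcases eq_or_ne x 0 with rfl | hx0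
    · exact zero_mem _
    obtain ⟨u, rfl⟩ := redF_surjective hA hℓN x
    have h1 := hgS Q u hx0
    rw [show cenQ hA hℓN hv Q.1 (hmem Q) = cenQ hA hℓN hv Q'.1 (hmem Q') from e.symm.trans e',
      hgS Q' u hx0] at h1
    refine (mem_iff_ord_nonneg _ hx0).mpr ?_
    have := (mem_iff_ord_nonneg _ hx0).mp hx
    nlinarith [hg Q, hg Q']
  have hfin : IsFinOver Q̄ t := (bar_isFinOver_and_finrank N Q̄).1.of_transcendental
    (transcendental_iff_injective.mpr (aeval_var_injective hv))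
  have hrk : Module.finrank Q̄⟮t⟯ 𝔽 = (Gamma0 N).index := by
    rw [hv.adjoin_eq]; exact (bar_isFinOver_and_finrank N Q̄).2
  -- the count over a lift of `c`
  have key : ∀ β : A, residue A β = c → (∀ Q, g Q = 1) ∧ ∀ P : Place Q̄ 𝔽,
      0 < P.ord (t - algebraMap Q̄ 𝔽 (β : Q̄)) → ∃ Q, AtCen t (cenQ hA hℓN hv Q.1 (hmem Q)) P := by
    intro β hβ
    obtain ⟨Z, hZ, hsum⟩ := hfin.exists_zeros (β : Q̄)
    rw [hrk] at hsum
    set a₀ : chart A t := ⟨t, self_mem_chart A t⟩ - ⟨_, algebraMap_mem_chart A t β⟩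
    have ha₀ : redF hA hℓN ⟨a₀, chart_le_redDom hA hℓN hv a₀.2⟩ =
        redT hA hℓN hv - algebraMap k F' c := by
      show redFC hA hℓN hv a₀ = _
      rw [map_sub, redFC_cst, hβ]; rfl
    have hS : ∀ Q : {Q // Q ∈ Zf}, g Q * Q.1.ord (redT hA hℓN hv - algebraMap k F' c) =
        ∑ P ∈ Z, if AtCen t (cenQ hA hℓN hv Q.1 (hmem Q)) P then
          P.ord (t - algebraMap Q̄ 𝔽 (β : Q̄)) else 0 := fun Q => by
      rw [← ha₀, ← hgS Q _ (by rw [ha₀]; exact sub_const_ne_zero hA hℓN hv c), cenTot,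
        finsum_eq_sum_of_support_subset _ (s := Z) fun P hP => ?_]
      · rfl
      simp only [Function.mem_support, ne_eq, ite_eq_right_iff, Classical.not_imp] at hP
      obtain ⟨⟨⟨hm, -⟩, -⟩, hne⟩ := hP
      rw [Finset.mem_coe, hZ]
      exact lt_of_le_of_ne (ord_nonneg_of_mem' P (sub_mem hm (P.algebraMap_mem' _))) (Ne.symm hne)
    set cnt : Place Q̄ 𝔽 → ℕ := fun P =>
      (Finset.univ.filter fun Q : {Q // Q ∈ Zf} => AtCen t (cenQ hA hℓN hv Q.1 (hmem Q)) P).card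
    have hcnt : ∀ P, (cnt P : ℤ) ≤ 1 := fun P => by
      exact_mod_cast Finset.card_le_one.mpr fun Q hQ Q' hQ' =>
        hinj P Q Q' (Finset.mem_filter.mp hQ).2 (Finset.mem_filter.mp hQ').2
    have htotal : ∑ Q : {Q // Q ∈ Zf}, g Q * Q.1.ord (redT hA hℓN hv - algebraMap k F' c) =
        ∑ P ∈ Z, (cnt P : ℤ) * P.ord (t - algebraMap Q̄ 𝔽 (β : Q̄)) := by
      rw [Finset.sum_congr rfl fun Q _ => hS Q, Finset.sum_comm]
      refine Finset.sum_congr rfl fun P _ => ?_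
      rw [← Finset.sum_filter, Finset.sum_const, nsmul_eq_mul]
    have hle : (∑ Q : {Q // Q ∈ Zf}, g Q * Q.1.ord (redT hA hℓN hv - algebraMap k F' c)) ≤
        ∑ Q : {Q // Q ∈ Zf}, Q.1.ord (redT hA hℓN hv - algebraMap k F' c) := by
      rw [htotal, Finset.sum_coe_sort Zf fun Q => Q.ord (redT hA hℓN hv - algebraMap k F' c), hsumf]
      refine le_trans (Finset.sum_le_sum fun P hP => ?_) (hsum.le.trans (by exact_mod_cast hrank))
      exact mul_le_of_le_one_left ((hZ P).mp hP).le (hcnt P)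
    have hterm : ∀ Q : {Q // Q ∈ Zf}, Q.1.ord (redT hA hℓN hv - algebraMap k F' c) ≤
        g Q * Q.1.ord (redT hA hℓN hv - algebraMap k F' c) := fun Q =>
      le_mul_of_one_le_left ((hZf _).mp Q.2).le (hg Q)
    refine ⟨fun Q => ?_, fun P hP => ?_⟩
    · have h1 := ((Finset.sum_eq_sum_iff_of_le fun Q _ => hterm Q).mp
        (le_antisymm (Finset.sum_le_sum fun Q _ => hterm Q) hle)) Q (Finset.mem_univ _)
      have h2 := (hZf _).mp Q.2
      nlinarith
    · by_contra hno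
      push Not at hno
      have h0 : cnt P = 0 := Finset.card_eq_zero.mpr
        (Finset.filter_eq_empty_iff.mpr fun Q _ => hno Q)
      have h1 : (∑ P ∈ Z, (cnt P : ℤ) * P.ord (t - algebraMap Q̄ 𝔽 (β : Q̄))) <
          ∑ P ∈ Z, P.ord (t - algebraMap Q̄ 𝔽 (β : Q̄)) :=
        Finset.sum_lt_sum (fun P hP => mul_le_of_le_one_left ((hZ P).mp hP).le (hcnt P))
          ⟨P, (hZ P).mpr hP, by rw [h0]; simpa using hP⟩
      rw [← htotal, hsum] at h1
      have h2 : (Module.finrank k⟮redT hA hℓN hv⟯ F' : ℤ) ≤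
          ∑ Q : {Q // Q ∈ Zf}, g Q * Q.1.ord (redT hA hℓN hv - algebraMap k F' c) := by
        rw [← hsumf, ← Finset.sum_coe_sort Zf fun Q => Q.ord (redT hA hℓN hv - algebraMap k F' c)]
        exact Finset.sum_le_sum fun Q _ => hterm Q
      have h3 : ((Gamma0 N).index : ℤ) ≤ Module.finrank k⟮redT hA hℓN hv⟯ F' := by
        exact_mod_cast hrank
      omega
  refine ⟨fun Q hQ hc u hu => ?_, fun P hP hPc => ?_⟩
  · obtain ⟨β, hβ⟩ := residue_surjective c
    have h := hgS ⟨Q, (hZf _).mpr hc⟩ u hu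
    rwa [(key β hβ).1, one_mul] at h
  · obtain ⟨a, ha⟩ := isIntAt_iff.mp hP
    have hac : residue A a = c := by rw [← hPc, cval_of_hasVal P hP _ ha]
    have hpos : 0 < P.ord (t - algebraMap Q̄ 𝔽 (a : Q̄)) := ha.resolve_left fun he =>
      hfin.transcendental (he ▸ isAlgebraic_algebraMap _)
    obtain ⟨Q, hQ⟩ := (key a hac).2 P hpos
    refine ⟨Q.1, ⟨hmem Q, hQ⟩, fun Q' h' => ?_⟩
    have hpos' := h'.sub_pos hA hℓN hv hP
    rw [hPc] at hpos'
    obtain ⟨_, hQ'⟩ := h'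
    exact congrArg Subtype.val (hinj P ⟨Q', (hZf _).mpr hpos'⟩ Q hQ' hQ)

end Fibre

theorem cenQ_mul_pow {t₁ t₂ : modularFunctionFieldBar N} (hv : ChartVar A t₁) (hw : ChartVar A t₂)
    {Q : Place k F'} (hQ₁ : redT hA hℓN hv ∈ Q.toValuationSubring)
    (hQ₂ : redT hA hℓN hw ∈ Q.toValuationSubring) (y : chart A t₁) (s x : chart A t₂) (m : ℕ)
    (h : (y : 𝔽) * (s : 𝔽) ^ m = x) :
    cenQ hA hℓN hv Q hQ₁ y * cenQ hA hℓN hw Q hQ₂ s ^ m = cenQ hA hℓN hw Q hQ₂ x := by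
  have e : redFC hA hℓN hv y * redFC hA hℓN hw s ^ m = redFC hA hℓN hw x := by
    rw [redFC, redFC, RingHom.comp_apply, RingHom.comp_apply, RingHom.comp_apply, ← map_pow,
      ← map_mul]
    exact congrArg _ (Subtype.ext h)
  rw [cenQ, cenQ, RingHom.comp_apply, RingHom.comp_apply, RingHom.comp_apply, ← map_pow, ← map_mul]
  exact congrArg (placeVal Q) (Subtype.ext e)

/-- Equal centres on one chart give equal centres on another. -/
theorem cval_eq_cenQ_of_both {t₁ t₂ : modularFunctionFieldBar N} (hv : ChartVar A t₁)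
    (hw : ChartVar A t₂) {P : Place Q̄ 𝔽} {Q : Place k F'} (hP₁ : IsIntAt A P t₁)
    (hP₂ : IsIntAt A P t₂) (hQ₁ : redT hA hℓN hv ∈ Q.toValuationSubring)
    (hQ₂ : redT hA hℓN hw ∈ Q.toValuationSubring)
    (h0 : cval A P t₂ hP₂ ⟨t₂, self_mem_chart A t₂⟩ ≠ 0)
    (e : cval A P t₂ hP₂ = cenQ hA hℓN hw Q hQ₂)
    (hmove : ∀ y : chart A t₁, ∃ m : ℕ, (y : 𝔽) * t₂ ^ m ∈ chart A t₂) :
    cval A P t₁ hP₁ = cenQ hA hℓN hv Q hQ₁ := by
  refine RingHom.ext fun y => ?_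
  obtain ⟨m, hy⟩ := hmove y
  refine mul_right_cancel₀ (pow_ne_zero m h0) ?_
  have e1 : cval A P t₁ hP₁ y * cval A P t₂ hP₂ ⟨t₂, self_mem_chart A t₂⟩ ^ m =
      cval A P t₂ hP₂ ⟨_, hy⟩ :=
    cval_mul_pow (F := modularFunctionFieldBar N) P hP₁ hP₂ y m hy
  rw [e1, e]
  exact (cenQ_mul_pow hA hℓN hv hw hQ₁ hQ₂ y ⟨t₂, self_mem_chart A t₂⟩ ⟨_, hy⟩ m rfl).symm

/-! ## Gluing the two charts -/

theorem jBar_ne_zero : jBar N Q̄ ≠ 0 := fun h =>
  (letI : Algebra Q̄ ℂ := GalRep.qbarToC.toAlgebra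
   (bar_isFinOver_and_finrank N Q̄).1).transcendental (h ▸ isAlgebraic_zero)

theorem index_le_finrank_J :
    (Gamma0 N).index ≤ Module.finrank k⟮redT hA hℓN (chartVarJ A (N := N))⟯ F' := by
  rw [adjoin_redT hA hℓN _ (Or.inl (redT_J hA hℓN))]
  exact index_le_finrank hA hℓN

theorem index_le_finrank_Inv :
    (Gamma0 N).index ≤ Module.finrank k⟮redT hA hℓN (chartVarInv A (N := N))⟯ F' := by
  rw [adjoin_redT hA hℓN _ (Or.inr (redT_Inv hA hℓN))]
  exact index_le_finrank hA hℓN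

theorem facts_J (c : k) :
    (∀ (Q : Place k F') (hQ : redT hA hℓN (chartVarJ A (N := N)) ∈ Q.toValuationSubring),
      0 < Q.ord (redT hA hℓN (chartVarJ A (N := N)) - algebraMap k F' c) →
      ∀ u : redDom A N, redF hA hℓN u ≠ 0 →
        cenTot (jBar N Q̄) (cenQ hA hℓN (chartVarJ A) Q hQ) (u : 𝔽) = Q.ord (redF hA hℓN u)) ∧
    ∀ (P : Place Q̄ 𝔽) (hP : IsIntAt A P (jBar N Q̄)),
      cval A P (jBar N Q̄) hP ⟨_, self_mem_chart A _⟩ = c →
      ∃! Q : Place k F', RedCen hA hℓN (chartVarJ A) Q P :=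
  fibre_facts hA hℓN (chartVarJ A (N := N)) (exists_lift_J hA hℓN) ((ordProp hA hℓN).1 c)
    (index_le_finrank_J hA hℓN)

theorem facts_Inv :
    (∀ (Q : Place k F') (hQ : redT hA hℓN (chartVarInv A (N := N)) ∈ Q.toValuationSubring),
      0 < Q.ord (redT hA hℓN (chartVarInv A (N := N)) - algebraMap k F' 0) →
      ∀ u : redDom A N, redF hA hℓN u ≠ 0 →
        cenTot (jBar N Q̄)⁻¹ (cenQ hA hℓN (chartVarInv A) Q hQ) (u : 𝔽) =
          Q.ord (redF hA hℓN u)) ∧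
    ∀ (P : Place Q̄ 𝔽) (hP : IsIntAt A P (jBar N Q̄)⁻¹),
      cval A P (jBar N Q̄)⁻¹ hP ⟨_, self_mem_chart A _⟩ = 0 →
      ∃! Q : Place k F', RedCen hA hℓN (chartVarInv A) Q P :=
  fibre_facts hA hℓN (chartVarInv A (N := N)) (exists_lift_Inv hA hℓN) (ordProp hA hℓN).2
    (index_le_finrank_Inv hA hℓN)

/-- `Q` is the reduction of `P`. -/
def IsRedOf (P : Place Q̄ (modularFunctionFieldBar N))
    (Q : Place (ResidueField A) (modularFunctionFieldFullC (ResidueField A) N)) : Prop :=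
  RedCen hA hℓN (chartVarJ A) Q P ∨
    (¬ IsIntAt A P (jBar N Q̄) ∧ RedCen hA hℓN (chartVarInv A) Q P)

theorem existsUnique_isRedOf (P : Place Q̄ 𝔽) : ∃! Q : Place k F', IsRedOf hA hℓN P Q := by
  by_cases hP : IsIntAt A P (jBar N Q̄)
  · obtain ⟨Q, hQ, huniq⟩ := (facts_J hA hℓN _).2 P hP rfl
    refine ⟨Q, Or.inl hQ, fun Q' h => ?_⟩
    rcases h with h | ⟨h, -⟩
    · exact huniq Q' h
    · exact absurd hP h
  · obtain ⟨Q, hQ, huniq⟩ :=
      (facts_Inv hA hℓN).2 P (isIntAt_inv hP) (cval_inv_eq_zero (A := A) P hP)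
    refine ⟨Q, Or.inr ⟨hP, hQ⟩, fun Q' h => ?_⟩
    rcases h with ⟨-, h, -⟩ | ⟨-, h⟩
    · exact absurd h hP
    · exact huniq Q' h

theorem redT_Inv_eq : redT hA hℓN (chartVarInv A (N := N)) =
    (redT hA hℓN (chartVarJ A (N := N)))⁻¹ := by
  rw [redT_Inv, redT_J]

theorem redT_ne_zero {t : modularFunctionFieldBar N} (hv : ChartVar A t) :
    redT hA hℓN hv ≠ 0 := by
  simpa using sub_const_ne_zero hA hℓN hv 0

theorem ord_redT_Inv_pos {Q : Place k F'}
    (h : redT hA hℓN (chartVarJ A (N := N)) ∉ Q.toValuationSubring) :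
    0 < Q.ord (redT hA hℓN (chartVarInv A (N := N)) - algebraMap k F' 0) := by
  rw [mem_iff_ord_nonneg Q (redT_ne_zero hA hℓN _)] at h
  rw [map_zero, sub_zero, redT_Inv_eq, Q.ord_inv]
  omega

theorem isRedOf_iff_of_mem {P : Place Q̄ 𝔽} {Q : Place k F'}
    (hQ : redT hA hℓN (chartVarJ A (N := N)) ∈ Q.toValuationSubring) :
    IsRedOf hA hℓN P Q ↔ AtCen (jBar N Q̄) (cenQ hA hℓN (chartVarJ A) Q hQ) P := by
  refine ⟨fun h => ?_, fun h => Or.inl ⟨hQ, h⟩⟩
  rcases h with ⟨_, h⟩ | ⟨hP, h⟩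
  · exact h
  · have hpos := h.sub_pos hA hℓN (chartVarInv A) (isIntAt_inv hP)
    rw [cval_inv_eq_zero (A := A) P hP, map_zero, sub_zero, redT_Inv_eq, Q.ord_inv] at hpos
    have := (mem_iff_ord_nonneg Q (redT_ne_zero hA hℓN _)).mp hQ
    omega

theorem isRedOf_iff_of_not_mem {P : Place Q̄ 𝔽} {Q : Place k F'}
    (hQ : redT hA hℓN (chartVarJ A (N := N)) ∉ Q.toValuationSubring)
    (hQI : redT hA hℓN (chartVarInv A (N := N)) ∈ Q.toValuationSubring) :
    IsRedOf hA hℓN P Q ↔ AtCen (jBar N Q̄)⁻¹ (cenQ hA hℓN (chartVarInv A) Q hQI) P := by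
  refine ⟨fun h => ?_, fun h => Or.inr ⟨fun hP => ?_, hQI, h⟩⟩
  · rcases h with ⟨h, -⟩ | ⟨-, _, h⟩
    · exact absurd h hQ
    · exact h
  · obtain ⟨hI, e⟩ := h
    have h0 := (isIntAt_inv_iff P jBar_ne_zero hP).mp hI
    obtain ⟨a, ha⟩ := exists_hasVal_of_mem_chart P hP (self_mem_chart A (jBar N Q̄))
    obtain ⟨b, hb⟩ := exists_hasVal_of_mem_chart P hI (self_mem_chart A (jBar N Q̄)⁻¹)
    rw [cval_of_hasVal P hP _ ha] at h0
    have hb0 : residue A b = 0 := by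
      rw [← cval_of_hasVal P hI ⟨_, self_mem_chart A _⟩ hb, e]
      exact cenQ_self hA hℓN (chartVarInv A) hQI (ord_redT_Inv_pos hA hℓN hQ)
    have h1 := ha.mul P hb
    rw [mul_inv_cancel₀ jBar_ne_zero] at h1
    have h2 : a * b = 1 := Subtype.ext (h1.unique P (Or.inl (map_one _).symm))
    have h3 := congrArg (residue A) h2
    rw [map_mul, hb0, mul_zero, map_one] at h3
    exact zero_ne_one h3

omit [∀ P : Place Q̄ (modularFunctionFieldBar N), Module.Finite Q̄ P.ResidueField]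
  [∀ Q : Place (ResidueField A) (modularFunctionFieldFullC (ResidueField A) N),
    Module.Finite (ResidueField A) Q.ResidueField] in
include hA hℓN in
theorem finite_residue_bar (P : Place Q̄ 𝔽) : Module.Finite Q̄ P.ResidueField :=
  letI : Algebra Q̄ ℂ := GalRep.qbarToC.toAlgebra
  (bar_isFinOver_and_finrank N Q̄).1.finiteResidue P

/-- The reduction of places. -/
def redPlace (hA : A.LiesOverPrime ℓ) (hℓN : ¬ ℓ ∣ N)
    (P : Place Q̄ (modularFunctionFieldBar N)) :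
    Place (ResidueField A) (modularFunctionFieldFullC (ResidueField A) N) :=
  haveI := finite_residue_bar (N := N) hA hℓN
  haveI := finiteResidue_red (N := N) hA hℓN
  (existsUnique_isRedOf hA hℓN P).exists.choose

theorem isRedOf_redPlace (P : Place Q̄ 𝔽) : IsRedOf hA hℓN P (redPlace hA hℓN P) :=
  (existsUnique_isRedOf hA hℓN P).exists.choose_spec

theorem redPlace_eq_iff (P : Place Q̄ 𝔽) (Q : Place k F') :
    redPlace hA hℓN P = Q ↔ IsRedOf hA hℓN P Q :=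
  ⟨fun h => h ▸ isRedOf_redPlace hA hℓN P,
    fun h => (existsUnique_isRedOf hA hℓN P).unique (isRedOf_redPlace hA hℓN P) h⟩

/-- The orders of a reduction are the push forward of the orders. -/
theorem mapDomain_redPlace (u : redDom A N) (hu : redF hA hℓN u ≠ 0) {D : Divisor Q̄ 𝔽}
    (hD : ∀ P, D P = P.ord (u : 𝔽)) (Q : Place k F') :
    Finsupp.mapDomain (redPlace hA hℓN) D Q = Q.ord (redF hA hℓN u) := by
  classical
  rw [Finsupp.mapDomain, Finsupp.sum_apply]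
  simp only [Finsupp.single_apply]
  by_cases hQ : redT hA hℓN (chartVarJ A (N := N)) ∈ Q.toValuationSubring
  · obtain ⟨c, hc⟩ : ∃ c : k, 0 < Q.ord (redT hA hℓN (chartVarJ A (N := N)) - algebraMap k F' c) := by
      obtain ⟨c, hc⟩ := exists_value Q hQ
      exact ⟨c, hc.resolve_left fun h => sub_const_ne_zero hA hℓN _ c (sub_eq_zero.mpr h)⟩
    rw [← (facts_J hA hℓN c).1 Q hQ hc u hu, cenTot_eq_sum _ _ hD]
    refine Finsupp.sum_congr fun P _ => if_congr ?_ rfl rfl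
    rw [redPlace_eq_iff, isRedOf_iff_of_mem hA hℓN hQ]
  · have hQI := mem_of_sub_pos hA hℓN _ (ord_redT_Inv_pos hA hℓN hQ)
    rw [← (facts_Inv hA hℓN).1 Q hQI (ord_redT_Inv_pos hA hℓN hQ) u hu, cenTot_eq_sum _ _ hD]
    refine Finsupp.sum_congr fun P _ => if_congr ?_ rfl rfl
    rw [redPlace_eq_iff, isRedOf_iff_of_not_mem hA hℓN hQ hQI]

/-- The orders of a reduction, in series. -/
theorem ord_redS (u : 𝔽) (h : (u : LaurentSeries Q̄) ∈ redRing A) (h' : redS A ⟨_, h⟩ ∈ F')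
    (h0 : redS A ⟨_, h⟩ ≠ 0) {D : Divisor Q̄ 𝔽} (hD : ∀ P, D P = P.ord u) (Q : Place k F') :
    Finsupp.mapDomain (redPlace hA hℓN) D Q = Q.ord (⟨redS A ⟨_, h⟩, h'⟩ : F') :=
  mapDomain_redPlace hA hℓN ⟨u, h⟩ (fun he => h0 (congrArg Subtype.val he)) hD Q

theorem cval_redPlace_J (P : Place Q̄ 𝔽) (hP : IsIntAt A P (jBar N Q̄)) :
    ∃ hQ : redT hA hℓN (chartVarJ A (N := N)) ∈ (redPlace hA hℓN P).toValuationSubring,
      cval A P (jBar N Q̄) hP = cenQ hA hℓN (chartVarJ A) (redPlace hA hℓN P) hQ := by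
  rcases isRedOf_redPlace hA hℓN P with ⟨hQ, _, e⟩ | ⟨h, -⟩
  · exact ⟨hQ, e⟩
  · exact absurd hP h

theorem cval_redPlace_Inv (P : Place Q̄ 𝔽) (hP : IsIntAt A P (jBar N Q̄)⁻¹) :
    ∃ hQ : redT hA hℓN (chartVarInv A (N := N)) ∈ (redPlace hA hℓN P).toValuationSubring,
      cval A P (jBar N Q̄)⁻¹ hP = cenQ hA hℓN (chartVarInv A) (redPlace hA hℓN P) hQ := by
  by_cases hJ : IsIntAt A P (jBar N Q̄)
  swap
  · rcases isRedOf_redPlace hA hℓN P with ⟨_, h, -⟩ | ⟨-, hQ, _, e⟩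
    · exact absurd h hJ
    · exact ⟨hQ, e⟩
  obtain ⟨hQ, e⟩ := cval_redPlace_J hA hℓN P hJ
  set Q := redPlace hA hℓN P
  set tJ : chart A (jBar N Q̄) := ⟨_, self_mem_chart A _⟩
  have h0 : cval A P _ hJ tJ ≠ 0 := (isIntAt_inv_iff P jBar_ne_zero hJ).mp hP
  have h0' : cenQ hA hℓN (chartVarJ A) Q hQ tJ ≠ 0 := e ▸ h0
  have hord : Q.ord (redT hA hℓN (chartVarJ A (N := N))) = 0 :=
    le_antisymm (not_lt.mp fun h => h0' ((cenQ_eq_zero_iff hA hℓN _ hQ tJ).mpr (Or.inr h)))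
      ((mem_iff_ord_nonneg Q (redT_ne_zero hA hℓN _)).mp hQ)
  have hQI : redT hA hℓN (chartVarInv A (N := N)) ∈ Q.toValuationSubring :=
    (mem_iff_ord_nonneg Q (redT_ne_zero hA hℓN _)).mpr (by
      rw [redT_Inv_eq, Q.ord_inv, hord, neg_zero])
  exact ⟨hQI, cval_eq_cenQ_of_both hA hℓN (chartVarInv A) (chartVarJ A) hP hJ hQI hQ h0 e
    (fun y => (exists_inv_pow_mul_mem (inv_ne_zero jBar_ne_zero) y.2).imp fun m hm => by
      simpa using hm m le_rfl)⟩

/-- The value of a reduced expansion at the reduced place is the centre. -/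
theorem cenQ_value {t : modularFunctionFieldBar N} (hv : ChartVar A t) {Q : Place k F'}
    (hQ : redT hA hℓN hv ∈ Q.toValuationSubring) (y : chart A t) :
    redFC hA hℓN hv y = algebraMap k F' (cenQ hA hℓN hv Q hQ y) ∨
      0 < Q.ord (redFC hA hℓN hv y - algebraMap k F' (cenQ hA hℓN hv Q hQ y)) := by
  obtain ⟨a, ha⟩ := residue_surjective (cenQ hA hℓN hv Q hQ y)
  have h : cenQ hA hℓN hv Q hQ (y - ⟨_, algebraMap_mem_chart A t a⟩) = 0 := by
    rw [map_sub, cenQ_cst, ha, sub_self]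
  rw [cenQ_eq_zero_iff, map_sub, redFC_cst, ha, sub_eq_zero] at h
  exact h

end Fermat.Agent.MCurve.Spec
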