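import Fermat.Agent.MCurve.Spec.Disc

/-!
Coverings of the line with coordinate `T` inside a chart over `A[t₀]`, from a relation
`t₀ D(T) = N(T)` without common zero modulo the maximal ideal.
-/

set_option autoImplicit false
set_option linter.style.haveILetI false
set_option linter.unusedSectionVars false

noncomputable section

namespace Fermat.Agent.MCurve.Spec

open AlgebraicCurve Polynomial IsLocalRing IntermediateField

local notation "Q̄" => AlgebraicClosure ℚ

variable {A : ValuationSubring Q̄} {F : Type*} [Field F] [Algebra Q̄ F]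

section Val

variable (Q : Place Q̄ F) [Module.Finite Q̄ Q.ResidueField]

theorem hasVal_iff {y : F} {a : Q̄} :
    HasVal Q y a ↔ ∃ h : y ∈ Q.toValuationSubring, placeVal Q ⟨y, h⟩ = a := by
  have key : ∀ h : y ∈ Q.toValuationSubring, placeVal Q ⟨y, h⟩ = a ↔ HasVal Q y a := fun h => by
    rw [← sub_eq_zero]
    nth_rewrite 1 [← placeVal_algebraMap Q a]
    rw [← map_sub, placeVal_eq_zero_iff]
    show (y - algebraMap Q̄ F a = 0 ∨ 0 < Q.ord (y - algebraMap Q̄ F a)) ↔ _
    rw [sub_eq_zero, HasVal]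
  exact ⟨fun h => ⟨h.mem, (key h.mem).mpr h⟩, fun ⟨h, hv⟩ => (key h).mp hv⟩

theorem HasVal.unique {y : F} {a b : Q̄} (ha : HasVal Q y a) (hb : HasVal Q y b) : a = b := by
  obtain ⟨h, rfl⟩ := (hasVal_iff Q).mp ha
  obtain ⟨h', rfl⟩ := (hasVal_iff Q).mp hb
  rfl

theorem HasVal.mul {x y : F} {a b : Q̄} (ha : HasVal Q x a) (hb : HasVal Q y b) :
    HasVal Q (x * y) (a * b) := by
  obtain ⟨h, rfl⟩ := (hasVal_iff Q).mp ha
  obtain ⟨h', rfl⟩ := (hasVal_iff Q).mp hb
  exact (hasVal_iff Q).mpr ⟨mul_mem h h', by rw [← map_mul]; rfl⟩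

theorem HasVal.pow {x : F} {a : Q̄} (ha : HasVal Q x a) : ∀ n : ℕ, HasVal Q (x ^ n) (a ^ n)
  | 0 => by rw [pow_zero, pow_zero]; exact Or.inl (map_one _).symm
  | n + 1 => by rw [pow_succ, pow_succ]; exact (ha.pow n).mul Q ha

theorem HasVal.add {x y : F} {a b : Q̄} (ha : HasVal Q x a) (hb : HasVal Q y b) :
    HasVal Q (x + y) (a + b) := by
  obtain ⟨h, rfl⟩ := (hasVal_iff Q).mp ha
  obtain ⟨h', rfl⟩ := (hasVal_iff Q).mp hb
  exact (hasVal_iff Q).mpr ⟨add_mem h h', by rw [← map_add]; rfl⟩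

theorem HasVal.polyA {x : F} {a : A} (ha : HasVal Q x (a : Q̄)) (P : Polynomial A) :
    HasVal Q (Spec.polyA A x P) ((P.eval a : A) : Q̄) := by
  induction P using Polynomial.induction_on' with
  | add p q hp hq => rw [map_add, eval_add]; exact hp.add Q hq
  | monomial n b =>
    rw [← C_mul_X_pow_eq_monomial, map_mul, map_pow, polyA_C, polyA_X, eval_mul, eval_pow, eval_C,
      eval_X]
    exact HasVal.mul Q (Or.inl rfl) (ha.pow Q n)

theorem isIntAt_of_hasVal {y : F} {a : A} (h : HasVal Q y (a : Q̄)) : IsIntAt A Q y := by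
  obtain ⟨h', hv⟩ := (hasVal_iff Q).mp h
  exact ⟨h', hv ▸ a.2⟩

theorem cval_of_hasVal {t : F} (ht : IsIntAt A Q t) (y : chart A t) {a : A}
    (h : HasVal Q (y : F) (a : Q̄)) : cval A Q t ht y = residue A a := by
  obtain ⟨h', hv⟩ := (hasVal_iff Q).mp h
  rw [cval_apply]
  exact congrArg (residue A) (Subtype.ext hv)

theorem exists_hasVal_of_mem_chart {t : F} (ht : IsIntAt A Q t) {y : F} (hy : y ∈ chart A t) :
    ∃ a : A, HasVal Q y (a : Q̄) :=
  ⟨⟨_, (chart_le_intRingAt ht hy).2⟩, (hasVal_iff Q).mpr ⟨_, rfl⟩⟩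

end Val

theorem IsGauss.comap {T : F} {V : ValuationSubring F} (h : IsGauss A T V) (g : F ≃ₐ[Q̄] F)
    (hg : g T = T) : IsGauss A T (V.comap (g : F →+* F)) := by
  refine ⟨fun a => ?_, fun a ha => ?_, fun P hP => ?_⟩
  · rw [ValuationSubring.mem_comap]
    show g (algebraMap Q̄ F a) ∈ V
    rw [g.commutes]; exact h.const a
  · have h1 := h.nonunit a ha
    rw [ValuationSubring.mem_nonunits_iff_or] at h1 ⊢
    refine h1.imp id fun h2 h3 => h2 ?_
    rw [ValuationSubring.mem_comap] at h3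
    have h4 : g (algebraMap Q̄ F a)⁻¹ ∈ V := h3
    rwa [map_inv₀, g.commutes] at h4
  · obtain ⟨h0, h1, h2⟩ := h.unit P hP
    have hfix : g (polyA A T P) = polyA A T P := by
      rw [show g (polyA A T P) = (g : F →ₐ[Q̄] F) (polyA A T P) from rfl, map_polyA]
      exact congrArg (fun t => polyA A t P) hg
    refine ⟨h0, ?_, ?_⟩
    · rw [ValuationSubring.mem_comap]
      show g (polyA A T P) ∈ V
      rw [hfix]; exact h1
    · rw [ValuationSubring.mem_comap]
      show g (polyA A T P)⁻¹ ∈ V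
      rw [map_inv₀, hfix]; exact h2

/-- A coordinate congruent to no constant is again Gauss. -/
theorem IsGauss.transfer [IsAlgClosed (ResidueField A)] {T T' : F} {V : ValuationSubring F}
    (h : IsGauss A T V) (hT' : T' ∈ V)
    (hne : ∀ β : A, T' - algebraMap Q̄ F β ≠ 0 ∧ (T' - algebraMap Q̄ F β)⁻¹ ∈ V) :
    IsGauss A T' V := by
  refine ⟨h.const, h.nonunit, fun P hP => ?_⟩
  let pT : Polynomial A →+* V := (polyA A T').codRestrict V.toSubring fun Q =>
    chart_le_valuationSubring h.const hT' (polyA_mem_chart A T' Q)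
  suffices hu : IsUnit (pT P) by
    obtain ⟨u, hu⟩ := hu.exists_right_inv
    have h1 : polyA A T' P * (u : F) = 1 := congrArg Subtype.val hu
    refine ⟨left_ne_zero_of_mul_eq_one h1, (pT P).2, ?_⟩
    rw [inv_eq_of_mul_eq_one_right h1]; exact u.2
  by_contra hn
  -- the reduction of `T'` would be a root of the reduction of `P`
  let res : V →+* ResidueField V := residue V
  let cA : A →+* V := ((algebraMap Q̄ F).comp A.subtype).codRestrict V.toSubring h.const
  haveI : IsLocalHom cA := ⟨fun a ha => by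
    by_contra hna
    have h1 := h.nonunit a ((mem_maximalIdeal a).mpr hna)
    exact (ValuationSubring.coe_mem_nonunits_iff (a := cA a)).mp h1 |> fun h2 =>
      (mem_maximalIdeal _).mp h2 ha⟩
  let θ : ResidueField A →+* ResidueField V := ResidueField.map cA
  have hcomp : res.comp pT = (eval₂RingHom θ (res ⟨T', hT'⟩)).comp (mapRingHom (residue A)) :=
    Polynomial.ringHom_ext (fun a => by
      simp only [RingHom.comp_apply, coe_eval₂RingHom, coe_mapRingHom, map_C, eval₂_C]
      show res (pT (C a)) = ResidueField.map cA (residue A a)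
      rw [ResidueField.map_residue]
      exact congrArg res (Subtype.ext (polyA_C A T' a))) (by
      simp only [RingHom.comp_apply, coe_eval₂RingHom, coe_mapRingHom, map_X, eval₂_X]
      exact congrArg res (Subtype.ext (polyA_X A T')))
  have hroot : eval₂ θ (res ⟨T', hT'⟩) (P.map (residue A)) = 0 := by
    have h1 : res (pT P) = 0 := (residue_eq_zero_iff _).mpr hn
    rwa [show res (pT P) = _ from RingHom.congr_fun hcomp P] at h1
  have hs := IsAlgClosed.splits (P.map (residue A))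
  rw [hs.eq_prod_roots, eval₂_mul, eval₂_C, eval₂_multiset_prod, mul_eq_zero,
    Multiset.prod_eq_zero_iff] at hroot
  rcases hroot with h0 | h0
  · rw [map_eq_zero, leadingCoeff_eq_zero] at h0
    exact hP h0
  · obtain ⟨r, hr, hr0⟩ := Multiset.mem_map.mp h0
    obtain ⟨r, -, rfl⟩ := Multiset.mem_map.mp hr
    rw [eval₂_sub, eval₂_X, eval₂_C] at hr0
    obtain ⟨β, rfl⟩ := residue_surjective r
    rw [show θ (residue A β) = res (cA β) from ResidueField.map_residue _ _, ← map_sub,
      residue_eq_zero_iff, mem_maximalIdeal] at hr0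
    obtain ⟨h1, h2⟩ := hne β
    exact hr0 (IsUnit.of_mul_eq_one ⟨_, h2⟩ (Subtype.ext (mul_inv_cancel₀ h1)))

/-- Homomorphisms agreeing on invariants are conjugate. -/
theorem exists_conj_of_eq_on_fixed {B : Subring F} {k : Type*} [Field k] [Infinite k]
    (Γ : Subgroup (F ≃ₐ[Q̄] F)) [Finite Γ] (hst : ∀ g ∈ Γ, ∀ y ∈ B, g y ∈ B) (f h : B →+* k)
    (hsec : ∀ r : k, ∃ a : B, (∀ g ∈ Γ, g (a : F) = a) ∧ f a = r ∧ h a = r)
    (hfh : ∀ z : B, (∀ g ∈ Γ, g (z : F) = z) → f z = h z) :
    ∃ g : Γ, ∀ y : B, f ⟨(g : F ≃ₐ[Q̄] F) y, hst g g.2 y y.2⟩ = h y := by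
  classical
  haveI := Fintype.ofFinite Γ
  let act : Γ → B → B := fun g y => ⟨(g : F ≃ₐ[Q̄] F) y, hst g g.2 y y.2⟩
  by_contra hno
  push Not at hno
  choose y hy using hno
  let e := Fintype.equivFin Γ
  -- a combination separating `h` from all conjugates of `f`
  let p : Γ → k[X] := fun g => ∑ i : Γ, C (f (act g (y i)) - h (y i)) * X ^ (e i : ℕ)
  have hp : ∀ g, p g ≠ 0 := fun g hg => by
    have h1 := congrArg (fun q => q.coeff (e g : ℕ)) hg
    simp only [p, finsetSum_coeff, coeff_C_mul_X_pow, Fin.val_inj, e.injective.eq_iff, Finset.sum_ite_eq,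
      Finset.mem_univ, if_true, coeff_zero] at h1
    exact hy g (sub_eq_zero.mp h1)
  obtain ⟨r, hr⟩ := Infinite.exists_notMem_finset (∏ g, p g).roots.toFinset
  obtain ⟨a, hafix, hfa, hha⟩ := hsec r
  set Y : B := ∑ i : Γ, a ^ (e i : ℕ) * y i
  have hactY : ∀ g, act g Y = ∑ i : Γ, a ^ (e i : ℕ) * act g (y i) := fun g => Subtype.ext (by
    simp only [act, Y, AddSubmonoidClass.coe_finsetSum, MulMemClass.coe_mul, SubmonoidClass.coe_pow,
      map_sum, map_mul, map_pow, hafix g g.2])
  have hne : ∀ g, f (act g Y) - h Y ≠ 0 := fun g h0 => hr (by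
    rw [Multiset.mem_toFinset, mem_roots (Finset.prod_ne_zero_iff.mpr fun g _ => hp g), IsRoot,
      eval_prod]
    refine Finset.prod_eq_zero (Finset.mem_univ g) ?_
    rw [← h0, hactY, map_sum, map_sum, ← Finset.sum_sub_distrib, eval_finsetSum]
    refine Finset.sum_congr rfl fun i _ => ?_
    rw [eval_mul, eval_pow, eval_C, eval_X, map_mul, map_mul, map_pow, map_pow, hfa, hha]
    ring)
  -- the orbit polynomial has invariant coefficients
  let P : B[X] := ∏ g : Γ, (X - C (act g Y))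
  have hcoef : P.map f = P.map h := by
    ext n
    rw [coeff_map, coeff_map]
    refine hfh _ fun σ hσ => ?_
    have h1 : (P.map B.subtype).map (σ : F →+* F) = P.map B.subtype := by
      simp only [P, Polynomial.map_prod]
      refine Fintype.prod_equiv (Equiv.mulLeft (⟨σ, hσ⟩ : Γ)) _ _ fun τ => ?_
      rw [Polynomial.map_sub, Polynomial.map_sub, map_X, map_X, map_C, map_C, Polynomial.map_sub,
        map_X, map_C]
      rfl
    have h2 := congrArg (fun q => q.coeff n) h1
    simp only [coeff_map, Subring.subtype_apply, RingHom.coe_coe] at h2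
    exact h2
  have h0 : (P.map h).eval (h Y) = 0 := by
    rw [eval_map, eval₂_at_apply, eval_prod, map_prod]
    refine Finset.prod_eq_zero (Finset.mem_univ (1 : Γ)) ?_
    rw [show act 1 Y = Y from Subtype.ext rfl]
    simp
  rw [← hcoef, Polynomial.map_prod, eval_prod, Finset.prod_eq_zero_iff] at h0
  obtain ⟨g, -, hg⟩ := h0
  refine hne g ?_
  rw [Polynomial.map_sub, map_X, map_C, eval_sub, eval_X, eval_C] at hg
  rw [← neg_sub, hg, neg_zero]

variable (A F) in
/-- A coordinate inside a chart. -/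
structure Cover where
  /-- The group over the base coordinate. -/
  G : Subgroup (F ≃ₐ[Q̄] F)
  /-- The group over the coordinate. -/
  Γ : Subgroup (F ≃ₐ[Q̄] F)
  finG : Finite G
  finΓ : Finite Γ
  le : Γ ≤ G
  /-- The base coordinate. -/
  t₀ : F
  /-- The coordinate. -/
  T : F
  fin₀ : IsFinOver Q̄ t₀
  fixed₀ : fixedField G = Q̄⟮t₀⟯
  fin : IsFinOver Q̄ T
  fixed : fixedField Γ = Q̄⟮T⟯
  T_mem : T ∈ chart A t₀
  /-- Numerator. -/
  N : Polynomial A
  /-- Denominator. -/
  D : Polynomial A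
  D_ne : D.map (residue A) ≠ 0
  rel : t₀ * polyA A T D = polyA A T N
  coprime : ∀ c, (D.map (residue A)).eval c = 0 → (N.map (residue A)).eval c ≠ 0

namespace Cover

variable (W : Cover A F)

instance : Finite W.G := W.finG
instance : Finite W.Γ := W.finΓ

theorem G_t₀ {g : F ≃ₐ[Q̄] F} (hg : g ∈ W.G) : g W.t₀ = W.t₀ :=
  (mem_fixedField_iff _ _).mp (W.fixed₀ ▸ mem_adjoin_simple_self Q̄ W.t₀) g hg

theorem Γ_T {g : F ≃ₐ[Q̄] F} (hg : g ∈ W.Γ) : g W.T = W.T :=
  (mem_fixedField_iff _ _).mp (W.fixed ▸ mem_adjoin_simple_self Q̄ W.T) g hg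

theorem map_chart {g : F ≃ₐ[Q̄] F} (hg : g ∈ W.G) {y : F} (hy : y ∈ chart A W.t₀) :
    g y ∈ chart A W.t₀ := by
  have := map_mem_chart (g : F →ₐ[Q̄] F) hy
  rwa [show (g : F →ₐ[Q̄] F) W.t₀ = W.t₀ from W.G_t₀ hg] at this

theorem residue_eval (P : Polynomial A) (β : A) :
    residue A (P.eval β) = (P.map (residue A)).eval (residue A β) := by
  rw [eval_map, eval₂_at_apply]

variable {W}

/-- `T - β` is a unit at a Gauss valuation. -/
theorem sub_unit {V : ValuationSubring F} (hV : IsGauss A W.t₀ V) (β : A) :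
    W.T - algebraMap Q̄ F β ≠ 0 ∧ (W.T - algebraMap Q̄ F β)⁻¹ ∈ V := by
  have hT : W.T ∈ V := hV.chart_le W.T_mem
  have h0 : W.T - algebraMap Q̄ F β ≠ 0 := fun h =>
    W.fin.transcendental (sub_eq_zero.mp h ▸ isAlgebraic_algebraMap _)
  refine ⟨h0, ?_⟩
  let pT : Polynomial A →+* V := (polyA A W.T).codRestrict V.toSubring fun Q =>
    chart_le_valuationSubring hV.const hT (polyA_mem_chart A W.T Q)
  let t : V := ⟨W.t₀, hV.mem⟩
  suffices hu : IsUnit (pT (X - C β)) by
    obtain ⟨u, hu⟩ := hu.exists_right_inv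
    have h1 : polyA A W.T (X - C β) * (u : F) = 1 := congrArg Subtype.val hu
    rw [map_sub, polyA_X, polyA_C] at h1
    rw [inv_eq_of_mul_eq_one_right h1]; exact u.2
  by_contra hn
  set L : Polynomial A := C (W.D.eval β) * X - C (W.N.eval β) with hL
  have hLm : L.map (residue A) ≠ 0 := fun h => by
    simp only [hL, Polynomial.map_sub, Polynomial.map_mul, map_X, map_C, residue_eval] at h
    have h1 := congrArg (fun q => q.coeff 1) h
    have h2 := congrArg (fun q => q.coeff 0) h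
    simp only [coeff_sub, coeff_C_mul_X, coeff_C, one_ne_zero, if_true, if_false, sub_zero, zero_ne_one,
      coeff_zero, zero_sub, neg_eq_zero] at h1 h2
    exact W.coprime _ h1 h2
  obtain ⟨hLu0, hLu, hLi⟩ := hV.unit L hLm
  have hmem : ∀ P : Polynomial A, residue V (pT P) = residue V (pT (C (P.eval β))) := fun P => by
    obtain ⟨Q, hQ⟩ : X - C β ∣ P - C (P.eval β) :=
      dvd_iff_isRoot.mpr (by simp [IsRoot])
    rw [← sub_eq_zero, ← map_sub, ← map_sub, hQ, map_mul, map_mul, (residue_eq_zero_iff _).mpr hn,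
      zero_mul]
  have hrel : t * pT W.D = pT W.N := Subtype.ext W.rel
  have hz : residue V (⟨_, hLu⟩ : V) = 0 := by
    have e : (⟨_, hLu⟩ : V) = pT (C (W.D.eval β)) * t - pT (C (W.N.eval β)) := Subtype.ext (by
      simp only [hL, map_sub, map_mul, polyA_X, polyA_C]
      show _ = polyA A W.T (C _) * W.t₀ - polyA A W.T (C _)
      rw [polyA_C, polyA_C])
    rw [e, map_sub, map_mul, ← hmem W.D, ← hmem W.N, ← map_mul, ← map_sub, mul_comm, hrel, sub_self,
      map_zero]
  exact (residue_eq_zero_iff _).mp hz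
    (IsUnit.of_mul_eq_one ⟨_, hLi⟩ (Subtype.ext (mul_inv_cancel₀ hLu0)))

theorem gauss [IsAlgClosed (ResidueField A)] {V : ValuationSubring F} (hV : IsGauss A W.t₀ V) :
    IsGauss A W.T V :=
  hV.transfer (hV.chart_le W.T_mem) (sub_unit hV)

variable (W) in
/-- The constants in the chart. -/
def cst : A →+* chart A W.t₀ :=
  ((algebraMap Q̄ F).comp A.subtype).codRestrict _ (algebraMap_mem_chart A W.t₀)

variable (W) in
/-- The coordinate in the chart. -/
def T' : chart A W.t₀ := ⟨W.T, W.T_mem⟩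

variable (W) in
/-- Polynomials in the coordinate. -/
def pol : Polynomial A →+* chart A W.t₀ :=
  (polyA A W.T).codRestrict _ fun P => by
    induction P using Polynomial.induction_on' with
    | add a b ha hb => rw [map_add]; exact add_mem ha hb
    | monomial n a =>
      rw [← C_mul_X_pow_eq_monomial, map_mul, map_pow, polyA_C, polyA_X]
      exact mul_mem (algebraMap_mem_chart A _ a) (pow_mem W.T_mem n)

theorem hom_pol {χ : chart A W.t₀ →+* ResidueField A} (hχ : ∀ a, χ (W.cst a) = residue A a)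
    (P : Polynomial A) : χ (W.pol P) = (P.map (residue A)).eval (χ W.T') := by
  rw [eval_map]
  refine RingHom.congr_fun (f := χ.comp W.pol) (g := eval₂RingHom (residue A) (χ W.T'))
    (Polynomial.ringHom_ext (fun a => ?_) ?_) P
  · simp only [RingHom.comp_apply, coe_eval₂RingHom, eval₂_C]
    rw [show W.pol (C a) = W.cst a from Subtype.ext (polyA_C A W.T a), hχ]
  · simp only [RingHom.comp_apply, coe_eval₂RingHom, eval₂_X]
    rw [show W.pol X = W.T' from Subtype.ext (polyA_X A W.T)]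

theorem D_eval_ne {χ : chart A W.t₀ →+* ResidueField A} (hχ : ∀ a, χ (W.cst a) = residue A a) :
    (W.D.map (residue A)).eval (χ W.T') ≠ 0 := fun h => by
  have e : (⟨W.t₀, self_mem_chart A _⟩ : chart A W.t₀) * W.pol W.D = W.pol W.N := Subtype.ext W.rel
  have h1 := congrArg χ e
  rw [map_mul, hom_pol hχ, hom_pol hχ, h, mul_zero] at h1
  exact W.coprime _ h h1.symm

theorem exists_val_t₀ {χ : chart A W.t₀ →+* ResidueField A}
    (hχ : ∀ a, χ (W.cst a) = residue A a) (Q : Place Q̄ F)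
    [Module.Finite Q̄ Q.ResidueField] {β : A}
    (hβ : residue A β = χ W.T') (hpos : 0 < Q.ord (W.T - algebraMap Q̄ F β)) :
    IsIntAt A Q W.t₀ := by
  have hT : HasVal Q W.T (β : Q̄) := Or.inr hpos
  have hD : residue A (W.D.eval β) ≠ 0 := by rw [residue_eval, hβ]; exact D_eval_ne hχ
  have hu : IsUnit (W.D.eval β) := (residue_ne_zero_iff_isUnit _).mp hD
  obtain ⟨u, hu⟩ := hu.exists_right_inv
  obtain ⟨hm, hv⟩ := (hasVal_iff Q).mp (hT.polyA Q W.D)
  have hu' : ((W.D.eval β : A) : Q̄) * (u : Q̄) = 1 := congrArg Subtype.val hu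
  have hne : polyA A W.T W.D ≠ 0 := fun h => by
    have : placeVal Q ⟨_, hm⟩ = 0 := by
      rw [show (⟨_, hm⟩ : Q.toValuationSubring) = 0 from Subtype.ext h, map_zero]
    rw [hv] at this
    rw [this, zero_mul] at hu'
    exact zero_ne_one hu'
  have hord : Q.ord (polyA A W.T W.D) = 0 := (hT.polyA Q W.D).ord_eq_zero fun h => by
    rw [h, zero_mul] at hu'; exact zero_ne_one hu'
  have hi : (polyA A W.T W.D)⁻¹ ∈ Q.toValuationSubring :=
    (mem_iff_ord_nonneg Q (inv_ne_zero hne)).mpr (by rw [Q.ord_inv, hord]; simp)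
  have hinv : HasVal Q (polyA A W.T W.D)⁻¹ (u : Q̄) := (hasVal_iff Q).mpr ⟨hi, by
    have h1 : placeVal Q ⟨_, hm⟩ * placeVal Q ⟨_, hi⟩ = 1 := by
      rw [← map_mul, ← map_one (placeVal Q)]
      exact congrArg _ (Subtype.ext (mul_inv_cancel₀ hne))
    rw [hv] at h1
    exact (eq_inv_of_mul_eq_one_right h1).trans (eq_inv_of_mul_eq_one_right hu').symm⟩
  have h := (hT.polyA Q W.N).mul Q hinv
  rw [← W.rel, mul_assoc, mul_inv_cancel₀ hne, mul_one] at h
  exact isIntAt_of_hasVal Q (a := W.N.eval β * u) h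

/-- Invariants of the group over the coordinate are determined by the value of the coordinate. -/
theorem eq_on_fixed [IsAlgClosed (ResidueField A)] {χ ψ : chart A W.t₀ →+* ResidueField A}
    (hχ : ∀ a, χ (W.cst a) = residue A a) (hψ : ∀ a, ψ (W.cst a) = residue A a)
    (hT : χ W.T' = ψ W.T') (z : chart A W.t₀) (hz : ∀ g ∈ W.Γ, g (z : F) = z) : χ z = ψ z := by
  classical
  haveI := W.fin.hasPrincipalDivisors
  obtain ⟨V, hV⟩ := exists_isGauss (A := A) W.fin₀.transcendental
  have hDne : polyA A W.T W.D ≠ 0 := ((gauss hV).unit _ W.D_ne).1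
  obtain ⟨K, hK⟩ : ∃ K : ℕ, ∀ Q : Place Q̄ F, 0 ≤ (K : ℤ) + Q.ord (z : F) := by
    refine ⟨(finite_ord_support (z : F)).toFinset.sum fun Q => (Q.ord (z : F)).natAbs, fun Q => ?_⟩
    rcases eq_or_ne (Q.ord (z : F)) 0 with h | h
    · rw [h, add_zero]; exact Int.natCast_nonneg _
    · have := Finset.single_le_sum (f := fun Q : Place Q̄ F => (Q.ord (z : F)).natAbs)
        (fun _ _ => Nat.zero_le _) ((Set.Finite.mem_toFinset (finite_ord_support (z : F))).mpr h)
      omega
  obtain ⟨P, hP⟩ : ∃ P : Polynomial A, (z : F) * polyA A W.T W.D ^ K = polyA A W.T P := by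
    refine exists_polyA_of_regular W.fin (gauss hV) ?_ ?_ fun Q hQ => ?_
    · rw [← W.fixed, mem_fixedField_iff]
      intro g hg
      rw [map_mul, map_pow, hz g hg, show g (polyA A W.T W.D) = (g : F →ₐ[Q̄] F) (polyA A W.T W.D)
        from rfl, map_polyA, show (g : F →ₐ[Q̄] F) W.T = W.T from W.Γ_T hg]
    · exact mul_mem (hV.chart_le z.2) (pow_mem ((gauss hV).unit _ W.D_ne).2.1 K)
    · have hpol : ∀ P : Polynomial A, polyA A W.T P ∈ Q.toValuationSubring := fun P =>
        mem_chart_place Q hQ (polyA_mem_chart A W.T P)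
      by_cases ht : W.t₀ ∈ Q.toValuationSubring
      · exact mul_mem (mem_chart_place Q ht z.2) (pow_mem (hpol _) K)
      rcases eq_or_ne (z : F) 0 with hz0 | hz0
      · rw [hz0, zero_mul]; exact zero_mem _
      have ht0 : W.t₀ ≠ 0 := fun h => ht (h ▸ zero_mem _)
      have hneg : Q.ord W.t₀ < 0 := not_le.mp fun h => ht ((mem_iff_ord_nonneg Q ht0).mpr h)
      have hD1 : 1 ≤ Q.ord (polyA A W.T W.D) := by
        have h1 := congrArg Q.ord W.rel
        rw [Q.ord_mul ht0 hDne] at h1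
        have := ord_nonneg_of_mem' Q (hpol W.N)
        omega
      refine (mem_iff_ord_nonneg Q (mul_ne_zero hz0 (pow_ne_zero _ hDne))).mpr ?_
      rw [Q.ord_mul hz0 (pow_ne_zero _ hDne), ord_pow]
      have := hK Q
      nlinarith
  have key : z * W.pol W.D ^ K = W.pol P := Subtype.ext hP
  have h1 := congrArg χ key
  have h2 := congrArg ψ key
  rw [map_mul, map_pow, hom_pol hχ, hom_pol hχ] at h1
  rw [map_mul, map_pow, hom_pol hψ, hom_pol hψ, ← hT, ← h1] at h2
  exact mul_right_cancel₀ (pow_ne_zero _ (D_eval_ne hχ)) h2.symm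

theorem closed {x : F} (hx : x ∈ chart A W.t₀) (β : A)
    (hord : ∀ Q : Place Q̄ F, 0 < Q.ord (W.T - algebraMap Q̄ F β) →
      Q.ord (W.T - algebraMap Q̄ F β) ≤ Q.ord x) :
    x / (W.T - algebraMap Q̄ F β) ∈ chart A W.t₀ := by
  rcases eq_or_ne x 0 with rfl | hx0
  · rw [zero_div]; exact zero_mem _
  obtain ⟨V, hV⟩ := exists_isGauss (A := A) W.fin₀.transcendental
  obtain ⟨h0, -⟩ := sub_unit hV β
  refine mem_chart_of_regular W.G W.fin₀ W.fixed₀ hV (fun g hg => ?_) fun Q hQ => ?_
  · rw [map_div₀, div_eq_mul_inv]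
    refine mul_mem (hV.chart_le (W.map_chart hg hx)) ?_
    have := (sub_unit (hV.comap g (W.G_t₀ hg)) β).2
    rw [ValuationSubring.mem_comap] at this
    rw [← map_inv₀]
    exact this
  · refine (mem_iff_ord_nonneg Q (div_ne_zero hx0 h0)).mpr ?_
    rw [div_eq_mul_inv, Q.ord_mul hx0 (inv_ne_zero h0), Q.ord_inv]
    have hxn := ord_nonneg_of_mem' Q (mem_chart_place Q hQ hx)
    rcases le_or_gt (Q.ord (W.T - algebraMap Q̄ F β)) 0 with h | h
    · omega
    · have := hord Q h; omega

variable (W) in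
/-- The disc of a centre. -/
def disc [IsAlgClosed (ResidueField A)] (χ : chart A W.t₀ →+* ResidueField A)
    (hχ : ∀ a, χ (W.cst a) = residue A a) : DiscData A F where
  Γ := W.Γ
  finΓ := W.finΓ
  T := W.T
  fin := W.fin
  fixed := W.fixed
  B := chart A W.t₀
  const_mem := algebraMap_mem_chart A W.t₀
  T_mem := W.T_mem
  stable g hg _ hy := W.map_chart (W.le hg) hy
  χ := χ
  χ_const := hχ
  val Q β hβ hpos y hy := by
    haveI := W.fin.finiteResidue Q
    exact exists_hasVal_of_mem_chart Q (exists_val_t₀ hχ Q hβ hpos) hy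
  conj Q β hβ hpos := by
    haveI := W.fin.finiteResidue Q
    haveI : Infinite (ResidueField A) := IsAlgClosed.instInfinite
    have hint := exists_val_t₀ hχ Q hβ hpos
    set ψ := cval A Q W.t₀ hint
    have hψ : ∀ a, ψ (W.cst a) = residue A a := fun a =>
      cval_of_hasVal Q hint (W.cst a) (Or.inl rfl)
    obtain ⟨g, hg⟩ := exists_conj_of_eq_on_fixed W.Γ
      (fun g hg y hy => W.map_chart (W.le hg) hy) ψ χ
      (fun r => by
        obtain ⟨a, rfl⟩ := residue_surjective r
        exact ⟨W.cst a, fun g _ => g.commutes _, hψ a, hχ a⟩)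
      (fun z hz => eq_on_fixed hψ hχ
        ((cval_of_hasVal Q hint W.T' (Or.inr hpos)).trans hβ) z hz)
    refine ⟨g, g.2, fun y a ha => ?_⟩
    rw [← hg y]
    exact (cval_of_hasVal Q hint _ ha).symm
  closed _ hx β _ hord := closed hx β hord

end Cover

end Fermat.Agent.MCurve.Spec
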