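import Fermat.Agent.MCurve.Spec.RelW
import Fermat.Agent.MCurve.Spec.Cover
import Fermat.Agent.GalRep.Model.BaseField

/-!
The two charts of the level field over `A` with their coordinates: `w` over `A[j]` and
`(w - β₀)⁻¹` over `A[j⁻¹]`.
-/

set_option autoImplicit false
set_option linter.style.haveILetI false
set_option linter.unusedSectionVars false

noncomputable section

namespace Fermat.Agent.MCurve.Spec

open AlgebraicCurve Polynomial IsLocalRing CongruenceSubgroup IntermediateField
open Fermat.Agent.GalRep (modFuns serHom qbarToC)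
open Fermat.Agent.GalRep.Model (Lev WFld lvlField fShift serAt holRing SeriesField cuspMat Quad rat)
open scoped MatrixGroups

local notation "Q̄" => AlgebraicClosure ℚ

instance isAlgClosed_residueField (A : ValuationSubring Q̄) : IsAlgClosed (ResidueField A) :=
  GalRep.Model.residue_isAlgClosed A

variable {M : ℕ} [NeZero M] (A : ValuationSubring Q̄) [hu : Fact (IsUnit (M : A))] (L : Lev M)

local notation "al" => algebraMap (PowerSeries A) (SeriesField A)

/-! ## Integral series -/

theorem intSer_of_serAt {x : LK M A} {k : ℕ} {G : PowerSeries A}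
    (h : serAt (cyc M A) 1 x * al (PowerSeries.X ^ k) = al G) : IntSer A x := by
  intro n
  have h1 := congrArg (cyc M A).toC h
  rw [map_mul, GalRep.Model.toC_serAt, (cyc M A).toC_algebraMap, (cyc M A).toC_algebraMap,
    (cyc M A).gC_X_pow, GalRep.Model.wShift_one] at h1
  have h2 := congrArg (fun s : LaurentSeries ℂ => s.coeff (n + k)) h1
  rw [HahnSeries.coeff_mul_single_add, mul_one] at h2
  rw [h2]
  rcases lt_or_ge (n + k) 0 with hk | hk
  · rw [GalRep.Model.coeff_gC_neg (cyc M A) G hk]; exact zero_mem _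
  · obtain ⟨l, hl⟩ := Int.eq_ofNat_of_zero_le hk
    rw [hl, GalRep.Model.Cyc.gC, RingHom.comp_apply, HahnSeries.ofPowerSeries_apply_coeff,
      PowerSeries.coeff_map]
    exact ⟨_, (PowerSeries.coeff l G).2, rfl⟩

theorem rat_mem_intHol (q : Quad M) : rat (cyc M A) q ∈ intHol M A := by
  refine ⟨GalRep.Model.rat_mem_holRing _ q, fun g => ?_⟩
  rw [shiftA_apply, GalRep.Model.fShift_rat]
  set p := q.mul g⁻¹
  obtain ⟨V, hV⟩ := GalRep.Model.exists_lead (cyc M A) p.hu' p.ht' p.hne
  refine intSer_of_serAt A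
    (k := min (GalRep.Model.absRes M p.u'.1) (GalRep.Model.absRes M p.t'.1))
    (G := (GalRep.Model.pO (cyc M A) p.u - GalRep.Model.pO (cyc M A) p.t) *
      ((V⁻¹ : (PowerSeries A)ˣ) : PowerSeries A)) ?_
  rw [GalRep.Model.serAt_rat, Quad.mul_one, GalRep.Model.qSer, div_mul_eq_mul_div, div_eq_iff
    fun h => GalRep.Model.den_ne_zero (cyc M A) p
      (IsFractionRing.injective _ (SeriesField A) (h.trans (map_zero _).symm)),
    ← map_mul, ← map_mul, hV]
  congr 1
  have hVV : ((V⁻¹ : (PowerSeries A)ˣ) : PowerSeries A) * V = 1 := Units.inv_mul V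
  linear_combination -((GalRep.Model.pO (cyc M A) p.u - GalRep.Model.pO (cyc M A) p.t) *
    PowerSeries.X ^ min (GalRep.Model.absRes M p.u'.1) (GalRep.Model.absRes M p.t'.1)) * hVV

theorem exists_inv_rat (q : Quad M) (h : ¬ GalRep.Model.PM M q.u q.t) :
    ∃ q' : Quad M, rat (cyc M A) q * rat (cyc M A) q' = 1 := by
  refine ⟨⟨q.u', q.t', q.u, q.t, q.hu', q.ht', q.hu, q.ht, h⟩, Subtype.ext ?_⟩
  show algebraMap _ (WFld M) (GalRep.Model.ratMF (cyc M A) q) * algebraMap _ (WFld M)
    (GalRep.Model.ratMF (cyc M A) _) = 1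
  rw [← map_mul, ← map_one (algebraMap (modFuns (Gamma M)) (WFld M))]
  refine congrArg _ (Subtype.ext (funext fun τ => ?_))
  have h1 := GalRep.Model.wpDiff_ne_zero q.hu' q.ht' q.hne τ
  have h2 := GalRep.Model.wpDiff_ne_zero q.hu q.ht h τ
  show GalRep.Model.wpDiff M q.u q.t τ / GalRep.Model.wpDiff M q.u' q.t' τ *
    (GalRep.Model.wpDiff M q.u' q.t' τ / GalRep.Model.wpDiff M q.u q.t τ) = 1
  field_simp

/-! ## The group over `w` -/

/-- The translations fixing `w`. -/
def gamMG : Subgroup (LK M A ≃ₐ[Q̄] LK M A) := (Gamma L.m).map (shiftA M A)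

instance : Finite (gamMG A L) := finite_map_shiftA A (Gamma L.m)

theorem gamMG_le : gamMG A L ≤ fullG M A := Subgroup.map_le_range _ _

theorem shiftA_w {γ : SL(2, ℤ)} (hγ : γ ∈ Gamma L.m) :
    shiftA M A γ (L.w (cyc M A)) = L.w (cyc M A) := by
  rw [shiftA_apply]; exact L.w_invariant (cyc M A) (inv_mem hγ)

theorem fixedField_gamMG : fixedField (gamMG A L) = Q̄⟮L.w (cyc M A)⟯ := by
  refine le_antisymm (fun x hx => ?_) (adjoin_simple_le_iff.mpr ((mem_fixedField_iff _ _).mpr ?_))
  · rw [mem_fixedField_iff] at hx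
    obtain ⟨P, Q, hQ, hPQ⟩ := L.fixedRational (cyc M A) x fun σ => by
      obtain ⟨γ, hγ, rfl⟩ := L.exists_eq_galOf (cyc M A) σ
      rw [L.galOf_smul]
      have h := hx _ ⟨γ⁻¹, inv_mem hγ, rfl⟩
      rwa [shiftA_apply, inv_inv] at h
    rw [aeval_eq_polyA, polyA_eq_aeval] at hQ hPQ
    rw [aeval_eq_polyA, polyA_eq_aeval] at hPQ
    exact (mem_adjoin_simple_iff Q̄ x).mpr ⟨_, _, eq_div_iff hQ |>.mpr hPQ⟩
  · rintro _ ⟨γ, hγ, rfl⟩
    exact shiftA_w A L hγ

theorem transcendental_w : Transcendental Q̄ (L.w (cyc M A)) := by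
  rw [transcendental_iff_injective, injective_iff_map_eq_zero]
  intro p hp
  by_contra hp0
  obtain ⟨c, hc, P, hP, rfl⟩ := exists_primitive (A := A) hp0
  rw [map_mul, aeval_C, mul_eq_zero, map_eq_zero, ← polyA_eq_aeval, ← aeval_eq_polyA] at hp
  have := L.aeval_w_injective (cyc M A) ((hp.resolve_left hc).trans (map_zero _).symm)
  exact hP (by rw [this, Polynomial.map_zero])

theorem isFinOver_w : IsFinOver Q̄ (L.w (cyc M A)) :=
  (isFinOver_jK A L).of_transcendental (transcendental_w A L)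

theorem w_mem_intHol : L.w (cyc M A) ∈ intHol M A := rat_mem_intHol A _

theorem map_cuspPoly : (L.cuspPoly (cyc M A)).map (residue A) =
    ∏ i ∈ L.J, (X - C (residue A (L.cval (cyc M A) i))) := by
  simp [Lev.cuspPoly, Polynomial.map_prod]

theorem exists_cusp_of_eval_zero {c : ResidueField A}
    (h : ((L.cuspPoly (cyc M A) ^ L.m).map (residue A)).eval c = 0) :
    ∃ i ∈ L.J, c = residue A (L.cval (cyc M A) i) := by
  rw [Polynomial.map_pow, eval_pow, map_cuspPoly, eval_prod] at h
  obtain ⟨i, hi, h⟩ := Finset.prod_eq_zero_iff.mp (eq_zero_of_pow_eq_zero h)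
  exact ⟨i, hi, sub_eq_zero.mp (by simpa using h)⟩

theorem relW_coprime {c : ResidueField A}
    (h : ((L.cuspPoly (cyc M A) ^ L.m).map (residue A)).eval c = 0) :
    ((exists_relW A L).choose.map (residue A)).eval c ≠ 0 := by
  obtain ⟨i, hi, rfl⟩ := exists_cusp_of_eval_zero A L h
  rw [eval_map, eval₂_at_apply]
  exact (residue_ne_zero_iff_isUnit _).mpr ((exists_relW A L).choose_spec.2.1 i hi)

/-- The chart over `A[j]`. -/
def coverW : Cover A (LK M A) where
  G := fullG M A
  Γ := gamMG A L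
  finG := inferInstance
  finΓ := inferInstance
  le := gamMG_le A L
  t₀ := jK A L
  T := L.w (cyc M A)
  fin₀ := isFinOver_jK A L
  fixed₀ := fixedField_fullG A L
  fin := isFinOver_w A L
  fixed := fixedField_gamMG A L
  T_mem := intHol_le_chart A L (w_mem_intHol A L)
  N := (exists_relW A L).choose
  D := L.cuspPoly (cyc M A) ^ L.m
  D_ne := by
    rw [Polynomial.map_pow, map_cuspPoly]
    exact pow_ne_zero _ (Finset.prod_ne_zero_iff.mpr fun i _ => X_sub_C_ne_zero _)
  rel := by
    rw [← aeval_eq_polyA, ← aeval_eq_polyA]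
    exact (exists_relW A L).choose_spec.1
  coprime _ h := relW_coprime A L h

theorem algEquiv_eq_one_of_fix_gen {g : LK M A ≃ₐ[Q̄] LK M A}
    (hg : ∀ p, g (L.gen (cyc M A) p) = L.gen (cyc M A) p) : g = 1 := by
  have h := L.subfield_eq_top (cyc M A)
    ((g : LK M A →+* LK M A).eqLocusField (RingHom.id _))
    (fun a => by
      show g (algebraMap A (LK M A) a) = algebraMap A (LK M A) a
      rw [IsScalarTower.algebraMap_apply A Q̄ (LK M A), g.commutes])
    (fun y hy => by
      obtain ⟨p, rfl⟩ := (L.mem_genSet _).mp hy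
      exact hg p)
  refine AlgEquiv.ext fun x => ?_
  exact (h ▸ Subfield.mem_top x : x ∈ (g : LK M A →+* LK M A).eqLocusField (RingHom.id _))

theorem stab_coverW (χ : chart A (jK A L) →+* ResidueField A)
    (hχ : ∀ a, χ ((coverW A L).cst a) = residue A a) (g : ((coverW A L).disc χ hχ).Γ)
    (hg : g ∈ ((coverW A L).disc χ hχ).stab) : g = 1 := by
  obtain ⟨g, hgΓ⟩ := g
  refine Subtype.ext (algEquiv_eq_one_of_fix_gen A L fun p => ?_)
  obtain ⟨γ, hγ, rfl⟩ := hgΓ
  by_contra hne
  obtain ⟨p', hp'⟩ : ∃ p', L.gen (cyc M A) p' = shiftA M A γ (L.gen (cyc M A) p) := by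
    have := L.smul_gen_mem (cyc M A) (L.galOf (cyc M A) (inv_mem hγ))
      ((L.mem_genSet _).mpr ⟨p, rfl⟩)
    rw [L.galOf_smul] at this
    exact (L.mem_genSet _).mp this
  rw [← hp'] at hne
  have hpm : ¬ GalRep.Model.PM M (GalRep.Model.repVec p') (GalRep.Model.repVec p) :=
    fun h => hne (L.gen_eq_of_pm (cyc M A) h)
  have hd : L.gen (cyc M A) p' - L.gen (cyc M A) p = rat (cyc M A) _ := L.gen_sub (cyc M A) p' p
  obtain ⟨q', hq'⟩ := exists_inv_rat A ⟨GalRep.Model.repVec p', GalRep.Model.repVec p,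
    L.V 1, L.V 0, GalRep.Model.nz_repVec p', GalRep.Model.nz_repVec p, L.nz_V 1, L.nz_V 0,
    L.not_pm L.valid1 L.valid0 (by decide)⟩ hpm
  rw [← hd, hp'] at hq'
  let y : chart A (jK A L) := ⟨_, intHol_le_chart A L (rat_mem_intHol A
    ⟨GalRep.Model.repVec p, L.V 0, L.V 1, L.V 0, GalRep.Model.nz_repVec p, L.nz_V 0, L.nz_V 1,
      L.nz_V 0, L.not_pm L.valid1 L.valid0 (by decide)⟩)⟩
  let i : chart A (jK A L) := ⟨_, intHol_le_chart A L (rat_mem_intHol A q')⟩
  let gy : chart A (jK A L) :=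
    ((coverW A L).disc χ hχ).act ⟨shiftA M A γ, ⟨γ, hγ, rfl⟩⟩ y
  have h1 : χ gy = χ y := hg y
  have e : (gy - y) * i = 1 := Subtype.ext hq'
  have h2 := congrArg χ e
  rw [map_mul, map_sub, h1, sub_self, zero_mul, map_one] at h2
  exact zero_ne_one h2

theorem card_stab_coverW (χ : chart A (jK A L) →+* ResidueField A)
    (hχ : ∀ a, χ ((coverW A L).cst a) = residue A a) :
    Nat.card ((coverW A L).disc χ hχ).stab = 1 := by
  haveI : Subsingleton ((coverW A L).disc χ hχ).stab := ⟨fun a b => Subtype.ext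
    ((stab_coverW A L χ hχ a.1 a.2).trans (stab_coverW A L χ hχ b.1 b.2).symm)⟩
  haveI : Nonempty ((coverW A L).disc χ hχ).stab :=
    ⟨⟨1, fun y => congrArg χ (Subtype.ext rfl)⟩⟩
  exact Nat.card_unique

/-- The uniformiser of a disc over `A[j]`. -/
theorem unif_coverW (χ : chart A (jK A L) →+* ResidueField A)
    (hχ : ∀ a, χ ((coverW A L).cst a) = residue A a) :
    Nonempty ((coverW A L).disc χ hχ).Unif := by
  obtain ⟨β, hβ⟩ := residue_surjective (((coverW A L).disc χ hχ).χ ((coverW A L).disc χ hχ).T')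
  refine ⟨⟨β, ((coverW A L).disc χ hχ).Tsub β, 1, hβ, ?_, ?_, ?_⟩⟩
  · rw [DiscData.χ_Tsub, hβ, sub_self]
  · rw [map_one]; exact one_ne_zero
  · rw [card_stab_coverW A L χ hχ, pow_one, one_mul]

/-! ## The chart over `A[j⁻¹]` -/

theorem exists_root_relW : ∃ β : A, (exists_relW A L).choose.eval β = 0 ∧
    ∀ i ∈ L.J, IsUnit (β - L.cval (cyc M A) i) := by
  obtain ⟨-, hRc, hlc, hdeg⟩ := (exists_relW A L).choose_spec
  set R := (exists_relW A L).choose
  obtain ⟨r, hr⟩ := IsAlgClosed.exists_root (R.map A.subtype) (by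
    rw [degree_map_eq_of_injective Subtype.val_injective]
    intro h
    have := natDegree_eq_of_degree_eq_some h
    rw [hdeg] at this
    rcases Nat.mul_eq_zero.mp this with h0 | h0
    · rcases L.hm with hm | hm <;> omega
    · omega)
  obtain ⟨u, hu⟩ := hlc
  obtain ⟨z, hz⟩ := IsIntegrallyClosed.isIntegral_iff.mp (show _root_.IsIntegral A r from
    ⟨C (↑u⁻¹ : A) * R, monic_C_mul_of_mul_leadingCoeff_eq_one (by rw [← hu, Units.inv_mul]), by
      rw [eval₂_mul, show eval₂ (algebraMap A Q̄) r R = 0 by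
        rw [← eval_map]; exact hr, mul_zero]⟩)
  have hR0 : R.eval z = 0 := Subtype.val_injective (by
    show A.subtype (R.eval z) = A.subtype 0
    rw [map_zero, ← eval₂_at_apply, ← eval_map, show A.subtype z = r from hz]
    exact hr)
  refine ⟨z, hR0, fun i hi => (residue_ne_zero_iff_isUnit _).mp fun h => ?_⟩
  rw [map_sub, sub_eq_zero] at h
  refine (residue_ne_zero_iff_isUnit _).mpr (hRc i hi) ?_
  rw [← eval₂_at_apply, ← h, eval₂_at_apply, hR0, map_zero]

/-- The shift of `w`. -/
def beta0 : A := (exists_root_relW A L).choose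

theorem eval_beta0 : (exists_relW A L).choose.eval (beta0 A L) = 0 :=
  (exists_root_relW A L).choose_spec.1

theorem isUnit_beta0_sub {i : Fin 4} (hi : i ∈ L.J) :
    IsUnit (beta0 A L - L.cval (cyc M A) i) := (exists_root_relW A L).choose_spec.2 i hi

/-- `(w - β₀)⁻¹`. -/
def TI : LK M A := (L.w (cyc M A) - algebraMap Q̄ _ (beta0 A L : Q̄))⁻¹

theorem sub_beta0_ne_zero : L.w (cyc M A) - algebraMap Q̄ _ (beta0 A L : Q̄) ≠ 0 :=
  sub_ne_zero.mpr fun h => transcendental_w A L (h ▸ isAlgebraic_algebraMap _)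

theorem adjoin_TI : Q̄⟮TI A L⟯ = Q̄⟮L.w (cyc M A)⟯ := by
  refine le_antisymm (adjoin_simple_le_iff.mpr (inv_mem (sub_mem (mem_adjoin_simple_self Q̄ _)
    (IntermediateField.algebraMap_mem _ _)))) (adjoin_simple_le_iff.mpr ?_)
  have h : (TI A L)⁻¹ + algebraMap Q̄ _ (beta0 A L : Q̄) ∈ Q̄⟮TI A L⟯ :=
    add_mem (inv_mem (mem_adjoin_simple_self Q̄ _)) (IntermediateField.algebraMap_mem _ _)
  rwa [TI, inv_inv, sub_add_cancel] at h

theorem TI_mem : TI A L ∈ chart A (jK A L)⁻¹ := by
  obtain ⟨hrel, -, -, -⟩ := (exists_relW A L).choose_spec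
  obtain ⟨V, hV⟩ := exists_isGauss (A := A) (isFinOver_jK A L).inv.transcendental
  refine mem_chart_of_regular (fullG M A) (isFinOver_jK A L).inv ?_ hV (fun g hg => ?_) fun Q hQ => ?_
  · rw [fixedField_fullG A L]
    exact le_antisymm
      (adjoin_simple_le_iff.mpr (by simpa using inv_mem (mem_adjoin_simple_self Q̄ (jK A L)⁻¹)))
      (adjoin_simple_le_iff.mpr (inv_mem (mem_adjoin_simple_self Q̄ _)))
  · have hg' : g (jK A L) = jK A L := fullG_jK A L hg
    have hV' : IsGauss A (jK A L) V := by simpa using hV.inv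
    have := (Cover.sub_unit (W := coverW A L) (hV'.comap g hg') (beta0 A L)).2
    rw [ValuationSubring.mem_comap] at this
    exact this
  · haveI := (isFinOver_w A L).finiteResidue Q
    by_contra hT
    set u := L.w (cyc M A) - algebraMap Q̄ _ (beta0 A L : Q̄) with hu
    have hu0 := sub_beta0_ne_zero A L
    have hpos : 0 < Q.ord u := not_le.mp fun h => hT <| (mem_iff_ord_nonneg Q (inv_ne_zero hu0)).mpr
      (by rw [hu] at h; rw [Q.ord_inv]; omega)
    have hv : HasVal Q (L.w (cyc M A)) ((beta0 A L : A) : Q̄) := Or.inr (by rwa [hu] at hpos)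
    have hR := hv.polyA Q (exists_relW A L).choose
    have hC := hv.polyA Q (L.cuspPoly (cyc M A) ^ L.m)
    rw [eval_beta0] at hR
    have hCu : (((L.cuspPoly (cyc M A) ^ L.m).eval (beta0 A L) : A) : Q̄) ≠ 0 := fun h0 => by
      have h1 : (L.cuspPoly (cyc M A) ^ L.m).eval (beta0 A L) = 0 := Subtype.ext h0
      rw [eval_pow, Lev.cuspPoly, eval_prod] at h1
      obtain ⟨i, hi, h1⟩ := Finset.prod_eq_zero_iff.mp (eq_zero_of_pow_eq_zero h1)
      exact (isUnit_beta0_sub A L hi).ne_zero (by simpa using h1)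
    have hD0 := hC.ord_eq_zero hCu
    have hrel' : jK A L * polyA A (L.w (cyc M A)) (L.cuspPoly (cyc M A) ^ L.m) =
        polyA A (L.w (cyc M A)) (exists_relW A L).choose := (coverW A L).rel
    have hj0 : jK A L ≠ 0 := fun h => transcendental_jK A L (h ▸ isAlgebraic_zero)
    have hCne : polyA A (L.w (cyc M A)) (L.cuspPoly (cyc M A) ^ L.m) ≠ 0 := fun h => hCu <| by
      refine HasVal.unique Q hC ?_
      rw [h]; exact Or.inl (map_zero _).symm
    have hne : polyA A (L.w (cyc M A)) (exists_relW A L).choose ≠ 0 :=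
      hrel' ▸ mul_ne_zero hj0 hCne
    have hRpos : 0 < Q.ord (polyA A (L.w (cyc M A)) (exists_relW A L).choose) := by
      rcases hR with h | h
      · exact absurd (h.trans (map_zero _)) hne
      · simpa using h
    have hj := ord_nonneg_of_mem' Q hQ
    rw [Q.ord_inv] at hj
    have := congrArg Q.ord hrel'
    rw [Q.ord_mul hj0 hCne, hD0] at this
    omega

/-- A polynomial in `w` written in `(w - β₀)⁻¹`, to degree `n`. -/
def revT (P : Polynomial A) : Polynomial A :=
  (taylor (beta0 A L) P).reflect (exists_relW A L).choose.natDegree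

theorem polyA_revT (P : Polynomial A) (hP : P.natDegree ≤ (exists_relW A L).choose.natDegree) :
    polyA A (TI A L) (revT A L P) =
      TI A L ^ (exists_relW A L).choose.natDegree * polyA A (L.w (cyc M A)) P := by
  rw [← aeval_eq_polyA, ← aeval_eq_polyA, revT,
    GalRep.Model.aeval_reflect_inv (w := TI A L) (inv_ne_zero (sub_beta0_ne_zero A L)) _ (by
      rwa [natDegree_taylor])]
  congr 1
  rw [taylor_apply, aeval_comp, TI, inv_inv, map_add, aeval_X, aeval_C,
    IsScalarTower.algebraMap_apply A Q̄ (LK M A),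
    show algebraMap A Q̄ (beta0 A L) = (beta0 A L : Q̄) from rfl, sub_add_cancel]

theorem eval_map_revT (P : Polynomial A) (hP : P.natDegree ≤ (exists_relW A L).choose.natDegree)
    {c : ResidueField A} (hc : c ≠ 0) :
    ((revT A L P).map (residue A)).eval c * c⁻¹ ^ (exists_relW A L).choose.natDegree =
      (P.map (residue A)).eval (c⁻¹ + residue A (beta0 A L)) := by
  haveI : Invertible c⁻¹ := invertibleOfNonzero (inv_ne_zero hc)
  have h := eval₂_reflect_mul_pow (residue A) c⁻¹ (exists_relW A L).choose.natDegree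
    (taylor (beta0 A L) P) (by rwa [natDegree_taylor])
  rw [invOf_eq_inv, inv_inv] at h
  rw [eval_map, eval_map, revT, h, taylor_apply, eval₂_comp, eval₂_add, eval₂_X, eval₂_C]

theorem coeff_zero_revT_relW :
    (revT A L (exists_relW A L).choose).coeff 0 = (exists_relW A L).choose.leadingCoeff := by
  rw [revT, coeff_reflect, revAt_le (Nat.zero_le _), Nat.sub_zero]
  rw [← natDegree_taylor (exists_relW A L).choose (beta0 A L)]
  exact leadingCoeff_taylor _ _

theorem natDegree_cusp_le :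
    (L.cuspPoly (cyc M A) ^ L.m).natDegree ≤ (exists_relW A L).choose.natDegree := by
  rw [(exists_relW A L).choose_spec.2.2.2, natDegree_pow, Lev.cuspPoly,
    natDegree_prod_of_monic _ _ fun i _ => monic_X_sub_C _]
  simp only [natDegree_X_sub_C, Finset.sum_const, smul_eq_mul, mul_one]
  exact Nat.mul_le_mul_left _ (Nat.le_succ _)

theorem exists_cusp_of_revT {c : ResidueField A}
    (h : ((revT A L (L.cuspPoly (cyc M A) ^ L.m)).map (residue A)).eval c = 0) :
    c = 0 ∨ ∃ i ∈ L.J, c⁻¹ + residue A (beta0 A L) = residue A (L.cval (cyc M A) i) := by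
  refine or_iff_not_imp_left.mpr fun hc => exists_cusp_of_eval_zero A L ?_
  rw [← eval_map_revT A L _ (natDegree_cusp_le A L) hc, h, zero_mul]

/-- The chart over `A[j⁻¹]`. -/
def coverI : Cover A (LK M A) where
  G := fullG M A
  Γ := gamMG A L
  finG := inferInstance
  finΓ := inferInstance
  le := gamMG_le A L
  t₀ := (jK A L)⁻¹
  T := TI A L
  fin₀ := (isFinOver_jK A L).inv
  fixed₀ := by
    rw [fixedField_fullG A L]
    exact le_antisymm
      (adjoin_simple_le_iff.mpr (by simpa using inv_mem (mem_adjoin_simple_self Q̄ (jK A L)⁻¹)))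
      (adjoin_simple_le_iff.mpr (inv_mem (mem_adjoin_simple_self Q̄ _)))
  fin := (isFinOver_jK A L).of_transcendental fun h => transcendental_w A L (by
    have h' := h.inv.add (isAlgebraic_algebraMap (R := Q̄) (A := LK M A) (beta0 A L : Q̄))
    rwa [TI, inv_inv, sub_add_cancel] at h')
  fixed := (fixedField_gamMG A L).trans (adjoin_TI A L).symm
  T_mem := TI_mem A L
  N := revT A L (L.cuspPoly (cyc M A) ^ L.m)
  D := revT A L (exists_relW A L).choose
  D_ne h := by
    have := congrArg (fun q => q.coeff 0) h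
    simp only [coeff_map, coeff_zero_revT_relW, coeff_zero] at this
    exact (residue_ne_zero_iff_isUnit _).mpr (exists_relW A L).choose_spec.2.2.1 this
  rel := by
    have hj0 : jK A L ≠ 0 := fun h => transcendental_jK A L (h ▸ isAlgebraic_zero)
    have h : jK A L * polyA A (L.w (cyc M A)) (L.cuspPoly (cyc M A) ^ L.m) =
        polyA A (L.w (cyc M A)) (exists_relW A L).choose := (coverW A L).rel
    rw [polyA_revT A L _ le_rfl, polyA_revT A L _ (natDegree_cusp_le A L), ← h]
    field_simp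
  coprime c hD hN := by
    rcases eq_or_ne c 0 with rfl | hc
    · rw [← coeff_zero_eq_eval_zero, coeff_map, coeff_zero_revT_relW] at hD
      exact (residue_ne_zero_iff_isUnit _).mpr (exists_relW A L).choose_spec.2.2.1 hD
    · obtain ⟨i, hi, he⟩ := (exists_cusp_of_revT A L hN).resolve_left hc
      have h1 := eval_map_revT A L (exists_relW A L).choose le_rfl hc
      rw [hD, zero_mul, he, eval_map, eval₂_at_apply] at h1
      exact (residue_ne_zero_iff_isUnit _).mpr ((exists_relW A L).choose_spec.2.1 i hi) h1.symm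

end Fermat.Agent.MCurve.Spec
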