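import Fermat.Agent.MCurve.Spec.Reduction

/-!
The field of reduced series of level `M`.
-/

set_option autoImplicit false
set_option linter.unusedSectionVars false

noncomputable section

namespace Fermat.Agent.MCurve.Spec

open IsLocalRing

variable {M : ℕ} [NeZero M] (A : ValuationSubring (AlgebraicClosure ℚ)) [hu : Fact (IsUnit (M : A))]

variable (M) in
/-- The field generated by the reduced series of integral holomorphic functions of level `M`. -/
def redFld : Subfield (LaurentSeries (ResidueField A)) :=
  Subfield.closure (Set.range (rS (M := M) A))

theorem rS_mem_redFld (x : intHol M A) : rS A x ∈ redFld M A :=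
  Subfield.subset_closure ⟨x, rfl⟩

end Fermat.Agent.MCurve.Spec
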