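import Fermat.Agent.MCurve.Spec.Centre
import Fermat.Agent.MCurve.RootBridge
import Fermat.Agent.Galois.Tame
import Fermat.Agent.GalRep.KummerCongr
import Mathlib.RingTheory.Polynomial.IsIntegral

/-!
Reduction of series which are ratios of `A`-series with a denominator nonzero modulo the place, and
its consequence for the charts of `X₀(N)`: a function on a chart with vanishing reduced expansion
has value zero in the residue field at every place of that chart.
-/

set_option autoImplicit false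

set_option linter.style.haveILetI false
set_option linter.unusedSectionVars false

noncomputable section

namespace Fermat.Agent.MCurve.Spec

open AlgebraicCurve ModularCurve IsLocalRing IntermediateField CongruenceSubgroup
open Fermat.Agent.GalRep (HasRed twist qbarToC)

local notation "Q̄" => AlgebraicClosure ℚ

variable (A : ValuationSubring Q̄)

/-- `A`-series as series over `Q̄`. -/
def sQ : LaurentSeries A →+* LaurentSeries Q̄ := coeffMap (subA A)

/-- The reduction of `A`-series. -/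
def sk : LaurentSeries A →+* LaurentSeries (ResidueField A) := coeffMap (residue A)

theorem sQ_injective : Function.Injective (sQ A) := coeffMap_subA_injective A

theorem red_cross {x : LaurentSeries Q̄} {S E S' E' : LaurentSeries A}
    (h : x * sQ A E = sQ A S) (h' : x * sQ A E' = sQ A S') :
    sk A S * sk A E' = sk A S' * sk A E := by
  have h1 : S * E' = S' * E := sQ_injective A (by
    rw [map_mul, map_mul, ← h, ← h']; ring)
  rw [← map_mul, ← map_mul, h1]

/-- Ratios of `A`-series with a denominator nonzero modulo the place. -/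
def redRing : Subring (LaurentSeries Q̄) where
  carrier := {x | ∃ S E : LaurentSeries A, sk A E ≠ 0 ∧ x * sQ A E = sQ A S}
  one_mem' := ⟨1, 1, by simp, by simp⟩
  zero_mem' := ⟨0, 1, by simp, by simp⟩
  mul_mem' := by
    rintro x y ⟨S, E, hE, h⟩ ⟨S', E', hE', h'⟩
    refine ⟨S * S', E * E', by rw [map_mul]; exact mul_ne_zero hE hE', ?_⟩
    rw [map_mul, map_mul, ← h, ← h']; ring
  add_mem' := by
    rintro x y ⟨S, E, hE, h⟩ ⟨S', E', hE', h'⟩
    refine ⟨S * E' + S' * E, E * E', by rw [map_mul]; exact mul_ne_zero hE hE', ?_⟩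
    rw [map_add, map_mul, map_mul, map_mul, ← h, ← h']; ring
  neg_mem' := by
    rintro x ⟨S, E, hE, h⟩
    exact ⟨-S, E, hE, by rw [map_neg, neg_mul, h]⟩

theorem sQ_mem (S : LaurentSeries A) : sQ A S ∈ redRing A := ⟨S, 1, by simp, by simp⟩

/-- The reduction. -/
def redFun (x : redRing A) : LaurentSeries (ResidueField A) :=
  sk A x.2.choose / sk A x.2.choose_spec.choose

theorem redFun_eq (x : redRing A) {S E : LaurentSeries A} (hE : sk A E ≠ 0)
    (h : (x : LaurentSeries Q̄) * sQ A E = sQ A S) : redFun A x = sk A S / sk A E := by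
  obtain ⟨hE', h'⟩ := x.2.choose_spec.choose_spec
  rw [redFun, div_eq_div_iff hE' hE]
  exact red_cross A h' h

theorem redFun_mul (a b : redRing A) : redFun A (a * b) = redFun A a * redFun A b := by
  obtain ⟨S, E, hE, h⟩ := a.2
  obtain ⟨S', E', hE', h'⟩ := b.2
  have hEE : sk A (E * E') ≠ 0 := by rw [map_mul]; exact mul_ne_zero hE hE'
  have hh : ((a * b : redRing A) : LaurentSeries Q̄) * sQ A (E * E') = sQ A (S * S') := by
    rw [MulMemClass.coe_mul, map_mul, map_mul, ← h, ← h', mul_mul_mul_comm]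
  rw [redFun_eq A (a * b) hEE hh, redFun_eq A a hE h, redFun_eq A b hE' h', map_mul, map_mul,
    div_mul_div_comm]

theorem redFun_add (a b : redRing A) : redFun A (a + b) = redFun A a + redFun A b := by
  obtain ⟨S, E, hE, h⟩ := a.2
  obtain ⟨S', E', hE', h'⟩ := b.2
  have hEE : sk A (E * E') ≠ 0 := by rw [map_mul]; exact mul_ne_zero hE hE'
  have hh : ((a + b : redRing A) : LaurentSeries Q̄) * sQ A (E * E') =
      sQ A (S * E' + S' * E) := by
    rw [AddMemClass.coe_add, map_add, map_mul, map_mul, map_mul, ← h, ← h', add_mul, mul_assoc,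
      mul_assoc, mul_comm (sQ A E') (sQ A E)]
  rw [redFun_eq A (a + b) hEE hh, redFun_eq A a hE h, redFun_eq A b hE' h', map_add, map_mul,
    map_mul, map_mul, div_add_div _ _ hE hE', mul_comm (sk A E) (sk A S')]

theorem redFun_one : redFun A 1 = 1 := by
  have hE : sk A 1 ≠ 0 := by rw [map_one]; exact one_ne_zero
  have h : ((1 : redRing A) : LaurentSeries Q̄) * sQ A 1 = sQ A 1 := by
    rw [OneMemClass.coe_one, one_mul]
  rw [redFun_eq A 1 hE h, div_self hE]

theorem redFun_zero : redFun A 0 = 0 := by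
  have hE : sk A 1 ≠ 0 := by rw [map_one]; exact one_ne_zero
  have h : ((0 : redRing A) : LaurentSeries Q̄) * sQ A 1 = sQ A 0 := by
    rw [ZeroMemClass.coe_zero, zero_mul, map_zero]
  rw [redFun_eq A 0 hE h, map_zero, zero_div]

/-- The reduction, as a ring homomorphism. -/
def redS : redRing A →+* LaurentSeries (ResidueField A) where
  toFun := redFun A
  map_one' := redFun_one A
  map_zero' := redFun_zero A
  map_mul' := redFun_mul A
  map_add' := redFun_add A

theorem redS_eq (x : redRing A) {S E : LaurentSeries A} (hE : sk A E ≠ 0)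
    (h : (x : LaurentSeries Q̄) * sQ A E = sQ A S) : redS A x = sk A S / sk A E :=
  redFun_eq A x hE h

theorem redS_mk {x : LaurentSeries Q̄} (hx : x ∈ redRing A) {S E : LaurentSeries A}
    (hE : sk A E ≠ 0) (h : x * sQ A E = sQ A S) : redS A ⟨x, hx⟩ = sk A S / sk A E :=
  redFun_eq A ⟨x, hx⟩ hE h

theorem redS_sQ (S : LaurentSeries A) : redS A ⟨sQ A S, sQ_mem A S⟩ = sk A S := by
  rw [redS_eq A _ (S := S) (E := 1) (by simp) (by simp)]; simp

section Stable

variable {A} (f : LaurentSeries Q̄ →+* LaurentSeries Q̄)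
  (g : LaurentSeries (ResidueField A) →+* LaurentSeries (ResidueField A))
  (hfg : ∀ S : LaurentSeries A, ∃ S', sQ A S' = f (sQ A S) ∧ sk A S' = g (sk A S))
include hfg

theorem map_mem_redRing {x : LaurentSeries Q̄} (hx : x ∈ redRing A) : f x ∈ redRing A := by
  obtain ⟨S, E, hE, h⟩ := hx
  obtain ⟨E', h1, h2⟩ := hfg E
  obtain ⟨S', h3, -⟩ := hfg S
  exact ⟨S', E', by rw [h2]; exact (map_ne_zero g).mpr hE, by rw [h1, h3, ← map_mul, h]⟩

theorem redS_map (x : redRing A) :
    redS A ⟨f (x : LaurentSeries Q̄), map_mem_redRing f g hfg x.2⟩ = g (redS A x) := by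
  obtain ⟨S, E, hE, h⟩ := x.2
  obtain ⟨E', h1, h2⟩ := hfg E
  obtain ⟨S', h3, h4⟩ := hfg S
  have hE' : sk A E' ≠ 0 := by rw [h2]; exact (map_ne_zero g).mpr hE
  have hh : f (x : LaurentSeries Q̄) * sQ A E' = sQ A S' := by rw [h1, h3, ← map_mul, h]
  rw [redS_eq A x hE h, map_div₀, ← h2, ← h4]
  exact redS_eq A ⟨f (x : LaurentSeries Q̄), map_mem_redRing f g hfg x.2⟩ hE' hh

end Stable

theorem qExpand_compat (d : ℕ) [NeZero d] (S : LaurentSeries A) :
    ∃ S', sQ A S' = qExpand Q̄ d (sQ A S) ∧ sk A S' = qExpand (ResidueField A) d (sk A S) :=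
  ⟨qExpand A d S, qExpand_coeffMap _ d S, qExpand_coeffMap _ d S⟩

theorem twist_compat {ℓ : ℕ} [Fact ℓ.Prime] (hA : A.LiesOverPrime ℓ) {ω : Q̄ˣ} (hω : ω ^ ℓ = 1)
    (S : LaurentSeries A) :
    ∃ S', sQ A S' = twist ω (sQ A S) ∧ sk A S' = RingHom.id _ (sk A S) := by
  haveI := GalRep.charP_residue (A := A) (Fact.out : ℓ.Prime) hA
  exact HasRed.iff_exists.mp ((HasRed.iff_exists.mpr ⟨S, rfl, rfl⟩).twist_root hω)

/-- A decomposition element on `A`. -/
def decA {σ : Q̄ ≃ₐ[ℚ] Q̄} (hσ : σ ∈ A.decompositionSubgroup ℚ) : A →+* A :=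
  ((σ : Q̄ →+* Q̄).comp A.subtype).codRestrict A.toSubring fun a =>
    Galois.apply_mem_of_mem_decomposition hσ a.2

/-- A decomposition element on the residue field. -/
def decK {σ : Q̄ ≃ₐ[ℚ] Q̄} (hσ : σ ∈ A.decompositionSubgroup ℚ) :
    ResidueField A →+* ResidueField A :=
  MulSemiringAction.toRingHom _ (ResidueField A) (⟨σ, hσ⟩ : A.decompositionSubgroup ℚ)

theorem residue_decA {σ : Q̄ ≃ₐ[ℚ] Q̄} (hσ : σ ∈ A.decompositionSubgroup ℚ) (a : A) :
    residue A (decA A hσ a) = decK A hσ (residue A a) :=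
  (Galois.residue_smul_eq hσ a).symm

theorem coeffMap_compat {σ : Q̄ ≃ₐ[ℚ] Q̄} (hσ : σ ∈ A.decompositionSubgroup ℚ)
    (S : LaurentSeries A) :
    ∃ S', sQ A S' = coeffMap (σ : Q̄ →+* Q̄) (sQ A S) ∧ sk A S' = coeffMap (decK A hσ) (sk A S) := by
  refine ⟨coeffMap (decA A hσ) S, ?_, ?_⟩
  · rw [sQ, coeffMap_coeffMap, coeffMap_coeffMap]
    rfl
  · rw [sk, coeffMap_coeffMap, coeffMap_coeffMap]
    exact coeffMap_congr (RingHom.ext (residue_decA A hσ)) S

/-! ## The basis -/

section Basis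

variable {A} {N : ℕ} [NeZero N] {ℓ : ℕ} [Fact ℓ.Prime]

theorem natCast_ne_zero_of_not_dvd (hA : A.LiesOverPrime ℓ) (hℓN : ¬ ℓ ∣ N) :
    (N : ResidueField A) ≠ 0 := by
  haveI := GalRep.charP_residue (A := A) (Fact.out : ℓ.Prime) hA
  exact fun h => hℓN ((CharP.cast_eq_zero_iff _ ℓ N).mp h)

theorem redIndependent_of_not_dvd (hA : A.LiesOverPrime ℓ) (hℓN : ¬ ℓ ∣ N) :
    RedIndependent (ResidueField A) N := by
  have hinj : Function.Injective qbarToC := qbarToC.injective
  let e := A.toSubring.equivMapOfInjective qbarToC hinj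
  let red : A.toSubring.map qbarToC →+* ResidueField A :=
    (residue A).comp (e.symm.toRingHom : A.toSubring.map qbarToC →+* A)
  have hred : Function.Surjective red := fun x => by
    obtain ⟨a, ha⟩ := residue_surjective x
    exact ⟨e a, (congrArg (residue A) (e.symm_apply_apply a)).trans ha⟩
  refine redIndependent_of N red hred ⟨fun ζ hζ => ?_, ?_⟩
    (natCast_ne_zero_of_not_dvd hA hℓN)
  · obtain ⟨y, hy⟩ := GalRep.exists_qbarToC_eq (x := ζ)
      (IsAlgebraic.of_pow (NeZero.pos N) (hζ ▸ isAlgebraic_one))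
    refine ⟨y, ?_, hy⟩
    have hyN : y ^ N = 1 := hinj (by rw [map_pow, hy, hζ, map_one])
    show y ∈ A
    refine (A.valuation_le_one_iff _).mp ((pow_le_one_iff_of_nonneg zero_le (NeZero.ne N)).mp ?_)
    rw [← map_pow, hyN, map_one]
  · have hu : IsUnit (N : A) := by
      by_contra hn
      apply natCast_ne_zero_of_not_dvd hA hℓN
      rw [← map_natCast (residue A), residue_eq_zero_iff]
      exact hn
    obtain ⟨u, hu⟩ := hu.exists_right_inv
    refine ⟨u, u.2, ?_⟩
    have h1 := congrArg (fun a : A => qbarToC (a : Q̄)) hu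
    simp only [MulMemClass.coe_mul, map_mul, OneMemClass.coe_one, map_one] at h1
    rw [show qbarToC (((N : A) : Q̄)) = (N : ℂ) by simp] at h1
    exact eq_inv_of_mul_eq_one_right h1

variable (A N) in
/-- The basis series. -/
def bSer (i : Fin (Gamma0 N).index) : LaurentSeries A := qExpand A N (jqModC A) ^ (i : ℕ)

theorem sk_aJ (P : Polynomial A) : sk A (aJ A P) = evJq (ResidueField A) (P.map (residue A)) :=
  coeffMap_aJ A (residue A) P

theorem sk_aJ_ne_zero {P : Polynomial A} (h : P.map (residue A) ≠ 0) : sk A (aJ A P) ≠ 0 :=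
  evJq_map_residue_ne_zero A h

theorem sQ_aJ (P : Polynomial A) : sQ A (aJ A P) = evJq Q̄ (P.map (subA A)) :=
  coeffMap_aJ A (subA A) P

theorem red_indep (hA : A.LiesOverPrime ℓ) (hℓN : ¬ ℓ ∣ N)
    (P : Fin (Gamma0 N).index → Polynomial A)
    (h : sk A (∑ i, aJ A (P i) * bSer A N i) = 0) (i : Fin (Gamma0 N).index) :
    (P i).map (residue A) = 0 := by
  refine congrFun (redIndependent_of_not_dvd hA hℓN (fun i => (P i).map (residue A)) ?_) i
  rw [← h, map_sum]
  refine Finset.sum_congr rfl fun b _ => ?_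
  rw [map_mul, sk_aJ, evJq_eq_jHom, bSer, map_pow, sk, qExpand_coeffMap,
    MCurve.coeffMap_jqModC]

theorem exists_primitive_coeffs {ι : Type*} [Fintype ι] (p : ι → Polynomial Q̄) {i₀ : ι}
    (hp : p i₀ ≠ 0) :
    ∃ (c : Q̄) (P : ι → Polynomial A), c ≠ 0 ∧ (∀ i, (P i).map (subA A) = Polynomial.C c * p i) ∧
      ∃ i, (P i).map (residue A) ≠ 0 := by
  classical
  obtain ⟨m₀, hm₀⟩ := Polynomial.support_nonempty.mpr hp
  obtain ⟨x, hx, hmax⟩ := Finset.exists_max_image
    ((Finset.univ : Finset ι).sigma fun i => (p i).support) (fun x => A.valuation ((p x.1).coeff x.2))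
    ⟨⟨i₀, m₀⟩, Finset.mem_sigma.mpr ⟨Finset.mem_univ _, hm₀⟩⟩
  obtain ⟨i, m⟩ := x
  have hi0 : (p i).coeff m ≠ 0 := Polynomial.mem_support_iff.mp (Finset.mem_sigma.mp hx).2
  have hle : ∀ a b, ((p i).coeff m)⁻¹ * (p a).coeff b ∈ A := fun a b => by
    by_cases hb : b ∈ (p a).support
    · rw [← A.valuation_le_one_iff, map_mul, map_inv₀]
      exact inv_mul_le_one_of_le₀ (hmax ⟨a, b⟩ (Finset.mem_sigma.mpr ⟨Finset.mem_univ _, hb⟩))
        zero_le
    · rw [Polynomial.notMem_support_iff.mp hb, mul_zero]; exact zero_mem A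
  have hP : ∀ a, ∃ P : Polynomial A, P.map (subA A) = Polynomial.C ((p i).coeff m)⁻¹ * p a :=
    fun a => (Polynomial.lifts_iff_coeff_lifts _).mpr fun b =>
      ⟨⟨_, hle a b⟩, (Polynomial.coeff_C_mul (p a)).symm⟩
  choose P hP using hP
  refine ⟨_, P, inv_ne_zero hi0, hP, i, fun h0 => ?_⟩
  have h1 : (P i).coeff m = 1 := Subtype.val_injective (by
    have := congrArg (fun r : Polynomial Q̄ => r.coeff m) (hP i)
    simpa [Polynomial.coeff_map, hi0] using this)
  have h2 := congrArg (fun r : Polynomial (ResidueField A) => r.coeff m) h0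
  simp [Polynomial.coeff_map, h1] at h2

end Basis

/-! ## Functions of the field -/

section Field

set_option maxHeartbeats 2000000
set_option synthInstance.maxHeartbeats 200000

variable {A} {N : ℕ} [NeZero N]

local notation "𝔽" => modularFunctionFieldBar N
local notation "K₀" => Q̄⟮jBar N Q̄⟯

theorem coe_jBar' : ((jBar N Q̄ : 𝔽) : LaurentSeries Q̄) = jqModC Q̄ :=
  letI : Algebra Q̄ ℂ := qbarToC.toAlgebra
  coe_jBar N Q̄

theorem coe_aeval_jBar (p : Polynomial Q̄) :
    ((Polynomial.aeval (jBar N Q̄) p : 𝔽) : LaurentSeries Q̄) = evJq Q̄ p := by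
  rw [evJq, ← IntermediateField.coe_val, ← Polynomial.aeval_algHom_apply, IntermediateField.coe_val,
    coe_jBar']

theorem exists_common {ι : Type*} [Fintype ι] (c : ι → K₀) :
    ∃ (D : Polynomial Q̄) (P : ι → Polynomial Q̄), D ≠ 0 ∧
      ∀ i, ((c i : 𝔽) : LaurentSeries Q̄) * evJq Q̄ D = evJq Q̄ (P i) := by
  classical
  have h : ∀ i, ∃ r p : Polynomial Q̄, r ≠ 0 ∧
      ((c i : 𝔽) : LaurentSeries Q̄) * evJq Q̄ r = evJq Q̄ p := fun i => by
    obtain ⟨p, r, hpr⟩ := (mem_adjoin_simple_iff Q̄ _).mp (c i).2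
    have hcoe : ((c i : 𝔽) : LaurentSeries Q̄) = evJq Q̄ p / evJq Q̄ r := by
      rw [hpr, ← coe_aeval_jBar (N := N), ← coe_aeval_jBar (N := N)]
      rfl
    rcases eq_or_ne r 0 with rfl | hr
    · exact ⟨1, 0, one_ne_zero, by rw [hcoe]; simp⟩
    · exact ⟨r, p, hr, by
        rw [hcoe, div_mul_cancel₀ _ ((map_ne_zero_iff _ (evJq_injective Q̄)).mpr hr)]⟩
  choose r p hr hrp using h
  refine ⟨∏ i, r i, fun i => p i * ∏ j ∈ Finset.univ.erase i, r j,
    Finset.prod_ne_zero_iff.mpr fun i _ => hr i, fun i => ?_⟩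
  rw [← Finset.mul_prod_erase _ _ (Finset.mem_univ i), map_mul, map_mul, ← mul_assoc, hrp]

variable {ℓ : ℕ} [Fact ℓ.Prime] (hA : A.LiesOverPrime ℓ) (hℓN : ¬ ℓ ∣ N)
include hA hℓN

omit hA hℓN in
theorem bSer_mem (i : Fin (Gamma0 N).index) : sQ A (bSer A N i) ∈ 𝔽 := by
  rw [bSer, map_pow, sQ, qExpand_coeffMap, MCurve.coeffMap_jqModC]
  exact pow_mem (genAlg_le_bar (Algebra.subset_adjoin (mem_divisorExpansionsC Q̄ N dvd_rfl))) _

variable (A N) in
omit hA hℓN in
/-- The basis functions. -/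
def bFun (i : Fin (Gamma0 N).index) : 𝔽 := ⟨_, bSer_mem (A := A) i⟩

theorem linearIndependent_bFun : LinearIndependent K₀ (bFun A N) := by
  rw [Fintype.linearIndependent_iff]
  intro c hc
  obtain ⟨D, P, hD, hP⟩ := exists_common c
  by_contra hne
  push Not at hne
  obtain ⟨i₀, hi₀⟩ := hne
  have hP0 : P i₀ ≠ 0 := fun h0 => hi₀ (Subtype.ext (Subtype.ext (by
    have := hP i₀
    rw [h0, map_zero, mul_eq_zero] at this
    exact this.resolve_right ((map_ne_zero_iff _ (evJq_injective Q̄)).mpr hD))))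
  obtain ⟨a, P', ha, hP', i₁, hi₁⟩ := exists_primitive_coeffs (A := A) P hP0
  refine hi₁ (red_indep hA hℓN P' ?_ i₁)
  suffices hz : ∑ i, aJ A (P' i) * bSer A N i = 0 by rw [hz, map_zero]
  apply sQ_injective A
  rw [map_zero, map_sum]
  have h1 : ∑ i, ((c i : 𝔽) : LaurentSeries Q̄) * sQ A (bSer A N i) = 0 := by
    have h2 := congrArg (modularFunctionFieldBar N).val hc
    rw [map_zero, map_sum] at h2
    exact h2
  calc ∑ i, sQ A (aJ A (P' i) * bSer A N i)
      = evJq Q̄ (Polynomial.C a * D) *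
          ∑ i, ((c i : 𝔽) : LaurentSeries Q̄) * sQ A (bSer A N i) := by
        rw [Finset.mul_sum]
        refine Finset.sum_congr rfl fun i _ => ?_
        rw [map_mul, sQ_aJ, hP', map_mul, map_mul, ← hP]
        ring
    _ = 0 := by rw [h1, mul_zero]

/-- The basis. -/
def bBasis : Module.Basis (Fin (Gamma0 N).index) K₀ 𝔽 :=
  letI : Algebra Q̄ ℂ := qbarToC.toAlgebra
  haveI : Nonempty (Fin (Gamma0 N).index) :=
    ⟨⟨0, Nat.pos_of_ne_zero Subgroup.FiniteIndex.index_ne_zero⟩⟩
  basisOfLinearIndependentOfCardEqFinrank (linearIndependent_bFun hA hℓN)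
    (by rw [Fintype.card_fin]; exact (bar_isFinOver_and_finrank N Q̄).2.symm)

theorem bBasis_apply (i : Fin (Gamma0 N).index) : bBasis hA hℓN i = bFun A N i := by
  simp [bBasis]

theorem exists_repr (x : 𝔽) :
    ∃ (D : Polynomial A) (P : Fin (Gamma0 N).index → Polynomial A),
      (D.map (residue A) ≠ 0 ∨ ∃ i, (P i).map (residue A) ≠ 0) ∧
      (∀ i, (((bBasis hA hℓN).repr x i : 𝔽) : LaurentSeries Q̄) * sQ A (aJ A D) =
        sQ A (aJ A (P i))) ∧
      (x : LaurentSeries Q̄) * sQ A (aJ A D) = sQ A (∑ i, aJ A (P i) * bSer A N i) := by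
  obtain ⟨D, P, hD, hP⟩ := exists_common fun i => (bBasis hA hℓN).repr x i
  obtain ⟨a, F, ha, hF, i₁, hi₁⟩ := exists_primitive_coeffs (A := A)
    (fun o : Option (Fin (Gamma0 N).index) => o.elim D P) (i₀ := none) hD
  have hcoord : ∀ i, (((bBasis hA hℓN).repr x i : 𝔽) : LaurentSeries Q̄) *
      sQ A (aJ A (F none)) = sQ A (aJ A (F (some i))) := fun i => by
    rw [sQ_aJ, sQ_aJ, hF, hF, map_mul, map_mul, mul_left_comm]
    exact congrArg _ (hP i)
  refine ⟨F none, fun i => F (some i), ?_, hcoord, ?_⟩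
  · rcases i₁ with _ | i
    · exact Or.inl hi₁
    · exact Or.inr ⟨i, hi₁⟩
  · have hx := congrArg (modularFunctionFieldBar N).val ((bBasis hA hℓN).sum_repr x)
    rw [map_sum] at hx
    rw [← IntermediateField.coe_val, ← hx, map_sum, Finset.sum_mul]
    refine Finset.sum_congr rfl fun i _ => ?_
    rw [map_mul, ← hcoord, bBasis_apply]
    show ((((bBasis hA hℓN).repr x i : 𝔽) : LaurentSeries Q̄) * sQ A (bSer A N i)) * _ = _
    ring

/-- The functions of the field form a valuation ring for the reduction. -/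
theorem mem_or_inv_red (x : 𝔽) : (x : LaurentSeries Q̄) ∈ redRing A ∨
    ∃ h : (x : LaurentSeries Q̄)⁻¹ ∈ redRing A, redS A ⟨(x : LaurentSeries Q̄)⁻¹, h⟩ = 0 := by
  obtain ⟨D, P, hor, -, hx⟩ := exists_repr hA hℓN x
  generalize hS' : ∑ i, aJ A (P i) * bSer A N i = S at hx
  by_cases hD : D.map (residue A) = 0
  swap
  · exact Or.inl ⟨S, aJ A D, sk_aJ_ne_zero hD, hx⟩
  right
  obtain ⟨i, hi⟩ := hor.resolve_left (not_not.mpr hD)
  have hS : sk A S ≠ 0 := fun h => hi (red_indep hA hℓN P (hS' ▸ h) i)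
  generalize (x : LaurentSeries Q̄) = y at hx ⊢
  have hy0 : y ≠ 0 := fun h0 => hS (by
    rw [h0, zero_mul, ← map_zero (sQ A)] at hx
    rw [← sQ_injective A hx, map_zero])
  have hinv : y⁻¹ * sQ A S = sQ A (aJ A D) := by rw [← hx, inv_mul_cancel_left₀ hy0]
  have hmem : y⁻¹ ∈ redRing A := ⟨aJ A D, S, hS, hinv⟩
  refine ⟨hmem, ?_⟩
  rw [redS_mk A hmem hS hinv, sk_aJ, hD, map_zero, zero_div]

theorem mem_red_of_integral {R : Type*} [CommRing R] (φ : R →+* LaurentSeries Q̄)
    (hφ : ∀ r, φ r ∈ redRing A) {x : 𝔽} (hx : φ.IsIntegralElem (x : LaurentSeries Q̄)) :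
    (x : LaurentSeries Q̄) ∈ redRing A := by
  by_contra hnot
  obtain ⟨h, h0⟩ := (mem_or_inv_red hA hℓN x).resolve_left hnot
  obtain ⟨p, hp, hpx⟩ := hx
  have hx0 : (x : LaurentSeries Q̄) ≠ 0 := fun hx0 => by
    have h1 : ((x : LaurentSeries Q̄)) ∈ redRing A := hx0 ▸ zero_mem _
    exact hnot h1
  let φ' : R →+* redRing A := φ.codRestrict _ hφ
  haveI : Invertible (x : LaurentSeries Q̄) := invertibleOfNonzero hx0
  have h1 : Polynomial.eval₂ φ ((x : LaurentSeries Q̄)⁻¹) p.reverse = 0 := by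
    have h2 := Polynomial.eval₂_reverse_mul_pow φ (x : LaurentSeries Q̄) p
    rw [hpx, mul_eq_zero, invOf_eq_inv] at h2
    exact h2.resolve_right (pow_ne_zero _ hx0)
  have h2 : Polynomial.eval₂ φ' ⟨_, h⟩ p.reverse = 0 := by
    apply Subtype.val_injective
    show (redRing A).subtype _ = _
    rw [Polynomial.hom_eval₂]
    exact h1
  have h3 := congrArg (redS A) h2
  rw [Polynomial.hom_eval₂, h0, Polynomial.eval₂_at_zero, Polynomial.coeff_zero_reverse,
    hp.leadingCoeff, map_one, map_zero] at h3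
  exact one_ne_zero h3

theorem exists_coord {x : 𝔽} (hx : (x : LaurentSeries Q̄) ∈ redRing A)
    (i : Fin (Gamma0 N).index) :
    ∃ h : (((bBasis hA hℓN).repr x i : 𝔽) : LaurentSeries Q̄) ∈ redRing A,
      redS A ⟨(x : LaurentSeries Q̄), hx⟩ = 0 →
        redS A ⟨(((bBasis hA hℓN).repr x i : 𝔽) : LaurentSeries Q̄), h⟩ = 0 := by
  obtain ⟨D, P, hor, hc, hxe⟩ := exists_repr hA hℓN x
  have hci := hc i
  generalize hS' : ∑ i, aJ A (P i) * bSer A N i = S at hxe
  generalize (((bBasis hA hℓN).repr x i : 𝔽) : LaurentSeries Q̄) = c at hci ⊢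
  generalize (x : LaurentSeries Q̄) = y at hxe hx ⊢
  have hD : D.map (residue A) ≠ 0 := fun hD => by
    obtain ⟨i, hi⟩ := hor.resolve_left (not_not.mpr hD)
    obtain ⟨S', E, hE, hSE⟩ := hx
    have h := red_cross A hxe hSE
    rw [sk_aJ D, hD, map_zero, mul_zero] at h
    exact hi (red_indep hA hℓN P (hS' ▸ (mul_eq_zero.mp h).resolve_right hE) i)
  have hE : sk A (aJ A D) ≠ 0 := sk_aJ_ne_zero hD
  have hmem : c ∈ redRing A := ⟨aJ A (P i), aJ A D, hE, hci⟩
  refine ⟨hmem, fun h0 => ?_⟩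
  rw [redS_mk A hx hE hxe, div_eq_zero_iff] at h0
  rw [redS_mk A hmem hE hci, sk_aJ (P i),
    red_indep hA hℓN P (hS' ▸ h0.resolve_right hE) i, map_zero, zero_div]

omit hA hℓN in
/-- The inclusion of the rational functions in `j` into series. -/
def ιJ : K₀ →+* LaurentSeries Q̄ :=
  ((modularFunctionFieldBar N).val : 𝔽 →+* LaurentSeries Q̄).comp (algebraMap K₀ 𝔽)

variable (A N) in
omit hA hℓN in
/-- The rational functions in `j` in the reduction ring. -/
def redJ : Subring K₀ := (redRing A).comap (ιJ (N := N))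

variable (A N) in
omit hA hℓN in
/-- Their reduction. -/
def redJHom : redJ A N →+* LaurentSeries (ResidueField A) :=
  (redS A).comp (((ιJ (N := N)).comp (redJ A N).subtype).codRestrict (redRing A) fun x => x.2)

theorem exists_charpoly {z : 𝔽} (hz : (z : LaurentSeries Q̄) ∈ redRing A) :
    ∃ p : Polynomial (redJ A N), p.map (redJ A N).subtype = minpoly K₀ z ∧ p.Monic ∧
      (redS A ⟨_, hz⟩ = 0 → p.map (redJHom A N) = Polynomial.X ^ p.natDegree) := by
  classical
  letI : Algebra Q̄ ℂ := qbarToC.toAlgebra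
  haveI : Module.Finite K₀ 𝔽 := (bar_isFinOver_and_finrank N Q̄).1.finite
  set B := bBasis hA hℓN
  have hb : ∀ b, ((z * B b : 𝔽) : LaurentSeries Q̄) ∈ redRing A := fun b => by
    rw [MulMemClass.coe_mul, bBasis_apply]
    exact mul_mem hz (sQ_mem A _)
  have hM : ∀ a b, ∃ m : redJ A N, (m : K₀) = Algebra.leftMulMatrix B z a b ∧
      (redS A ⟨_, hz⟩ = 0 → redJHom A N m = 0) := fun a b => by
    obtain ⟨h, h0⟩ := exists_coord hA hℓN (hb b) a
    refine ⟨⟨Algebra.leftMulMatrix B z a b, ?_⟩, rfl, fun hz0 => ?_⟩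
    · rw [Algebra.leftMulMatrix_eq_repr_mul]; exact h
    · refine Eq.trans ?_ (h0 ?_)
      · exact congrArg (redS A) (Subtype.ext (by
          show ιJ (N := N) (Algebra.leftMulMatrix B z a b) = _
          rw [Algebra.leftMulMatrix_eq_repr_mul]; rfl))
      · have : (⟨_, hb b⟩ : redRing A) = ⟨_, hz⟩ * ⟨_, sQ_mem A (bSer A N b)⟩ :=
          Subtype.ext (by rw [MulMemClass.coe_mul, bBasis_apply]; rfl)
        rw [this, map_mul, hz0, zero_mul]
  choose M hM hM0 using hM
  set q : Polynomial (redJ A N) := (Matrix.of M).charpoly with hq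
  have hqm : q.Monic := Matrix.charpoly_monic _
  have hqmap : q.map (redJ A N).subtype = (Algebra.leftMulMatrix B z).charpoly := by
    rw [hq, ← Matrix.charpoly_map]
    exact congrArg Matrix.charpoly (Matrix.ext hM)
  have hint : IsIntegral K₀ z := IsIntegral.of_finite K₀ z
  have hdvd : minpoly K₀ z ∣ q.map (redJ A N).subtype := by
    refine minpoly.dvd K₀ z (Algebra.leftMulMatrix_injective B ?_)
    rw [← Polynomial.aeval_algHom_apply, hqmap, Matrix.aeval_self_charpoly, map_zero]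
  obtain ⟨g, hg⟩ := hdvd
  have hgm : g.Monic := (minpoly.monic hint).of_mul_monic_left (hg ▸ hqm.map _)
  have hlift : ∀ p' : Polynomial K₀, p'.Monic → p' ∣ q.map (redJ A N).subtype →
      ∃ p : Polynomial (redJ A N), p.map (redJ A N).subtype = p' ∧ p.Monic := by
    intro p' hp' hdvd
    have hc : p' ∈ Polynomial.lifts (redJ A N).subtype :=
      (Polynomial.lifts_iff_coeff_lifts _).mpr fun i => by
        have hi : ((redJ A N).subtype).IsIntegralElem (p'.coeff i) :=
          Polynomial.isIntegral_coeff_of_dvd (R := redJ A N) q p' hqm hp' hdvd i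
        obtain ⟨r, hr, hr0⟩ := hi
        exact ⟨⟨_, mem_red_of_integral hA hℓN ((ιJ (N := N)).comp (redJ A N).subtype) (fun r => r.2)
          (x := (p'.coeff i : 𝔽)) ⟨r, hr, by
            rw [← map_zero (ιJ (N := N)), ← hr0, Polynomial.hom_eval₂]
            rfl⟩⟩, rfl⟩
    obtain ⟨p, hp, -, hpm⟩ := Polynomial.lifts_and_natDegree_eq_and_monic hc hp'
    exact ⟨p, hp, hpm⟩
  obtain ⟨p, hp, hpm⟩ := hlift _ (minpoly.monic hint) ⟨g, hg⟩
  obtain ⟨g', hg', hgm'⟩ := hlift g hgm ⟨_, hg.trans (mul_comm _ _)⟩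
  refine ⟨p, hp, hpm, fun hz0 => ?_⟩
  have hpq : p * g' = q := Polynomial.map_injective _ (redJ A N).subtype_injective
    (by rw [Polynomial.map_mul, hp, hg', hg])
  have hq0 : q.map (redJHom A N) = Polynomial.X ^ Fintype.card (Fin (Gamma0 N).index) := by
    rw [hq, ← Matrix.charpoly_map, show (Matrix.of M).map (redJHom A N) = 0 from
      Matrix.ext fun a b => hM0 a b hz0, Matrix.charpoly_zero]
  rw [← hpq, Polynomial.map_mul] at hq0
  obtain ⟨i, -, hi⟩ := (dvd_prime_pow Polynomial.prime_X _).mp ⟨_, hq0.symm⟩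
  have := Polynomial.eq_of_monic_of_associated (hpm.map _) (Polynomial.monic_X_pow i) hi
  rw [this]
  congr 1
  rw [← hpm.natDegree_map (redJHom A N), this, Polynomial.natDegree_X_pow]

end Field

/-! ## Charts -/

section Chart

set_option maxHeartbeats 2000000
set_option synthInstance.maxHeartbeats 200000

variable {A} {N : ℕ} [NeZero N]

local notation "𝔽" => modularFunctionFieldBar N

/-- A coordinate on the `j`-line with integral expansion and transcendental reduction. -/
structure ChartVar (A : ValuationSubring Q̄) (t : modularFunctionFieldBar N) where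
  T : LaurentSeries A
  coe_T : sQ A T = (t : LaurentSeries Q̄)
  red_inj : Function.Injective (Polynomial.aeval (R := ResidueField A) (sk A T))
  adjoin_eq : Q̄⟮t⟯ = Q̄⟮jBar N Q̄⟯

variable {t : modularFunctionFieldBar N} (hv : ChartVar A t)

/-- Evaluation of polynomials at the coordinate, in series. -/
def evT : Polynomial A →+* LaurentSeries A := Polynomial.eval₂RingHom HahnSeries.C hv.T

theorem sQ_evT (g : Polynomial A) :
    sQ A (evT hv g) = ((polyA A t g : 𝔽) : LaurentSeries Q̄) := by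
  refine RingHom.congr_fun (Polynomial.ringHom_ext (f := (sQ A).comp (evT hv))
    (g := ((modularFunctionFieldBar N).val : 𝔽 →+* LaurentSeries Q̄).comp (polyA A t))
    (fun a => ?_) ?_) g
  · simp only [RingHom.comp_apply, evT, Polynomial.coe_eval₂RingHom, Polynomial.eval₂_C, polyA_C]
    show coeffMap (subA A) (HahnSeries.single 0 a) = algebraMap Q̄ (LaurentSeries Q̄) (a : Q̄)
    rw [coeffMap_single, algebraMap_laurentSeries_eq_single]
    rfl
  · simp only [RingHom.comp_apply, evT, Polynomial.coe_eval₂RingHom, Polynomial.eval₂_X, polyA_X]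
    exact hv.coe_T

theorem sk_evT (g : Polynomial A) :
    sk A (evT hv g) = Polynomial.aeval (sk A hv.T) (g.map (residue A)) := by
  rw [evT, Polynomial.coe_eval₂RingHom, Polynomial.hom_eval₂, Polynomial.aeval_def,
    Polynomial.eval₂_map]
  congr 1
  refine RingHom.ext fun a => ?_
  rw [RingHom.comp_apply, RingHom.comp_apply, algebraMap_laurentSeries_eq_single]
  exact coeffMap_single _ 0 a

theorem polyA_mem_red (hv : ChartVar A t) (g : Polynomial A) :
    ((polyA A t g : 𝔽) : LaurentSeries Q̄) ∈ redRing A :=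
  sQ_evT hv g ▸ sQ_mem A _

theorem redS_polyA (g : Polynomial A) :
    redS A ⟨_, polyA_mem_red hv g⟩ = Polynomial.aeval (sk A hv.T) (g.map (residue A)) := by
  rw [show (⟨_, polyA_mem_red hv g⟩ : redRing A) = ⟨_, sQ_mem A (evT hv g)⟩ from
    Subtype.ext (sQ_evT hv g).symm, redS_sQ, sk_evT]

include hv in
theorem aeval_var_injective : Function.Injective (Polynomial.aeval (R := Q̄) t) := by
  rw [injective_iff_map_eq_zero]
  intro p hp
  by_contra hp0
  obtain ⟨c, P, hc, hP, hP0⟩ := exists_primitive A hp0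
  have h1 : ((polyA A t P : 𝔽) : LaurentSeries Q̄) = 0 := by
    show ((Polynomial.aeval t (P.map A.subtype) : 𝔽) : LaurentSeries Q̄) = 0
    rw [hP, map_mul, hp, mul_zero]
    rfl
  rw [← sQ_evT hv, ← map_zero (sQ A)] at h1
  refine hP0 ((map_eq_zero_iff _ hv.red_inj).mp ?_)
  rw [← sk_evT, sQ_injective A h1, map_zero]

variable {ℓ : ℕ} [Fact ℓ.Prime] (hA : A.LiesOverPrime ℓ) (hℓN : ¬ ℓ ∣ N)
include hA hℓN

/-- The relation defining a regular function with integral reduction. -/
theorem exists_chart_relation (hv : ChartVar A t) {z : 𝔽}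
    (hz : (z : LaurentSeries Q̄) ∈ redRing A)
    (hint : (Polynomial.aeval (R := Q̄) t).toRingHom.IsIntegralElem z) :
    ∃ p : Polynomial (Polynomial A), p.Monic ∧ p.eval₂ (polyA A t) z = 0 ∧
      (redS A ⟨_, hz⟩ = 0 →
        p.map (Polynomial.mapRingHom (residue A)) = Polynomial.X ^ p.natDegree) := by
  classical
  letI : Algebra Q̄ ℂ := qbarToC.toAlgebra
  haveI : Module.Finite Q̄⟮jBar N Q̄⟯ 𝔽 := (bar_isFinOver_and_finrank N Q̄).1.finite
  obtain ⟨p, hp, hpm, hp0⟩ := exists_charpoly hA hℓN hz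
  set t₀ : Q̄⟮jBar N Q̄⟯ := ⟨t, hv.adjoin_eq ▸ mem_adjoin_simple_self Q̄ t⟩
  letI algP : Algebra (Polynomial Q̄) Q̄⟮jBar N Q̄⟯ := (Polynomial.aeval t₀).toRingHom.toAlgebra
  have hcomp : (algebraMap Q̄⟮jBar N Q̄⟯ 𝔽).comp (Polynomial.aeval t₀).toRingHom =
      (Polynomial.aeval (R := Q̄) t).toRingHom := RingHom.ext fun g =>
    (Polynomial.aeval_algebraMap_apply 𝔽 t₀ g).symm
  obtain ⟨r, hr, hr0⟩ := hint
  have hdvd : minpoly Q̄⟮jBar N Q̄⟯ z ∣ r.map (algebraMap (Polynomial Q̄) Q̄⟮jBar N Q̄⟯) := by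
    refine minpoly.dvd _ z ?_
    rw [Polynomial.aeval_def, Polynomial.eval₂_map]
    show Polynomial.eval₂ ((algebraMap Q̄⟮jBar N Q̄⟯ 𝔽).comp (Polynomial.aeval t₀).toRingHom) z r = 0
    rw [hcomp]; exact hr0
  have hcoef : ∀ i, ∃ g : Polynomial A,
      polyA A t g = algebraMap Q̄⟮jBar N Q̄⟯ 𝔽 (p.coeff i : Q̄⟮jBar N Q̄⟯) := by
    intro i
    have hi : IsIntegral (Polynomial Q̄) ((p.coeff i : Q̄⟮jBar N Q̄⟯)) := by
      have := Polynomial.isIntegral_coeff_of_dvd r _ hr
        (minpoly.monic (IsIntegral.of_finite Q̄⟮jBar N Q̄⟯ z)) hdvd i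
      rwa [← hp, Polynomial.coeff_map] at this
    haveI : FaithfulSMul (Polynomial Q̄) Q̄⟮jBar N Q̄⟯ := by
      refine (faithfulSMul_iff_algebraMap_injective _ _).mpr fun a b hab => aeval_var_injective hv ?_
      show (Polynomial.aeval t).toRingHom a = (Polynomial.aeval t).toRingHom b
      rw [← hcomp]
      exact congrArg (algebraMap Q̄⟮jBar N Q̄⟯ 𝔽) hab
    haveI : IsFractionRing (Polynomial Q̄) Q̄⟮jBar N Q̄⟯ := by
      refine IsFractionRing.of_field _ _ fun c => ?_
      have hct : (c : 𝔽) ∈ Q̄⟮t⟯ := by rw [hv.adjoin_eq]; exact c.2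
      obtain ⟨a, b, hab⟩ := (mem_adjoin_simple_iff Q̄ _).mp hct
      refine ⟨a, b, Subtype.ext ?_⟩
      show (c : 𝔽) = algebraMap Q̄⟮jBar N Q̄⟯ 𝔽 ((Polynomial.aeval t₀).toRingHom a /
        (Polynomial.aeval t₀).toRingHom b)
      rw [map_div₀, ← RingHom.comp_apply, ← RingHom.comp_apply, hcomp]
      exact hab
    obtain ⟨g, hg⟩ := IsIntegrallyClosed.isIntegral_iff.mp hi
    have hgv : Polynomial.aeval t g = algebraMap Q̄⟮jBar N Q̄⟯ 𝔽 (p.coeff i : Q̄⟮jBar N Q̄⟯) := by
      rw [← hg]; exact (RingHom.congr_fun hcomp g).symm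
    rcases eq_or_ne g 0 with rfl | hg0
    · exact ⟨0, by rw [map_zero, ← hgv, map_zero]⟩
    obtain ⟨c, G, hc, hG, hG0⟩ := exists_primitive A hg0
    have hGv : polyA A t G = algebraMap Q̄ 𝔽 c * Polynomial.aeval t g := by
      show Polynomial.aeval t (G.map A.subtype) = _
      rw [hG, map_mul, Polynomial.aeval_C]
    by_cases hcu : c⁻¹ ∈ A
    · refine ⟨Polynomial.C ⟨c⁻¹, hcu⟩ * G, ?_⟩
      rw [map_mul, hGv, polyA_C, ← mul_assoc, ← map_mul, ← hgv]
      show algebraMap Q̄ 𝔽 (c⁻¹ * c) * _ = _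
      rw [inv_mul_cancel₀ hc, map_one, one_mul]
    · exfalso
      have hcA : c ∈ A := (A.mem_or_inv_mem c).resolve_right hcu
      have hres : residue A ⟨c, hcA⟩ = 0 := by
        rw [residue_eq_zero_iff, mem_maximalIdeal, mem_nonunits_iff]
        intro hu
        obtain ⟨u, hu⟩ := hu.exists_right_inv
        exact hcu (inv_eq_of_mul_eq_one_right (congrArg Subtype.val hu) ▸ u.2)
      have hmem : ((Polynomial.aeval t g : 𝔽) : LaurentSeries Q̄) ∈ redRing A := by
        rw [hgv]; exact (p.coeff i).2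
      have heq : (⟨_, polyA_mem_red hv G⟩ : redRing A) =
          ⟨_, polyA_mem_red hv (Polynomial.C ⟨c, hcA⟩)⟩ * ⟨_, hmem⟩ := Subtype.ext (by
        show ((polyA A t G : 𝔽) : LaurentSeries Q̄) = _
        exact (congrArg Subtype.val hGv).trans (congrArg
          (fun u : 𝔽 => (u : LaurentSeries Q̄) * ((Polynomial.aeval t g : 𝔽) : LaurentSeries Q̄))
          (polyA_C A t ⟨c, hcA⟩).symm))
      have h1 := congrArg (redS A) heq
      rw [map_mul, redS_polyA hv G, redS_polyA hv (Polynomial.C ⟨c, hcA⟩), Polynomial.map_C, hres, Polynomial.C_0, map_zero,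
        zero_mul] at h1
      exact hG0 ((map_eq_zero_iff _ hv.red_inj).mp h1)
  choose g hg using hcoef
  have hgd : g p.natDegree = 1 := by
    have h1 := hg p.natDegree
    rw [hpm.coeff_natDegree, OneMemClass.coe_one, map_one] at h1
    refine Polynomial.map_injective A.subtype Subtype.val_injective (aeval_var_injective hv ?_)
    rw [Polynomial.map_one, map_one]
    exact h1
  set q : Polynomial (Polynomial A) := ∑ i ∈ Finset.range (p.natDegree + 1),
    Polynomial.monomial i (g i) with hq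
  have hqc : ∀ i, q.coeff i = if i ≤ p.natDegree then g i else 0 := fun i => by
    simp [hq, Polynomial.finsetSum_coeff, Polynomial.coeff_monomial, Nat.lt_succ_iff]
  have hqdeg : q.natDegree = p.natDegree := by
    refine le_antisymm (Polynomial.natDegree_le_iff_coeff_eq_zero.mpr fun m hm => ?_)
      (Polynomial.le_natDegree_of_ne_zero ?_)
    · rw [hqc, if_neg (by omega)]
    · rw [hqc, if_pos le_rfl, hgd]; exact one_ne_zero
  have hqm : q.Monic := by
    rw [Polynomial.Monic, Polynomial.leadingCoeff, hqdeg, hqc, if_pos le_rfl, hgd]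
  have hqev : q.eval₂ (polyA A t) z = 0 := by
    have h := minpoly.aeval Q̄⟮jBar N Q̄⟯ z
    rw [← hp, Polynomial.aeval_def, Polynomial.eval₂_map,
      Polynomial.eval₂_eq_sum_range' _ (lt_add_one p.natDegree)] at h
    rw [hq, Polynomial.eval₂_finsetSum, ← h]
    refine Finset.sum_congr rfl fun i _ => ?_
    rw [Polynomial.eval₂_monomial, hg]
    rfl
  refine ⟨q, hqm, hqev, fun hz0 => Polynomial.ext fun i => ?_⟩
  rw [hqdeg, Polynomial.coeff_map, Polynomial.coeff_X_pow, Polynomial.coe_mapRingHom, hqc]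
  rcases lt_trichotomy i p.natDegree with h | h | h
  · rw [if_pos h.le, if_neg h.ne]
    have h1 := congrArg (fun r => Polynomial.coeff r i) (hp0 hz0)
    simp only [Polynomial.coeff_map, Polynomial.coeff_X_pow, if_neg h.ne] at h1
    refine (map_eq_zero_iff _ hv.red_inj).mp ?_
    rw [← redS_polyA hv, ← h1]
    exact congrArg (redS A) (Subtype.ext (congrArg (fun u : 𝔽 => (u : LaurentSeries Q̄)) (hg i)))
  · rw [if_pos h.le, if_pos h, h, hgd, Polynomial.map_one]
  · rw [if_neg (by omega), if_neg h.ne', Polynomial.map_zero]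

theorem mem_chart_of_red (hv : ChartVar A t) {z : 𝔽} (hz : (z : LaurentSeries Q̄) ∈ redRing A)
    (hint : (Polynomial.aeval (R := Q̄) t).toRingHom.IsIntegralElem z) : z ∈ chart A t := by
  obtain ⟨p, hp, hpz, -⟩ := exists_chart_relation hA hℓN hv hz hint
  exact ⟨p, hp, hpz⟩

theorem chart_mem_red (hv : ChartVar A t) {z : 𝔽} (hz : z ∈ chart A t) :
    (z : LaurentSeries Q̄) ∈ redRing A := by
  obtain ⟨p, hp, hpz⟩ := hz
  refine mem_red_of_integral hA hℓN
    (((modularFunctionFieldBar N).val : 𝔽 →+* LaurentSeries Q̄).comp (polyA A t))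
    (fun g => polyA_mem_red hv g) ⟨p, hp, ?_⟩
  rw [← map_zero ((modularFunctionFieldBar N).val : 𝔽 →+* LaurentSeries Q̄), ← hpz,
    Polynomial.hom_eval₂]
  rfl

/-- The reduced expansion on a chart. -/
def redExpC (hv : ChartVar A t) : chart A t →+* LaurentSeries (ResidueField A) :=
  (redS A).comp ((((modularFunctionFieldBar N).val : 𝔽 →+* LaurentSeries Q̄).comp
    (chart A t).subtype).codRestrict (redRing A) fun z => chart_mem_red hA hℓN hv z.2)

/-- Functions of a chart with vanishing reduced expansion have value zero at every place of it. -/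
theorem cval_eq_zero (hv : ChartVar A t) (P : Place Q̄ 𝔽) [Module.Finite Q̄ P.ResidueField]
    (ht : IsIntAt A P t) {z : chart A t} (hz : redExpC hA hℓN hv z = 0) : cval A P t ht z = 0 := by
  obtain ⟨p, hp, hpz, hp0⟩ := exists_chart_relation hA hℓN hv (chart_mem_red hA hℓN hv z.2)
    (by
      obtain ⟨p, hp, hpz⟩ := z.2
      refine ⟨p.map (Polynomial.mapRingHom A.subtype), hp.map _, ?_⟩
      rw [Polynomial.eval₂_map]
      exact hpz)
  set φ : Polynomial A →+* chart A t := (polyA A t).codRestrict _ (polyA_mem_chart A t)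
  have h1 : Polynomial.eval₂ φ z p = 0 := by
    apply Subtype.val_injective
    show (chart A t).subtype _ = _
    rw [Polynomial.hom_eval₂]
    exact hpz
  have h2 := congrArg (cval A P t ht) h1
  rw [Polynomial.hom_eval₂, map_zero] at h2
  have hφ : (cval A P t ht).comp φ = (Polynomial.evalRingHom
      (cval A P t ht ⟨t, self_mem_chart A t⟩)).comp (Polynomial.mapRingHom (residue A)) := by
    refine Polynomial.ringHom_ext (fun a => ?_) ?_
    · simp only [RingHom.comp_apply, Polynomial.coe_mapRingHom, Polynomial.map_C,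
        Polynomial.coe_evalRingHom, Polynomial.eval_C, cval_apply]
      refine congrArg (residue A) (Subtype.ext ?_)
      refine Eq.trans (congrArg (placeVal P) (Subtype.ext ?_))
        (placeVal_algebraMap P (a : Q̄))
      exact polyA_C A t a
    · simp only [RingHom.comp_apply, Polynomial.coe_mapRingHom, Polynomial.map_X,
        Polynomial.coe_evalRingHom, Polynomial.eval_X]
      exact congrArg _ (Subtype.ext (polyA_X A t))
  rw [hφ, ← Polynomial.eval₂_map, hp0 hz, Polynomial.eval₂_X_pow] at h2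
  exact eq_zero_of_pow_eq_zero h2

theorem cval_congr (hv : ChartVar A t) (P : Place Q̄ 𝔽) [Module.Finite Q̄ P.ResidueField]
    (ht : IsIntAt A P t) {y z : chart A t} (h : redExpC hA hℓN hv y = redExpC hA hℓN hv z) :
    cval A P t ht y = cval A P t ht z :=
  sub_eq_zero.mp (by rw [← map_sub]; exact cval_eq_zero hA hℓN hv P ht (by rw [map_sub, h, sub_self]))

end Chart

end Fermat.Agent.MCurve.Spec
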