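import Fermat.Agent.MCurve.Spec.CharPoly
import Fermat.Agent.MCurve.HeckeInputs
import Fermat.Prelude.Def_ModularCurve_HeckeOperator

/-!
The congruence relation on centres of places, and their invariance under inertia.
-/

set_option autoImplicit false

set_option linter.style.haveILetI false
set_option linter.unusedSectionVars false
set_option maxHeartbeats 1000000
set_option synthInstance.maxHeartbeats 400000

noncomputable section

namespace Fermat.Agent.MCurve.Spec

open AlgebraicCurve ModularCurve IsLocalRing IntermediateField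
open Fermat.Agent.GalRep (qbarToC twist)

local notation "Q̄" => AlgebraicClosure ℚ

variable (N : ℕ) [NeZero N] {ℓ : ℕ} [Fact ℓ.Prime] {A : ValuationSubring Q̄}
  [∀ P : Place Q̄ (modularFunctionFieldBar N), Module.Finite Q̄ P.ResidueField]

/-- An inertia element does not move the centres. -/
theorem cen_inertia (hℓN : ¬ ℓ ∣ N) (hA : A.LiesOverPrime ℓ) {τ : Q̄ ≃ₐ[ℚ] Q̄}
    (hτ : τ ∈ A.inertiaSubgroupIn ℚ) (P : Place Q̄ (modularFunctionFieldBar N)) :
    cen A (arithmeticGalois (modularFunctionFieldFull N) τ • P) (jBar N Q̄) =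
      cen A P (jBar N Q̄) := by
  obtain ⟨τ', hτ', rfl⟩ := hτ
  have hid : ∀ x, decK A τ'.2 x = x := fun x => RingEquiv.congr_fun (MonoidHom.mem_ker.1 hτ') x
  set P' := arithmeticGalois (modularFunctionFieldFull N) (τ' : Q̄ ≃ₐ[ℚ] Q̄) • P
  have hiff : IsIntAt A P' (jBar N Q̄) ↔ IsIntAt A P (jBar N Q̄) :=
    isIntAt_gal_iff τ'.2 (galA_jBar _) P
  by_cases h : IsIntAt A P (jBar N Q̄)
  · have h' := hiff.mpr h
    refine (cen_of_isIntAt A _ h').trans (Eq.trans ?_ (cen_of_isIntAt A _ h).symm)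
    exact congrArg Sum.inl
      (cval_inertia hA hℓN (chartVarJ A) τ'.2 hid (galA_jBar _) P h h')
  · have h' : ¬ IsIntAt A P' (jBar N Q̄) := fun h'' => h (hiff.mp h'')
    refine (cen_of_not A _ h').trans (Eq.trans ?_ (cen_of_not A _ h).symm)
    exact congrArg Sum.inr
      (cval_inertia hA hℓN (chartVarInv A) τ'.2 hid (galA_jBar_inv _) P (isIntAt_inv h)
        (isIntAt_inv h'))

variable {N}

theorem smul_map_inv_smul {G H X : Type*} [Group G] [Group H] [MulAction H X] (f : G →* H) (g : G)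
    (x : X) : f g • f g⁻¹ • x = x := by rw [map_inv, smul_inv_smul]

/-- Frobenius and its inverse on centres. -/
theorem cval_gal_frob {t : modularFunctionFieldBar N} (htg : ∀ σ : Q̄ ≃ₐ[ℚ] Q̄, galA σ t = t)
    {σ : Q̄ ≃ₐ[ℚ] Q̄} (hσ : A.IsFrobeniusAt σ ℓ) (P : Place Q̄ (modularFunctionFieldBar N))
    (hP : IsIntAt A P t) (hP₁ : IsIntAt A (arithmeticGalois (modularFunctionFieldFull N) σ • P) t)
    (hP₂ : IsIntAt A (arithmeticGalois (modularFunctionFieldFull N) σ⁻¹ • P) t) (y : chart A t) :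
    cval A P t hP (galC hσ.choose (htg σ) y) = cval A _ t hP₂ y ^ ℓ ∧
      cval A P t hP (galC (inv_mem hσ.choose) (htg σ⁻¹) y) ^ ℓ = cval A _ t hP₁ y := by
  have hd := hσ.choose
  have hFr : ∀ x, decK A hd x = x ^ ℓ := hσ.choose_spec
  constructor
  · have hPP := smul_map_inv_smul (arithmeticGalois (modularFunctionFieldFull N)) σ P
    have key : ∀ (R : Place Q̄ (modularFunctionFieldBar N)), R = P → ∀ (h : IsIntAt A R t),
        cval A P t hP (galC hσ.choose (htg σ) y) = cval A R t h (galC hσ.choose (htg σ) y) := by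
      rintro R rfl h; rfl
    have hP' : IsIntAt A (arithmeticGalois (modularFunctionFieldFull N) σ •
        (arithmeticGalois (modularFunctionFieldFull N) σ⁻¹ • P)) t :=
      (isIntAt_gal_iff hd (htg σ) _).mpr hP₂
    exact (key _ hPP hP').trans ((cval_gal hd (htg σ) _ hP₂ hP' y).trans (hFr _))
  · refine (hFr _).symm.trans ((cval_gal hd (htg σ) P hP hP₁ _).symm.trans ?_)
    exact congrArg _ (Subtype.ext (galA_galA_inv σ (y : modularFunctionFieldBar N)))

/-! ## The reduced characteristic polynomial -/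

section Reduced

variable (hA : A.LiesOverPrime ℓ) (hℓN : ¬ ℓ ∣ N)
include hA hℓN

/-- A chart inside the reduction ring. -/
def toR {t : modularFunctionFieldBar N} (hv : ChartVar A t) : chart A t →+* redRing A :=
  (((modularFunctionFieldBar N).val : modularFunctionFieldBar N →+* LaurentSeries Q̄).comp
    (chart A t).subtype).codRestrict (redRing A) fun z => chart_mem_red hA hℓN hv z.2

omit hA hℓN in
theorem pow_eq_qExpand {σ : Q̄ ≃ₐ[ℚ] Q̄} (hA : A.LiesOverPrime ℓ) [NeZero ℓ]
    (hσ : A.IsFrobeniusAt σ ℓ) (x : LaurentSeries (ResidueField A)) :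
    x ^ ℓ = qExpand (ResidueField A) ℓ (coeffMap (decK A hσ.choose) x) := by
  haveI := GalRep.charP_residue (A := A) (Fact.out : ℓ.Prime) hA
  rw [GalRep.pow_char_eq_expand (ℓ := ℓ) x, qExpand_eq_expand]
  refine congrArg _ (HahnSeries.ext (funext fun m => ?_))
  exact (hσ.choose_spec (x.coeff m)).symm

variable [NeZero ℓ] (hc : Nat.Coprime ℓ N) {ζ : Q̄ˣ} (hζ : IsPrimitiveRoot ζ ℓ)
  [Algebra (modularFunctionFieldBar N) (modularFunctionFieldBar (N * ℓ))]
  [FiniteDimensional (modularFunctionFieldBar N) (modularFunctionFieldBar (N * ℓ))]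
  (hβ : ∀ x, algebraMap (modularFunctionFieldBar N) (modularFunctionFieldBar (N * ℓ)) x =
    heckeBetaBar Q̄ N ℓ x)
  (hn : Module.finrank (modularFunctionFieldBar N) (modularFunctionFieldBar (N * ℓ)) = ℓ + 1)
include hc hζ hβ hn

/-- The reduction of the characteristic polynomial of a scaled image. -/
theorem exists_charpoly_redC {t : modularFunctionFieldBar N} (hv : ChartVar A t)
    (htg : ∀ σ : Q̄ ≃ₐ[ℚ] Q̄, galA σ t = t) {σ : Q̄ ≃ₐ[ℚ] Q̄} (hσ : A.IsFrobeniusAt σ ℓ)
    (s y : chart A t) (K : ℕ)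
    (hz : heckeBetaBar Q̄ N ℓ (s : modularFunctionFieldBar N) ^ K *
      heckeAlphaBar Q̄ N ℓ (y : modularFunctionFieldBar N) ∈ chart A (heckeBetaBar Q̄ N ℓ t)) :
    ∃ Q : Polynomial (chart A t), Q.map (chart A t).subtype =
        (Algebra.lmul (modularFunctionFieldBar N) (modularFunctionFieldBar (N * ℓ))
          (heckeBetaBar Q̄ N ℓ (s : modularFunctionFieldBar N) ^ K *
            heckeAlphaBar Q̄ N ℓ (y : modularFunctionFieldBar N))).charpoly ∧
      Q.map (redExpC hA hℓN hv) =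
        ((Polynomial.X ^ ℓ - Polynomial.C (s ^ (K * ℓ) * galC hσ.choose (htg σ) y)) *
          (Polynomial.X - Polynomial.C (s ^ K * galC (inv_mem hσ.choose) (htg σ⁻¹) y ^ ℓ))).map
          (redExpC hA hℓN hv) := by
  haveI := GalRep.charP_residue (A := A) (Fact.out : ℓ.Prime) hA
  haveI : CharP (LaurentSeries (ResidueField A)) ℓ :=
    (RingHom.charP_iff (HahnSeries.C : ResidueField A →+* LaurentSeries (ResidueField A))
      HahnSeries.C_injective ℓ).mp ‹_›
  set z := heckeBetaBar Q̄ N ℓ (s : modularFunctionFieldBar N) ^ K *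
      heckeAlphaBar Q̄ N ℓ (y : modularFunctionFieldBar N)
  -- the coefficients are on the chart
  have hzint : ((heckeBetaBar Q̄ N ℓ).toRingHom.comp (polyA A t)).IsIntegralElem z := by
    obtain ⟨p, hp, hpz⟩ := hz
    refine ⟨p, hp, (congrArg (fun f => Polynomial.eval₂ f z p) (RingHom.ext fun g => ?_)).trans hpz⟩
    exact map_polyA (heckeBetaBar Q̄ N ℓ) t g
  obtain ⟨Q, hQ, -, hQm⟩ := Polynomial.lifts_and_natDegree_eq_and_monic
    ((Polynomial.lifts_iff_coeff_lifts (f := (chart A t).subtype) _).mpr fun i =>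
      ⟨⟨_, isIntegralElem_coeff hc hζ hβ hn (polyA A t) hzint i⟩, rfl⟩)
    (LinearMap.charpoly_monic (Algebra.lmul (modularFunctionFieldBar N)
      (modularFunctionFieldBar (N * ℓ)) z))
  -- the roots in the reduction ring
  let qR : redRing A →+* redRing A := ((qExpand Q̄ ℓ).comp (redRing A).subtype).codRestrict
    (redRing A) fun x => map_mem_redRing _ _ (qExpand_compat A ℓ) x.2
  have hqR : ∀ x, redS A (qR x) = qExpand (ResidueField A) ℓ (redS A x) := fun x =>
    redS_map _ _ (qExpand_compat A ℓ) x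
  have hω : ∀ b : ℕ, (ζ ^ b) ^ ℓ = 1 := fun b => by
    rw [← pow_mul, mul_comm, pow_mul, hζ.pow_eq_one, one_pow]
  let tR : ℕ → (redRing A →+* redRing A) := fun b =>
    ((twist (ζ ^ b)).comp (redRing A).subtype).codRestrict (redRing A)
      fun x => map_mem_redRing _ _ (twist_compat A hA (hω b)) x.2
  have htR : ∀ b x, redS A (tR b x) = redS A x := fun b x =>
    redS_map _ _ (twist_compat A hA (hω b)) x
  let ι := toR hA hℓN hv
  let r : Option (Fin ℓ) → redRing A := fun o =>
    match o with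
    | none => qR (ι s) ^ K * qR (qR (ι y))
    | some b => qR (ι s) ^ K * tR b (ι y)
  have hr : ∀ o, (r o : LaurentSeries Q̄) = emb hc ζ o z := by
    intro o
    rw [show emb hc ζ o z = emb hc ζ o (heckeBetaBar Q̄ N ℓ (s : modularFunctionFieldBar N)) ^ K *
      emb hc ζ o (heckeAlphaBar Q̄ N ℓ (y : modularFunctionFieldBar N)) by rw [map_mul, map_pow],
      emb_beta hc hζ.pow_eq_one]
    rcases o with _ | b
    · rw [emb_alpha_none]
      simp only [r, MulMemClass.coe_mul, SubmonoidClass.coe_pow]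
      rfl
    · rw [emb_alpha_some]
      simp only [r, MulMemClass.coe_mul, SubmonoidClass.coe_pow]
      rfl
  have h1 : (Q.map (qR.comp ι)) = ∏ o, (Polynomial.X - Polynomial.C (r o)) := by
    apply Polynomial.map_injective (redRing A).subtype (redRing A).subtype_injective
    rw [Polynomial.map_map, Polynomial.map_prod,
      show ((redRing A).subtype.comp (qR.comp ι)) = (qE N ℓ).comp (chart A t).subtype from rfl,
      ← Polynomial.map_map, hQ]
    refine (map_charpoly hc hζ hβ hn z).trans ?_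
    refine Finset.prod_congr rfl fun o _ => ?_
    rw [Polynomial.map_sub, Polynomial.map_X, Polynomial.map_C]
    exact congrArg (fun a => Polynomial.X - Polynomial.C a) (hr o).symm
  have h2 : (Q.map (redExpC hA hℓN hv)).map (qExpand (ResidueField A) ℓ) =
      ∏ o, (Polynomial.X - Polynomial.C (redS A (r o))) := by
    have h := congrArg (Polynomial.map (redS A)) h1
    rw [Polynomial.map_map, Polynomial.map_prod] at h
    simp only [Polynomial.map_sub, Polynomial.map_X, Polynomial.map_C] at h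
    rw [← h, Polynomial.map_map]
    exact congrArg (fun f => Polynomial.map f Q) (RingHom.ext fun c => (hqR (ι c)).symm)
  -- the model
  have hd := hσ.choose
  set y₁ : chart A t := galC hd (htg σ) y
  set y₂ : chart A t := galC (inv_mem hd) (htg σ⁻¹) y
  set M : Polynomial (chart A t) :=
    (Polynomial.X ^ ℓ - Polynomial.C (s ^ (K * ℓ) * y₁)) *
      (Polynomial.X - Polynomial.C (s ^ K * y₂ ^ ℓ)) with hM
  have hred : Q.map (redExpC hA hℓN hv) = M.map (redExpC hA hℓN hv) := by
    apply Polynomial.map_injective _ (qExpand_injective (R := ResidueField A) ℓ)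
    rw [h2, Fintype.prod_option]
    set S := redExpC hA hℓN hv s with hS
    set Y := redExpC hA hℓN hv y with hY
    have hYι : redS A (ι y) = Y := rfl
    have hSι : redS A (ι s) = S := rfl
    have hnone : redS A (r none) = qExpand (ResidueField A) ℓ S ^ K *
        qExpand (ResidueField A) ℓ (qExpand (ResidueField A) ℓ Y) := by
      show redS A (qR (ι s) ^ K * qR (qR (ι y))) = _
      rw [map_mul, map_pow, hqR, hqR, hqR, hYι, hSι]
    have hsome : ∀ b, redS A (r (some b)) = qExpand (ResidueField A) ℓ S ^ K * Y := fun b => by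
      show redS A (qR (ι s) ^ K * tR b (ι y)) = _
      rw [map_mul, map_pow, hqR, htR, hYι, hSι]
    simp only [hnone, hsome, Finset.prod_const, Finset.card_univ, Fintype.card_fin]
    have hy₁ : qExpand (ResidueField A) ℓ (redExpC hA hℓN hv y₁) = Y ^ ℓ := by
      rw [redC_gal hA hℓN hv hd (htg σ), pow_eq_qExpand hA hσ Y]
    have hy₂ : redExpC hA hℓN hv y₂ ^ ℓ = qExpand (ResidueField A) ℓ Y := by
      rw [pow_eq_qExpand hA hσ, ← redC_gal hA hℓN hv hd (htg σ)]
      refine congrArg _ (congrArg _ (Subtype.ext ?_))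
      exact galA_galA_inv σ (y : modularFunctionFieldBar N)
    set qS := qExpand (ResidueField A) ℓ S with hqS
    have f₁ : qExpand (ResidueField A) ℓ (redExpC hA hℓN hv (s ^ (K * ℓ) * y₁)) =
        (qS ^ K * Y) ^ ℓ := by
      rw [map_mul, map_mul, map_pow, map_pow, ← hS, hy₁, ← hqS, mul_pow, ← pow_mul]
    have f₂ : qExpand (ResidueField A) ℓ (redExpC hA hℓN hv (s ^ K * y₂ ^ ℓ)) =
        qS ^ K * qExpand (ResidueField A) ℓ (qExpand (ResidueField A) ℓ Y) := by
      rw [map_mul (redExpC hA hℓN hv), map_pow (redExpC hA hℓN hv) y₂, hy₂, map_mul, map_pow, map_pow,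
        ← hS, ← hqS]
    rw [hM]
    simp only [Polynomial.map_mul, Polynomial.map_sub, Polynomial.map_pow, Polynomial.map_X,
      Polynomial.map_C]
    rw [f₁, f₂, Polynomial.C_pow, ← sub_pow_char]
    ring
  refine ⟨Q, hQ, ?_⟩
  exact hM ▸ hred

/-- The characteristic polynomial of a scaled image, reduced at a place of the chart. -/
theorem exists_reduced_charpoly {t : modularFunctionFieldBar N} (hv : ChartVar A t)
    (htg : ∀ σ : Q̄ ≃ₐ[ℚ] Q̄, galA σ t = t) {σ : Q̄ ≃ₐ[ℚ] Q̄} (hσ : A.IsFrobeniusAt σ ℓ)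
    (P : Place Q̄ (modularFunctionFieldBar N)) (hP : IsIntAt A P t)
    (hP₁ : IsIntAt A (arithmeticGalois (modularFunctionFieldFull N) σ • P) t)
    (hP₂ : IsIntAt A (arithmeticGalois (modularFunctionFieldFull N) σ⁻¹ • P) t)
    (s : chart A t) (hs : cval A P t hP s = 1) (y : chart A t) (K : ℕ)
    (hz : heckeBetaBar Q̄ N ℓ (s : modularFunctionFieldBar N) ^ K *
      heckeAlphaBar Q̄ N ℓ (y : modularFunctionFieldBar N) ∈ chart A (heckeBetaBar Q̄ N ℓ t)) :
    ∃ Q : Polynomial (chart A t), Q.map (chart A t).subtype =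
        (Algebra.lmul (modularFunctionFieldBar N) (modularFunctionFieldBar (N * ℓ))
          (heckeBetaBar Q̄ N ℓ (s : modularFunctionFieldBar N) ^ K *
            heckeAlphaBar Q̄ N ℓ (y : modularFunctionFieldBar N))).charpoly ∧
      Q.map (cval A P t hP) =
        (Polynomial.X - Polynomial.C (cval A _ t hP₁ y)) *
          (Polynomial.X - Polynomial.C (cval A _ t hP₂ y)) ^ ℓ := by
  haveI := GalRep.charP_residue (A := A) (Fact.out : ℓ.Prime) hA
  obtain ⟨Q, hQ, hred⟩ := exists_charpoly_redC hA hℓN hc hζ hβ hn hv htg hσ s y K hz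
  refine ⟨Q, hQ, ?_⟩
  generalize hM : (Polynomial.X ^ ℓ - Polynomial.C (s ^ (K * ℓ) * galC hσ.choose (htg σ) y)) *
    (Polynomial.X - Polynomial.C (s ^ K * galC (inv_mem hσ.choose) (htg σ⁻¹) y ^ ℓ)) = M at hred
  have hval : Q.map (cval A P t hP) = M.map (cval A P t hP) := Polynomial.ext fun i => by
    rw [Polynomial.coeff_map, Polynomial.coeff_map]
    refine cval_congr hA hℓN hv P hP ?_
    rw [← Polynomial.coeff_map, ← Polynomial.coeff_map, hred]
  obtain ⟨e₁, e₂⟩ := cval_gal_frob htg hσ P hP hP₁ hP₂ y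
  rw [hval, ← hM]
  simp only [Polynomial.map_mul, Polynomial.map_sub, Polynomial.map_pow, Polynomial.map_X,
    Polynomial.map_C, map_mul, map_pow, hs, one_pow, one_mul]
  rw [e₁, ← map_pow Polynomial.C (cval A P t hP (galC (inv_mem hσ.choose) (htg σ⁻¹) y)), e₂,
    Polynomial.C_1, one_pow, one_pow, one_mul, one_mul, Polynomial.C_pow, ← sub_pow_char, mul_comm]

end Reduced

/-! ## The fibre -/

theorem cval_const {t : modularFunctionFieldBar N} (P : Place Q̄ (modularFunctionFieldBar N))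
    (h : IsIntAt A P t) (a : A) :
    cval A P t h ⟨_, algebraMap_mem_chart A t a⟩ = residue A a := by
  rw [cval_apply]
  exact congrArg (residue A) (Subtype.ext (placeVal_algebraMap P (a : Q̄)))

/-- The centres along the fibre on one chart. -/
theorem sum_single_cval [NeZero ℓ] [HasPrincipalDivisors Q̄ (modularFunctionFieldBar (N * ℓ))]
    (hA : A.LiesOverPrime ℓ) (hℓN : ¬ ℓ ∣ N)
    (hα : HeckeAlphaBarIntegral Q̄ N ℓ) (hβ : HeckeBetaBarIntegral Q̄ N ℓ)
    {t : modularFunctionFieldBar N} (hv : ChartVar A t)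
    (htg : ∀ σ : Q̄ ≃ₐ[ℚ] Q̄, galA σ t = t) {σ : Q̄ ≃ₐ[ℚ] Q̄} (hσ : A.IsFrobeniusAt σ ℓ)
    (P : Place Q̄ (modularFunctionFieldBar N)) (hP : IsIntAt A P t)
    (hP₁ : IsIntAt A (arithmeticGalois (modularFunctionFieldFull N) σ • P) t)
    (hP₂ : IsIntAt A (arithmeticGalois (modularFunctionFieldFull N) σ⁻¹ • P) t)
    (s : chart A t) (hs : cval A P t hP s = 1)
    (hscale : ∀ y ∈ chart A t, ∃ K : ℕ, heckeBetaBar Q̄ N ℓ (s : modularFunctionFieldBar N) ^ K *
      heckeAlphaBar Q̄ N ℓ y ∈ chart A (heckeBetaBar Q̄ N ℓ t)) :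
    ∃ h : ∀ W ∈ Place.fiberAlong (heckeBetaBar Q̄ N ℓ) hβ P,
        IsIntAt A (W.restrictAlong (heckeAlphaBar Q̄ N ℓ) hα) t,
      (∀ y : chart A t, cval A _ t hP₁ y = 0 → cval A _ t hP₂ y = 0 →
        ∀ W (hW : W ∈ Place.fiberAlong (heckeBetaBar Q̄ N ℓ) hβ P), cval A _ t (h W hW) y = 0) ∧
      ∀ {C : Type} (G : (chart A t →+* ResidueField A) → C),
        ∑ W ∈ (Place.fiberAlong (heckeBetaBar Q̄ N ℓ) hβ P).attach,
          Finsupp.single (G (cval A _ t (h W.1 W.2)))
            ((W.1.ramificationIndexAlong (heckeBetaBar Q̄ N ℓ) : ℕ) : ℤ) =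
        Finsupp.single (G (cval A _ t hP₁)) (1 : ℤ) +
          Finsupp.single (G (cval A _ t hP₂)) (ℓ : ℤ) := by
  classical
  letI : Algebra Q̄ ℂ := qbarToC.toAlgebra
  have hc := coprime_of hℓN
  obtain ⟨ζ, hζ⟩ := exists_primitiveRoot (ℓ := ℓ)
  letI := algebraAlong (heckeBetaBar Q̄ N ℓ)
  haveI := isScalarTower_along (heckeBetaBar Q̄ N ℓ)
  have hn : Module.finrank (modularFunctionFieldBar N) (modularFunctionFieldBar (N * ℓ)) = ℓ + 1 :=
    finrankAlong_beta hc
  haveI : FiniteDimensional (modularFunctionFieldBar N) (modularFunctionFieldBar (N * ℓ)) :=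
    Module.finite_of_finrank_pos (by omega)
  haveI hres : ∀ w : Place Q̄ (modularFunctionFieldBar (N * ℓ)), Module.Finite Q̄ w.ResidueField :=
    (bar_isFinOver_and_finrank (N * ℓ) Q̄).1.finiteResidue
  have hs' : residue A (intVal A P ⟨(s : modularFunctionFieldBar N), chart_le_intRingAt hP s.2⟩) = 1 :=
    hs
  -- values at the images of the fibre
  have hkey : ∀ y : chart A t, ∃ hint : ∀ w : Fib (modularFunctionFieldBar (N * ℓ)) P,
      IsIntAt A (w.1.restrictAlong (heckeAlphaBar Q̄ N ℓ) hα) (y : modularFunctionFieldBar N),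
      ∏ w : Fib (modularFunctionFieldBar (N * ℓ)) P,
        (Polynomial.X - Polynomial.C (residue A
          (intVal A (w.1.restrictAlong (heckeAlphaBar Q̄ N ℓ) hα) ⟨_, hint w⟩))) ^
          w.1.ramificationIndex (modularFunctionFieldBar N) =
        (Polynomial.X - Polynomial.C (cval A _ t hP₁ y)) *
          (Polynomial.X - Polynomial.C (cval A _ t hP₂ y)) ^ ℓ := by
    intro y
    obtain ⟨K, hK⟩ := hscale y y.2
    obtain ⟨Q, hQ, hQ'⟩ := exists_reduced_charpoly hA hℓN hc hζ (fun _ => rfl) hn hv htg hσ P hP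
      hP₁ hP₂ s hs y K hK
    obtain ⟨a, ha, hprod⟩ := fibre_values P hP Q hQ
    have hsplit := fun w : Fib (modularFunctionFieldBar (N * ℓ)) P =>
      value_split (heckeBetaBar Q̄ N ℓ) (heckeAlphaBar Q̄ N ℓ) hβ hα w.1 P
        (Place.mem_fiberAlong.mp w.2) (chart_le_intRingAt hP s.2) hs' K (a w) (ha w)
    choose hint hres using hsplit
    refine ⟨hint, ?_⟩
    rw [← hQ', hprod]
    exact Finset.prod_congr rfl fun w _ => by rw [hres w]
  obtain ⟨hint, -⟩ := hkey ⟨t, self_mem_chart A t⟩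
  have hprod : ∀ y, ∏ w : Fib (modularFunctionFieldBar (N * ℓ)) P,
      (Polynomial.X - Polynomial.C (cval A _ t (hint w) y)) ^
        w.1.ramificationIndex (modularFunctionFieldBar N) =
      (Polynomial.X - Polynomial.C (cval A _ t hP₁ y)) *
        (Polynomial.X - Polynomial.C (cval A _ t hP₂ y)) ^ ℓ := fun y => by
    obtain ⟨h, hy⟩ := hkey y
    exact hy
  refine ⟨fun W hW => hint ⟨W, hW⟩, fun y hy₁ hy₂ W hW => ?_, fun {C} G => ?_⟩
  · have h := congrArg (Polynomial.eval (cval A _ t (hint ⟨W, hW⟩) y)) (hprod y)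
    rw [Polynomial.eval_prod, Finset.prod_eq_zero (i := (⟨W, hW⟩ : Fib _ P)) (Finset.mem_univ _)
      (by rw [Polynomial.eval_pow, Polynomial.eval_sub, Polynomial.eval_X, Polynomial.eval_C,
        sub_self, zero_pow (Place.ramificationIndex_pos (F := modularFunctionFieldBar N) W).ne']),
      hy₁, hy₂, map_zero, sub_zero, Polynomial.eval_mul, Polynomial.eval_X, Polynomial.eval_pow,
      Polynomial.eval_X, ← pow_succ', eq_comm] at h
    exact eq_zero_of_pow_eq_zero h
  haveI : IsAlgClosed (ResidueField A) := GalRep.Model.residue_isAlgClosed A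
  have hsum := sum_single_of_prod (fun a : A => (⟨_, algebraMap_mem_chart A t a⟩ : chart A t))
    (residue A) residue_surjective
    (fun w : Fib (modularFunctionFieldBar (N * ℓ)) P =>
      w.1.ramificationIndex (modularFunctionFieldBar N))
    (fun w => cval A _ t (hint w)) (cval A _ t hP₁) (cval A _ t hP₂) ℓ
    (fun w a => cval_const _ _ a) (cval_const _ _) (cval_const _ _) hprod G
  exact hsum

/-! ## The congruence -/

theorem heckeDivBar_single [NeZero ℓ] [HasPrincipalDivisors Q̄ (modularFunctionFieldBar (N * ℓ))]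
    (hα : HeckeAlphaBarIntegral Q̄ N ℓ) (hβ : HeckeBetaBarIntegral Q̄ N ℓ)
    (P : Place Q̄ (modularFunctionFieldBar N)) :
    heckeDivBar hα hβ (Finsupp.single P 1) =
      ∑ W ∈ Place.fiberAlong (heckeBetaBar Q̄ N ℓ) hβ P,
        Finsupp.single (W.restrictAlong (heckeAlphaBar Q̄ N ℓ) hα)
          ((W.ramificationIndexAlong (heckeBetaBar Q̄ N ℓ) : ℕ) : ℤ) := by
  letI : Algebra Q̄ ℂ := qbarToC.toAlgebra
  show Divisor.pushforwardAlong (heckeAlphaBar Q̄ N ℓ) hα
    (Divisor.pullbackAlong (heckeBetaBar Q̄ N ℓ) hβ (Finsupp.single P 1)) = _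
  refine (congrArg (Divisor.pushforwardAlong (heckeAlphaBar Q̄ N ℓ) hα)
    (Divisor.pullbackAlong_single (heckeBetaBar Q̄ N ℓ) hβ P 1)).trans ?_
  rw [map_sum]
  refine Finset.sum_congr rfl fun W _ => ?_
  have h₁ := (bar_isFinOver_and_finrank N Q̄).1
  have h₂ := (bar_isFinOver_and_finrank (N * ℓ) Q̄).1
  have hfin := finiteAlong_of_isFinOver h₁ h₂ (heckeAlphaBar Q̄ N ℓ)
  have hdeg : W.inertiaDegAlong (heckeAlphaBar Q̄ N ℓ) hα = 1 := by
    letI := algebraAlong (heckeAlphaBar Q̄ N ℓ)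
    haveI := isScalarTower_along (heckeAlphaBar Q̄ N ℓ)
    haveI : Module.Finite (modularFunctionFieldBar N) (modularFunctionFieldBar (N * ℓ)) := hfin
    exact inertiaDeg_eq_one h₁ h₂ W
  refine (Divisor.pushforwardAlong_single (heckeAlphaBar Q̄ N ℓ) hα W _).trans ?_
  rw [hdeg, Nat.cast_one, mul_one, one_mul]

variable (N)

/-- The congruence relation on centres. -/
theorem cen_correspondence [NeZero ℓ] [HasPrincipalDivisors Q̄ (modularFunctionFieldBar (N * ℓ))]
    (hα : HeckeAlphaBarIntegral Q̄ N ℓ) (hβ : HeckeBetaBarIntegral Q̄ N ℓ) (hℓN : ¬ ℓ ∣ N)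
    (hA : A.LiesOverPrime ℓ) {σ : Q̄ ≃ₐ[ℚ] Q̄} (hσ : A.IsFrobeniusAt σ ℓ)
    (P : Place Q̄ (modularFunctionFieldBar N)) :
    Finsupp.mapDomain (fun Q => cen A Q (jBar N Q̄)) (heckeDivBar hα hβ (Finsupp.single P 1)) =
      Finsupp.single (cen A (arithmeticGalois (modularFunctionFieldFull N) σ • P) (jBar N Q̄)) 1 +
      Finsupp.single (cen A (arithmeticGalois (modularFunctionFieldFull N) σ⁻¹ • P) (jBar N Q̄))
        (ℓ : ℤ) := by
  classical
  have hd := hσ.mem_decompositionSubgroup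
  have hsum : Finsupp.mapDomain (fun Q => cen A Q (jBar N Q̄))
      (heckeDivBar hα hβ (Finsupp.single P 1)) =
      ∑ W ∈ Place.fiberAlong (heckeBetaBar Q̄ N ℓ) hβ P,
        Finsupp.single (cen A (W.restrictAlong (heckeAlphaBar Q̄ N ℓ) hα) (jBar N Q̄))
          ((W.ramificationIndexAlong (heckeBetaBar Q̄ N ℓ) : ℕ) : ℤ) := by
    rw [heckeDivBar_single, Finsupp.mapDomain_finsetSum]
    exact Finset.sum_congr rfl fun W _ => Finsupp.mapDomain_single
  rw [hsum, ← Finset.sum_attach]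
  have hab := alpha_jBar_mem_chart (A := A) (N := N) hA hℓN
  by_cases h : IsIntAt A P (jBar N Q̄)
  · have hP₁ := (isIntAt_gal_iff hd (galA_jBar σ) P).mpr h
    have hP₂ := (isIntAt_gal_iff (inv_mem hd) (galA_jBar σ⁻¹) P).mpr h
    obtain ⟨hint, -, hG⟩ := sum_single_cval hA hℓN hα hβ (chartVarJ A) galA_jBar hσ P h hP₁ hP₂
      1 (map_one _) (fun y hy => ⟨0, by
        rw [pow_zero, one_mul]
        exact chart_le hab (map_mem_chart (heckeAlphaBar Q̄ N ℓ) hy)⟩)
    rw [cen_of_isIntAt A _ hP₁, cen_of_isIntAt A _ hP₂,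
      ← hG (C := (chart A (jBar N Q̄) →+* ResidueField A) ⊕
        (chart A (jBar N Q̄)⁻¹ →+* ResidueField A)) Sum.inl]
    exact Finset.sum_congr rfl fun W _ => by rw [cen_of_isIntAt A _ (hint W.1 W.2)]
  · have hP₁ : ¬ IsIntAt A _ (jBar N Q̄) := fun h' => h ((isIntAt_gal_iff hd (galA_jBar σ) P).mp h')
    have hP₂ : ¬ IsIntAt A _ (jBar N Q̄) :=
      fun h' => h ((isIntAt_gal_iff (inv_mem hd) (galA_jBar σ⁻¹) P).mp h')
    have hj0 : jBar N Q̄ ≠ 0 := fun h0 => by
      have h1 := aeval_var_injective (chartVarJ (N := N) A) (a₁ := Polynomial.X) (a₂ := 0)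
        (by rw [Polynomial.aeval_X, map_zero, h0])
      exact Polynomial.X_ne_zero h1
    obtain ⟨S, hS0, hS⟩ := exists_scale_inv ((map_ne_zero (heckeAlphaBar Q̄ N ℓ)).mpr hj0)
      ((map_ne_zero (heckeBetaBar Q̄ N ℓ)).mpr hj0) (beta_jBar_mem_chart (A := A) hA hℓN)
    rw [← map_inv₀, ← map_inv₀, ← map_polyA] at hS
    set u := (jBar N Q̄)⁻¹
    let s : chart A u := ⟨polyA A u S, polyA_mem_chart A u S⟩
    have hu0 := cval_inv_eq_zero A P h
    have hs : cval A P u (isIntAt_inv h) s = 1 := by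
      set φ : Polynomial A →+* chart A u := (polyA A u).codRestrict _ (polyA_mem_chart A u)
      have h1 : cval A P u (isIntAt_inv h) (φ S) = residue A (S.coeff 0) := by
        conv_lhs => rw [← S.X_mul_divX_add, map_add, map_mul, map_add, map_mul]
        rw [show φ Polynomial.X = ⟨u, self_mem_chart A u⟩ from Subtype.ext (polyA_X A u), hu0,
          zero_mul, zero_add, show φ (Polynomial.C (S.coeff 0)) =
            ⟨_, algebraMap_mem_chart A u (S.coeff 0)⟩ from Subtype.ext (polyA_C A u _), cval_const]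
      rw [hS0, map_one] at h1
      exact h1
    obtain ⟨hint, hzero, hG⟩ := sum_single_cval hA hℓN hα hβ (chartVarInv A) galA_jBar_inv hσ P
      (isIntAt_inv h) (isIntAt_inv hP₁) (isIntAt_inv hP₂) s hs (fun y hy =>
        exists_scale_pow (map_mem_chart (heckeBetaBar Q̄ N ℓ) s.2) hS
          (map_mem_chart (heckeAlphaBar Q̄ N ℓ) hy))
    have hnot : ∀ W (hW : W ∈ Place.fiberAlong (heckeBetaBar Q̄ N ℓ) hβ P),
        ¬ IsIntAt A (W.restrictAlong (heckeAlphaBar Q̄ N ℓ) hα) (jBar N Q̄) := by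
      intro W hW hj
      have h1 := hzero ⟨u, self_mem_chart A u⟩ (cval_inv_eq_zero A _ hP₁) (cval_inv_eq_zero A _ hP₂) W hW
      rw [cval_apply] at h1
      obtain ⟨ha, ha'⟩ := hj
      obtain ⟨hb, hb'⟩ := hint W hW
      have h2 : (⟨_, ha'⟩ : A) * ⟨_, hb'⟩ = 1 := Subtype.ext (by
        show placeVal _ ⟨_, ha⟩ * placeVal _ ⟨_, hb⟩ = 1
        rw [← map_mul]
        refine Eq.trans (congrArg (placeVal _) (Subtype.ext ?_)) (map_one _)
        exact mul_inv_cancel₀ hj0)
      have h3 := congrArg (residue A) h2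
      rw [map_mul, map_one] at h3
      exact zero_ne_one ((mul_zero _).symm.trans (h1 ▸ h3))
    rw [cen_of_not A _ hP₁, cen_of_not A _ hP₂,
      ← hG (C := (chart A (jBar N Q̄) →+* ResidueField A) ⊕
        (chart A (jBar N Q̄)⁻¹ →+* ResidueField A)) Sum.inr]
    exact Finset.sum_congr rfl fun W _ => by rw [cen_of_not A _ (hnot W.1 W.2)]

end Fermat.Agent.MCurve.Spec
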