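import Fermat.Agent.MCurve.Spec.Principal
import Fermat.Agent.Galois.Places
import Fermat.Prelude.Def_ModularCurve_HeckeModule

/-!
The specialisation of `J₀(N)` at a good prime, built from congruences of centres.
-/

set_option autoImplicit false

noncomputable section

namespace Fermat.Agent.MCurve.Spec

open AlgebraicCurve ModularCurve IsLocalRing
open scoped Pointwise

local notation "Q̄" => AlgebraicClosure ℚ

/-- Centres are unchanged by inertia. -/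
def InertiaCongr (N : ℕ) [NeZero N] (A : ValuationSubring Q̄) : Prop :=
  ∀ (_ : ∀ P : Place Q̄ (modularFunctionFieldBar N), Module.Finite Q̄ P.ResidueField),
  ∀ τ ∈ A.inertiaSubgroupIn ℚ, ∀ P : Place Q̄ (modularFunctionFieldBar N),
    cen A (arithmeticGalois (modularFunctionFieldFull N) τ • P) (jBar N Q̄) = cen A P (jBar N Q̄)

/-- The congruence of the Hecke correspondence on centres. -/
def HeckeCongr (N ℓ : ℕ) [NeZero N] [NeZero ℓ] (A : ValuationSubring Q̄) : Prop :=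
  ∀ (_ : ∀ P : Place Q̄ (modularFunctionFieldBar N), Module.Finite Q̄ P.ResidueField)
    [HasPrincipalDivisors Q̄ (modularFunctionFieldBar (N * ℓ))]
    (hα : HeckeAlphaBarIntegral Q̄ N ℓ) (hβ : HeckeBetaBarIntegral Q̄ N ℓ) (σ : Q̄ ≃ₐ[ℚ] Q̄),
    A.IsFrobeniusAt σ ℓ → ∀ P : Place Q̄ (modularFunctionFieldBar N),
    Finsupp.mapDomain (fun Q => cen A Q (jBar N Q̄)) (heckeDivBar hα hβ (Finsupp.single P 1)) =
      Finsupp.single (cen A (arithmeticGalois (modularFunctionFieldFull N) σ • P) (jBar N Q̄)) 1 +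
      Finsupp.single (cen A (arithmeticGalois (modularFunctionFieldFull N) σ⁻¹ • P) (jBar N Q̄))
        (ℓ : ℤ)

theorem finite_residue (N : ℕ) [NeZero N] (P : Place Q̄ (modularFunctionFieldBar N)) :
    Module.Finite Q̄ P.ResidueField := by
  letI : Algebra Q̄ ℂ := GalRep.qbarToC.toAlgebra
  exact (bar_isFinOver_and_finrank N Q̄).1.finiteResidue P

section Frob

variable {A : ValuationSubring Q̄} {ℓ : ℕ}

set_option maxHeartbeats 800000 in
theorem frobenius_inv_mul_mem {σ σ₀ : Q̄ ≃ₐ[ℚ] Q̄} (hσ : A.IsFrobeniusAt σ ℓ)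
    (hσ₀ : A.IsFrobeniusAt σ₀ ℓ) : σ₀⁻¹ * σ ∈ A.inertiaSubgroupIn ℚ := by
  obtain ⟨hd, hr⟩ := hσ
  obtain ⟨hd₀, hr₀⟩ := hσ₀
  refine ⟨⟨σ₀, hd₀⟩⁻¹ * ⟨σ, hd⟩, ?_, by rw [map_mul, map_inv]; rfl⟩
  rw [SetLike.mem_coe, ValuationSubring.inertiaSubgroup, MonoidHom.mem_ker]
  refine RingEquiv.ext fun r => ?_
  show ((⟨σ₀, hd₀⟩⁻¹ * ⟨σ, hd⟩ : A.decompositionSubgroup ℚ)) • r = r
  rw [mul_smul, hr, ← hr₀, inv_smul_smul]

theorem conj_mem_inertiaIn {σ τ : Q̄ ≃ₐ[ℚ] Q̄} (hσ : σ ∈ A.decompositionSubgroup ℚ)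
    (hτ : τ ∈ A.inertiaSubgroupIn ℚ) : σ * τ * σ⁻¹ ∈ A.inertiaSubgroupIn ℚ := by
  obtain ⟨τ', hτ', rfl⟩ := hτ
  have hN : (A.inertiaSubgroup ℚ).Normal := MonoidHom.normal_ker _
  let s : A.decompositionSubgroup ℚ := ⟨σ, hσ⟩
  refine ⟨s * τ' * s⁻¹, hN.conj_mem τ' hτ' s, ?_⟩
  have h1 : (Subgroup.subtype (A.decompositionSubgroup ℚ)) (s * τ' * s⁻¹) =
      σ * (τ' : Q̄ ≃ₐ[ℚ] Q̄) * σ⁻¹ := by
    simp only [Subgroup.coe_subtype, Subgroup.coe_mul, Subgroup.coe_inv, s]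
  exact h1

end Frob

variable (N : ℕ) [NeZero N] (A : ValuationSubring Q̄)
  [∀ P : Place Q̄ (modularFunctionFieldBar N), Module.Finite Q̄ P.ResidueField]

/-- Classes with a representative whose push forward to the centres vanishes. -/
def pushKer : AddSubgroup (JZero N) where
  carrier := {x | ∃ D : Divisor.degZero (K := Q̄) (F := modularFunctionFieldBar N), Pic0.mk D = x ∧
    Finsupp.mapDomain (fun P => cen A P (jBar N Q̄))
      (D : Divisor Q̄ (modularFunctionFieldBar N)) = 0}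
  add_mem' := by
    rintro _ _ ⟨D, rfl, hD⟩ ⟨E, rfl, hE⟩
    refine ⟨D + E, rfl, ?_⟩
    rw [AddSubgroup.coe_add, Finsupp.mapDomain_add, hD, hE, add_zero]
  zero_mem' := ⟨0, rfl, Finsupp.mapDomain_zero⟩
  neg_mem' := by
    rintro _ ⟨D, rfl, hD⟩
    refine ⟨-D, rfl, ?_⟩
    have h := map_neg (Finsupp.mapDomain.addMonoidHom (M := ℤ) fun P => cen A P (jBar N Q̄))
      (D : Divisor Q̄ (modularFunctionFieldBar N))
    simp only [Finsupp.mapDomain.addMonoidHom_apply] at h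
    rw [AddSubgroup.coe_neg, h, hD, neg_zero]

variable {N A}

theorem cen_congr {P P' : Place Q̄ (modularFunctionFieldBar N)} (h : P = P')
    (t : modularFunctionFieldBar N) : cen A P t = cen A P' t := by
  subst h; rfl

theorem eq_zero_of_mem_pushKer {ℓ : ℕ} [Fact ℓ.Prime] (hℓN : ¬ ℓ ∣ N) (hA : A.LiesOverPrime ℓ)
    {n : ℕ} (hn : ¬ ℓ ∣ n) {x : JZero N} (hx : x ∈ pushKer N A) (hnx : n • x = 0) : x = 0 := by
  obtain ⟨D, rfl, hD⟩ := hx
  have h1 : Divisor.IsPrincipal (n • (D : Divisor Q̄ (modularFunctionFieldBar N))) := by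
    have : n • D ∈ (Divisor.principal (K := Q̄) (F := modularFunctionFieldBar N)).addSubgroupOf _ := by
      rw [← QuotientAddGroup.eq_zero_iff, QuotientAddGroup.mk_nsmul]
      exact hnx
    simpa [AddSubgroup.mem_addSubgroupOf, Divisor.mem_principal] using this
  refine (QuotientAddGroup.eq_zero_iff _).mpr ?_
  rw [AddSubgroup.mem_addSubgroupOf]
  exact Divisor.mem_principal.mpr (isPrincipal_of_push hℓN hA hn hD h1)

theorem inertia_mem_pushKer (hI : InertiaCongr N A) {τ : Q̄ ≃ₐ[ℚ] Q̄}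
    (hτ : τ ∈ A.inertiaSubgroupIn ℚ) (x : JZero N) : τ • x - x ∈ pushKer N A := by
  obtain ⟨D, rfl⟩ := Pic0.mk_surjective x
  refine ⟨SemilinearAut.degZeroSMulHom (arithmeticGalois (modularFunctionFieldFull N) τ) D - D,
    rfl, ?_⟩
  rw [AddSubgroup.coe_sub, SemilinearAut.coe_degZeroSMulHom, SemilinearAut.divisor_smul_def]
  have h := map_sub (Finsupp.mapDomain.addMonoidHom (M := ℤ) fun P => cen A P (jBar N Q̄))
  simp only [Finsupp.mapDomain.addMonoidHom_apply] at h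
  rw [h, sub_eq_zero, ← Finsupp.mapDomain_comp]
  exact Finsupp.mapDomain_congr fun P _ => hI inferInstance τ hτ P

set_option maxHeartbeats 1000000 in
theorem relation_mem_pushKer {ℓ : Nat.Primes} [NeZero (ℓ : ℕ)] (hH : HeckeCongr N ℓ A)
    {σ : Q̄ ≃ₐ[ℚ] Q̄} (hσ : A.IsFrobeniusAt σ ℓ) (x : JZero N) :
    σ • σ • x - heckeOperatorBar N ℓ (σ • x) + (ℓ : ℕ) • x ∈ pushKer N A := by
  haveI : Fact (Nat.Prime ℓ) := ⟨ℓ.2⟩
  obtain ⟨hα, hβ, hPD, hfin, hFI, hNF⟩ := heckeInputsAlong_qbar N (ℓ : ℕ)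
  haveI := hPD
  obtain ⟨D, rfl⟩ := Pic0.mk_surjective x
  set γ := arithmeticGalois (modularFunctionFieldFull N) σ
  set D₁ := SemilinearAut.degZeroSMulHom γ D
  set D₂ := SemilinearAut.degZeroSMulHom γ D₁
  have hT : heckeOperatorBar N ℓ (Pic0.mk D₁) =
      Pic0.mk (Pic0.degZeroCorrespondence (heckeBetaBar Q̄ N ℓ) (heckeAlphaBar Q̄ N ℓ) hβ hα hFI D₁) := by
    rw [heckeOperatorBar_apply, heckeOperatorAlong_eq hα hβ hFI hfin hNF]
    exact Pic0.correspondence_mk _ _ _ _ _ _ _ D₁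
  refine ⟨D₂ - Pic0.degZeroCorrespondence (heckeBetaBar Q̄ N ℓ) (heckeAlphaBar Q̄ N ℓ) hβ hα hFI D₁ +
    (ℓ : ℕ) • D, ?_, ?_⟩
  · rw [show σ • Pic0.mk D = Pic0.mk D₁ from rfl, hT, show σ • Pic0.mk D₁ = Pic0.mk D₂ from rfl]
    rfl
  -- the push forwards
  let push := Finsupp.mapDomain.addMonoidHom (M := ℤ) fun P => cen A P (jBar N Q̄)
  let S : Divisor Q̄ (modularFunctionFieldBar N) →+ Divisor Q̄ (modularFunctionFieldBar N) :=
    DistribSMul.toAddMonoidHom _ γ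
  let Φ : Divisor Q̄ (modularFunctionFieldBar N) →+ _ :=
    push.comp (S.comp S) - push.comp ((heckeDivBar hα hβ).comp S) + (ℓ : ℕ) • push
  suffices hΦ : Φ = 0 by
    have := DFunLike.congr_fun hΦ (D : Divisor Q̄ (modularFunctionFieldBar N))
    simp only [D₁, D₂, AddSubgroup.coe_add, AddSubgroup.coe_sub, AddSubgroup.coe_nsmul,
      SemilinearAut.coe_degZeroSMulHom, Pic0.coe_degZeroCorrespondence]
    rw [← Finsupp.mapDomain.addMonoidHom_apply, map_add, map_sub, map_nsmul]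
    exact this
  refine Finsupp.addHom_ext fun P m => ?_
  have hm : Finsupp.single P m = m • Finsupp.single P 1 := by
    rw [Finsupp.smul_single, smul_eq_mul, mul_one]
  rw [hm, map_zsmul, AddMonoidHom.zero_apply]
  suffices h1 : Φ (Finsupp.single P 1) = 0 by rw [h1, smul_zero]
  simp only [Φ, push, S, AddMonoidHom.add_apply, AddMonoidHom.sub_apply, AddMonoidHom.coe_comp,
    Function.comp_apply, DistribSMul.toAddMonoidHom_apply, SemilinearAut.smul_single,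
    Finsupp.mapDomain.addMonoidHom_apply, Finsupp.mapDomain_single, AddMonoidHom.coe_smul,
    Pi.smul_apply]
  rw [hH inferInstance hα hβ σ hσ (γ • P),
    cen_congr (show arithmeticGalois (modularFunctionFieldFull N) σ⁻¹ • γ • P = P by
      rw [map_inv, inv_smul_smul]) (jBar N Q̄), Finsupp.smul_single]
  simp [γ]

set_option maxHeartbeats 1000000 in
/-- The specialisation exists. -/
theorem specializationExists (p : ℕ) (hcomm : HeckeOperatorsCommuteBar N)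
    (hI : ∀ (ℓ : ℕ) [Fact ℓ.Prime] (A : ValuationSubring Q̄), ¬ ℓ ∣ N → A.LiesOverPrime ℓ →
      InertiaCongr N A)
    (hH : ∀ (ℓ : ℕ) [Fact ℓ.Prime] [NeZero ℓ] (A : ValuationSubring Q̄), ¬ ℓ ∣ N → A.LiesOverPrime ℓ →
      HeckeCongr N ℓ A) :
    letI := heckeModuleBar N
    ∀ (_ : SMulCommClass (Q̄ ≃ₐ[ℚ] Q̄) HeckeAlg (JZero N)),
      SpecializationExists (K := ℚ) (L := Q̄) N p (JZero N) := by
  letI := heckeModuleBar N
  intro hsc ℓ hℓ hℓNp A hA
  haveI : Fact ℓ.Prime := ⟨hℓ⟩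
  haveI : NeZero ℓ := ⟨hℓ.ne_zero⟩
  have hℓN : ¬ ℓ ∣ N := fun h => hℓNp (dvd_mul_of_dvd_left h p)
  haveI : ∀ P : Place Q̄ (modularFunctionFieldBar N), Module.Finite Q̄ P.ResidueField := finite_residue N
  obtain ⟨σ₀, hσ₀⟩ := Galois.exists_isFrobeniusAt hℓ hA
  set T : HeckeAlg := heckeGen ⟨ℓ, hℓ⟩
  let R : JZero N → JZero N := fun x => σ₀ • σ₀ • x - T • (σ₀ • x) + ℓ • x
  let gens : Set (JZero N) :=
    {z | ∃ τ ∈ A.inertiaSubgroupIn ℚ, ∃ x : JZero N, τ • x - x = z} ∪ Set.range R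
  let K0 : Submodule HeckeAlg (JZero N) :=
    { AddSubgroup.closure gens with
      smul_mem' := fun c z hz => by
        induction hz using AddSubgroup.closure_induction with
        | mem z hz =>
          refine AddSubgroup.subset_closure ?_
          rcases hz with ⟨τ, hτ, x, rfl⟩ | ⟨x, rfl⟩
          · exact Or.inl ⟨τ, hτ, c • x, by rw [smul_sub, smul_comm τ c x]⟩
          · refine Or.inr ⟨c • x, ?_⟩
            show σ₀ • σ₀ • c • x - T • (σ₀ • c • x) + ℓ • (c • x) =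
              c • (σ₀ • σ₀ • x - T • (σ₀ • x) + ℓ • x)
            rw [smul_add, smul_sub, smul_comm σ₀ c x, smul_comm σ₀ c (σ₀ • x), smul_comm c T,
              smul_comm c (ℓ : ℕ) x]
        | zero => rw [smul_zero]; exact (AddSubgroup.closure gens).zero_mem
        | add a b _ _ ha hb => rw [smul_add]; exact (AddSubgroup.closure gens).add_mem ha hb
        | neg a _ ha => rw [smul_neg]; exact (AddSubgroup.closure gens).neg_mem ha }
  have hK0 : ∀ {z : JZero N}, z ∈ K0 ↔ z ∈ AddSubgroup.closure gens := Iff.rfl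
  have hle : ∀ z ∈ K0, z ∈ pushKer N A := fun z hz => by
    refine (AddSubgroup.closure_le (pushKer N A)).mpr ?_ (hK0.mp hz)
    rintro _ (⟨τ, hτ, x, rfl⟩ | ⟨x, rfl⟩)
    · exact inertia_mem_pushKer (hI ℓ A hℓN hA) hτ x
    · show σ₀ • σ₀ • x - T • (σ₀ • x) + ℓ • x ∈ pushKer N A
      have hT : T • (σ₀ • x) = heckeOperatorBar N ⟨ℓ, hℓ⟩ (σ₀ • x) :=
        heckeModuleBar_heckeGen_smul hcomm ⟨ℓ, hℓ⟩ (σ₀ • x)
      rw [hT]
      exact relation_mem_pushKer (ℓ := ⟨ℓ, hℓ⟩) (hH ℓ A hℓN hA) hσ₀ x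
  let gσ : JZero N →+ JZero N := DistribSMul.toAddMonoidHom (JZero N) σ₀
  let F : (JZero N ⧸ K0) →+ (JZero N ⧸ K0) :=
    QuotientAddGroup.map K0.toAddSubgroup K0.toAddSubgroup gσ (by
      intro z hz
      show σ₀ • z ∈ K0
      rw [hK0]
      replace hz : z ∈ AddSubgroup.closure gens := hz
      induction hz using AddSubgroup.closure_induction with
      | mem z hz =>
        refine AddSubgroup.subset_closure ?_
        rcases hz with ⟨τ, hτ, x, rfl⟩ | ⟨x, rfl⟩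
        · refine Or.inl ⟨σ₀ * τ * σ₀⁻¹, conj_mem_inertiaIn hσ₀.mem_decompositionSubgroup hτ,
            σ₀ • x, ?_⟩
          rw [smul_sub, mul_smul, mul_smul, inv_smul_smul]
        · refine Or.inr ⟨σ₀ • x, ?_⟩
          show σ₀ • σ₀ • σ₀ • x - T • (σ₀ • σ₀ • x) + ℓ • (σ₀ • x) =
            σ₀ • (σ₀ • σ₀ • x - T • (σ₀ • x) + ℓ • x)
          rw [smul_add, smul_sub, smul_comm σ₀ T (σ₀ • x),
            show σ₀ • (ℓ • x) = ℓ • (σ₀ • x) from map_nsmul gσ ℓ x]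
      | zero =>
        have h0 : σ₀ • (0 : JZero N) = 0 := map_zero gσ
        rw [h0]; exact zero_mem _
      | add a b _ _ ha hb => rw [smul_add]; exact add_mem ha hb
      | neg a _ ha => rw [smul_neg]; exact neg_mem ha)
  have hFmk : ∀ x : JZero N, F (K0.mkQ x) = K0.mkQ (σ₀ • x) := fun x => rfl
  have hzero : ∀ {z : JZero N}, z ∈ gens → K0.mkQ z = 0 := fun hz =>
    (Submodule.Quotient.mk_eq_zero K0).mpr (hK0.mpr (AddSubgroup.subset_closure hz))
  refine ⟨JZero N ⧸ K0, inferInstance, inferInstance, K0.mkQ.toAddMonoidHom, F,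
    ⟨fun c x => map_smul K0.mkQ c x, fun τ hτ x => ?_, fun σ hσ x => ?_, fun x hx hx0 => ?_⟩,
    fun y => ?_⟩
  · show K0.mkQ (τ • x) = K0.mkQ x
    rw [← sub_eq_zero, ← map_sub]
    exact hzero (Or.inl ⟨τ, hτ, x, rfl⟩)
  · show K0.mkQ (σ • x) = F (K0.mkQ x)
    have hmem : σ₀ * (σ₀⁻¹ * σ) * σ₀⁻¹ ∈ A.inertiaSubgroupIn ℚ :=
      conj_mem_inertiaIn hσ₀.mem_decompositionSubgroup (frobenius_inv_mul_mem hσ hσ₀)
    rw [mul_inv_cancel_left] at hmem
    rw [hFmk, ← sub_eq_zero, ← map_sub]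
    exact hzero (Or.inl ⟨σ * σ₀⁻¹, hmem, σ₀ • x, by rw [mul_smul, inv_smul_smul]⟩)
  · obtain ⟨k, hk⟩ := hx
    exact eq_zero_of_mem_pushKer hℓN hA
      (fun h => hℓNp (dvd_mul_of_dvd_right (hℓ.dvd_of_dvd_pow h) N))
      (hle x ((Submodule.Quotient.mk_eq_zero K0).mp hx0)) hk
  · obtain ⟨x, rfl⟩ := K0.mkQ_surjective y
    rw [hFmk, hFmk]
    have := hzero (Or.inr ⟨x, rfl⟩ : R x ∈ gens)
    rw [← map_smul, ← map_nsmul, ← map_sub, ← map_add]
    exact this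

end Fermat.Agent.MCurve.Spec
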