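import Fermat.Agent.MCurve.Spec.Coord

/-!
The discs over the cusps in the chart over `A[j⁻¹]`: places from series, stabilisers and
uniformisers.
-/

set_option autoImplicit false
set_option linter.style.haveILetI false
set_option linter.unusedSectionVars false

noncomputable section

namespace Fermat.Agent.MCurve.Spec

open AlgebraicCurve Polynomial IsLocalRing CongruenceSubgroup IntermediateField
open Fermat.Agent.GalRep (modFuns serHom qbarToC)
open Fermat.Agent.GalRep.Model (Lev WFld lvlField fShift serAt holRing SeriesField cuspMat Quad rat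
  rowMul pO absRes)
open scoped MatrixGroups

local notation "Q̄" => AlgebraicClosure ℚ

section Unif

open DiscData

variable {A : ValuationSubring Q̄} {F : Type*} [Field F] [Algebra Q̄ F] {D : DiscData A F}

/-- A uniformiser from a function with a simple zero at a place of the disc. -/
theorem DiscData.exists_unif {P : Place Q̄ F} [Module.Finite Q̄ P.ResidueField] (hPD : D.InDisc P)
    {β : A} (hβ : residue A β = D.χ D.T') (hpos : 0 < P.ord (D.T - algebraMap Q̄ F β)) {f : D.B}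
    (hf0 : (f : F) ≠ 0) (hfχ : D.χ f = 0) (hfP : P.ord (f : F) = 1)
    (heP : P.ord (D.T - algebraMap Q̄ F β) = Nat.card D.stab)
    (hstab : ∀ h : D.Γ, h ∈ D.stab → (h : F ≃ₐ[Q̄] F) • P = P) {u : A} (hu : residue A u ≠ 0)
    (hval : HasVal P ((f : F) ^ Nat.card D.stab / (D.Tsub β : F)) (u : Q̄)) : Nonempty D.Unif := by
  classical
  haveI : Fintype D.Γ := Fintype.ofFinite _
  obtain ⟨hconj, -⟩ := D.fin.galois_fibre D.Γ D.fixed (β : Q̄) P hpos
  -- separators
  have hsep : ∀ h : D.Γ, ∃ s : D.B, D.χ s ≠ 0 ∧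
      (h ∉ D.stab → 0 < ((h : F ≃ₐ[Q̄] F) • P).ord (s : F)) := by
    intro h
    by_cases hh : h ∈ D.stab
    · exact ⟨1, by rw [map_one]; exact one_ne_zero, fun h' => absurd hh h'⟩
    have hnd : ¬ D.InDisc ((h : F ≃ₐ[Q̄] F) • P) := fun h' => hh ((hPD.smul_iff h).mp h')
    simp only [DiscData.InDisc, not_and, not_forall] at hnd
    obtain ⟨y, a, ha, hya⟩ := hnd ⟨β, hβ, by rwa [DiscData.ord_smul_Tsub]⟩
    have hne : D.χ (y - D.cst a) ≠ 0 := by
      rw [map_sub, DiscData.χ_cst, sub_ne_zero]; exact fun h => hya h.symm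
    refine ⟨y - D.cst a, hne, fun _ => ?_⟩
    rcases ha with ha | ha
    · exact absurd (by rw [show y - D.cst a = 0 from Subtype.ext (sub_eq_zero.mpr ha), map_zero]) hne
    · exact ha
  choose sep hsep0 hsep1 using hsep
  set s : D.B := ∏ h : D.Γ, sep h
  have hsχ : D.χ s ≠ 0 := by rw [map_prod]; exact Finset.prod_ne_zero_iff.mpr fun h _ => hsep0 h
  have hnz : ∀ x : D.B, D.χ x ≠ 0 → (x : F) ≠ 0 := fun x hx h => hx (by
    rw [show x = 0 from Subtype.ext h, map_zero])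
  have hscoe : (s : F) = ∏ h : D.Γ, (sep h : F) := SubmonoidClass.coe_finsetProd _ _
  set t : D.B := f * s
  have ht0 : ((t ^ Nat.card D.stab : D.B) : F) ≠ 0 := by
    rw [SubmonoidClass.coe_pow, MulMemClass.coe_mul]
    exact pow_ne_zero _ (mul_ne_zero hf0 (hnz s hsχ))
  have hclosed : ((t ^ Nat.card D.stab : D.B) : F) / (D.Tsub (β) : F) ∈ D.B := by
    refine D.closed _ (t ^ Nat.card D.stab).2 (β) hβ fun Q hQ => ?_
    obtain ⟨h, hh, rfl⟩ := hconj Q hQ
    rw [DiscData.ord_smul_Tsub (D := D) ⟨h, hh⟩ P (β),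
      heP, SubmonoidClass.coe_pow, ord_pow, MulMemClass.coe_mul,
      Place.ord_mul _ hf0 (hnz s hsχ)]
    have hnn : ∀ x : D.B, 0 ≤ (h • P).ord (x : F) := fun x => by
      obtain ⟨a, ha⟩ := D.val _ (β) hβ hQ x x.2
      exact ha.ord_nonneg
    have key : 1 ≤ (h • P).ord (f : F) + (h • P).ord (s : F) := by
      by_cases hs : (⟨h, hh⟩ : D.Γ) ∈ D.stab
      · rw [show h • P = P from hstab _ hs] at hnn ⊢
        have := hnn s
        omega
      · have h1 : 0 < (h • P).ord ((sep ⟨h, hh⟩ : D.B) : F) := hsep1 ⟨h, hh⟩ hs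
        have hle : (h • P).ord (sep ⟨h, hh⟩ : F) ≤ (h • P).ord (s : F) := by
          have e : s = sep ⟨h, hh⟩ * ∏ g ∈ Finset.univ.erase (⟨h, hh⟩ : D.Γ), sep g :=
            (Finset.mul_prod_erase _ _ (Finset.mem_univ _)).symm
          rw [e, MulMemClass.coe_mul, Place.ord_mul _ (hnz _ (hsep0 _)) (hnz _ (by
            rw [map_prod]; exact Finset.prod_ne_zero_iff.mpr fun g _ => hsep0 g))]
          have := hnn (∏ g ∈ Finset.univ.erase (⟨h, hh⟩ : D.Γ), sep g)
          omega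
        have := hnn f
        omega
    exact le_mul_of_one_le_right (Int.natCast_nonneg _) key
  have hne : (D.Tsub β : F) ≠ 0 := fun h => by
    rw [coe_Tsub] at h; rw [h] at hpos; simp at hpos
  refine ⟨⟨β, t, ⟨_, hclosed⟩, hβ, ?_, ?_, ?_⟩⟩
  · rw [map_mul, hfχ, zero_mul]
  · obtain ⟨a, ha, har⟩ := hPD.exists_val s
    have hη : HasVal P (((t ^ Nat.card D.stab : D.B) : F) / (D.Tsub β : F))
        ((u * a ^ Nat.card D.stab : A) : Q̄) := by
      rw [SubmonoidClass.coe_pow, MulMemClass.coe_mul, mul_pow, ← div_mul_eq_mul_div]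
      exact hval.mul P (ha.pow P _)
    intro hz
    rw [← hPD.2 ⟨_, hclosed⟩ _ hη, map_mul, map_pow, mul_eq_zero] at hz
    exact hz.elim hu fun hz => hsχ (har ▸ eq_zero_of_pow_eq_zero hz)
  · refine Subtype.ext ?_
    show _ = ((t ^ Nat.card D.stab : D.B) : F) / _ * _
    rw [div_mul_cancel₀ _ hne]

end Unif

variable {M : ℕ} [NeZero M] (A : ValuationSubring Q̄) [hu : Fact (IsUnit (M : A))] (L : Lev M)

local notation "al" => algebraMap (PowerSeries A) (SeriesField A)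

/-! ## Places from series -/

theorem coeff_order_ne {S : LaurentSeries ℂ} (h : S ≠ 0) : S.coeff S.order ≠ 0 := by
  rw [← HahnSeries.leadingCoeff_eq]
  exact fun h0 => h (HahnSeries.leadingCoeff_eq_zero.mp h0)

theorem exists_pole_bound {F : Type*} [Field F] [Algebra Q̄ F] [HasPrincipalDivisors Q̄ F] (x : F) :
    ∃ K : ℕ, ∀ Q : Place Q̄ F, 0 ≤ (K : ℤ) + Q.ord x := by
  refine ⟨(finite_ord_support x).toFinset.sum fun Q => (Q.ord x).natAbs, fun Q => ?_⟩
  rcases eq_or_ne (Q.ord x) 0 with h | h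
  · rw [h, add_zero]; exact Int.natCast_nonneg _
  · have h1 : (Q.ord x).natAbs ≤ (finite_ord_support x).toFinset.sum fun Q => (Q.ord x).natAbs :=
      Finset.single_le_sum (f := fun Q : Place Q̄ F => (Q.ord x).natAbs)
        (fun _ _ => Nat.zero_le _) ((Set.Finite.mem_toFinset (finite_ord_support x)).mpr h)
    omega

/-- The order of the series at a cusp. -/
def ordS (δ : SL(2, ℤ)) (x : LK M A) : ℤ := ((cyc M A).toC (serAt (cyc M A) δ x)).order

theorem toC_serAt_ne_zero (δ : SL(2, ℤ)) {x : LK M A} (hx : x ≠ 0) :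
    (cyc M A).toC (serAt (cyc M A) δ x) ≠ 0 :=
  (map_ne_zero_iff _ (cyc M A).toC.injective).mpr ((_root_.map_ne_zero _).mpr hx)

theorem order_gC_unit (U : (PowerSeries A)ˣ) :
    ((cyc M A).gC (U : PowerSeries A)).order = 0 := by
  have h0 : ((cyc M A).gC (U : PowerSeries A)).coeff 0 ≠ 0 := by
    rw [GalRep.Model.coeff_gC_zero]
    exact ((PowerSeries.isUnit_constantCoeff _ U.isUnit).map (cyc M A).φ).ne_zero
  refine le_antisymm (HahnSeries.order_le_of_coeff_ne_zero h0) ?_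
  by_contra h
  exact coeff_order_ne (fun h1 => h0 (by rw [h1, HahnSeries.coeff_zero]))
    (GalRep.Model.coeff_gC_neg (cyc M A) _ (not_le.mp h))

theorem ordS_eq {δ : SL(2, ℤ)} {x : LK M A} {a b : ℕ} {U : (PowerSeries A)ˣ}
    (h : serAt (cyc M A) δ x * al (PowerSeries.X ^ a) = al (PowerSeries.X ^ b * (U : PowerSeries A))) :
    x ≠ 0 ∧ ordS A δ x = (b : ℤ) - a := by
  have hU0 : (cyc M A).gC (U : PowerSeries A) ≠ 0 :=
    (map_ne_zero_iff _ (cyc M A).gC_injective).mpr U.ne_zero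
  have hs : ∀ n : ℕ, (HahnSeries.single (n : ℤ) (1 : ℂ)) ≠ 0 := fun n =>
    HahnSeries.single_ne_zero one_ne_zero
  have h1 := congrArg (cyc M A).toC h
  rw [map_mul, (cyc M A).toC_algebraMap, (cyc M A).toC_algebraMap, map_mul, (cyc M A).gC_X_pow,
    (cyc M A).gC_X_pow] at h1
  have hx : x ≠ 0 := fun h0 => by
    rw [h0, map_zero, map_zero, zero_mul] at h1
    exact mul_ne_zero (hs b) hU0 h1.symm
  refine ⟨hx, ?_⟩
  have h2 := congrArg HahnSeries.order h1
  rw [HahnSeries.order_mul (toC_serAt_ne_zero A δ hx) (hs a), HahnSeries.order_mul (hs b) hU0,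
    HahnSeries.order_single one_ne_zero, HahnSeries.order_single one_ne_zero, order_gC_unit] at h2
  rw [ordS]
  omega

/-- The place of a cusp. -/
def IsPlaceAt (δ : SL(2, ℤ)) (P : Place Q̄ (LK M A)) : Prop :=
  ∃ k : ℤ, 0 < k ∧ ∀ x : LK M A, x ≠ 0 → ordS A δ x = P.ord x * k

include L in
theorem exists_placeAt (δ : SL(2, ℤ)) : ∃ P : Place Q̄ (LK M A), IsPlaceAt A δ P := by
  obtain ⟨U, -, hU⟩ := exists_serAt_jK A L
  obtain ⟨hj, hord⟩ := ordS_eq A (δ := δ) (x := jK A L) (a := M) (b := 0) (U := U) (by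
    rw [hU δ, pow_zero, one_mul])
  obtain ⟨P, -, k, hk, hP⟩ := (isFinOver_jK A L).exists_place_of_order (R := LK M A) (ordS A δ)
    (fun {a b} ha hb => by
      rw [ordS, map_mul, map_mul,
        HahnSeries.order_mul (toC_serAt_ne_zero A δ ha) (toC_serAt_ne_zero A δ hb)]
      rfl)
    (fun {a b} _ _ hab => by
      rw [ordS, ordS, ordS, map_add, map_add]
      exact HahnSeries.min_order_le_order_add (by
        rw [← map_add, ← map_add]; exact toC_serAt_ne_zero A δ hab))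
    (fun c hc => by
      rcases A.mem_or_inv_mem c with h | h
      · have h0 : (⟨c, h⟩ : A) ≠ 0 := fun h0 => hc (congrArg Subtype.val h0)
        rw [ordS, show algebraMap Q̄ (LK M A) c = algebraMap A (LK M A) ⟨c, h⟩ from rfl,
          GalRep.Model.serAt_algebraMap, (cyc M A).toC_algebraMap, GalRep.Model.Cyc.gC,
          RingHom.comp_apply, PowerSeries.map_C, HahnSeries.ofPowerSeries_C, HahnSeries.C_apply,
          HahnSeries.order_single ((map_ne_zero_iff _ (cyc M A).inj).mpr h0)]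
      · have h0 : (⟨c⁻¹, h⟩ : A) ≠ 0 := fun h0 => inv_ne_zero hc (congrArg Subtype.val h0)
        rw [ordS, show algebraMap Q̄ (LK M A) c = (algebraMap A (LK M A) ⟨c⁻¹, h⟩)⁻¹ by
          rw [IsScalarTower.algebraMap_apply A Q̄ (LK M A), ← map_inv₀]
          exact congrArg _ (inv_inv c).symm,
          map_inv₀, map_inv₀, GalRep.Model.serAt_algebraMap, (cyc M A).toC_algebraMap,
          GalRep.Model.Cyc.gC, RingHom.comp_apply, PowerSeries.map_C, HahnSeries.ofPowerSeries_C,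
          HahnSeries.C_apply, HahnSeries.inv_single, HahnSeries.order_single (inv_ne_zero
            ((map_ne_zero_iff _ (cyc M A).inj).mpr h0)), neg_zero])
    ⟨jK A L, hj, by rw [hord]; have := NeZero.pos M; omega⟩
  exact ⟨P, k, hk, hP⟩

variable {A}

theorem IsPlaceAt.ord_pos {δ : SL(2, ℤ)} {P : Place Q̄ (LK M A)} (hP : IsPlaceAt A δ P)
    {x : LK M A} (hx : x ≠ 0) (h : 0 < ordS A δ x) : 0 < P.ord x := by
  obtain ⟨k, hk, hP⟩ := hP
  rw [hP x hx] at h
  exact pos_of_mul_pos_left h hk.le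

theorem IsPlaceAt.hasVal {δ : SL(2, ℤ)} {P : Place Q̄ (LK M A)} (hP : IsPlaceAt A δ P)
    {y : LK M A} {G : PowerSeries A} (h : serAt (cyc M A) δ y = al G) :
    HasVal P y ((PowerSeries.constantCoeff G : A) : Q̄) := by
  set a := PowerSeries.constantCoeff G
  rw [HasVal, or_iff_not_imp_left]
  intro hne
  have h0 : y - algebraMap Q̄ (LK M A) a ≠ 0 := sub_ne_zero.mpr hne
  refine hP.ord_pos h0 ?_
  have hs : serAt (cyc M A) δ (y - algebraMap Q̄ (LK M A) a) = al (G - PowerSeries.C a) := by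
    rw [map_sub, h, show algebraMap Q̄ (LK M A) (a : Q̄) = algebraMap A (LK M A) a from rfl,
      GalRep.Model.serAt_algebraMap, map_sub]
  rw [ordS, hs, (cyc M A).toC_algebraMap]
  set S := (cyc M A).gC (G - PowerSeries.C a)
  have hS : S ≠ 0 := by
    have := toC_serAt_ne_zero A δ h0
    rwa [hs, (cyc M A).toC_algebraMap] at this
  by_contra hle
  push Not at hle
  refine coeff_order_ne hS ?_
  rcases lt_or_eq_of_le hle with hlt | heq
  · exact GalRep.Model.coeff_gC_neg (cyc M A) _ hlt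
  · rw [heq, GalRep.Model.coeff_gC_zero]
    simp [a]

theorem IsPlaceAt.smul {δ : SL(2, ℤ)} {P : Place Q̄ (LK M A)} (hP : IsPlaceAt A δ P) (γ : SL(2, ℤ)) :
    IsPlaceAt A (γ * δ) (shiftA M A γ • P) := by
  obtain ⟨k, hk, hP⟩ := hP
  refine ⟨k, hk, fun x hx => ?_⟩
  have hinv : shiftA M A γ (fShift (cyc M A) γ x) = x := by
    have : fShift (cyc M A) γ x = shiftA M A γ⁻¹ x := by rw [shiftA_apply, inv_inv]
    rw [this, ← AlgEquiv.mul_apply, ← map_mul, mul_inv_cancel, map_one]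
    rfl
  have h2 : (shiftA M A γ • P).ord x = P.ord (fShift (cyc M A) γ x) := by
    conv_lhs => rw [← hinv]
    exact Place.ord_smul _ _ _
  rw [h2, ← hP _ ((_root_.map_ne_zero _).mpr hx), ordS, ordS, GalRep.Model.serAt_fShift]

variable (A)

/-! ## The coordinate at the cusps -/

/-- The value of the coordinate over a cusp. -/
def Tc (i : Fin 4) : A :=
  if h : i ∈ L.J then -(((isUnit_beta0_sub A L h).unit⁻¹ : Aˣ) : A) else 0

theorem Tc_mul {i : Fin 4} (h : i ∈ L.J) :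
    Tc A L i * (L.cval (cyc M A) i - beta0 A L) = 1 := by
  rw [Tc, dif_pos h, ← neg_sub (beta0 A L), neg_mul_neg]
  exact IsUnit.val_inv_mul _

theorem Tc_one : Tc A L 1 = 0 := dif_neg fun h => (L.mem_J.mp h).2 rfl

theorem isUnit_Tc_sub {i k : Fin 4} (hi : L.Valid i) (hk : L.Valid k) (h : i ≠ k) :
    IsUnit (Tc A L i - Tc A L k) := by
  have hu : ∀ {l : Fin 4}, l ∈ L.J → IsUnit (Tc A L l) := fun hl =>
    IsUnit.of_mul_eq_one _ (Tc_mul A L hl)
  by_cases hi1 : i = 1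
  · subst hi1
    rw [Tc_one, zero_sub]
    exact (hu (L.mem_J.mpr ⟨hk, Ne.symm h⟩)).neg
  by_cases hk1 : k = 1
  · subst hk1
    rw [Tc_one, sub_zero]
    exact hu (L.mem_J.mpr ⟨hi, hi1⟩)
  have hiJ := L.mem_J.mpr ⟨hi, hi1⟩
  have hkJ := L.mem_J.mpr ⟨hk, hk1⟩
  have e : Tc A L i - Tc A L k =
      Tc A L i * Tc A L k * (L.cval (cyc M A) k - L.cval (cyc M A) i) := by
    linear_combination Tc A L k * Tc_mul A L hiJ - Tc A L i * Tc_mul A L hkJ
  rw [e]
  exact ((hu hiJ).mul (hu hkJ)).mul (L.isUnit_cval_sub (cyc M A) hkJ hiJ (Ne.symm h))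

theorem exists_serAt_TI {i : Fin 4} (hi : L.Valid i) {δ : SL(2, ℤ)} (hδ : L.IsCusp i δ) :
    ∃ U : (PowerSeries A)ˣ, serAt (cyc M A) δ (TI A L) =
      al (PowerSeries.C (Tc A L i) + PowerSeries.X ^ L.e * (U : PowerSeries A)) := by
  set β := beta0 A L
  have hβ : serAt (cyc M A) δ (algebraMap Q̄ (LK M A) (β : Q̄)) = al (PowerSeries.C β) := by
    rw [show algebraMap Q̄ (LK M A) (β : Q̄) = algebraMap A (LK M A) β from rfl,
      GalRep.Model.serAt_algebraMap]
  by_cases h1 : i = 1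
  · subst h1
    obtain ⟨U, hU⟩ := L.serAt_w_pole (cyc M A) hδ
    have hu : IsUnit ((U : PowerSeries A) - PowerSeries.C β * PowerSeries.X ^ L.e) :=
      PowerSeries.isUnit_iff_constantCoeff.mpr (by
        simpa [zero_pow L.e_pos.ne'] using PowerSeries.isUnit_constantCoeff (U : PowerSeries A) U.isUnit)
    refine ⟨hu.unit⁻¹, ?_⟩
    have h2 : serAt (cyc M A) δ (L.w (cyc M A) - algebraMap Q̄ (LK M A) (β : Q̄)) * al (PowerSeries.X ^ L.e) =
        al (hu.unit : PowerSeries A) := by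
      rw [map_sub, sub_mul, hU, hβ, IsUnit.unit_spec, map_sub, map_mul]
    rw [Tc_one, map_zero, zero_add, TI, map_inv₀]
    refine inv_eq_of_mul_eq_one_right ?_
    rw [map_mul, ← mul_assoc, h2, ← map_mul, Units.mul_inv, map_one]
  · have hiJ := L.mem_J.mpr ⟨hi, h1⟩
    obtain ⟨U, hU⟩ := L.serAt_w_finite (cyc M A) hiJ hδ
    set c := L.cval (cyc M A) i
    have hu : IsUnit (PowerSeries.C (c - β) + PowerSeries.X ^ L.e * (U : PowerSeries A)) :=
      PowerSeries.isUnit_iff_constantCoeff.mpr (by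
        simp only [map_add, PowerSeries.constantCoeff_C, map_mul, map_pow,
          PowerSeries.constantCoeff_X, zero_pow L.e_pos.ne', zero_mul, add_zero]
        exact IsUnit.of_mul_eq_one_right _ (Tc_mul A L hiJ))
    refine ⟨-(U * hu.unit⁻¹ * ((IsUnit.of_mul_eq_one _ (Tc_mul A L hiJ)).map
      (PowerSeries.C : A →+* PowerSeries A)).unit), ?_⟩
    have hw : serAt (cyc M A) δ (L.w (cyc M A) - algebraMap Q̄ (LK M A) (β : Q̄)) =
        al (hu.unit : PowerSeries A) := by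
      rw [map_sub, hU, hβ, IsUnit.unit_spec, ← map_sub al]
      congr 1
      rw [map_sub]; ring
    rw [TI, map_inv₀, hw]
    refine inv_eq_of_mul_eq_one_left ?_
    rw [← map_mul, ← map_one al]
    congr 1
    have h2 : (hu.unit : PowerSeries A) * ((hu.unit⁻¹ : (PowerSeries A)ˣ) : PowerSeries A) = 1 :=
      Units.mul_inv _
    have h3 : PowerSeries.C (Tc A L i) * PowerSeries.C (c - β) = (1 : PowerSeries A) := by
      rw [← map_mul, Tc_mul A L hiJ, map_one]
    simp only [Units.val_neg, Units.val_mul, IsUnit.unit_spec] at h2 ⊢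
    linear_combination (-(PowerSeries.X ^ L.e * (U : PowerSeries A) * PowerSeries.C (Tc A L i))) * h2 +
      h3

theorem ord_TI_sub {i : Fin 4} (hi : L.Valid i) {δ : SL(2, ℤ)} (hδ : L.IsCusp i δ) :
    TI A L - algebraMap Q̄ (LK M A) (Tc A L i : Q̄) ≠ 0 ∧
      ordS A δ (TI A L - algebraMap Q̄ (LK M A) (Tc A L i : Q̄)) = L.e := by
  obtain ⟨U, hU⟩ := exists_serAt_TI A L hi hδ
  have := ordS_eq A (δ := δ) (x := TI A L - algebraMap Q̄ (LK M A) (Tc A L i : Q̄)) (a := 0) (b := L.e)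
    (U := U) (by
      rw [pow_zero, map_one, mul_one, map_sub, hU,
        show algebraMap Q̄ (LK M A) (Tc A L i : Q̄) = algebraMap A (LK M A) (Tc A L i) from rfl,
        GalRep.Model.serAt_algebraMap, ← map_sub, add_sub_cancel_left])
  simpa using this

theorem TI_ne_zero : TI A L ≠ 0 := inv_ne_zero (sub_beta0_ne_zero A L)

theorem cusp_of_ord_neg {Q : Place Q̄ (LK M A)} (hQ : Q.ord (jK A L) < 0) :
    ∃ i, L.Valid i ∧ 0 < Q.ord (TI A L - algebraMap Q̄ (LK M A) (Tc A L i : Q̄)) := by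
  classical
  have hj0 : jK A L ≠ 0 := fun h => by simp [h] at hQ
  have hTQ : TI A L ∈ Q.toValuationSubring := mem_chart_place Q
    ((mem_iff_ord_nonneg Q (inv_ne_zero hj0)).mpr (by rw [Q.ord_inv]; omega)) (TI_mem A L)
  rcases lt_or_eq_of_le (ord_nonneg_of_mem' Q hTQ) with h | h
  · exact ⟨1, L.valid1, by rwa [Tc_one, ZeroMemClass.coe_zero, map_zero, sub_zero]⟩
  set u := L.w (cyc M A) - algebraMap Q̄ (LK M A) (beta0 A L : Q̄) with hudef
  have hu0 : u ≠ 0 := sub_beta0_ne_zero A L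
  have hou : Q.ord u = 0 := by
    rw [TI, Q.ord_inv, ← hudef] at h
    omega
  have hw : L.w (cyc M A) ∈ Q.toValuationSubring := by
    rw [← sub_add_cancel (L.w (cyc M A)) (algebraMap Q̄ (LK M A) (beta0 A L : Q̄))]
    exact add_mem ((mem_iff_ord_nonneg Q hu0).mpr hou.ge) (Q.algebraMap_mem' _)
  have hfac : ∀ i, L.w (cyc M A) - algebraMap Q̄ (LK M A) ((L.cval (cyc M A) i : A) : Q̄) ≠ 0 := fun i =>
    sub_ne_zero.mpr fun h => transcendental_w A L (h ▸ isAlgebraic_algebraMap _)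
  have hpoly : polyA A (L.w (cyc M A)) (L.cuspPoly (cyc M A) ^ L.m) =
      (∏ i ∈ L.J, (L.w (cyc M A) - algebraMap Q̄ (LK M A) ((L.cval (cyc M A) i : A) : Q̄))) ^ L.m := by
    rw [map_pow, Lev.cuspPoly, map_prod]
    exact congrArg (· ^ L.m) (Finset.prod_congr rfl fun i _ => by rw [map_sub, polyA_X, polyA_C])
  have hrel : jK A L * polyA A (L.w (cyc M A)) (L.cuspPoly (cyc M A) ^ L.m) =
      polyA A (L.w (cyc M A)) (exists_relW A L).choose := (coverW A L).rel
  have hpne : ∏ i ∈ L.J, (L.w (cyc M A) - algebraMap Q̄ (LK M A) ((L.cval (cyc M A) i : A) : Q̄)) ≠ 0 :=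
    Finset.prod_ne_zero_iff.mpr fun i _ => hfac i
  have h1 := congrArg Q.ord hrel
  rw [hpoly, Q.ord_mul hj0 (pow_ne_zero _ hpne), ord_pow] at h1
  have hR := ord_nonneg_of_mem' Q (mem_chart_place Q hw (polyA_mem_chart A _ (exists_relW A L).choose))
  obtain ⟨i, hi, hpos⟩ : ∃ i ∈ L.J,
      0 < Q.ord (L.w (cyc M A) - algebraMap Q̄ (LK M A) ((L.cval (cyc M A) i : A) : Q̄)) := by
    by_contra! hall
    have hle : Q.ord (∏ i ∈ L.J, (L.w (cyc M A) - algebraMap Q̄ (LK M A) ((L.cval (cyc M A) i : A) : Q̄))) ≤ 0 := by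
      clear hpne hpoly h1
      obtain ⟨J, hJ⟩ : ∃ J, J = L.J := ⟨_, rfl⟩
      rw [← hJ] at hall ⊢
      clear hJ
      induction J using Finset.induction_on with
      | empty => simp
      | insert l s hl ih =>
        rw [Finset.prod_insert hl, Q.ord_mul (hfac l) (Finset.prod_ne_zero_iff.mpr fun j _ => hfac j)]
        have := hall l (Finset.mem_insert_self l s)
        have := ih fun j hj => hall j (Finset.mem_insert_of_mem hj)
        omega
    nlinarith
  refine ⟨i, (L.mem_J.mp hi).1, ?_⟩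
  have hc : (Tc A L i : Q̄) * (((L.cval (cyc M A) i : A) : Q̄) - (beta0 A L : Q̄)) = 1 := congrArg Subtype.val (Tc_mul A L hi)
  have e : TI A L - algebraMap Q̄ (LK M A) (Tc A L i : Q̄) =
      algebraMap Q̄ (LK M A) (-(Tc A L i : Q̄)) * (L.w (cyc M A) - algebraMap Q̄ (LK M A) ((L.cval (cyc M A) i : A) : Q̄)) * u⁻¹ := by
    have hc' := congrArg (algebraMap Q̄ (LK M A)) hc
    rw [map_mul, map_sub, map_one] at hc'
    rw [TI, ← hudef, map_neg]
    field_simp
    rw [hudef]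
    linear_combination -hc'
  have hTne : (Tc A L i : Q̄) ≠ 0 := left_ne_zero_of_mul_eq_one hc
  rw [e, Q.ord_mul (mul_ne_zero ((_root_.map_ne_zero _).mpr (neg_ne_zero.mpr hTne)) (hfac i))
    (inv_ne_zero hu0), Q.ord_mul ((_root_.map_ne_zero _).mpr (neg_ne_zero.mpr hTne)) (hfac i),
    ord_algebraMap, Q.ord_inv, hou]
  omega

/-! ## Ratios times cusp factors -/

theorem exists_scale {i j : Fin 4} (hi : L.Valid i) (hj : L.Valid j) (hij : i ≠ j) (q : Quad M)
    (hu' : q.u' = L.V i) (ht' : q.t' = L.V j) :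
    ∃ E : LK M A, (∀ g ∈ gamMG A L, g E = E) ∧
      rat (cyc M A) q * E ∈ chart A (jK A L)⁻¹ ∧
      ∀ δ, L.IsCusp i δ → ∃ V : (PowerSeries A)ˣ, serAt (cyc M A) δ E = al (V : PowerSeries A) := by
  classical
  haveI := (isFinOver_jK A L).hasPrincipalDivisors
  obtain ⟨K, hK⟩ := exists_pole_bound (rat (cyc M A) q)
  let S : Finset (Fin 4) := Finset.univ.filter fun k => L.Valid k ∧ k ≠ i
  let fac : Fin 4 → LK M A := fun k => TI A L - algebraMap Q̄ (LK M A) (Tc A L k : Q̄)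
  have hfac : ∀ k, fac k ∈ chart A (jK A L)⁻¹ := fun k =>
    sub_mem (TI_mem A L) (algebraMap_mem_chart A _ _)
  set E := (∏ k ∈ S, fac k) ^ K
  have hEmem : E ∈ chart A (jK A L)⁻¹ := pow_mem (Subring.prod_mem _ fun k _ => hfac k) K
  refine ⟨E, fun g hg => ?_, ?_, fun δ hδ => ?_⟩
  · simp only [E, map_pow, map_prod, fac, map_sub, AlgEquiv.commutes]
    rw [show g (TI A L) = TI A L from (coverI A L).Γ_T hg]
  · obtain ⟨V, hV⟩ := exists_isGauss (A := A) (isFinOver_jK A L).inv.transcendental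
    refine mem_chart_of_regular (fullG M A) (isFinOver_jK A L).inv (coverI A L).fixed₀ hV
      (fun g hg => ?_) fun Q hQ => ?_
    · rw [map_mul]
      refine mul_mem ?_ (hV.chart_le ((coverI A L).map_chart hg hEmem))
      obtain ⟨γ, rfl⟩ := hg
      rw [shiftA_apply, GalRep.Model.fShift_rat]
      have hV' : IsGauss A (jK A L) V := by simpa using hV.inv
      exact hV'.chart_le (intHol_le_chart A L (rat_mem_intHol A _))
    · have hEQ := mem_chart_place Q hQ hEmem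
      by_cases hjQ : jK A L ∈ Q.toValuationSubring
      · exact mul_mem (mem_chart_place Q hjQ (intHol_le_chart A L (rat_mem_intHol A q))) hEQ
      have hj0 : jK A L ≠ 0 := fun h => hjQ (h ▸ zero_mem _)
      obtain ⟨k, hk, hpos⟩ := cusp_of_ord_neg A L
        (not_le.mp fun h => hjQ ((mem_iff_ord_nonneg Q hj0).mpr h))
      by_cases hki : k = i
      · subst hki
        refine mul_mem ?_ hEQ
        obtain ⟨P, hP⟩ := exists_placeAt A L (cuspMat k)
        obtain ⟨hne, hord⟩ := ord_TI_sub A L hk (L.isCusp_cuspMat k hk)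
        obtain ⟨hconj, -⟩ := (coverI A L).fin.galois_fibre (gamMG A L) (coverI A L).fixed
          (Tc A L k : Q̄) P (hP.ord_pos hne (by
            show 0 < ordS A _ (TI A L - _)
            rw [hord]; exact_mod_cast L.e_pos))
        obtain ⟨_, ⟨γ, hγ, rfl⟩, rfl⟩ := hconj Q hpos
        haveI := (coverI A L).fin.finiteResidue (shiftA M A γ • P)
        obtain ⟨D, -, hD⟩ := L.qSer_mul_den (cyc M A) hi hj hij (L.isCusp_cuspMat k hk) hγ q hu' ht'
        exact ((hP.smul γ).hasVal (G := (pO (cyc M A) (rowMul q.u (γ * cuspMat k)) -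
          pO (cyc M A) (rowMul q.t (γ * cuspMat k))) * ((D⁻¹ : (PowerSeries A)ˣ) : PowerSeries A)) (by
            rw [map_mul, ← hD, mul_assoc, ← map_mul, Units.mul_inv, map_one, mul_one])).mem
      rcases eq_or_ne (rat (cyc M A) q) 0 with h0 | h0
      · rw [h0, zero_mul]; exact zero_mem _
      rcases eq_or_ne E 0 with hE0 | hE0
      · rw [hE0, mul_zero]; exact zero_mem _
      refine (mem_iff_ord_nonneg Q (mul_ne_zero h0 hE0)).mpr ?_
      have hkS : k ∈ S := Finset.mem_filter.mpr ⟨Finset.mem_univ _, hk, hki⟩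
      have hEeq : E = fac k ^ K * (∏ l ∈ S.erase k, fac l) ^ K := by
        rw [← mul_pow, Finset.mul_prod_erase _ _ hkS]
      obtain ⟨h1, h2⟩ := mul_ne_zero_iff.mp (hEeq ▸ hE0)
      have hrest := ord_nonneg_of_mem' Q (mem_chart_place Q hQ
        (pow_mem (Subring.prod_mem _ (t := S.erase k) fun l _ => hfac l) K))
      rw [hEeq, Q.ord_mul h0 (mul_ne_zero h1 h2), Q.ord_mul h1 h2, ord_pow]
      have := hK Q
      have : 1 ≤ Q.ord (fac k) := hpos
      nlinarith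
  · obtain ⟨U, hU⟩ := exists_serAt_TI A L hi hδ
    have hu : IsUnit ((∏ k ∈ S, (PowerSeries.C (Tc A L i - Tc A L k) +
        PowerSeries.X ^ L.e * (U : PowerSeries A))) ^ K) :=
      (IsUnit.prod_iff.mpr fun k hk => PowerSeries.isUnit_iff_constantCoeff.mpr (by
        simpa [zero_pow L.e_pos.ne'] using isUnit_Tc_sub A L hi (Finset.mem_filter.mp hk).2.1
          (Ne.symm (Finset.mem_filter.mp hk).2.2))).pow K
    refine ⟨hu.unit, ?_⟩
    rw [IsUnit.unit_spec, map_pow, map_prod, map_pow, map_prod]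
    refine congrArg (· ^ K) (Finset.prod_congr rfl fun k _ => ?_)
    show serAt (cyc M A) δ (TI A L - algebraMap A (LK M A) (Tc A L k)) = _
    rw [map_sub, hU, GalRep.Model.serAt_algebraMap, ← map_sub]
    congr 1
    rw [map_sub]; ring

theorem exists_valid_ne (i : Fin 4) : ∃ j, L.Valid j ∧ i ≠ j := by
  by_cases h : i = 1
  · exact ⟨0, L.valid0, by subst h; decide⟩
  · exact ⟨1, L.valid1, h⟩

theorem orderOf_shiftA_conj (δ : SL(2, ℤ)) :
    orderOf (shiftA M A (δ * ModularGroup.T ^ (L.m : ℤ) * δ⁻¹)) ≤ L.e := by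
  refine orderOf_le_of_pow_eq_one L.e_pos ?_
  rw [← map_pow]
  refine shiftA_of_mem A ?_
  rw [← zpow_natCast, conj_zpow, ← zpow_mul,
    show (L.m : ℤ) * (L.e : ℤ) = (M : ℤ) by rw [← Nat.cast_mul, mul_comm, ← L.eq]]
  refine (Gamma_normal M).conj_mem _ ?_ δ
  rw [Gamma_mem, ModularGroup.coe_T_zpow]
  simp

theorem mem_zpowers_of_coset {γ δ : SL(2, ℤ)} (hγ : γ ∈ Gamma L.m)
    (h : (M : ℤ) ∣ ((1 * δ)⁻¹ * (γ⁻¹ * δ)) 1 0 ∧
      (((M : ℤ) ∣ ((1 * δ)⁻¹ * (γ⁻¹ * δ)) 0 0 - 1 ∧ (M : ℤ) ∣ ((1 * δ)⁻¹ * (γ⁻¹ * δ)) 1 1 - 1) ∨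
      ((M : ℤ) ∣ ((1 * δ)⁻¹ * (γ⁻¹ * δ)) 0 0 + 1 ∧ (M : ℤ) ∣ ((1 * δ)⁻¹ * (γ⁻¹ * δ)) 1 1 + 1))) :
    shiftA M A γ ∈ Subgroup.zpowers (shiftA M A (δ * ModularGroup.T ^ (L.m : ℤ) * δ⁻¹)) := by
  obtain ⟨n, hn⟩ := L.exists_coset (cyc M A) (one_mem _) (inv_mem hγ) h.1 h.2
  refine ⟨-n, AlgEquiv.ext fun x => ?_⟩
  have h1 := congrArg (fun σ : L.gal (cyc M A) => σ • x) hn
  simp only [mul_smul, L.galOf_smul, GalRep.Model.fShift_one, L.tau_zpow_smul] at h1
  show (shiftA M A (δ * ModularGroup.T ^ (L.m : ℤ) * δ⁻¹) ^ (-n)) x = _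
  rw [← map_zpow, shiftA_apply, shiftA_apply, ← zpow_neg, neg_neg, conj_zpow, ← zpow_mul, ← h1]

/-! ## The disc over a cusp -/

variable {χ : chart A (jK A L)⁻¹ →+* ResidueField A}
  (hχ : ∀ a, χ ((coverI A L).cst a) = residue A a)

include hχ in
theorem exists_cusp_T (h0 : χ ⟨(jK A L)⁻¹, self_mem_chart A _⟩ = 0) :
    ∃ i, L.Valid i ∧ residue A (Tc A L i) = χ (coverI A L).T' := by
  have e : (⟨(coverI A L).t₀, self_mem_chart A _⟩ : chart A (coverI A L).t₀) * (coverI A L).pol (coverI A L).D =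
      (coverI A L).pol (coverI A L).N := Subtype.ext (coverI A L).rel
  let χ' : chart A (coverI A L).t₀ →+* ResidueField A := χ
  have h1 := congrArg χ' e
  have h0' : χ' ⟨(coverI A L).t₀, self_mem_chart A _⟩ = 0 := h0
  rw [map_mul, h0', zero_mul, Cover.hom_pol (χ := χ') hχ, eq_comm] at h1
  rcases exists_cusp_of_revT A L h1 with h | ⟨i, hi, h⟩
  · exact ⟨1, L.valid1, by rw [Tc_one, map_zero]; exact h.symm⟩
  · refine ⟨i, (L.mem_J.mp hi).1, ?_⟩
    have hu := congrArg (residue A) (Tc_mul A L hi)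
    rw [map_mul, map_sub, map_one, ← h, add_sub_cancel_right] at hu
    rw [eq_inv_of_mul_eq_one_left hu, inv_inv]
    rfl

set_option maxHeartbeats 1000000 in
theorem stab_subset {i : Fin 4} (hi : L.Valid i) {δ : SL(2, ℤ)} (hδ : L.IsCusp i δ)
    {P : Place Q̄ (LK M A)} (hP : IsPlaceAt A δ P) (hPD : ((coverI A L).disc χ hχ).InDisc P)
    {g : ((coverI A L).disc χ hχ).Γ} (hg : g ∈ ((coverI A L).disc χ hχ).stab) :
    (g : LK M A ≃ₐ[Q̄] LK M A) ∈
      Subgroup.zpowers (shiftA M A (δ * ModularGroup.T ^ (L.m : ℤ) * δ⁻¹)) := by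
  haveI := (coverI A L).fin.finiteResidue P
  obtain ⟨g, hgΓ⟩ := g
  obtain ⟨γ, hγ, rfl⟩ := hgΓ
  by_contra hmem
  obtain ⟨j, hj, hij⟩ := exists_valid_ne L i
  set d := (1 * δ)⁻¹ * (γ⁻¹ * δ) with hd
  have hne : ¬ ((M : ℤ) ∣ d 1 0 ∧ (((M : ℤ) ∣ d 0 0 - 1 ∧ (M : ℤ) ∣ d 1 1 - 1) ∨
      ((M : ℤ) ∣ d 0 0 + 1 ∧ (M : ℤ) ∣ d 1 1 + 1))) := fun h =>
    hmem (mem_zpowers_of_coset A L hγ h)
  obtain ⟨a, b, ha, hb, hab⟩ := L.exists_numer (cyc M A) d hne
  let q : Quad M := ⟨rowMul a δ⁻¹, rowMul b δ⁻¹, L.V i, L.V j, GalRep.Model.nz_rowMul _ ha,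
    GalRep.Model.nz_rowMul _ hb, L.nz_V i, L.nz_V j, L.not_pm hi hj hij⟩
  obtain ⟨E, hEfix, hEmem, hE⟩ := exists_scale A L hi hj hij q rfl rfl
  obtain ⟨V, hV⟩ := hE δ hδ
  obtain ⟨D, hD, h1⟩ := L.qSer_mul_den (cyc M A) hi hj hij hδ (one_mem _) q rfl rfl
  obtain ⟨D', hD', h2⟩ := L.qSer_mul_den (cyc M A) hi hj hij hδ (inv_mem hγ) q rfl rfl
  rw [show D' = D from Units.ext (hD'.trans hD.symm)] at h2
  let y : ((coverI A L).disc χ hχ).B := ⟨_, hEmem⟩
  have hy : serAt (cyc M A) δ (y : LK M A) = al ((pO (cyc M A) a - pO (cyc M A) b) *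
      ((D⁻¹ : (PowerSeries A)ˣ) : PowerSeries A) * V) := by
    simp only [q, GalRep.Model.rowMul_rowMul, one_mul, inv_mul_cancel, GalRep.Model.rowMul_one] at h1
    show serAt (cyc M A) δ (rat (cyc M A) q * E) = _
    rw [map_mul, hV, map_mul, map_mul, ← h1, mul_assoc (serAt _ _ _) (al _) (al _), ← map_mul,
      Units.mul_inv, map_one, mul_one]
  have hgy : serAt (cyc M A) δ ((((coverI A L).disc χ hχ).act ⟨shiftA M A γ, ⟨γ, hγ, rfl⟩⟩ y :
      ((coverI A L).disc χ hχ).B) : LK M A) =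
      al ((pO (cyc M A) (rowMul a d) - pO (cyc M A) (rowMul b d)) *
        ((D⁻¹ : (PowerSeries A)ˣ) : PowerSeries A) * V) := by
    have hd' : δ⁻¹ * (γ⁻¹ * δ) = d := by rw [hd, one_mul]
    simp only [q, GalRep.Model.rowMul_rowMul, hd'] at h2
    show serAt (cyc M A) δ (shiftA M A γ (rat (cyc M A) q * E)) = _
    rw [map_mul, hEfix _ ⟨γ, hγ, rfl⟩, map_mul, hV, shiftA_apply, GalRep.Model.serAt_fShift,
      map_mul, map_mul, ← h2, mul_assoc (serAt _ _ _) (al _) (al _), ← map_mul,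
      Units.mul_inv, map_one, mul_one]
  have e1 := hPD.2 y _ (hP.hasVal hy)
  have e2 := hPD.2 _ _ (hP.hasVal hgy)
  have e3 := hg y
  rw [← e1, ← e2, map_mul, map_mul, map_mul, map_mul, ← sub_eq_zero] at e3
  simp only [map_sub, map_mul, ← sub_mul] at e3
  rw [mul_eq_zero, mul_eq_zero] at e3
  rcases e3 with (e3 | e3) | e3
  · refine (residue_ne_zero_iff_isUnit _).mpr hab ?_
    simp only [map_sub]
    rw [← neg_sub, e3, neg_zero]
  · exact (residue_ne_zero_iff_isUnit _).mpr (PowerSeries.isUnit_constantCoeff _ (D⁻¹).isUnit) e3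
  · exact (residue_ne_zero_iff_isUnit _).mpr (PowerSeries.isUnit_constantCoeff _ V.isUnit) e3

set_option maxHeartbeats 2000000 in
/-- The uniformiser of a disc over a cusp. -/
theorem unif_coverI (h0 : χ ⟨(jK A L)⁻¹, self_mem_chart A _⟩ = 0) :
    Nonempty ((coverI A L).disc χ hχ).Unif := by
  classical
  set W := coverI A L
  set D := W.disc χ hχ
  haveI := W.fin.hasPrincipalDivisors
  haveI : Fintype D.Γ := Fintype.ofFinite _
  obtain ⟨i, hi, hiT⟩ := exists_cusp_T A L hχ h0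
  obtain ⟨P₀, hP₀⟩ := exists_placeAt A L (cuspMat i)
  obtain ⟨hne₀, hord₀⟩ := ord_TI_sub A L hi (L.isCusp_cuspMat i hi)
  have hpos₀ : 0 < P₀.ord (TI A L - algebraMap Q̄ (LK M A) (Tc A L i : Q̄)) :=
    hP₀.ord_pos hne₀ (by rw [hord₀]; exact_mod_cast L.e_pos)
  obtain ⟨g, hg, hgP⟩ := D.conj P₀ (Tc A L i) hiT hpos₀
  obtain ⟨γ, hγ, rfl⟩ := hg
  set δ := γ⁻¹ * cuspMat i
  have hδ : L.IsCusp i δ := (L.isCusp_mul_iff (inv_mem hγ) i _).mpr (L.isCusp_cuspMat i hi)
  set P := shiftA M A γ⁻¹ • P₀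
  have hP : IsPlaceAt A δ P := hP₀.smul γ⁻¹
  obtain ⟨hne, hord⟩ := ord_TI_sub A L hi hδ
  have hpos : 0 < P.ord (TI A L - algebraMap Q̄ (LK M A) (Tc A L i : Q̄)) :=
    hP.ord_pos hne (by rw [hord]; exact_mod_cast L.e_pos)
  have hPD : D.InDisc P := ⟨⟨Tc A L i, hiT, hpos⟩, fun y a ha => hgP y a (by
    rwa [← hasVal_smul (shiftA M A γ⁻¹) P₀, ← AlgEquiv.mul_apply, ← map_mul, inv_mul_cancel,
      map_one])⟩
  haveI := W.fin.finiteResidue P
  -- the uniformiser at the place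
  obtain ⟨j, hj, hij⟩ := exists_valid_ne L i
  have h5 : (5 : ℤ) ≤ M := by exact_mod_cast L.five
  have h1M : ∀ t : ℤ, 0 < t → t < M → ¬ (M : ℤ) ∣ t := fun t h0 h1 h =>
    absurd (Int.le_of_dvd h0 h) (by omega)
  have hM := L.five
  have ha1 : absRes M 1 = 1 := GalRep.Model.absRes_unique (by omega) (Or.inl (by simp))
  have ha2 : absRes M 2 = 2 := GalRep.Model.absRes_unique (by omega) (Or.inl (by simp))
  have hnp : ¬ GalRep.Model.PM M ((1 : ℤ), (0 : ℤ)) (2, 0) := fun h => by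
    have := GalRep.Model.absRes_congr h
    rw [ha1, ha2] at this; omega
  have hn1 : GalRep.Model.NZ M ((1 : ℤ), (0 : ℤ)) := by
    simp [GalRep.Model.NZ, h1M 1 one_pos (by omega)]
  have hn2 : GalRep.Model.NZ M ((2 : ℤ), (0 : ℤ)) := by
    simp [GalRep.Model.NZ, h1M 2 two_pos (by omega)]
  let q : Quad M := ⟨rowMul (1, 0) δ⁻¹, rowMul (2, 0) δ⁻¹, L.V i, L.V j,
    GalRep.Model.nz_rowMul _ hn1, GalRep.Model.nz_rowMul _ hn2, L.nz_V i, L.nz_V j,
    L.not_pm hi hj hij⟩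
  obtain ⟨E, -, hEmem, hE⟩ := exists_scale A L hi hj hij q rfl rfl
  obtain ⟨V, hV⟩ := hE δ hδ
  obtain ⟨Dn, -, hq⟩ := L.qSer_mul_den (cyc M A) hi hj hij hδ (one_mem _) q rfl rfl
  obtain ⟨N, hN⟩ := GalRep.Model.exists_lead (cyc M A) hn1 hn2 hnp
  simp only [q, GalRep.Model.rowMul_rowMul, one_mul, inv_mul_cancel, GalRep.Model.rowMul_one, hN,
    ha1, ha2, min_eq_left one_le_two, pow_one] at hq
  let f : D.B := ⟨_, hEmem⟩
  obtain ⟨U₁, hf⟩ : ∃ U₁ : (PowerSeries A)ˣ,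
      serAt (cyc M A) δ (f : LK M A) = al (PowerSeries.X * (U₁ : PowerSeries A)) := by
    refine ⟨N * Dn⁻¹ * V, ?_⟩
    show serAt (cyc M A) δ (rat (cyc M A) q * E) = _
    rw [map_mul, hV, Units.val_mul, Units.val_mul, ← mul_assoc, ← mul_assoc, map_mul, map_mul, ← hq,
      mul_assoc (serAt _ _ _) (al _) (al _), ← map_mul, Units.mul_inv, map_one, mul_one]
  obtain ⟨hf0, hfo⟩ := ordS_eq A (δ := δ) (x := (f : LK M A)) (a := 0) (b := 1) (U := U₁) (by
    rw [pow_zero, map_one, mul_one, hf, pow_one])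
  obtain ⟨k, hk, hPk⟩ := hP
  have hP : IsPlaceAt A δ P := ⟨k, hk, hPk⟩
  have hk1 : k = 1 := by
    rw [hPk _ hf0] at hfo
    exact le_antisymm (Int.le_of_dvd one_pos ⟨P.ord (f : LK M A), by
      rw [mul_comm]; push_cast at hfo; omega⟩) hk
  have hfP : P.ord (f : LK M A) = 1 := by
    rw [hPk _ hf0, hk1, mul_one] at hfo; simpa using hfo
  have heP : P.ord (TI A L - algebraMap Q̄ (LK M A) (Tc A L i : Q̄)) = L.e := by
    rw [hPk _ hne, hk1, mul_one] at hord; exact hord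
  obtain ⟨hconj, hcard⟩ := W.fin.galois_fibre W.Γ W.fixed (Tc A L i : Q̄) P hpos
  rw [show W.T = TI A L from rfl, heP] at hcard
  -- the stabiliser
  have hsub : ∀ h : D.Γ, (h : LK M A ≃ₐ[Q̄] LK M A) • P = P → h ∈ D.stab := fun h hh =>
    (hPD.smul_iff h).mp (by rwa [hh])
  let S1 : Finset D.Γ := Finset.univ.filter fun h : D.Γ => (h : LK M A ≃ₐ[Q̄] LK M A) • P = P
  let S2 : Finset D.Γ := Finset.univ.filter fun h : D.Γ => h ∈ D.stab
  have hS : S1 ⊆ S2 := fun h hh =>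
    Finset.mem_filter.mpr ⟨Finset.mem_univ _, hsub h (Finset.mem_filter.mp hh).2⟩
  have hc1 : S1.card = L.e := by
    have h := DiscData.card_fibre_smul P (1 : D.Γ)
    rw [Subgroup.coe_one, one_smul] at h
    rw [h]
    exact_mod_cast hcard
  have hc2 : S2.card ≤ L.e := by
    refine le_trans ?_ (orderOf_shiftA_conj A L δ)
    rw [← Nat.card_zpowers, ← Nat.card_eq_finsetCard]
    haveI : Finite (Subgroup.zpowers (shiftA M A (δ * ModularGroup.T ^ (L.m : ℤ) * δ⁻¹))) :=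
      Finite.of_injective (fun x => (⟨x.1, Subgroup.zpowers_le.mpr (shiftA_mem_fullG A _) x.2⟩ :
        fullG M A)) fun x y h => Subtype.ext (congrArg (fun z : fullG M A => z.1) h)
    exact Nat.card_le_card_of_injective
      (fun h => (⟨_, stab_subset A L hχ hi hδ hP hPD (Finset.mem_filter.mp h.2).2⟩ :
        Subgroup.zpowers (shiftA M A (δ * ModularGroup.T ^ (L.m : ℤ) * δ⁻¹))))
      fun x y h => Subtype.ext (Subtype.ext (congrArg (fun z : Subgroup.zpowers _ => z.1) h))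
  have hSeq : S1 = S2 := Finset.eq_of_subset_of_card_le hS (by omega)
  have hstab : ∀ h : D.Γ, h ∈ D.stab → (h : LK M A ≃ₐ[Q̄] LK M A) • P = P := fun h hh =>
    (Finset.mem_filter.mp (hSeq ▸ Finset.mem_filter.mpr ⟨Finset.mem_univ _, hh⟩ : h ∈ S1)).2
  have he : Nat.card D.stab = L.e := by
    rw [← hc1, hSeq, Nat.card_eq_card_toFinset]
    exact congrArg Finset.card (Finset.ext fun g => by simp [S2])
  obtain ⟨UT, hUT⟩ := exists_serAt_TI A L hi hδ
  refine DiscData.exists_unif (β := Tc A L i) (f := f)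
    (u := PowerSeries.constantCoeff ((U₁ : PowerSeries A) ^ L.e *
      ((UT⁻¹ : (PowerSeries A)ˣ) : PowerSeries A))) hPD hiT hpos hf0 ?_ hfP
    (by rw [he]; exact heP) hstab ?_ ?_
  · rw [← hPD.2 f (PowerSeries.constantCoeff (PowerSeries.X * (U₁ : PowerSeries A)))
      (hP.hasVal hf)]
    simp
  · exact (residue_ne_zero_iff_isUnit _).mpr (PowerSeries.isUnit_constantCoeff _
        ((U₁.isUnit.pow L.e).mul (UT⁻¹).isUnit))
  · rw [he]
    refine hP.hasVal ?_
    rw [map_div₀, map_pow, hf, DiscData.coe_Tsub, show D.T = TI A L from rfl, map_sub, hUT,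
      show algebraMap Q̄ (LK M A) (Tc A L i : Q̄) = algebraMap A (LK M A) (Tc A L i) from rfl,
      GalRep.Model.serAt_algebraMap, ← map_sub, add_sub_cancel_left, div_eq_iff (by
        rw [Ne, map_eq_zero_iff _ (IsFractionRing.injective _ _)]
        exact mul_ne_zero (pow_ne_zero _ PowerSeries.X_ne_zero) UT.ne_zero), ← map_pow, ← map_mul]
    congr 1
    have h2 : ((UT⁻¹ : (PowerSeries A)ˣ) : PowerSeries A) * UT = 1 := Units.inv_mul UT
    linear_combination (-((U₁ : PowerSeries A) ^ L.e * PowerSeries.X ^ L.e)) * h2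

end Fermat.Agent.MCurve.Spec
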