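import Fermat.Agent.MCurve.Spec.Totals
import Fermat.Agent.MCurve.CanonicalDegree

/-!
An element of a chart from below with one simple zero at a centre: a uniformiser of the disc is
corrected so as not to vanish at finitely many other centres, and then its norm is taken.
-/

set_option autoImplicit false
set_option linter.style.haveILetI false
set_option linter.unusedSectionVars false

noncomputable section

namespace Fermat.Agent.MCurve.Spec

open AlgebraicCurve Polynomial IsLocalRing IntermediateField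

local notation "Q̄" => AlgebraicClosure ℚ

variable {A : ValuationSubring Q̄} {F : Type*} [Field F] [Algebra Q̄ F] [IsAlgClosed (ResidueField A)]

namespace DiscData

variable {D : DiscData A F} [HasPrincipalDivisors Q̄ F]

theorem tot_pow {x : F} (hx : x ≠ 0) : ∀ n : ℕ, D.tot (x ^ n) = n * D.tot x
  | 0 => by simp [tot]
  | n + 1 => by rw [pow_succ, tot_mul (pow_ne_zero _ hx) hx, tot_pow hx n]; push_cast; ring

theorem coe_ne_zero_of_χ {y : D.B} (h : D.χ y ≠ 0) : (y : F) ≠ 0 := fun h0 =>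
  h (by rw [show y = 0 from Subtype.ext h0, map_zero])

/-- An element of the chart of total order one in the disc, not vanishing at other centres. -/
theorem exists_tot_one (U : D.Unif) (S : Finset (D.B →+* ResidueField A))
    (hS : ∀ ψ ∈ S, (∀ a, ψ (D.cst a) = residue A a) ∧ ψ ≠ D.χ) :
    ∃ x : D.B, D.χ x = 0 ∧ D.tot (x : F) = 1 ∧ ∀ ψ ∈ S, ψ x ≠ 0 := by
  classical
  haveI := Fintype.ofFinite D.Γ
  haveI : Infinite (ResidueField A) := IsAlgClosed.instInfinite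
  have hone : (1 : D.Γ) ∈ D.stab := fun y => congrArg D.χ (Subtype.ext rfl)
  set e := Nat.card D.stab
  have he : 1 ≤ e := by
    haveI : Nonempty D.stab := ⟨⟨1, hone⟩⟩
    exact Nat.card_pos
  set β := U.β₀
  have hβ := U.β₀_eq
  have hTne : (D.Tsub β : F) ≠ 0 := fun h =>
    D.fin.transcendental (by
      rw [coe_Tsub, sub_eq_zero] at h
      rw [h]; exact isAlgebraic_algebraMap _)
  have hη : (U.η : F) ≠ 0 := coe_ne_zero_of_χ U.χ_η
  have hpow : (U.t : F) ^ e = (U.η : F) * (D.Tsub β : F) := congrArg Subtype.val U.pow_eq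
  have ht : (U.t : F) ≠ 0 := fun h => mul_ne_zero hη hTne (by rw [← hpow, h, zero_pow (by omega)])
  have htot : D.tot (U.t : F) = 1 := by
    have h1 := congrArg D.tot hpow
    rw [tot_pow ht, tot_mul hη hTne, tot_eq_zero U.χ_η, tot_Tsub hβ, zero_add] at h1
    have h2 : (e : ℤ) ≠ 0 := by omega
    exact mul_left_cancel₀ h2 (h1.trans (mul_one _).symm)
  -- an element separating the centre from the others
  obtain ⟨y, hy⟩ : ∃ y : D.B, ∀ ψ ∈ S, ψ y ≠ D.χ y := by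
    induction S using Finset.induction_on with
    | empty => exact ⟨0, by simp⟩
    | insert ψ S hψ ih =>
      obtain ⟨y, hy⟩ := ih fun φ hφ => hS φ (Finset.mem_insert_of_mem hφ)
      obtain ⟨y₁, hy₁⟩ := DFunLike.ne_iff.mp (hS ψ (Finset.mem_insert_self _ _)).2
      obtain ⟨c, hc⟩ := Infinite.exists_notMem_finset ((insert ψ S).image fun φ =>
        -(φ y - D.χ y) / (φ y₁ - D.χ y₁))
      obtain ⟨a, rfl⟩ := residue_surjective c
      refine ⟨y + D.cst a * y₁, fun φ hφ h => hc ?_⟩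
      rw [map_add, map_mul, map_add, map_mul, (hS φ hφ).1, χ_cst] at h
      by_cases h1 : φ y₁ = D.χ y₁
      · rcases Finset.mem_insert.mp hφ with rfl | hφS
        · exact absurd h1 hy₁
        · exact absurd (by rw [h1] at h; exact add_right_cancel h) (hy φ hφS)
      · refine Finset.mem_image.mpr ⟨φ, hφ, ?_⟩
        rw [div_eq_iff (sub_ne_zero.mpr h1)]
        linear_combination -h
  obtain ⟨Q₀, hQ₀, hpos⟩ := exists_inDisc hβ
  obtain ⟨hconj, hcard⟩ := D.fin.galois_fibre D.Γ D.fixed (β : Q̄) Q₀ hpos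
  -- factors vanishing at the places over `β`
  have hf : ∀ g : D.Γ, ∃ f : D.B, HasVal ((g : F ≃ₐ[Q̄] F) • Q₀) (f : F) 0 ∧
      (g ∈ D.stab → D.χ f = 0 ∧ ∀ ψ ∈ S, ψ f ≠ 0) ∧ (g ∉ D.stab → D.χ f ≠ 0) := by
    intro g
    have hsub : ∀ (f : D.B) (a : A), HasVal ((g : F ≃ₐ[Q̄] F) • Q₀) (f : F) (a : Q̄) →
        HasVal ((g : F ≃ₐ[Q̄] F) • Q₀) ((f - D.cst a : D.B) : F) 0 := fun f a ha => by
      refine ha.imp (fun h => ?_) fun h => ?_
      · rw [map_zero]; exact sub_eq_zero.mpr h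
      · rw [map_zero, sub_zero]; exact h
    by_cases hg : g ∈ D.stab
    · obtain ⟨a, ha, har⟩ := ((hQ₀.smul_iff g).mpr hg).exists_val y
      refine ⟨y - D.cst a, hsub y a ha, fun _ => ⟨?_, fun ψ hψ => ?_⟩, absurd hg⟩
      · rw [map_sub, χ_cst, har, sub_self]
      · rw [map_sub, (hS ψ hψ).1, har]; exact sub_ne_zero.mpr (hy ψ hψ)
    · have hnd : ¬ D.InDisc ((g : F ≃ₐ[Q̄] F) • Q₀) := fun h => hg ((hQ₀.smul_iff g).mp h)
      simp only [InDisc, not_and, not_forall] at hnd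
      obtain ⟨y₁, a, ha, hya⟩ := hnd ⟨β, hβ, by rwa [ord_smul_Tsub]⟩
      refine ⟨y₁ - D.cst a, hsub y₁ a ha, fun h => absurd h hg, fun _ => ?_⟩
      rw [map_sub, χ_cst, sub_ne_zero]
      exact fun h => hya h.symm
  choose f hf0 hf1 hf2 using hf
  set s₁ : D.B := ∏ g ∈ Finset.univ.filter (· ∈ D.stab), f g with hs₁
  set s₂ : D.B := ∏ g ∈ Finset.univ.filter (· ∉ D.stab), f g with hs₂
  have hs₁χ : D.χ s₁ = 0 := by
    rw [hs₁, map_prod]
    exact Finset.prod_eq_zero (i := 1) (Finset.mem_filter.mpr ⟨Finset.mem_univ _, hone⟩)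
      (hf1 1 hone).1
  have hs₁ψ : ∀ ψ ∈ S, ψ s₁ ≠ 0 := fun ψ hψ => by
    rw [hs₁, map_prod]
    exact Finset.prod_ne_zero_iff.mpr fun g hg => (hf1 g (Finset.mem_filter.mp hg).2).2 ψ hψ
  have hs₂χ : D.χ s₂ ≠ 0 := by
    rw [hs₂, map_prod]
    exact Finset.prod_ne_zero_iff.mpr fun g hg => hf2 g (Finset.mem_filter.mp hg).2
  -- their product is divisible by the coordinate
  obtain ⟨z, hz⟩ : ∃ z : D.B, s₁ * s₂ = z * D.Tsub β := by
    have hP : s₁ * s₂ = ∏ g, f g := by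
      rw [hs₁, hs₂]; exact Finset.prod_filter_mul_prod_filter_not _ _ _
    rw [hP]
    by_cases h0 : ((∏ g, f g : D.B) : F) = 0
    · exact ⟨0, Subtype.ext (by rw [zero_mul, h0]; rfl)⟩
    have hPF : ((∏ g, f g : D.B) : F) = ∏ g, (f g : F) := SubmonoidClass.coe_finsetProd _ _
    have hne : ∀ g, (f g : F) ≠ 0 := fun g h => h0 (by
      rw [hPF]; exact Finset.prod_eq_zero (Finset.mem_univ g) h)
    have hord : ∀ Q : Place Q̄ F, 0 < Q.ord (D.T - algebraMap Q̄ F β) →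
        Q.ord (D.T - algebraMap Q̄ F β) ≤ Q.ord ((∏ g, f g : D.B) : F) := by
      intro Q hQ
      obtain ⟨g, hg, rfl⟩ := hconj Q hQ
      set G : Finset D.Γ := Finset.univ.filter fun h : D.Γ => (h : F ≃ₐ[Q̄] F) • Q₀ = g • Q₀
      have hr : (g • Q₀).ord (D.T - algebraMap Q̄ F β) = G.card := by
        rw [ord_smul_Tsub ⟨g, hg⟩ Q₀ β, ← hcard, ← card_fibre_smul Q₀ ⟨g, hg⟩]
      have hsum : ∀ E : Finset D.Γ, (g • Q₀).ord (∏ h ∈ E, (f h : F)) =
          ∑ h ∈ E, (g • Q₀).ord (f h : F) := fun E => by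
        induction E using Finset.induction_on with
        | empty => simp
        | insert i E hi ih =>
          rw [Finset.prod_insert hi, Finset.sum_insert hi, Place.ord_mul _ (hne i)
            (Finset.prod_ne_zero_iff.mpr fun j _ => hne j), ih]
      have h1 : ∀ h ∈ G, (1 : ℤ) ≤ (g • Q₀).ord (f h : F) := fun h hh => by
        rw [← (Finset.mem_filter.mp hh).2]
        rcases hf0 h with h' | h'
        · exact absurd (h'.trans (map_zero _)) (hne h)
        · rw [map_zero, sub_zero] at h'; exact h'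
      have hnn : ∀ h : D.Γ, 0 ≤ (g • Q₀).ord (f h : F) := fun h => by
        obtain ⟨a, ha⟩ := D.val _ β hβ hQ (f h) (f h).2
        exact ha.ord_nonneg
      rw [hr, hPF, hsum]
      exact le_trans (by simpa using Finset.card_nsmul_le_sum _ _ 1 h1)
        (Finset.sum_le_sum_of_subset_of_nonneg (Finset.subset_univ G) fun h _ _ => hnn h)
    refine ⟨⟨_, D.closed _ (∏ g, f g : D.B).2 β hβ hord⟩, Subtype.ext ?_⟩
    show ((∏ g, f g : D.B) : F) =
      ((∏ g, f g : D.B) : F) / (D.Tsub β : F) * (D.Tsub β : F)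
    rw [div_mul_cancel₀ _ hTne]
  -- the corrected uniformiser
  obtain ⟨c, hc⟩ := Infinite.exists_notMem_finset (S.image fun ψ => -ψ U.t / (ψ s₁) ^ 2)
  obtain ⟨r, rfl⟩ := residue_surjective c
  set x : D.B := U.t + D.cst r * s₁ ^ 2 with hx
  set b : D.B := (s₂ * U.η) ^ 2 + D.cst r * z ^ 2 * U.t ^ (2 * e - 1) with hb
  have key : x * (s₂ * U.η) ^ 2 = U.t * b := by
    have h1 : (s₁ * s₂ * U.η) ^ 2 = U.t * (z ^ 2 * U.t ^ (2 * e - 1)) := by
      rw [show s₁ * s₂ * U.η = z * U.t ^ e by rw [hz, U.pow_eq]; ring, mul_pow, ← pow_mul,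
        show e * 2 = 2 * e - 1 + 1 by omega, pow_succ]
      ring
    rw [hx, hb]
    linear_combination (D.cst r) * h1
  have hbχ : D.χ b ≠ 0 := by
    rw [hb, map_add, map_mul _ _ (U.t ^ _), map_pow _ U.t, U.χ_t, zero_pow (by omega), mul_zero,
      add_zero, map_pow, map_mul]
    exact pow_ne_zero _ (mul_ne_zero hs₂χ U.χ_η)
  have hkey : (x : F) * ((s₂ * U.η : D.B) : F) ^ 2 = (U.t : F) * (b : F) := congrArg Subtype.val key
  have hsη : D.χ ((s₂ * U.η) ^ 2) ≠ 0 := by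
    rw [map_pow, map_mul]; exact pow_ne_zero _ (mul_ne_zero hs₂χ U.χ_η)
  have hrhs : (U.t : F) * (b : F) ≠ 0 := mul_ne_zero ht (coe_ne_zero_of_χ hbχ)
  refine ⟨x, ?_, ?_, fun ψ hψ h => hc ?_⟩
  · rw [hx, map_add, map_mul, map_pow, U.χ_t, hs₁χ, zero_pow two_ne_zero, mul_zero, add_zero]
  · have h1 := congrArg D.tot hkey
    rw [← SubmonoidClass.coe_pow, tot_mul (left_ne_zero_of_mul (hkey ▸ hrhs))
      (coe_ne_zero_of_χ hsη), tot_mul ht (coe_ne_zero_of_χ hbχ), tot_eq_zero hsη, tot_eq_zero hbχ,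
      htot, add_zero, add_zero] at h1
    exact h1
  · refine Finset.mem_image.mpr ⟨ψ, hψ, ?_⟩
    rw [hx, map_add, map_mul, map_pow, (hS ψ hψ).1] at h
    rw [div_eq_iff (pow_ne_zero _ (hs₁ψ ψ hψ))]
    linear_combination -h

end DiscData

/-- The places with the centre of `P₀` on the chart of `t`. -/
def SameCen (A : ValuationSubring Q̄) {F : Type*} [Field F] [Algebra Q̄ F] (t : F)
    (P₀ P : Place Q̄ F) [Module.Finite Q̄ P.ResidueField] : Prop :=
  IsIntAt A P t ∧ ∀ y ∈ chart A t, ∀ a a' : A, HasVal P y (a : Q̄) → HasVal P₀ y (a' : Q̄) →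
    residue A a = residue A a'

namespace Cover

variable (W : Cover A F) {χ : chart A W.t₀ →+* ResidueField A}
  (hχ : ∀ a, χ (W.cst a) = residue A a)

theorem inDisc_iff_val (Q : Place Q̄ F) [Module.Finite Q̄ Q.ResidueField] :
    (W.disc χ hχ).InDisc Q ↔ IsIntAt A Q W.t₀ ∧
      ∀ (y : chart A W.t₀) (a : A), HasVal Q (y : F) (a : Q̄) → residue A a = χ y := by
  constructor
  · intro h
    obtain ⟨h', -⟩ := (W.inDisc_iff hχ Q).mp h
    exact ⟨h', h.2⟩
  · rintro ⟨h, hQ⟩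
    refine (W.inDisc_iff hχ Q).mpr ⟨h, RingHom.ext fun y => ?_⟩
    obtain ⟨a, ha⟩ := exists_hasVal_of_mem_chart Q h y.2
    rw [cval_of_hasVal Q h y ha]
    exact hQ y a ha

/-- An element of the group on the chart. -/
def shiftC (g : W.G) : chart A W.t₀ →+* chart A W.t₀ :=
  ((g : F ≃ₐ[Q̄] F) : F →+* F).restrict _ _ fun _ hy => W.map_chart g.2 hy

theorem coe_shiftC (g : W.G) (y : chart A W.t₀) :
    (W.shiftC g y : F) = (g : F ≃ₐ[Q̄] F) (y : F) := rfl

theorem shiftC_const (g : W.G) (a : A) : W.shiftC g (W.cst a) = W.cst a :=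
  Subtype.ext ((g : F ≃ₐ[Q̄] F).commutes _)

include hχ in
theorem comp_shiftC_const (g : W.G) (a : A) : (χ.comp (W.shiftC g)) (W.cst a) = residue A a := by
  rw [RingHom.comp_apply, shiftC_const, hχ]

theorem inDisc_smul_iff (g : W.G) (Q : Place Q̄ F) [Module.Finite Q̄ Q.ResidueField]
    [Module.Finite Q̄ ((g : F ≃ₐ[Q̄] F) • Q).ResidueField] :
    (W.disc χ hχ).InDisc ((g : F ≃ₐ[Q̄] F) • Q) ↔
      (W.disc (χ.comp (W.shiftC g)) (W.comp_shiftC_const hχ g)).InDisc Q := by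
  rw [inDisc_iff_val, inDisc_iff_val]
  have hint : IsIntAt A ((g : F ≃ₐ[Q̄] F) • Q) W.t₀ ↔ IsIntAt A Q W.t₀ := by
    simp only [isIntAt_iff]
    conv_lhs => rw [← W.G_t₀ g.2]
    simp only [hasVal_smul]
  rw [hint]
  refine and_congr_right fun _ => ⟨fun h y a ha => ?_, fun h y a ha => ?_⟩
  · exact h (W.shiftC g y) a ((hasVal_smul _ _ _ _).mpr ha)
  · have hy : W.shiftC g (W.shiftC g⁻¹ y) = y :=
      Subtype.ext ((g : F ≃ₐ[Q̄] F).apply_symm_apply _)
    have := h (W.shiftC g⁻¹ y) a ((hasVal_smul (g : F ≃ₐ[Q̄] F) _ _ _).mp (by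
      rw [← coe_shiftC, hy]; exact ha))
    rwa [RingHom.comp_apply, hy] at this

variable {F₀ : Type*} [Field F₀] [Algebra Q̄ F₀] (ι : F₀ →ₐ[Q̄] F) (H : Subgroup (F ≃ₐ[Q̄] F))
  [Finite H] (hH : H ≤ W.G) (hfix : fixedField H = ι.fieldRange) {t : F₀} (ht : ι t = W.t₀)
  {x₀ : F₀} (hx₀ : IsFinOver Q̄ x₀)

include hH hfix ht hx₀

set_option maxHeartbeats 1600000 in
/-- An element from below whose zeros with the centre of `P₀` have total order one, and which is a
unit at the centre of `P₁`. -/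
theorem exists_norm_one [∀ P : Place Q̄ F₀, Module.Finite Q̄ P.ResidueField]
    [HasPrincipalDivisors Q̄ F₀] (P₀ P₁ : Place Q̄ F₀) {a₀ a₁ : A}
    (h₀ : HasVal P₀ t (a₀ : Q̄)) (h₁ : HasVal P₁ t (a₁ : Q̄))
    (hne : residue A a₀ ≠ residue A a₁)
    (hU : ∀ χ hχ, χ ⟨W.t₀, self_mem_chart A _⟩ = residue A a₀ →
      Nonempty (W.disc χ hχ).Unif) :
    ∃ a : F₀, a ∈ chart A t ∧ a ≠ 0 ∧ (∃ b : A, HasVal P₀ a (b : Q̄) ∧ residue A b = 0) ∧
      (∃ b : A, HasVal P₁ a (b : Q̄) ∧ residue A b ≠ 0) ∧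
      ∀ E : Divisor Q̄ F₀, (∀ P, SameCen A t P₀ P → E P = P.ord a) →
        (∀ P, ¬ SameCen A t P₀ P → E P = 0) → Divisor.degree E = 1 := by
  classical
  haveI := W.fin.hasPrincipalDivisors
  haveI := Fintype.ofFinite H
  haveI hres : ∀ R : Place Q̄ F, Module.Finite Q̄ R.ResidueField := W.fin.finiteResidue
  have hfa : FiniteAlong Q̄ ι := finiteAlong_of_isFinOver hx₀ W.fin ι
  have hι := isIntegral_of_finiteAlong hfa
  have hFI := fundamentalIdentityAlong_of_isFinOver hx₀ W.fin ι hι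
  have hdeg : finrankAlong Q̄ ι = Nat.card H := by
    rw [← finrank_fixed_eq_card H, hfix]
    letI := algebraAlong ι
    show Module.finrank F₀ F = _
    exact Algebra.finrank_eq_of_equiv_equiv (AlgEquiv.ofInjectiveField ι).toRingEquiv
      (RingEquiv.refl F) (RingHom.ext fun z => rfl)
  -- places above
  have hover : ∀ P : Place Q̄ F₀, ∃ Q : Place Q̄ F, Q.restrictAlong ι hι = P := fun P => by
    have h := Divisor.degree_pullbackAlong ι hι hFI (Finsupp.single P 1)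
    rw [Divisor.degree_single, hx₀.deg_eq_one P, Nat.cast_one, mul_one, mul_one,
      Divisor.pullbackAlong_single, map_sum] at h
    by_contra hno
    push Not at hno
    rw [Finset.sum_eq_zero fun Q hQ => absurd (Place.mem_fiberAlong.mp hQ) (hno Q), hdeg] at h
    exact Nat.card_pos.ne' (by exact_mod_cast h.symm)
  obtain ⟨Q₀, hQ₀⟩ := hover P₀
  obtain ⟨Q₁, hQ₁⟩ := hover P₁
  subst hQ₀ hQ₁
  rw [← hasVal_restrictAlong ι hι, ht] at h₀ h₁
  have hint₀ := isIntAt_of_hasVal Q₀ h₀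
  have hint₁ := isIntAt_of_hasVal Q₁ h₁
  set χ := cval A Q₀ W.t₀ hint₀ with hχdef
  set χ₁ := cval A Q₁ W.t₀ hint₁
  have hχ : ∀ a, χ (W.cst a) = residue A a := fun a =>
    cval_of_hasVal Q₀ hint₀ (W.cst a) (Or.inl rfl)
  have hχ₁ : ∀ a, χ₁ (W.cst a) = residue A a := fun a =>
    cval_of_hasVal Q₁ hint₁ (W.cst a) (Or.inl rfl)
  set t' : chart A W.t₀ := ⟨W.t₀, self_mem_chart A _⟩
  have hχt : χ t' = residue A a₀ := cval_of_hasVal Q₀ hint₀ t' h₀
  have hχ₁t : χ₁ t' = residue A a₁ := cval_of_hasVal Q₁ hint₁ t' h₁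
  obtain ⟨U⟩ := hU χ hχ hχt
  set D := W.disc χ hχ
  let G' : H → W.G := fun h => ⟨h.1, hH h.2⟩
  have hshift_t : ∀ g : W.G, W.shiftC g t' = t' := fun g => Subtype.ext (W.G_t₀ g.2)
  have hQ₀D : D.InDisc Q₀ := (W.inDisc_iff hχ Q₀).mpr ⟨hint₀, rfl⟩
  -- the other centres
  let S : Finset (chart A W.t₀ →+* ResidueField A) :=
    ((Finset.univ.image fun h : H => χ.comp (W.shiftC (G' h))).erase χ) ∪
      Finset.univ.image fun h : H => χ₁.comp (W.shiftC (G' h))
  obtain ⟨x, hxχ, hxtot, hxS⟩ := D.exists_tot_one U S (fun ψ hψ => by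
    rcases Finset.mem_union.mp hψ with hψ | hψ
    · obtain ⟨hne', hψ⟩ := Finset.mem_erase.mp hψ
      obtain ⟨h, -, rfl⟩ := Finset.mem_image.mp hψ
      exact ⟨W.comp_shiftC_const hχ _, hne'⟩
    · obtain ⟨h, -, rfl⟩ := Finset.mem_image.mp hψ
      refine ⟨W.comp_shiftC_const hχ₁ _, fun h' => hne ?_⟩
      have := RingHom.congr_fun h' t'
      rw [RingHom.comp_apply, hshift_t, hχ₁t] at this
      exact hχt ▸ this.symm)
  have hx0 : (x : F) ≠ 0 := fun h => by simp [h, DiscData.tot] at hxtot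
  -- the norm
  set r : chart A W.t₀ := ∏ h : H, W.shiftC (G' h) x with hr
  have hrF : (r : F) = ∏ h : H, (h : F ≃ₐ[Q̄] F) (x : F) := SubmonoidClass.coe_finsetProd _ _
  obtain ⟨a, ha⟩ : (r : F) ∈ ι.fieldRange := by
    rw [← hfix, mem_fixedField_iff]
    intro σ hσ
    rw [hrF, map_prod]
    exact Fintype.prod_equiv (Equiv.mulLeft (⟨σ, hσ⟩ : H)) _ _ fun h => rfl
  have ha' : ι a = (r : F) := ha
  have hfne : ∀ h : H, (h : F ≃ₐ[Q̄] F) (x : F) ≠ 0 := fun h => by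
    rwa [Ne, map_eq_zero]
  have hr0 : ι a ≠ 0 := ha' ▸ hrF ▸ Finset.prod_ne_zero_iff.mpr fun h _ => hfne h
  have hachart : a ∈ chart A t := (mem_chart_map_iff ι).mp (by rw [ha', ht]; exact r.2)
  have hval : ∀ (Q : Place Q̄ F) (hQ : IsIntAt A Q W.t₀), ∃ b : A,
      HasVal (Q.restrictAlong ι hι) a (b : Q̄) ∧ residue A b = cval A Q W.t₀ hQ r := fun Q hQ => by
    obtain ⟨b, hb⟩ := exists_hasVal_of_mem_chart Q hQ r.2
    exact ⟨b, (hasVal_restrictAlong ι hι Q).mp (ha' ▸ hb), (cval_of_hasVal Q hQ r hb).symm⟩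
  refine ⟨a, hachart, fun h => hr0 (by rw [h, map_zero]), ?_, ?_, fun E hE hE0 => ?_⟩
  · obtain ⟨b, hb, hbr⟩ := hval Q₀ hint₀
    refine ⟨b, hb, hbr.trans ?_⟩
    rw [hr, map_prod]
    refine Finset.prod_eq_zero (Finset.mem_univ (1 : H)) ?_
    rw [show W.shiftC (G' 1) x = x from Subtype.ext rfl]
    exact hxχ
  · obtain ⟨b, hb, hbr⟩ := hval Q₁ hint₁
    refine ⟨b, hb, hbr.trans_ne ?_⟩
    rw [hr, map_prod]
    exact Finset.prod_ne_zero_iff.mpr fun h _ => hxS (χ₁.comp (W.shiftC (G' h)))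
      (Finset.mem_union_right _ (Finset.mem_image.mpr ⟨h, Finset.mem_univ _, rfl⟩))
  -- the total order in the disc
  have hstab : ∀ h : H, D.InDisc ((h : F ≃ₐ[Q̄] F) • Q₀) ↔ χ.comp (W.shiftC (G' h)) = χ := fun h => by
    rw [W.inDisc_smul_iff hχ (G' h) Q₀, inDisc_iff]
    exact ⟨fun ⟨_, e⟩ => e.symm, fun e => ⟨hint₀, e.symm⟩⟩
  let m : ℕ := Nat.card {h : H // D.InDisc ((h : F ≃ₐ[Q̄] F) • Q₀)}
  have hm : 0 < m := by
    haveI : Nonempty {h : H // D.InDisc ((h : F ≃ₐ[Q̄] F) • Q₀)} :=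
      ⟨⟨1, by rw [Subgroup.coe_one, one_smul]; exact hQ₀D⟩⟩
    exact Nat.card_pos
  have htotx : D.tot (ι a) = m := by
    rw [ha', hrF, DiscData.tot_prod _ _ fun h _ => hfne h]
    have hterm : ∀ h : H, D.tot ((h : F ≃ₐ[Q̄] F) (x : F)) =
        if D.InDisc ((h : F ≃ₐ[Q̄] F) • Q₀) then 1 else 0 := fun h => by
      split_ifs with hh
      · rw [← hxtot]
        simp only [DiscData.tot]
        rw [← finsum_comp_equiv (MulAction.toPerm (h : F ≃ₐ[Q̄] F))]
        refine finsum_congr fun Q => ?_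
        show (if D.InDisc ((h : F ≃ₐ[Q̄] F) • Q) then _ else _) = _
        have he : D.InDisc ((h : F ≃ₐ[Q̄] F) • Q) ↔ D.InDisc Q := by
          rw [W.inDisc_smul_iff hχ (G' h) Q, inDisc_iff, inDisc_iff, (hstab h).mp hh]
        simp only [MulAction.toPerm_apply, Place.ord_smul, he]
      · exact DiscData.tot_eq_zero (D := D) (y := (W.shiftC (G' h) x : D.B))
          (hxS (χ.comp (W.shiftC (G' h))) (Finset.mem_union_left _ (Finset.mem_erase.mpr
            ⟨fun e => hh ((hstab h).mpr e), Finset.mem_image.mpr ⟨h, Finset.mem_univ _, rfl⟩⟩)))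
    rw [Finset.sum_congr rfl fun h _ => hterm h, Finset.sum_boole]
    simp only [m, Nat.card_eq_fintype_card, Fintype.card_subtype]
  -- the count
  set P₀ := Q₀.restrictAlong ι hι
  let cnt : Place Q̄ F → ℕ := fun Q => Nat.card {h : H // D.InDisc ((h : F ≃ₐ[Q̄] F) • Q)}
  have hrestr : ∀ (h : H) (Q : Place Q̄ F),
      ((h : F ≃ₐ[Q̄] F) • Q).restrictAlong ι hι = Q.restrictAlong ι hι := fun h Q =>
    Place.ext (SetLike.ext fun y => by
      have hb : ∀ b : Q̄, HasVal (((h : F ≃ₐ[Q̄] F) • Q).restrictAlong ι hι) y b ↔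
          HasVal (Q.restrictAlong ι hι) y b := fun b => by
        rw [← hasVal_restrictAlong ι hι, ← hasVal_restrictAlong ι hι]
        conv_lhs => rw [← (mem_fixedField_iff H _).mp (hfix ▸ ⟨y, rfl⟩ : ι y ∈ fixedField H) _ h.2]
        rw [hasVal_smul]
      exact ⟨fun hy => ((hb _).mp ((hasVal_iff _).mpr ⟨hy, rfl⟩)).mem,
        fun hy => ((hb _).mpr ((hasVal_iff _).mpr ⟨hy, rfl⟩)).mem⟩)
  have hcen : ∀ Q : Place Q̄ F, D.InDisc Q → SameCen A t P₀ (Q.restrictAlong ι hι) := fun Q hQ => by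
    obtain ⟨hQi, hQv⟩ := (W.inDisc_iff_val hχ Q).mp hQ
    refine ⟨(isIntAt_restrictAlong ι hι Q).mp (ht ▸ hQi), fun y hy b b' hb hb' => ?_⟩
    have hy' : ι y ∈ chart A W.t₀ := ht ▸ map_mem_chart ι hy
    rw [hQv ⟨_, hy'⟩ b ((hasVal_restrictAlong ι hι Q).mpr hb)]
    exact cval_of_hasVal Q₀ hint₀ ⟨_, hy'⟩ ((hasVal_restrictAlong ι hι Q₀).mpr hb')
  have hcnt : ∀ Q : Place Q̄ F, cnt Q = if SameCen A t P₀ (Q.restrictAlong ι hι) then m else 0 := by
    intro Q
    split_ifs with hs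
    · refine W.count_eq hχ ι H hH hfix ht hι Q Q₀ ⟨iff_of_true hs.1
        ((isIntAt_restrictAlong ι hι Q₀).mp (ht ▸ hint₀)), fun g g' => RingHom.ext fun y => ?_⟩
      obtain ⟨b, hb⟩ := exists_hasVal_of_mem_chart _ g y.2
      obtain ⟨b', hb'⟩ := exists_hasVal_of_mem_chart _ g' y.2
      rw [cval_of_hasVal _ g y hb, cval_of_hasVal _ g' y hb']
      exact hs.2 y y.2 b b' hb hb'
    · refine Nat.card_eq_zero.mpr (Or.inl ⟨fun h => hs ?_⟩)
      have := hcen _ h.2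
      rwa [hrestr] at this
  set D' := Divisor.pullbackAlong ι hι E with hD'
  have hD'v : ∀ Q : Place Q̄ F, D' Q =
      if SameCen A t P₀ (Q.restrictAlong ι hι) then Q.ord (ι a) else 0 := fun Q => by
    rw [hD', Divisor.pullbackAlong_apply, Q.ord_restrictAlong ι hι]
    split_ifs with hs
    · rw [hE _ hs]
    · rw [hE0 _ hs, mul_zero]
  have hdegD' : Divisor.degree D' = Nat.card H * Divisor.degree E := by
    rw [hD', Divisor.degree_pullbackAlong ι hι hFI, hdeg]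
  set T := (finite_ord_support (ι a)).toFinset
  have hT : ∀ Q, Q.ord (ι a) ≠ 0 → Q ∈ T := fun Q hQ => (Set.Finite.mem_toFinset _).mpr hQ
  have hsumD' : Divisor.degree D' = ∑ Q ∈ T, D' Q := by
    refine (degree_eq_sum D' W.fin.deg_eq_one T fun Q hQ => ?_)
    rw [hD'v Q, not_not.mp (mt (hT Q) hQ), ite_self]
  have hinv : ∀ (s : H) (Q : Place Q̄ F), ((s : F ≃ₐ[Q̄] F) • Q).ord (ι a) = Q.ord (ι a) := fun s Q => by
    conv_lhs => rw [← (mem_fixedField_iff H _).mp (hfix ▸ ⟨a, rfl⟩ : ι a ∈ fixedField H) _ s.2]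
    rw [Place.ord_smul]
  have htot : ∀ s : H, D.tot (ι a) =
      ∑ Q ∈ T, (if D.InDisc ((s : F ≃ₐ[Q̄] F) • Q) then Q.ord (ι a) else 0) := fun s => by
    rw [DiscData.tot, ← finsum_comp_equiv (MulAction.toPerm (s : F ≃ₐ[Q̄] F)),
      finsum_eq_sum_of_support_subset (s := T)]
    · refine Finset.sum_congr rfl fun Q _ => ?_
      simp only [MulAction.toPerm_apply]
      rw [show ((s : F ≃ₐ[Q̄] F) • Q).ord (ι a) = Q.ord (ι a) from hinv s Q]
    · intro Q hQ
      rw [Function.mem_support, MulAction.toPerm_apply] at hQ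
      refine hT Q fun h0 => hQ ?_
      rw [hinv, h0, ite_self]
  have hkey : (Nat.card H : ℤ) * m = m * ((Nat.card H : ℤ) * Divisor.degree E) := by
    rw [← hdegD', hsumD', Finset.mul_sum]
    conv_lhs => rw [← htotx, Nat.card_eq_fintype_card, ← nsmul_eq_mul, ← Finset.card_univ,
      ← Finset.sum_const, Finset.sum_congr rfl fun s _ => htot s, Finset.sum_comm]
    refine Finset.sum_congr rfl fun Q _ => ?_
    rw [← Finset.sum_filter, Finset.sum_const, nsmul_eq_mul, hD'v,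
      show ((Finset.univ.filter fun s : H => D.InDisc ((s : F ≃ₐ[Q̄] F) • Q)).card) = cnt Q by
        simp only [cnt, Nat.card_eq_fintype_card, Fintype.card_subtype], hcnt]
    split_ifs <;> simp
  have hH0 : (Nat.card H : ℤ) ≠ 0 := by exact_mod_cast Nat.card_pos.ne'
  have hm0 : (m : ℤ) ≠ 0 := by exact_mod_cast hm.ne'
  rw [mul_comm (m : ℤ), mul_assoc] at hkey
  have h2 : (m : ℤ) * 1 = m * Divisor.degree E := by
    rw [mul_one, mul_comm (m : ℤ)]
    exact mul_left_cancel₀ hH0 hkey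
  exact (mul_left_cancel₀ hm0 h2).symm

end Cover

end Fermat.Agent.MCurve.Spec
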