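import Fermat.Agent.MCurve.Spec.CuspDisc

/-!
Two functions of level `M` with the same total orders in every disc have proportional residues at a
Gauss valuation.
-/

set_option autoImplicit false

noncomputable section

namespace Fermat.Agent.MCurve.Spec

open AlgebraicCurve Polynomial IsLocalRing
open Fermat.Agent.GalRep.Model (Lev)

local notation "Q̄" => AlgebraicClosure ℚ

variable {A : ValuationSubring Q̄} {F : Type*} [Field F] [Algebra Q̄ F]

/-- Polynomials in the coordinate inside the chart. -/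
def polC (A : ValuationSubring Q̄) (t : F) : Polynomial A →+* chart A t :=
  (polyA A t).codRestrict _ (polyA_mem_chart A t)

/-- Large negative powers of the coordinate move a chart into the other one. -/
theorem exists_inv_pow_mul_mem {t y : F} (ht : t ≠ 0) (hy : y ∈ chart A t) :
    ∃ n₀ : ℕ, ∀ n ≥ n₀, y * t⁻¹ ^ n ∈ chart A t⁻¹ := by
  obtain ⟨p, hp, hpy⟩ := hy
  set m := ∑ i ∈ p.support, (p.coeff i).natDegree with hm
  have hle : ∀ i, (p.coeff i).natDegree ≤ m := fun i => by
    by_cases hi : i ∈ p.support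
    · exact Finset.single_le_sum (f := fun i => (p.coeff i).natDegree) (fun _ _ => Nat.zero_le _) hi
    · rw [notMem_support_iff.mp hi, natDegree_zero]; exact Nat.zero_le _
  have hpoly : ∀ (P : Polynomial A) (D : ℕ), P.natDegree ≤ D →
      polyA A t P * t⁻¹ ^ D ∈ chart A t⁻¹ := by
    intro P D hD
    rw [P.as_sum_range_C_mul_X_pow' (Nat.lt_succ_of_le hD), map_sum, Finset.sum_mul]
    refine Subring.sum_mem _ fun i hi => ?_
    have hiD : i ≤ D := by simpa [Nat.lt_succ_iff] using hi
    rw [map_mul, map_pow, polyA_C, polyA_X, mul_assoc, ← Nat.add_sub_cancel' hiD, pow_add,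
      ← mul_assoc (t ^ i), ← mul_pow, mul_inv_cancel₀ ht, one_pow, one_mul]
    exact mul_mem (algebraMap_mem_chart A _ _) (pow_mem (self_mem_chart A _) _)
  refine ⟨m, fun n hn => ?_⟩
  set s := t⁻¹ ^ n with hs
  have hs0 : s ≠ 0 := pow_ne_zero _ (inv_ne_zero ht)
  refine mem_chart_of_monic A (∑ i ∈ Finset.range (p.natDegree + 1),
      C (polyA A t (p.coeff i) * s ^ (p.natDegree - i)) * X ^ i) ?_ (fun i => ?_) ?_
  · refine monic_of_natDegree_le_of_coeff_eq_one p.natDegree ?_ ?_
    · refine natDegree_sum_le_of_forall_le _ _ fun i hi => (natDegree_C_mul_X_pow_le _ _).trans ?_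
      simpa [Nat.lt_succ_iff] using hi
    · rw [finsetSum_coeff, Finset.sum_eq_single p.natDegree (fun i _ hi => by
        rw [coeff_C_mul_X_pow, if_neg (Ne.symm hi)]) (fun h => absurd (Finset.self_mem_range_succ _) h),
        coeff_C_mul_X_pow, if_pos rfl, hp.coeff_natDegree, map_one, Nat.sub_self, pow_zero, one_mul]
  · rw [finsetSum_coeff]
    refine Subring.sum_mem _ fun j hj => ?_
    rw [coeff_C_mul_X_pow]
    split_ifs with h
    · subst h
      rcases lt_or_eq_of_le (show i ≤ p.natDegree by simpa [Nat.lt_succ_iff] using hj) with h | h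
      · rw [hs, ← pow_mul]
        exact hpoly _ _ ((hle i).trans (hn.trans (Nat.le_mul_of_pos_right _ (by omega))))
      · rw [h, hp.coeff_natDegree, map_one, Nat.sub_self, pow_zero, one_mul]; exact one_mem _
    · exact zero_mem _
  · rw [eval_finsetSum]
    rw [eval₂_eq_sum_range] at hpy
    calc ∑ i ∈ Finset.range (p.natDegree + 1),
          (C (polyA A t (p.coeff i) * s ^ (p.natDegree - i)) * X ^ i).eval (y * s)
        = s ^ p.natDegree * ∑ i ∈ Finset.range (p.natDegree + 1), polyA A t (p.coeff i) * y ^ i := by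
          rw [Finset.mul_sum]
          refine Finset.sum_congr rfl fun i hi => ?_
          have hi' : i ≤ p.natDegree := by simpa [Nat.lt_succ_iff] using hi
          rw [eval_mul, eval_C, eval_pow, eval_X, mul_pow,
            ← Nat.sub_add_cancel hi', pow_add, Nat.add_sub_cancel]
          ring
      _ = 0 := by rw [hpy, mul_zero]

section Gauss

variable {t : F} {V : ValuationSubring F} (hV : IsGauss A t V)

/-- The constants in a Gauss valuation ring. -/
def IsGauss.cA : A →+* V :=
  ((algebraMap Q̄ F).comp A.subtype).codRestrict V.toSubring hV.const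

theorem IsGauss.isLocalHom_cA : IsLocalHom hV.cA := ⟨fun a ha => by
  by_contra hna
  have h1 := hV.nonunit a ((mem_maximalIdeal a).mpr hna)
  exact (mem_maximalIdeal _).mp
    ((ValuationSubring.coe_mem_nonunits_iff (a := hV.cA a)).mp h1) ha⟩

/-- The constants in the residue field. -/
def IsGauss.theta : ResidueField A →+* ResidueField V :=
  haveI := hV.isLocalHom_cA
  ResidueField.map hV.cA

theorem IsGauss.theta_residue (a : A) : hV.theta (residue A a) = residue V (hV.cA a) :=
  haveI := hV.isLocalHom_cA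
  ResidueField.map_residue _ _

/-- The residue map on a chart. -/
def IsGauss.red : chart A t →+* ResidueField V :=
  (residue V).comp (Subring.inclusion (show chart A t ≤ V.toSubring from fun _ h => hV.chart_le h))

/-- The residue of the coordinate. -/
def IsGauss.redT : ResidueField V := hV.red ⟨t, self_mem_chart A t⟩

/-- Polynomials over the residue field in the residue of the coordinate. -/
def IsGauss.redJ : Polynomial (ResidueField A) →+* ResidueField V :=
  eval₂RingHom hV.theta hV.redT

theorem IsGauss.red_polC (P : Polynomial A) :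
    hV.red (polC A t P) = hV.redJ (P.map (residue A)) := by
  refine RingHom.congr_fun (f := hV.red.comp (polC A t))
    (g := hV.redJ.comp (mapRingHom (residue A))) (Polynomial.ringHom_ext (fun a => ?_) ?_) P
  · simp only [RingHom.comp_apply, coe_mapRingHom, map_C, IsGauss.redJ, coe_eval₂RingHom, eval₂_C,
      hV.theta_residue]
    exact congrArg (residue V) (Subtype.ext (polyA_C A t a))
  · simp only [RingHom.comp_apply, coe_mapRingHom, map_X, IsGauss.redJ, coe_eval₂RingHom, eval₂_X]
    exact congrArg (residue V) (Subtype.ext (polyA_X A t))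

theorem IsGauss.redJ_injective : Function.Injective hV.redJ := by
  rw [injective_iff_map_eq_zero]
  intro P hP
  obtain ⟨Q, rfl⟩ := Polynomial.map_surjective (residue A) residue_surjective P
  by_contra hne
  obtain ⟨h0, -, hi⟩ := hV.unit Q hne
  rw [← hV.red_polC, IsGauss.red, RingHom.comp_apply, residue_eq_zero_iff, mem_maximalIdeal] at hP
  exact hP (IsUnit.of_mul_eq_one ⟨_, hi⟩ (Subtype.ext (mul_inv_cancel₀ h0)))

theorem IsGauss.algebraic_red (y : chart A t) :
    letI := hV.redJ.toAlgebra; IsAlgebraic (Polynomial (ResidueField A)) (hV.red y) := by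
  letI := hV.redJ.toAlgebra
  obtain ⟨p, hp, hpy⟩ := y.2
  refine IsIntegral.isAlgebraic ⟨p.map (mapRingHom (residue A)), hp.map _, ?_⟩
  rw [eval₂_map, show (algebraMap (Polynomial (ResidueField A)) (ResidueField V)).comp
      (mapRingHom (residue A)) = hV.red.comp (polC A t) from
        RingHom.ext fun P => (hV.red_polC P).symm,
    ← hom_eval₂]
  convert map_zero hV.red
  apply Subtype.ext
  rw [← Subring.subtype_apply, hom_eval₂, ZeroMemClass.coe_zero]
  exact hpy

variable [IsAlgClosed (ResidueField A)]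

/-- Functions with equal values of all valuations trivial on constants are proportional. -/
theorem IsGauss.exists_const_mul {a b : chart A t} (hb : hV.red b ≠ 0) (ha : hV.red a ≠ 0)
    (h : ∀ Wv : ValuationSubring (ResidueField V), ∀ hk : (∀ c, hV.theta c ∈ Wv),
      (hV.redT ∉ Wv ∨ ∃ (ht : hV.redT ∈ Wv) (c : ResidueField A),
        residue Wv ⟨_, ht⟩ = residue Wv ⟨_, hk c⟩) →
      Wv.valuation (hV.red a) = Wv.valuation (hV.red b)) :
    ∃ c, hV.red a = hV.theta c * hV.red b := by
  letI := hV.theta.toAlgebra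
  letI := hV.redJ.toAlgebra
  set z := hV.red a / hV.red b with hz
  by_contra hno
  push Not at hno
  have htr : Transcendental (ResidueField A) z := fun halg => by
    have hint := halg.isIntegral
    have hs := IsAlgClosed.splits (minpoly (ResidueField A) z)
    have h1 : (minpoly (ResidueField A) z).natDegree = 1 := by
      rw [← Polynomial.degree_eq_iff_natDegree_eq_of_pos one_pos]
      exact IsAlgClosed.degree_eq_one_of_irreducible _ (minpoly.irreducible hint)
    obtain ⟨c, hc⟩ := minpoly.natDegree_eq_one_iff.mp h1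
    refine hno c ?_
    rw [show hV.theta c = z from hc, hz, div_mul_cancel₀ _ hb]
  -- a valuation at which the ratio vanishes
  let p : Ideal (Polynomial (ResidueField A)) := RingHom.ker (evalRingHom 0)
  haveI : p.IsPrime := RingHom.ker_isPrime _
  let f : Localization.AtPrime p →+* ResidueField V := IsLocalization.lift
    (M := p.primeCompl) (g := (aeval z).toRingHom) fun y => by
      refine IsUnit.mk0 _ fun h0 => y.2 ?_
      rw [show (y : Polynomial (ResidueField A)) = 0 from transcendental_iff_injective.mp htr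
        (h0.trans (map_zero (aeval z)).symm)]
      exact zero_mem p
  obtain ⟨Wv, hW, hloc⟩ := IsLocalRing.exists_factor_valuationRing (R := Localization.AtPrime p) f
  have hval : ∀ P : Polynomial (ResidueField A), f (algebraMap _ _ P) = aeval z P :=
    fun P => IsLocalization.lift_eq _ P
  have hk : ∀ c, hV.theta c ∈ Wv := fun c => by
    have := hW (algebraMap _ _ (C c : Polynomial (ResidueField A)))
    rwa [hval, aeval_C] at this
  have hzm : z ∈ Wv := by
    have := hW (algebraMap _ _ (X : Polynomial (ResidueField A)))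
    rwa [hval, aeval_X] at this
  have hzlt : Wv.valuation z < 1 := by
    refine lt_of_le_of_ne ((Wv.valuation_le_one_iff z).mpr hzm) fun h1 => ?_
    have hu : IsUnit (⟨z, hzm⟩ : Wv) := (Wv.valuation_eq_one_iff ⟨z, hzm⟩).mpr h1
    have e : f.codRestrict Wv.toSubring hW (algebraMap _ _ (X : Polynomial (ResidueField A))) =
        ⟨z, hzm⟩ := Subtype.ext ((hval X).trans (aeval_X z))
    have h2 := (IsLocalization.AtPrime.isUnit_to_map_iff (Localization.AtPrime p) p X).mp
      (hloc.map_nonunit _ (by rw [e]; exact hu))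
    exact h2 (by simp [p])
  -- the coordinate specialises to a constant there
  have hcase : hV.redT ∉ Wv ∨ ∃ (ht : hV.redT ∈ Wv) (c : ResidueField A),
      residue Wv ⟨_, ht⟩ = residue Wv ⟨_, hk c⟩ := by
    refine or_iff_not_imp_left.mpr fun ht => ?_
    push Not at ht
    refine ⟨ht, ?_⟩
    have hzalg : IsAlgebraic (Polynomial (ResidueField A)) z := by
      rw [hz, div_eq_mul_inv]
      exact (hV.algebraic_red a).mul (hV.algebraic_red b).inv
    obtain ⟨q, hq0, hqz⟩ := hzalg.exists_nonzero_coeff_and_aeval_eq_zero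
      (mem_nonZeroDivisors_of_ne_zero (div_ne_zero ha hb))
    let kW : ResidueField A →+* Wv := hV.theta.codRestrict Wv.toSubring hk
    let cW : Polynomial (ResidueField A) →+* Wv := eval₂RingHom kW ⟨_, ht⟩
    have hcW : ∀ P, (cW P : ResidueField V) = hV.redJ P := fun P =>
      RingHom.congr_fun (f := (Wv.subtype).comp cW) (g := hV.redJ)
        (Polynomial.ringHom_ext (fun c => by simp [cW, kW, IsGauss.redJ])
          (by simp [cW, IsGauss.redJ])) P
    have h1 : eval₂ cW (⟨z, hzm⟩ : Wv) q = 0 := Subtype.ext (by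
      rw [← ValuationSubring.subtype_apply, hom_eval₂, ZeroMemClass.coe_zero]
      rw [show Wv.subtype.comp cW = hV.redJ from RingHom.ext hcW]
      exact hqz)
    have h2 := congrArg (residue Wv) h1
    rw [map_zero, hom_eval₂, show residue Wv ⟨z, hzm⟩ = 0 from (residue_eq_zero_iff _).mpr
      ((Wv.valuation_lt_one_iff ⟨z, hzm⟩).mpr hzlt), eval₂_at_zero, RingHom.comp_apply] at h2
    -- `h2` is a relation for the residue of the coordinate
    have h3 : eval₂ ((residue Wv).comp kW) (residue Wv ⟨_, ht⟩) (q.coeff 0) = 0 := by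
      rw [← hom_eval₂]; exact h2
    rw [(IsAlgClosed.splits (q.coeff 0)).eq_prod_roots, eval₂_mul, eval₂_C, eval₂_multiset_prod,
      mul_eq_zero, Multiset.prod_eq_zero_iff] at h3
    rcases h3 with h3 | h3
    · rw [map_eq_zero, leadingCoeff_eq_zero] at h3
      exact absurd h3 hq0
    · obtain ⟨r, hr, hr0⟩ := Multiset.mem_map.mp h3
      obtain ⟨r, -, rfl⟩ := Multiset.mem_map.mp hr
      rw [eval₂_sub, eval₂_X, eval₂_C] at hr0
      exact ⟨r, sub_eq_zero.mp hr0⟩
  have := h Wv hk hcase
  rw [hz, map_div₀, this, div_self ((_root_.map_ne_zero _).mpr hb)] at hzlt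
  exact lt_irrefl _ hzlt

end Gauss

namespace Cover

variable (W : Cover A F) {V : ValuationSubring F} (hV : IsGauss A W.t₀ V)
  [IsAlgClosed (ResidueField A)]

/-- Valuations of residues are computed by the orders in a disc. -/
theorem valuation_eq (Wv : ValuationSubring (ResidueField V)) (hk : ∀ c, hV.theta c ∈ Wv)
    (ht : hV.redT ∈ Wv) {c : ResidueField A} (hc : residue Wv ⟨_, ht⟩ = residue Wv ⟨_, hk c⟩)
    (hU : ∀ χ hχ, χ ⟨W.t₀, self_mem_chart A _⟩ = c → Nonempty (W.disc χ hχ).Unif)
    {a b : chart A W.t₀}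
    (ha : ∀ g : W.Γ, hV.red ⟨(g : F ≃ₐ[Q̄] F) a, W.map_chart (W.le g.2) a.2⟩ ≠ 0)
    (hb : ∀ g : W.Γ, hV.red ⟨(g : F ≃ₐ[Q̄] F) b, W.map_chart (W.le g.2) b.2⟩ ≠ 0)
    (htot : ∀ χ hχ, (W.disc χ hχ).tot (a : F) = (W.disc χ hχ).tot (b : F)) :
    Wv.valuation (hV.red a) = Wv.valuation (hV.red b) := by
  let kW : ResidueField A →+* Wv := hV.theta.codRestrict Wv.toSubring hk
  let cW : Polynomial A →+* Wv :=
    (eval₂RingHom kW ⟨_, ht⟩).comp (mapRingHom (residue A))
  have hcW : ∀ P, (cW P : ResidueField V) = hV.red (polC A W.t₀ P) := fun P => by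
    rw [hV.red_polC]
    exact RingHom.congr_fun (f := Wv.subtype.comp (eval₂RingHom kW ⟨_, ht⟩)) (g := hV.redJ)
      (Polynomial.ringHom_ext (fun c => by simp [kW, IsGauss.redJ])
        (by simp [IsGauss.redJ])) (P.map (residue A))
  have hrel : ∀ y : chart A W.t₀, ∃ p : Polynomial (Polynomial A), p.Monic ∧
      eval₂ (Wv.subtype.comp cW) (hV.red y) p = 0 := fun y => by
    obtain ⟨p, hp, hpy⟩ := y.2
    refine ⟨p, hp, ?_⟩
    rw [show Wv.subtype.comp cW = hV.red.comp (polC A W.t₀) from RingHom.ext hcW, ← hom_eval₂]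
    convert map_zero hV.red
    apply Subtype.ext
    rw [← Subring.subtype_apply, hom_eval₂, ZeroMemClass.coe_zero]
    exact hpy
  have hmem : ∀ y : chart A W.t₀, hV.red y ∈ Wv := fun y => by
    obtain ⟨p, hp, hpy⟩ := hrel y
    have hint : IsIntegral Wv (hV.red y) := ⟨p.map cW, hp.map _, by rw [eval₂_map]; exact hpy⟩
    obtain ⟨u, hu⟩ := IsIntegrallyClosed.isIntegral_iff.mp hint
    exact hu ▸ u.2
  let π : chart A W.t₀ →+* ResidueField Wv :=
    (residue Wv).comp (hV.red.codRestrict Wv.toSubring hmem)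
  let ι : ResidueField A →+* ResidueField Wv := (residue Wv).comp kW
  have hrange : ∀ y, π y ∈ ι.range := fun y => by
    obtain ⟨p, hp, hpy⟩ := hrel y
    have h1 : eval₂ cW ⟨_, hmem y⟩ p = 0 := Subtype.ext (by
      rw [← ValuationSubring.subtype_apply, hom_eval₂, ZeroMemClass.coe_zero]; exact hpy)
    have h2 := congrArg (residue Wv) h1
    rw [map_zero, hom_eval₂] at h2
    let ψ : Polynomial A →+* ResidueField A := (evalRingHom c).comp (mapRingHom (residue A))
    have hψ : (residue Wv).comp cW = ι.comp ψ := Polynomial.ringHom_ext (fun a => by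
      simp [cW, ψ, ι]) (by simp [cW, ψ, ι]; exact hc)
    rw [hψ, ← eval₂_map, (IsAlgClosed.splits (p.map ψ)).eq_prod_roots, eval₂_mul, eval₂_C,
      eval₂_multiset_prod, mul_eq_zero, Multiset.prod_eq_zero_iff, (hp.map ψ).leadingCoeff,
      map_one] at h2
    obtain ⟨r, hr, hr0⟩ := Multiset.mem_map.mp (h2.resolve_left one_ne_zero)
    obtain ⟨r, -, rfl⟩ := Multiset.mem_map.mp hr
    rw [eval₂_sub, eval₂_X, eval₂_C] at hr0
    exact ⟨r, (sub_eq_zero.mp hr0).symm⟩
  let χ : chart A W.t₀ →+* ResidueField A :=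
    (RingEquiv.ofBijective ι.rangeRestrict ⟨fun x y h => ι.injective (congrArg Subtype.val h),
      ι.rangeRestrict_surjective⟩).symm.toRingHom.comp (π.codRestrict ι.range hrange)
  have hιχ : ∀ y, ι (χ y) = π y := fun y => by
    have := (RingEquiv.ofBijective ι.rangeRestrict ⟨fun x y h => ι.injective (congrArg Subtype.val h),
      ι.rangeRestrict_surjective⟩).apply_symm_apply (π.codRestrict ι.range hrange y)
    exact congrArg Subtype.val this
  have hχ : ∀ a : A, χ (W.cst a) = residue A a := fun a => ι.injective (by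
    rw [hιχ]
    show residue Wv _ = residue Wv _
    exact congrArg _ (Subtype.ext (hV.theta_residue a).symm))
  have hχt : χ ⟨W.t₀, self_mem_chart A _⟩ = c := ι.injective (by rw [hιχ]; exact hc)
  obtain ⟨U⟩ := hU χ hχ hχt
  have hcomp : DiscData.Compat (D := W.disc χ hχ) Wv.valuation hV.red :=
    { const := fun m hm => by
        show hV.red (W.cst m) = 0
        rw [show hV.red (W.cst m) = residue V (hV.cA m) from rfl, ← hV.theta_residue,
          (residue_eq_zero_iff m).mpr hm, map_zero]
      poly := fun P hP => by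
        obtain ⟨h0, -, hi⟩ := (Cover.gauss hV).unit P hP
        show residue V _ ≠ 0
        rw [ne_eq, residue_eq_zero_iff, mem_maximalIdeal, mem_nonunits_iff, not_not]
        exact IsUnit.of_mul_eq_one ⟨_, hi⟩ (Subtype.ext (mul_inv_cancel₀ h0))
      le_one := fun y => (Wv.valuation_le_one_iff _).mpr (hmem y)
      lt_one_iff := fun y => by
        refine (Wv.valuation_lt_one_iff ⟨_, hmem y⟩).symm.trans ?_
        rw [← residue_eq_zero_iff]
        show π y = 0 ↔ χ y = 0
        rw [show π y = ι (χ y) from (hιχ y).symm, map_eq_zero] }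
  haveI := W.fin.hasPrincipalDivisors
  haveI : Nonempty (W.disc χ hχ).stab := ⟨⟨1, fun y => congrArg χ (Subtype.ext rfl)⟩⟩
  have h1 := hcomp.eq_zpow_tot U (x := a) ha
  rw [htot χ hχ, ← hcomp.eq_zpow_tot U (x := b) hb] at h1
  exact (pow_left_inj₀ zero_le zero_le Nat.card_pos.ne').mp h1

end Cover

section Level

variable {M : ℕ} [NeZero M] (A : ValuationSubring Q̄) [hu : Fact (IsUnit (M : A))] (L : Lev M)

/-- Equal orders in all discs make residues proportional. -/
theorem exists_const_mul_of_tot {V : ValuationSubring (LK M A)} (hV : IsGauss A (jK A L) V)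
    {a b : chart A (jK A L)}
    (ha : ∀ g : fullG M A,
      hV.red ⟨(g : LK M A ≃ₐ[Q̄] LK M A) a, (coverW A L).map_chart g.2 a.2⟩ ≠ 0)
    (hb : ∀ g : fullG M A,
      hV.red ⟨(g : LK M A ≃ₐ[Q̄] LK M A) b, (coverW A L).map_chart g.2 b.2⟩ ≠ 0)
    (hW : ∀ χ hχ, ((coverW A L).disc χ hχ).tot (a : LK M A) =
      ((coverW A L).disc χ hχ).tot (b : LK M A))
    (hI : ∀ χ hχ, ((coverI A L).disc χ hχ).tot (a : LK M A) =
      ((coverI A L).disc χ hχ).tot (b : LK M A)) :
    ∃ c, hV.red a = hV.theta c * hV.red b := by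
  have hone : ∀ y : chart A (jK A L), (⟨((1 : fullG M A) : LK M A ≃ₐ[Q̄] LK M A) y,
      (coverW A L).map_chart (one_mem _) y.2⟩ : chart A (jK A L)) = y := fun y => rfl
  refine hV.exists_const_mul (hone b ▸ hb 1) (hone a ▸ ha 1) fun Wv hk hcase => ?_
  rcases hcase with hn | ⟨ht, c, hc⟩
  · have hj0 : jK A L ≠ 0 := fun h => transcendental_jK A L (h ▸ isAlgebraic_zero)
    have hV' : IsGauss A (coverI A L).t₀ V := hV.inv
    have hred : hV'.redT = hV.redT⁻¹ := by
      refine eq_inv_of_mul_eq_one_left ?_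
      show residue V _ * residue V _ = 1
      rw [← map_mul, ← map_one (residue V)]
      exact congrArg _ (Subtype.ext (inv_mul_cancel₀ hj0))
    have hk' : ∀ c, hV'.theta c ∈ Wv := hk
    have hT0 : hV.redT ≠ 0 := fun h => hn (h ▸ zero_mem Wv)
    have htI : hV'.redT ∈ Wv := by rw [hred]; exact (Wv.mem_or_inv_mem _).resolve_left hn
    have hc0 : residue Wv ⟨_, htI⟩ = residue Wv ⟨_, hk' 0⟩ := by
      rw [show (⟨_, hk' 0⟩ : Wv) = 0 from Subtype.ext (map_zero _), map_zero, residue_eq_zero_iff,
        mem_maximalIdeal, mem_nonunits_iff]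
      intro hu
      obtain ⟨u, hu⟩ := hu.exists_right_inv
      have h1 : hV'.redT * (u : ResidueField V) = 1 := congrArg Subtype.val hu
      rw [hred, inv_mul_eq_one₀ hT0] at h1
      exact hn (h1 ▸ u.2)
    obtain ⟨na, hna⟩ := exists_inv_pow_mul_mem hj0 a.2
    obtain ⟨nb, hnb⟩ := exists_inv_pow_mul_mem hj0 b.2
    set n := max na nb
    have hs : ∀ g : fullG M A, ∀ y : LK M A,
        (g : LK M A ≃ₐ[Q̄] LK M A) (y * (jK A L)⁻¹ ^ n) =
          (g : LK M A ≃ₐ[Q̄] LK M A) y * (jK A L)⁻¹ ^ n := fun g y => by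
      rw [map_mul, map_pow, map_inv₀, fullG_jK A L g.2]
    have hsplit : ∀ (y : chart A (jK A L)) (hy : (y : LK M A) * (jK A L)⁻¹ ^ n ∈ chart A (jK A L)⁻¹),
        hV'.red ⟨_, hy⟩ = hV.red y * hV.redT⁻¹ ^ n := fun y hy => by
      rw [← hred]
      show residue V _ = residue V _ * residue V _ ^ n
      rw [← map_pow, ← map_mul]
      exact congrArg _ (Subtype.ext rfl)
    have hne : ∀ (y : chart A (jK A L)) (hy : (y : LK M A) * (jK A L)⁻¹ ^ n ∈ chart A (jK A L)⁻¹),
        (∀ g : fullG M A, hV.red ⟨_, (coverW A L).map_chart g.2 y.2⟩ ≠ 0) →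
        ∀ g : (coverI A L).Γ, hV'.red ⟨(g : LK M A ≃ₐ[Q̄] LK M A) (⟨_, hy⟩ : chart A (coverI A L).t₀),
          (coverI A L).map_chart ((coverI A L).le g.2) hy⟩ ≠ 0 := fun y hy h g => by
      have e := hs ⟨g, (coverI A L).le g.2⟩ (y : LK M A)
      let gy : chart A (jK A L) := ⟨_, (coverW A L).map_chart ((coverI A L).le g.2) y.2⟩
      have hgy : (gy : LK M A) * (jK A L)⁻¹ ^ n ∈ chart A (jK A L)⁻¹ :=
        e ▸ (coverI A L).map_chart ((coverI A L).le g.2) hy
      refine ne_of_eq_of_ne
        ((congrArg hV'.red (Subtype.ext e)).trans (hsplit gy hgy)) ?_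
      exact mul_ne_zero (h ⟨g, (coverI A L).le g.2⟩) (pow_ne_zero _ (inv_ne_zero hT0))
    have key := (coverI A L).valuation_eq hV' Wv hk' htI hc0
      (fun χ hχ h0 => unif_coverI A L hχ h0)
      (hne a (hna n (le_max_left _ _)) ha) (hne b (hnb n (le_max_right _ _)) hb) fun χ hχ => by
        haveI := (coverI A L).fin.hasPrincipalDivisors
        have hp : (jK A L)⁻¹ ^ n ≠ 0 := pow_ne_zero _ (inv_ne_zero hj0)
        have hne0 : ∀ y : chart A (jK A L),
            (∀ g : fullG M A, hV.red ⟨_, (coverW A L).map_chart g.2 y.2⟩ ≠ 0) →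
            (y : LK M A) ≠ 0 := fun y hy h => hy 1 (by
          rw [hone, show y = 0 from Subtype.ext h, map_zero])
        rw [DiscData.tot_mul (hne0 a ha) hp, DiscData.tot_mul (hne0 b hb) hp, hI χ hχ]
    rw [hsplit a, hsplit b, map_mul, map_mul] at key
    exact mul_right_cancel₀ ((_root_.map_ne_zero _).mpr (pow_ne_zero _ (inv_ne_zero hT0))) key
  · exact (coverW A L).valuation_eq hV Wv hk ht hc (fun χ hχ _ => unif_coverW A L χ hχ)
      (fun g => ha ⟨g, (coverW A L).le g.2⟩) (fun g => hb ⟨g, (coverW A L).le g.2⟩) hW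

end Level

end Fermat.Agent.MCurve.Spec
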