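import Fermat.Agent.MCurve.Spec.Centre
import Fermat.Agent.MCurve.FuncField
import Mathlib.RingTheory.Valuation.LocalSubring

/-!
Gauss valuations of a function field over a valuation ring of the constants, and the criterion of
integrality over `A[T]`.
-/

set_option autoImplicit false
set_option linter.style.haveILetI false
set_option linter.unusedSectionVars false

noncomputable section

namespace Fermat.Agent.MCurve.Spec

open AlgebraicCurve Polynomial IsLocalRing IntermediateField

local notation "Q̄" => AlgebraicClosure ℚ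

variable {A : ValuationSubring Q̄} {F : Type*} [Field F] [Algebra Q̄ F]

theorem polyA_eq_aeval (t : F) (P : Polynomial A) : polyA A t P = aeval t (P.map A.subtype) := rfl

theorem map_polyA {F' : Type*} [Field F'] [Algebra Q̄ F'] (φ : F →ₐ[Q̄] F') (t : F)
    (P : Polynomial A) : φ (polyA A t P) = polyA A (φ t) P := by
  rw [polyA_eq_aeval, polyA_eq_aeval, Polynomial.aeval_algHom_apply]

theorem map_mem_chart {F' : Type*} [Field F'] [Algebra Q̄ F'] (φ : F →ₐ[Q̄] F') {t y : F}
    (h : y ∈ chart A t) : φ y ∈ chart A (φ t) := by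
  obtain ⟨p, hp, hpy⟩ := h
  refine ⟨p, hp, ?_⟩
  rw [show polyA A (φ t) = (φ : F →+* F').comp (polyA A t) from
    RingHom.ext fun P => (map_polyA φ t P).symm]
  show eval₂ _ ((φ : F →+* F') y) p = 0
  rw [← Polynomial.hom_eval₂, hpy, map_zero]

/-- A valuation ring containing the base and `t` contains the chart. -/
theorem chart_le_valuationSubring {t : F} {V : ValuationSubring F}
    (hA : ∀ a : A, algebraMap Q̄ F a ∈ V) (ht : t ∈ V) {y : F} (hy : y ∈ chart A t) : y ∈ V := by
  obtain ⟨p, hp, hpy⟩ := hy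
  have hV : ∀ P, polyA A t P ∈ V := fun P => by
    induction P using Polynomial.induction_on' with
    | add a b ha hb => rw [map_add]; exact add_mem ha hb
    | monomial n a =>
      rw [← C_mul_X_pow_eq_monomial, map_mul, map_pow, polyA_C, polyA_X]
      exact mul_mem (hA a) (pow_mem ht n)
  have hint : _root_.IsIntegral V y :=
    ⟨p.map ((polyA A t).codRestrict V.toSubring hV), hp.map _, by rw [eval₂_map]; exact hpy⟩
  obtain ⟨z, hz⟩ := IsIntegrallyClosed.isIntegral_iff.mp hint
  exact hz ▸ z.2

/-- Every non-zero polynomial is a multiple of a primitive one. -/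
theorem exists_primitive {p : Q̄[X]} (hp : p ≠ 0) :
    ∃ c : Q̄, c ≠ 0 ∧ ∃ P : Polynomial A, P.map (residue A) ≠ 0 ∧ p = C c * P.map A.subtype := by
  classical
  obtain ⟨i, hi, hmax⟩ := Finset.exists_max_image p.support (fun i => A.valuation (p.coeff i))
    (support_nonempty.mpr hp)
  have hc : p.coeff i ≠ 0 := mem_support_iff.mp hi
  refine ⟨p.coeff i, hc, ?_⟩
  have hmem : ∀ j, p.coeff j / p.coeff i ∈ A := fun j => by
    rw [← A.valuation_le_one_iff, map_div₀]
    by_cases hj : j ∈ p.support
    · exact div_le_one_of_le₀ (hmax j hj) zero_le'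
    · simp [notMem_support_iff.mp hj]
  have hl : C (p.coeff i)⁻¹ * p ∈ lifts A.subtype := (lifts_iff_coeff_lifts _).mpr fun j =>
    ⟨⟨_, hmem j⟩, by rw [coeff_C_mul, ← div_eq_inv_mul]; rfl⟩
  obtain ⟨P, hP⟩ := (Polynomial.mem_lifts _).mp hl
  refine ⟨P, fun h => ?_, by rw [hP, ← mul_assoc, ← C_mul, mul_inv_cancel₀ hc, C_1, one_mul]⟩
  have h1 := congrArg (fun q => q.coeff i) hP
  simp only [coeff_map, coeff_C_mul, inv_mul_cancel₀ hc] at h1
  have h2 := congrArg (fun q => q.coeff i) h
  simp only [coeff_map, coeff_zero] at h2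
  rw [show P.coeff i = 1 from Subtype.ext h1, map_one] at h2
  exact one_ne_zero h2

variable (A) in
/-- A Gauss valuation for `T`. -/
structure IsGauss (T : F) (V : ValuationSubring F) : Prop where
  const : ∀ a : A, algebraMap Q̄ F a ∈ V
  nonunit : ∀ a : A, a ∈ maximalIdeal A → algebraMap Q̄ F a ∈ V.nonunits
  unit : ∀ P : Polynomial A, P.map (residue A) ≠ 0 →
    polyA A T P ≠ 0 ∧ polyA A T P ∈ V ∧ (polyA A T P)⁻¹ ∈ V

theorem residue_map_X : (X : Polynomial A).map (residue A) ≠ 0 := by
  rw [map_X]; exact X_ne_zero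

theorem IsGauss.mem {T : F} {V : ValuationSubring F} (h : IsGauss A T V) : T ∈ V := by
  simpa [polyA_X] using (h.unit X residue_map_X).2.1

theorem IsGauss.chart_le {T : F} {V : ValuationSubring F} (h : IsGauss A T V) {y : F}
    (hy : y ∈ chart A T) : y ∈ V := chart_le_valuationSubring h.const h.mem hy

theorem IsGauss.inv {T : F} {V : ValuationSubring F} (h : IsGauss A T V) : IsGauss A T⁻¹ V := by
  refine ⟨h.const, h.nonunit, fun P hP => ?_⟩
  obtain ⟨hT0, -, hTi⟩ := h.unit X residue_map_X
  rw [polyA_X] at hT0 hTi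
  haveI : Invertible T := invertibleOfNonzero hT0
  have hr : (P.reflect P.natDegree).map (residue A) ≠ 0 := fun h0 => hP <| by
    ext i
    rcases le_or_gt i P.natDegree with hi | hi
    · have := congrArg (fun q => q.coeff (P.natDegree - i)) h0
      simpa [coeff_reflect, revAt_le (Nat.sub_le _ _), Nat.sub_sub_self hi] using this
    · simp [coeff_eq_zero_of_natDegree_lt hi]
  obtain ⟨h0, h1, h2⟩ := h.unit _ hr
  have key : polyA A T⁻¹ P = T⁻¹ ^ P.natDegree * polyA A T (P.reflect P.natDegree) := by
    have hev : ∀ (s : F) (Q : Polynomial A),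
        polyA A s Q = eval₂ ((algebraMap Q̄ F).comp A.subtype) s Q := fun s Q => by
      rw [polyA_eq_aeval, aeval_def, eval₂_map]
    haveI : Invertible T⁻¹ := invertibleOfNonzero (inv_ne_zero hT0)
    have := eval₂_reflect_mul_pow ((algebraMap Q̄ F).comp A.subtype) T⁻¹ P.natDegree P le_rfl
    rw [hev, hev, ← this, invOf_eq_inv, inv_inv, mul_comm]
  rw [key]
  exact ⟨mul_ne_zero (pow_ne_zero _ (inv_ne_zero hT0)) h0, mul_mem (pow_mem hTi _) h1, by
    rw [mul_inv, ← inv_pow, inv_inv]; exact mul_mem (pow_mem h.mem _) h2⟩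

/-- A multiple of a primitive value lies in the ring only if the multiplier does. -/
theorem IsGauss.const_mem {T : F} {V : ValuationSubring F} (h : IsGauss A T V) {c : Q̄}
    {P : Polynomial A} (hP : P.map (residue A) ≠ 0)
    (hc : algebraMap Q̄ F c * polyA A T P ∈ V) : c ∈ A := by
  obtain ⟨h0, -, hi⟩ := h.unit P hP
  have hcV : algebraMap Q̄ F c ∈ V := by
    have := mul_mem hc hi
    rwa [mul_assoc, mul_inv_cancel₀ h0, mul_one] at this
  by_contra hcA
  have hc0 : c ≠ 0 := fun h => hcA (h ▸ zero_mem A)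
  have hinv : c⁻¹ ∈ A := (A.mem_or_inv_mem c).resolve_left hcA
  have hm : (⟨c⁻¹, hinv⟩ : A) ∈ maximalIdeal A := by
    rw [mem_maximalIdeal, mem_nonunits_iff]
    intro hu
    obtain ⟨u, hu⟩ := hu.exists_right_inv
    refine hcA ?_
    rw [show c = (u : Q̄) from by
      rw [← inv_inv c]; exact inv_eq_of_mul_eq_one_right (congrArg Subtype.val hu)]
    exact u.2
  have := h.nonunit _ hm
  rw [map_inv₀, V.inv_mem_nonunits_iff] at this
  exact this.elim (fun h => hc0 ((map_eq_zero (algebraMap Q̄ F)).mp h)) fun h => h hcV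

/-- Gauss valuations exist. -/
theorem exists_isGauss {T : F} (hT : Transcendental Q̄ T) : ∃ V, IsGauss A T V := by
  let p : Ideal (Polynomial A) := RingHom.ker (mapRingHom (residue A))
  haveI : p.IsPrime := RingHom.ker_isPrime _
  have hne : ∀ P : Polynomial A, P ∉ p → polyA A T P ≠ 0 := fun P hP h => hP <| by
    rw [polyA_eq_aeval] at h
    have := (transcendental_iff_injective.mp hT) (h.trans (map_zero (aeval T)).symm)
    rw [Polynomial.map_eq_zero_iff Subtype.val_injective] at this
    rw [this]; exact zero_mem p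
  let f : Localization.AtPrime p →+* F := IsLocalization.lift
    (M := p.primeCompl) (g := polyA A T) fun y => (hne y.1 y.2).isUnit
  obtain ⟨V, hV, hloc⟩ := IsLocalRing.exists_factor_valuationRing (R := Localization.AtPrime p) f
  have hval : ∀ P, f (algebraMap _ _ P) = polyA A T P := fun P => IsLocalization.lift_eq _ P
  refine ⟨V, fun a => ?_, fun a ha => ?_, fun P hP => ?_⟩
  · rw [← polyA_C, ← hval]; exact hV _
  · rw [ValuationSubring.coe_mem_nonunits_iff (a := ⟨_, (by rw [← polyA_C, ← hval]; exact hV _ :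
      algebraMap Q̄ F a ∈ V)⟩)]
    intro hu
    have hmem : C a ∈ p := by
      rw [RingHom.mem_ker, coe_mapRingHom, map_C, (residue_eq_zero_iff a).mpr ha, map_zero]
    refine (IsLocalization.AtPrime.isUnit_to_map_iff (Localization.AtPrime p) p (C a)).mp
      (hloc.map_nonunit _ ?_) hmem
    have e : f.codRestrict V.toSubring hV (algebraMap _ _ (C a)) = ⟨_, (by
      rw [← polyA_C, ← hval]; exact hV _ : algebraMap Q̄ F a ∈ V)⟩ :=
      Subtype.ext ((hval _).trans (polyA_C A T a))
    rw [e]; exact hu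
  · have hP' : P ∉ p := hP
    obtain ⟨u, hu⟩ := (IsLocalization.AtPrime.isUnit_to_map_iff (Localization.AtPrime p) p P).mpr hP'
    refine ⟨hne P hP', hval P ▸ hV _, ?_⟩
    have : f ↑u⁻¹ = (polyA A T P)⁻¹ := eq_inv_of_mul_eq_one_left (by
      rw [← hval, ← hu, ← map_mul, Units.inv_mul, map_one])
    exact this ▸ hV _

/-- An invariant element regular where `T` is finite is a polynomial in `T`. -/
theorem exists_aeval_of_regular {T c : F} (h : IsFinOver Q̄ T) (hc : c ∈ Q̄⟮T⟯)
    (hreg : ∀ P : Place Q̄ F, T ∈ P.toValuationSubring → c ∈ P.toValuationSubring) :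
    ∃ p : Q̄[X], c = aeval T p := by
  obtain ⟨r, s, hrs⟩ := (mem_adjoin_simple_iff Q̄ c).mp hc
  have hinj : ∀ q : Q̄[X], q ≠ 0 → aeval T q ≠ 0 := fun q hq h0 => hq
    ((transcendental_iff_injective.mp h.transcendental) (h0.trans (map_zero (aeval T)).symm))
  rcases eq_or_ne s 0 with rfl | hs
  · exact ⟨0, by simpa using hrs⟩
  have hmul : c * aeval T s = aeval T r := by rw [hrs, div_mul_cancel₀ _ (hinj s hs)]
  clear hrs
  induction hn : s.natDegree generalizing r s with
  | zero =>
    obtain ⟨a, rfl⟩ := natDegree_eq_zero.mp hn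
    have ha : algebraMap Q̄ F a ≠ 0 := by simpa using hinj _ hs
    refine ⟨C a⁻¹ * r, ?_⟩
    rw [map_mul, aeval_C, map_inv₀, ← hmul, aeval_C]
    field_simp
  | succ n ih =>
    obtain ⟨a, ha⟩ := IsAlgClosed.exists_root s (by
      rw [degree_eq_natDegree hs, hn]; exact_mod_cast n.succ_ne_zero)
    obtain ⟨s', rfl⟩ := dvd_iff_isRoot.mpr ha
    have hs' : s' ≠ 0 := right_ne_zero_of_mul hs
    have hra : r.IsRoot a := by
      haveI := h.finite
      obtain ⟨Z, hZ, hsum⟩ := h.exists_zeros a
      obtain ⟨P, hP⟩ : Z.Nonempty := by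
        by_contra hne
        rw [Finset.not_nonempty_iff_eq_empty.mp hne, Finset.sum_empty] at hsum
        exact Module.finrank_pos.ne' (by exact_mod_cast hsum.symm)
      haveI := h.finiteResidue P
      have hpos : 0 < P.ord (T - algebraMap Q̄ F a) := (hZ P).mp hP
      have h0 : T - algebraMap Q̄ F a ≠ 0 := fun h => by simp [h] at hpos
      have hTa : T - algebraMap Q̄ F a ∈ P.toValuationSubring :=
        (mem_iff_ord_nonneg P h0).mpr hpos.le
      have hT : T ∈ P.toValuationSubring := by
        rw [← sub_add_cancel T (algebraMap Q̄ F a)]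
        exact add_mem hTa (P.algebraMap_mem' a)
      have hq : ∀ q : Q̄[X], aeval T q ∈ P.toValuationSubring := fun q => by
        induction q using Polynomial.induction_on' with
        | add x y hx hy => rw [map_add]; exact add_mem hx hy
        | monomial k x =>
          rw [aeval_monomial]; exact mul_mem (P.algebraMap_mem' x) (pow_mem hT k)
      let φ : Q̄[X] →+* Q̄ := (placeVal P).comp
        ((aeval (R := Q̄) T).toRingHom.codRestrict P.toValuationSubring.toSubring hq)
      have hφ : φ = evalRingHom a := Polynomial.ringHom_ext (fun x => by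
          show placeVal P ⟨aeval T (C x), _⟩ = _
          rw [show (⟨aeval T (C x), hq _⟩ : P.toValuationSubring) = algebraMap _ _ x from
            Subtype.ext (aeval_C _ _), placeVal_algebraMap, coe_evalRingHom, eval_C]) (by
          show placeVal P ⟨aeval T X, _⟩ = _
          rw [coe_evalRingHom, eval_X, ← sub_eq_zero]
          conv_lhs => rw [← placeVal_algebraMap P a, ← map_sub]
          refine (placeVal_eq_zero_iff P _).mpr (Or.inr ?_)
          show 0 < P.ord (aeval T X - algebraMap Q̄ F a)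
          rw [aeval_X]; exact hpos)
      have e : (⟨c, hreg P hT⟩ * ⟨aeval T ((X - C a) * s'), hq _⟩ : P.toValuationSubring) =
          ⟨aeval T r, hq _⟩ := Subtype.ext hmul
      have := congrArg (placeVal P) e
      rw [map_mul, show placeVal P ⟨aeval T ((X - C a) * s'), hq _⟩ = φ _ from rfl,
        show placeVal P ⟨aeval T r, hq _⟩ = φ r from rfl, hφ] at this
      simpa using this.symm
    obtain ⟨r', rfl⟩ := dvd_iff_isRoot.mpr hra
    refine ih r' s' hs' ?_ ?_
    · have := hinj (X - C a) (X_sub_C_ne_zero a)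
      rw [map_mul, map_mul, ← mul_assoc, mul_comm c, mul_assoc] at hmul
      exact mul_left_cancel₀ this hmul
    · rw [natDegree_mul (X_sub_C_ne_zero a) hs', natDegree_X_sub_C] at hn
      omega

/-- An invariant element regular where `T` is finite and integral at a Gauss valuation is in
`A[T]`. -/
theorem exists_polyA_of_regular {T c : F} (h : IsFinOver Q̄ T) {V : ValuationSubring F}
    (hV : IsGauss A T V) (hc : c ∈ Q̄⟮T⟯) (hcV : c ∈ V)
    (hreg : ∀ P : Place Q̄ F, T ∈ P.toValuationSubring → c ∈ P.toValuationSubring) :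
    ∃ P : Polynomial A, c = polyA A T P := by
  obtain ⟨p, rfl⟩ := exists_aeval_of_regular h hc hreg
  rcases eq_or_ne p 0 with rfl | hp
  · exact ⟨0, by simp⟩
  obtain ⟨a, -, P, hP, rfl⟩ := exists_primitive (A := A) hp
  rw [map_mul, aeval_C, ← polyA_eq_aeval] at hcV
  refine ⟨C ⟨a, hV.const_mem hP hcV⟩ * P, ?_⟩
  rw [polyA_eq_aeval, Polynomial.map_mul, map_C]
  rfl

theorem mem_chart_place {t y : F} (P : Place Q̄ F) (ht : t ∈ P.toValuationSubring)
    (hy : y ∈ chart A t) : y ∈ P.toValuationSubring :=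
  chart_le_valuationSubring (fun a => P.algebraMap_mem' a) ht hy

variable (G : Subgroup (F ≃ₐ[Q̄] F)) [Finite G]

/-- The criterion of integrality over `A[T]`. -/
theorem mem_chart_of_regular {T z : F} (h : IsFinOver Q̄ T) (hG : fixedField G = Q̄⟮T⟯)
    {V : ValuationSubring F} (hV : IsGauss A T V) (hz : ∀ g ∈ G, g z ∈ V)
    (hreg : ∀ P : Place Q̄ F, T ∈ P.toValuationSubring → z ∈ P.toValuationSubring) :
    z ∈ chart A T := by
  classical
  haveI := Fintype.ofFinite G
  let op : F[X] := ∏ σ : G, (X - C ((σ : F ≃ₐ[Q̄] F) z))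
  refine mem_chart_of_monic A op (monic_prod_of_monic _ _ fun σ _ => monic_X_sub_C _) (fun i => ?_)
    (by
      rw [eval_prod]
      exact Finset.prod_eq_zero (Finset.mem_univ (1 : G)) (by simp))
  have hTfix : ∀ σ ∈ G, σ T = T := fun σ hσ =>
    (mem_fixedField_iff G T).mp (hG ▸ mem_adjoin_simple_self Q̄ T) σ hσ
  have hmem : ∀ (S : Subring F), (∀ σ ∈ G, σ z ∈ S) → op.coeff i ∈ S := fun S hS => by
    let opS : S[X] := ∏ σ : G, (X - C ⟨(σ : F ≃ₐ[Q̄] F) z, hS _ σ.2⟩)
    have : op = opS.map S.subtype := by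
      rw [Polynomial.map_prod]
      refine Finset.prod_congr rfl fun σ _ => ?_
      rw [Polynomial.map_sub, map_X, map_C, Subring.subtype_apply]
    rw [this, coeff_map]
    exact (opS.coeff i).2
  have hfix : op.coeff i ∈ Q̄⟮T⟯ := by
    rw [← hG, mem_fixedField_iff]
    intro σ hσ
    have h : op.map (σ : F →+* F) = op := by
      rw [Polynomial.map_prod]
      refine Fintype.prod_equiv (Equiv.mulLeft ⟨σ, hσ⟩) _ _ fun τ => ?_
      rw [Polynomial.map_sub, map_X, map_C, Equiv.coe_mulLeft, Subgroup.coe_mul,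
        AlgEquiv.mul_apply, RingHom.coe_coe]
    conv_rhs => rw [← h, coeff_map, RingHom.coe_coe]
  have hreg' : ∀ P : Place Q̄ F, T ∈ P.toValuationSubring → op.coeff i ∈ P.toValuationSubring :=
    fun P hP => hmem P.toValuationSubring.toSubring fun σ hσ => by
      have hT' : T ∈ (σ⁻¹ • P).toValuationSubring := by
        rw [Place.smul_toValuationSubring, ValuationSubring.mem_inv_pointwise_smul_iff,
          AlgEquiv.smul_def, hTfix σ hσ]
        exact hP
      have := hreg _ hT'
      rwa [Place.smul_toValuationSubring, ValuationSubring.mem_inv_pointwise_smul_iff,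
        AlgEquiv.smul_def] at this
  obtain ⟨P, hP⟩ := exists_polyA_of_regular h hV hfix (hmem V.toSubring hz) hreg'
  rw [hP]
  exact polyA_mem_chart A T P

end Fermat.Agent.MCurve.Spec
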