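import Fermat.Agent.MCurve.Spec.Level
import Fermat.Agent.MCurve.Spec.Gauss
import Fermat.Agent.GalRep.KummerRep
import Fermat.Agent.Period.CosetCount

/-!
The function field of `X₀(N)` over `ℚ̄` inside the field of level `M`, as a fixed field.
-/

set_option autoImplicit false
set_option linter.style.haveILetI false
set_option linter.unusedSectionVars false

noncomputable section

namespace Fermat.Agent.MCurve.Spec

open AlgebraicCurve ModularCurve Polynomial CongruenceSubgroup IntermediateField
open Fermat.Agent.GalRep (modFuns jMF serHom shift qbarToC expand jq HasQSeries seriesToC)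
open Fermat.Agent.GalRep.Model (Lev WFld lvlField wShift)
open scoped MatrixGroups

local notation "Q̄" => AlgebraicClosure ℚ

theorem mem_chart_map_iff {A : ValuationSubring Q̄} {F F' : Type*} [Field F] [Algebra Q̄ F]
    [Field F'] [Algebra Q̄ F'] (φ : F →ₐ[Q̄] F') {t y : F} :
    φ y ∈ chart A (φ t) ↔ y ∈ chart A t := by
  refine ⟨fun h => ?_, map_mem_chart φ⟩
  obtain ⟨p, hp, hpy⟩ := h
  refine ⟨p, hp, (φ : F →+* F').injective ?_⟩
  rw [map_zero, Polynomial.hom_eval₂, show (φ : F →+* F').comp (polyA A t) = polyA A (φ t) from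
    RingHom.ext fun P => map_polyA φ t P]
  exact hpy

section Galois

variable {K F L : Type*} [Field K] [Field F] [Field L] [Algebra K F] [Algebra K L]

theorem finrank_fixed_eq_card (H : Subgroup (L ≃ₐ[K] L)) [Finite H] :
    Module.finrank (fixedField H) L = Nat.card H := by
  haveI := Fintype.ofFinite H
  rw [Nat.card_eq_fintype_card]
  exact FixedPoints.finrank_eq_card H L

/-- Recognising a fixed field by degrees. -/
theorem fixedField_eq_fieldRange (ι : F →ₐ[K] L) {x : F} (G H : Subgroup (L ≃ₐ[K] L)) [Finite G]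
    [Finite H] (hG : fixedField G = K⟮ι x⟯) (hle : ι.fieldRange ≤ fixedField H) {d : ℕ}
    (hd : Module.finrank K⟮x⟯ F = d) (hd0 : 0 < d) (hcard : Nat.card G ≤ d * Nat.card H) :
    fixedField H = ι.fieldRange := by
  have hK : K⟮ι x⟯ ≤ ι.fieldRange := adjoin_simple_le_iff.mpr ⟨x, rfl⟩
  haveI := Fintype.ofFinite G
  haveI : FiniteDimensional K⟮ι x⟯ L := by
    rw [← hG]
    exact inferInstanceAs (FiniteDimensional (FixedPoints.subfield G L) L)
  letI : Algebra K⟮ι x⟯ ι.fieldRange := (IntermediateField.inclusion hK).toRingHom.toAlgebra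
  haveI : IsScalarTower K⟮ι x⟯ ι.fieldRange L := IsScalarTower.of_algebraMap_eq fun _ => rfl
  haveI : FiniteDimensional ι.fieldRange L := FiniteDimensional.right K⟮ι x⟯ _ _
  have hidx : Module.finrank K⟮ι x⟯ ι.fieldRange = d := by
    rw [← hd]
    have hmap : K⟮x⟯.map ι = K⟮ι x⟯ := by
      rw [IntermediateField.adjoin_map, Set.image_singleton]
    let e' : K⟮x⟯ ≃+* K⟮ι x⟯ :=
      ((K⟮x⟯.equivMap ι).trans (IntermediateField.equivOfEq hmap)).toRingEquiv
    let j : F ≃+* ι.fieldRange := (AlgEquiv.ofInjectiveField ι).toRingEquiv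
    exact (Algebra.finrank_eq_of_equiv_equiv e' j (RingHom.ext fun _ => Subtype.ext rfl)).symm
  have hGc : Module.finrank K⟮ι x⟯ L = Nat.card G := by
    rw [← hG]; exact finrank_fixed_eq_card G
  refine (eq_of_le_of_finrank_le' hle ?_).symm
  rw [finrank_fixed_eq_card]
  have hmul := Module.finrank_mul_finrank K⟮ι x⟯ ι.fieldRange L
  rw [hidx, hGc] at hmul
  rw [← hmul] at hcard
  exact le_of_mul_le_mul_left hcard hd0

end Galois

variable {N M : ℕ} [NeZero N] [NeZero M] (A : ValuationSubring Q̄) [hu : Fact (IsUnit (M : A))]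
  (L : Lev M) (hNM : N ∣ M) {ℓ : ℕ} [hℓ : Fact ℓ.Prime] (hA : A.LiesOverPrime ℓ) (hℓN : ¬ ℓ ∣ N)

include hNM in
theorem Gamma_le_Gamma0_of_dvd : Gamma M ≤ Gamma0 N :=
  (GalRep.Gamma_le_Gamma0 M).trans (Gamma0_le_of_dvd hNM)

/-- Functions of level `Γ₀(N)` as functions of level `Γ(M)`. -/
def incM : modFuns (Gamma0 N) →ₐ[ℂ] modFuns (Gamma M) :=
  Subalgebra.inclusion (GalRep.modFuns_anti (Gamma_le_Gamma0_of_dvd hNM))

theorem serHom_incM {Φ : modFuns (Gamma0 N)} {s : LaurentSeries ℂ}
    (h : HasQSeries 1 (Φ : UpperHalfPlane → ℂ) s) :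
    serHom M (incM hNM Φ) = expand M (NeZero.ne M) s := by
  refine GalRep.qser_eq (NeZero.pos M) ?_
  have := GalRep.hasQSeries_expand (N := M) h
  simp only [one_smul] at this
  exact this

include L in
theorem toMod_mem_LK (y : barAlg N) :
    algebraMap (modFuns (Gamma M)) (WFld M) (incM hNM (toMod N y)) ∈
      lvlField (cyc M A) := by
  refine mem_LK A L _ fun k => ?_
  rw [serHom_incM hNM (hasQSeries_toMod N y)]
  by_cases hd : (M : ℤ) ∣ k
  · obtain ⟨j, rfl⟩ := hd
    rw [GalRep.expand_coeff_mul]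
    exact ⟨_, (coeffMap_coeff qbarToC _ j).symm⟩
  · rw [GalRep.expand_coeff_of_not_dvd _ _ _ _ hd]
    exact zero_mem _

/-- Polynomials in the `j(dτ)` inside the field of level `M`. -/
def baseHom : barAlg N →ₐ[Q̄] LK M A where
  __ := ((algebraMap (modFuns (Gamma M)) (WFld M)).comp
    ((incM (M := M) hNM).toRingHom.comp (toMod N))).codRestrict _ (toMod_mem_LK A L hNM)
  commutes' c := Subtype.ext (by
    show algebraMap (modFuns (Gamma M)) (WFld M) (incM hNM (toMod N (algebraMap Q̄ _ c))) = _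
    rw [toMod_algebraMap, AlgHom.commutes, coe_algebraMap_LK])

theorem baseHom_injective : Function.Injective (baseHom A L hNM) := fun _ _ h =>
  toMod_injective N (Subalgebra.inclusion_injective (GalRep.modFuns_anti (Gamma_le_Gamma0_of_dvd hNM))
    (IsFractionRing.injective (modFuns (Gamma M)) (WFld M) (congrArg Subtype.val h)))

/-- The embedding of the function field. -/
def iotaBar : modularFunctionFieldBar N →ₐ[Q̄] LK M A :=
  haveI := isFractionRing_barAlg N hA hℓN
  IsFractionRing.liftAlgHom (A := barAlg N) (g := baseHom A L hNM) (baseHom_injective A L hNM)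

theorem iotaBar_algebraMap (y : barAlg N) :
    iotaBar A L hNM hA hℓN (y : modularFunctionFieldBar N) = baseHom A L hNM y :=
  haveI := isFractionRing_barAlg N hA hℓN
  IsFractionRing.lift_algebraMap (g := (baseHom A L hNM).toRingHom) (baseHom_injective A L hNM) y

theorem jBar_mem_barAlg : jBar N Q̄ ∈ barAlg N := by
  letI : Algebra Q̄ ℂ := qbarToC.toAlgebra
  show ((jBar N Q̄ : modularFunctionFieldBar N) : LaurentSeries Q̄) ∈ genAlg Q̄ N
  rw [coe_jBar]
  exact Algebra.subset_adjoin ⟨1, inferInstance, one_dvd N, (qExpand_one_apply _).symm⟩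

theorem iotaBar_jBar : iotaBar A L hNM hA hℓN (jBar N Q̄) = jK A L := by
  letI : Algebra Q̄ ℂ := qbarToC.toAlgebra
  rw [show jBar N Q̄ = ((⟨_, jBar_mem_barAlg⟩ : barAlg N) : modularFunctionFieldBar N) from rfl,
    iotaBar_algebraMap]
  refine Subtype.ext (congrArg (algebraMap (modFuns (Gamma M)) (WFld M))
    (GalRep.serHom_injective M ?_))
  show serHom M (incM hNM (toMod N _)) = _
  rw [serHom_incM hNM (hasQSeries_toMod N _), serHom_jMF, coe_jBar, seriesToC_eq_coeffMap,
    MCurve.coeffMap_jqModC, GalRep.jq_eq_jqModC]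

theorem shiftA_iotaBar {g : SL(2, ℤ)} (hg : g ∈ Gamma0 N) (x : modularFunctionFieldBar N) :
    shiftA M A g (iotaBar A L hNM hA hℓN x) = iotaBar A L hNM hA hℓN x := by
  haveI := isFractionRing_barAlg N hA hℓN
  have hb : ∀ y : barAlg N, shiftA M A g (baseHom A L hNM y) = baseHom A L hNM y := fun y => by
    refine Subtype.ext ?_
    rw [shiftA_apply, GalRep.Model.coe_fShift]
    show wShift g⁻¹ (algebraMap _ _ (incM hNM (toMod N y))) = _
    rw [GalRep.Model.wShift_algebraMap]
    exact congrArg _ (Subtype.ext (funext fun τ => (toMod N y).2.invariant _ (inv_mem hg) τ))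
  obtain ⟨a, b, -, rfl⟩ := IsFractionRing.div_surjective (A := barAlg N) x
  rw [show algebraMap (barAlg N) (modularFunctionFieldBar N) a = (a : modularFunctionFieldBar N)
    from rfl, show algebraMap (barAlg N) (modularFunctionFieldBar N) b =
    (b : modularFunctionFieldBar N) from rfl]
  simp only [map_div₀, iotaBar_algebraMap, hb]

variable (N M) in
/-- The translations by `Γ₀(N)`. -/
def gam0G : Subgroup (LK M A ≃ₐ[Q̄] LK M A) := (Gamma0 N).map (shiftA M A)

instance : Finite (gam0G N M A) := finite_map_shiftA A (Gamma0 N)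

theorem gam0G_le : gam0G N M A ≤ fullG M A := Subgroup.map_le_range _ _

theorem card_fullG_le : Nat.card (fullG M A) ≤ (Gamma0 N).index * Nat.card (gam0G N M A) := by
  let f := (shiftA M A).rangeRestrict
  have hdvd := Subgroup.index_map_dvd (H := Gamma0 N) (f := f) (MonoidHom.rangeRestrict_surjective _)
  have hcard : Nat.card ((Gamma0 N).map f) = Nat.card (gam0G N M A) := by
    rw [gam0G, Nat.card_congr (((Gamma0 N).map f).equivMapOfInjective (shiftA M A).range.subtype
      (shiftA M A).range.subtype_injective).toEquiv, Subgroup.map_map,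
      MonoidHom.subtype_comp_rangeRestrict]
  show Nat.card (shiftA M A).range ≤ _
  rw [← Subgroup.card_mul_index ((Gamma0 N).map f), hcard, mul_comm]
  refine Nat.mul_le_mul_right _ (Nat.le_of_dvd ?_ hdvd)
  exact Nat.pos_of_ne_zero Subgroup.FiniteIndex.index_ne_zero

/-- The function field of `X₀(N)` is the fixed field. -/
theorem fixedField_gam0G :
    fixedField (gam0G N M A) = (iotaBar A L hNM hA hℓN).fieldRange := by
  letI : Algebra Q̄ ℂ := qbarToC.toAlgebra
  refine fixedField_eq_fieldRange (iotaBar A L hNM hA hℓN) (x := jBar N Q̄) (fullG M A)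
    (gam0G N M A) ?_ ?_ (bar_isFinOver_and_finrank N Q̄).2
    (Nat.pos_of_ne_zero Subgroup.FiniteIndex.index_ne_zero) (card_fullG_le A)
  · rw [iotaBar_jBar]; exact fixedField_fullG A L
  · rintro _ ⟨x, rfl⟩
    rw [mem_fixedField_iff]
    rintro _ ⟨g, hg, rfl⟩
    exact shiftA_iotaBar A L hNM hA hℓN hg x

/-- Invariants in a chart come from the chart downstairs. -/
theorem exists_of_fixed_chart {t : modularFunctionFieldBar N} {y : LK M A}
    (hy : y ∈ chart A (iotaBar A L hNM hA hℓN t)) (hfix : ∀ σ ∈ gam0G N M A, σ y = y) :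
    ∃ x ∈ chart A t, iotaBar A L hNM hA hℓN x = y := by
  have h : y ∈ (iotaBar A L hNM hA hℓN).fieldRange := by
    rw [← fixedField_gam0G, mem_fixedField_iff]; exact hfix
  obtain ⟨x, rfl⟩ := h
  exact ⟨x, (mem_chart_map_iff _).mp hy, rfl⟩

end Fermat.Agent.MCurve.Spec
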