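import Fermat.Agent.MCurve.Spec.Cover
import Fermat.Agent.MCurve.HeckeInputs
import Fermat.Agent.MCurve.Spec.Embed

/-!
The total order in a disc of a function from below whose divisor has trivial push forward to the
centres is zero.
-/

set_option autoImplicit false

noncomputable section

namespace Fermat.Agent.MCurve.Spec

open AlgebraicCurve Polynomial IsLocalRing IntermediateField

local notation "Q̄" => AlgebraicClosure ℚ

variable {A : ValuationSubring Q̄} {F F₀ : Type*} [Field F] [Algebra Q̄ F] [Field F₀] [Algebra Q̄ F₀]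

theorem isIntAt_iff {Q : Place Q̄ F} [Module.Finite Q̄ Q.ResidueField] {y : F} :
    IsIntAt A Q y ↔ ∃ a : A, HasVal Q y (a : Q̄) :=
  ⟨fun ⟨h, hv⟩ => ⟨⟨_, hv⟩, (hasVal_iff Q).mpr ⟨h, rfl⟩⟩, fun ⟨_, ha⟩ => isIntAt_of_hasVal Q ha⟩

theorem hasVal_restrictAlong (ι : F₀ →ₐ[Q̄] F) (hι : ι.toRingHom.IsIntegral) (Q : Place Q̄ F)
    {y : F₀} {a : Q̄} : HasVal Q (ι y) a ↔ HasVal (Q.restrictAlong ι hι) y a := by
  unfold HasVal
  rw [show ι y - algebraMap Q̄ F a = ι (y - algebraMap Q̄ F₀ a) by rw [map_sub, ι.commutes],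
    Q.ord_restrictAlong ι hι, ← ι.commutes, (show Function.Injective ι from ι.toRingHom.injective).eq_iff]
  have he : (0 : ℤ) < Q.ramificationIndexAlong ι := by
    letI := algebraAlong ι
    haveI := isScalarTower_along ι
    haveI := isIntegral_along ι hι
    exact_mod_cast Q.ramificationIndex_pos (F := F₀)
  rw [mul_pos_iff_of_pos_left he]

theorem isIntAt_restrictAlong (ι : F₀ →ₐ[Q̄] F) (hι : ι.toRingHom.IsIntegral) (Q : Place Q̄ F)
    [Module.Finite Q̄ Q.ResidueField] [Module.Finite Q̄ (Q.restrictAlong ι hι).ResidueField]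
    {y : F₀} : IsIntAt A Q (ι y) ↔ IsIntAt A (Q.restrictAlong ι hι) y := by
  simp only [isIntAt_iff, hasVal_restrictAlong ι hι]

namespace Cover

variable (W : Cover A F) [IsAlgClosed (ResidueField A)]
  {χ : chart A W.t₀ →+* ResidueField A} (hχ : ∀ a, χ (W.cst a) = residue A a)

theorem inDisc_iff (Q : Place Q̄ F) [Module.Finite Q̄ Q.ResidueField] :
    (W.disc χ hχ).InDisc Q ↔ ∃ h : IsIntAt A Q W.t₀, cval A Q W.t₀ h = χ := by
  constructor
  · rintro ⟨⟨β, hβ, hpos⟩, hQ⟩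
    have h := exists_val_t₀ hχ Q hβ hpos
    refine ⟨h, RingHom.ext fun y => ?_⟩
    obtain ⟨a, ha⟩ := exists_hasVal_of_mem_chart Q h y.2
    rw [cval_of_hasVal Q h y ha]
    exact hQ y a ha
  · rintro ⟨h, rfl⟩
    obtain ⟨β, hβ⟩ := exists_hasVal_of_mem_chart Q h W.T_mem
    refine ⟨⟨β, (cval_of_hasVal Q h W.T' hβ).symm, hβ.resolve_left fun he =>
      W.fin.transcendental (he ▸ isAlgebraic_algebraMap _)⟩, fun y a ha => ?_⟩
    exact (cval_of_hasVal Q h y ha).symm

variable (ι : F₀ →ₐ[Q̄] F) (H : Subgroup (F ≃ₐ[Q̄] F)) [Finite H] (hH : H ≤ W.G)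
  (hfix : fixedField H = ι.fieldRange) {t : F₀} (ht : ι t = W.t₀) {x₀ : F₀}
  (hx₀ : IsFinOver Q̄ x₀)

include hH hfix ht

theorem count_eq (hι : ι.toRingHom.IsIntegral) (Q Q' : Place Q̄ F)
    [Module.Finite Q̄ Q.ResidueField] [Module.Finite Q̄ Q'.ResidueField]
    [Module.Finite Q̄ (Q.restrictAlong ι hι).ResidueField]
    [Module.Finite Q̄ (Q'.restrictAlong ι hι).ResidueField]
    (hcen : (IsIntAt A (Q.restrictAlong ι hι) t ↔ IsIntAt A (Q'.restrictAlong ι hι) t) ∧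
      ∀ h h', cval A (Q.restrictAlong ι hι) t h = cval A (Q'.restrictAlong ι hι) t h') :
    Nat.card {g : H // (W.disc χ hχ).InDisc ((g : F ≃ₐ[Q̄] F) • Q)} =
      Nat.card {g : H // (W.disc χ hχ).InDisc ((g : F ≃ₐ[Q̄] F) • Q')} := by
  haveI hres : ∀ R : Place Q̄ F, Module.Finite Q̄ R.ResidueField := W.fin.finiteResidue
  have hG : ∀ g : H, (g : F ≃ₐ[Q̄] F) W.t₀ = W.t₀ := fun g => W.G_t₀ (hH g.2)
  have hint : ∀ (g : H) (R : Place Q̄ F),
      IsIntAt A ((g : F ≃ₐ[Q̄] F) • R) W.t₀ ↔ IsIntAt A R W.t₀ := fun g R => by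
    simp only [isIntAt_iff]
    conv_lhs => rw [← hG g]
    simp only [hasVal_smul]
  by_cases h : IsIntAt A Q W.t₀
  swap
  · have h' : ¬ IsIntAt A Q' W.t₀ := by
      rw [← ht, isIntAt_restrictAlong ι hι, ← hcen.1, ← isIntAt_restrictAlong ι hι, ht]
      exact h
    rw [Nat.card_eq_zero.mpr (Or.inl ⟨fun g => h ((hint g.1 Q).mp
      ((W.inDisc_iff hχ _).mp g.2).1)⟩), Nat.card_eq_zero.mpr (Or.inl ⟨fun g => h' ((hint g.1 Q').mp
      ((W.inDisc_iff hχ _).mp g.2).1)⟩)]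
  have h' : IsIntAt A Q' W.t₀ := by
    rw [← ht, isIntAt_restrictAlong ι hι, ← hcen.1, ← isIntAt_restrictAlong ι hι, ht]
    exact h
  set f := cval A Q W.t₀ h
  set f' := cval A Q' W.t₀ h'
  haveI : Infinite (ResidueField A) := IsAlgClosed.instInfinite
  have hst : ∀ g ∈ H, ∀ y ∈ chart A W.t₀, g y ∈ chart A W.t₀ :=
    fun g hg y hy => W.map_chart (hH hg) hy
  -- the centres upstairs are conjugate
  obtain ⟨g₀, hg₀⟩ := exists_conj_of_eq_on_fixed H hst f f'
    (fun r => by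
      obtain ⟨a, rfl⟩ := residue_surjective r
      exact ⟨W.cst a, fun g _ => g.commutes _, cval_of_hasVal Q h (W.cst a) (Or.inl rfl),
        cval_of_hasVal Q' h' (W.cst a) (Or.inl rfl)⟩)
    (fun z hz => by
      have hz' : (z : F) ∈ ι.fieldRange := by rw [← hfix, mem_fixedField_iff]; exact hz
      obtain ⟨y, hy⟩ := hz'
      have hy' : ι y = (z : F) := hy
      have hyc : y ∈ chart A t := by
        have hzc : ι y ∈ chart A (ι t) := by rw [ht, hy']; exact z.2
        exact (mem_chart_map_iff ι).mp hzc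
      have hP := (isIntAt_restrictAlong ι hι Q (A := A)).mp (ht ▸ h)
      have hP' := (isIntAt_restrictAlong ι hι Q' (A := A)).mp (ht ▸ h')
      obtain ⟨a, ha⟩ := exists_hasVal_of_mem_chart _ hP hyc
      obtain ⟨a', ha'⟩ := exists_hasVal_of_mem_chart _ hP' hyc
      rw [cval_of_hasVal Q h z (hy' ▸ (hasVal_restrictAlong ι hι Q).mpr ha),
        cval_of_hasVal Q' h' z (hy' ▸ (hasVal_restrictAlong ι hι Q').mpr ha'),
        ← cval_of_hasVal _ hP ⟨y, hyc⟩ ha, ← cval_of_hasVal _ hP' ⟨y, hyc⟩ ha', hcen.2 hP hP'])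
  -- the value of a conjugate
  have hconj : ∀ (g : H) (R : Place Q̄ F) (hR : IsIntAt A R W.t₀) (y : chart A W.t₀),
      cval A ((g : F ≃ₐ[Q̄] F) • R) W.t₀ ((hint g R).mpr hR) y =
        cval A R W.t₀ hR ⟨_, hst _ (inv_mem g.2) y y.2⟩ := fun g R hR y => by
    obtain ⟨a, ha⟩ := exists_hasVal_of_mem_chart R hR (hst _ (inv_mem g.2) y y.2)
    rw [cval_of_hasVal R hR _ ha]
    refine cval_of_hasVal _ _ y ?_
    rw [← hasVal_smul (g : F ≃ₐ[Q̄] F) R] at ha
    rwa [← AlgEquiv.mul_apply, mul_inv_cancel, AlgEquiv.one_apply] at ha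
  have key : ∀ g : H, (W.disc χ hχ).InDisc ((g : F ≃ₐ[Q̄] F) • Q') ↔
      (W.disc χ hχ).InDisc (((g * g₀⁻¹ : H) : F ≃ₐ[Q̄] F) • Q) := fun g => by
    rw [inDisc_iff, inDisc_iff]
    have e : ∀ y : chart A W.t₀,
        cval A ((g : F ≃ₐ[Q̄] F) • Q') W.t₀ ((hint g Q').mpr h') y =
          cval A (((g * g₀⁻¹ : H) : F ≃ₐ[Q̄] F) • Q) W.t₀ ((hint _ Q).mpr h) y := fun y => by
      rw [hconj g Q' h', hconj (g * g₀⁻¹) Q h]
      refine (hg₀ _).symm.trans (congrArg f (Subtype.ext ?_))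
      show (g₀ : F ≃ₐ[Q̄] F) ((g : F ≃ₐ[Q̄] F)⁻¹ (y : F)) =
        ((((g * g₀⁻¹ : H) : F ≃ₐ[Q̄] F))⁻¹) (y : F)
      rw [Subgroup.coe_mul, Subgroup.coe_inv, mul_inv_rev, inv_inv]
      rfl
    exact ⟨fun ⟨_, hχ'⟩ => ⟨(hint _ Q).mpr h, RingHom.ext fun y => (e y).symm.trans (RingHom.congr_fun hχ' y)⟩,
      fun ⟨_, hχ'⟩ => ⟨(hint g Q').mpr h', RingHom.ext fun y => (e y).trans (RingHom.congr_fun hχ' y)⟩⟩
  exact (Nat.card_congr ((Equiv.mulRight g₀⁻¹).subtypeEquiv key)).symm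

include hx₀ in
/-- The total order of a function from below with trivial push forward. -/
theorem tot_eq_zero_of_push {X : Type*} (c : Place Q̄ F₀ → X)
    (hdep : ∀ (P P' : Place Q̄ F₀) [Module.Finite Q̄ P.ResidueField]
      [Module.Finite Q̄ P'.ResidueField], c P = c P' →
      (IsIntAt A P t ↔ IsIntAt A P' t) ∧ ∀ h h', cval A P t h = cval A P' t h')
    {E : Divisor Q̄ F₀} (hE : Finsupp.mapDomain c E = 0) {n : ℕ} (hn : n ≠ 0) {g : F₀}
    (hdiv : ∀ P : Place Q̄ F₀, P.ord g = n * E P) : (W.disc χ hχ).tot (ι g) = 0 := by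
  classical
  haveI := W.fin.hasPrincipalDivisors
  haveI := Fintype.ofFinite H
  haveI hres : ∀ R : Place Q̄ F, Module.Finite Q̄ R.ResidueField := W.fin.finiteResidue
  haveI hres₀ : ∀ R : Place Q̄ F₀, Module.Finite Q̄ R.ResidueField := hx₀.finiteResidue
  have hfa : FiniteAlong Q̄ ι := finiteAlong_of_isFinOver hx₀ W.fin ι
  have hι := isIntegral_of_finiteAlong hfa
  set D' := Divisor.pullbackAlong ι hι E with hD'
  have hord : ∀ Q : Place Q̄ F, Q.ord (ι g) = n * D' Q := fun Q => by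
    rw [hD', Divisor.pullbackAlong_apply, Q.ord_restrictAlong ι hι, hdiv]; ring
  set D := W.disc χ hχ
  -- the count, as a function of the class
  let cnt : Place Q̄ F → ℤ := fun Q => (Nat.card {s : H // D.InDisc ((s : F ≃ₐ[Q̄] F) • Q)} : ℕ)
  let φ : X → ℤ := fun x => if hx : ∃ Q : Place Q̄ F, c (Q.restrictAlong ι hι : Place Q̄ F₀) = x then cnt hx.choose else 0
  have hφ : ∀ Q, cnt Q = φ (c (Q.restrictAlong ι hι)) := fun Q => by
    have hx : ∃ Q' : Place Q̄ F, c (Q'.restrictAlong ι hι : Place Q̄ F₀) = c (Q.restrictAlong ι hι) := ⟨Q, rfl⟩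
    simp only [φ, dif_pos hx, cnt]
    exact congrArg _ (W.count_eq hχ ι H hH hfix ht hι Q hx.choose
      (hdep _ _ hx.choose_spec.symm))
  -- the linear functional
  let Λ : Divisor Q̄ F →+ ℤ := Finsupp.liftAddHom fun Q => AddMonoidHom.mulRight (cnt Q)
  have hΛ : ∀ X : Divisor Q̄ F, Λ X = ∑ Q ∈ X.support, X Q * cnt Q := fun X => rfl
  have hpull : ∀ E₁ : Divisor Q̄ F₀, Λ (Divisor.pullbackAlong ι hι E₁) =
      finrankAlong Q̄ ι * E₁.sum (fun P m => m * φ (c P)) := by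
    intro E₁
    induction E₁ using Finsupp.induction_linear with
    | zero => simp
    | add X Y hX hY =>
      rw [map_add, map_add, hX, hY, Finsupp.sum_add_index' (fun _ => zero_mul _)
        (fun _ _ _ => add_mul _ _ _), mul_add]
    | single P m =>
      rw [Finsupp.sum_single_index (zero_mul _)]
      have hdeg := Divisor.degree_pullbackAlong ι hι
        (fundamentalIdentityAlong_of_isFinOver hx₀ W.fin ι hι) (Finsupp.single P m)
      rw [Divisor.degree_single, hx₀.deg_eq_one P, Nat.cast_one, mul_one] at hdeg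
      rw [← mul_assoc, ← hdeg, Divisor.pullbackAlong_single, map_sum, map_sum, Finset.sum_mul]
      refine Finset.sum_congr rfl fun Q hQ => ?_
      rw [Divisor.degree_single, W.fin.deg_eq_one Q, Nat.cast_one, mul_one]
      simp only [Λ, Finsupp.liftAddHom_apply_single, AddMonoidHom.coe_mulRight]
      rw [hφ, Place.mem_fiberAlong.mp hQ]
  have hzero : Λ D' = 0 := by
    rw [hD', hpull, ← Finsupp.sum_mapDomain_index (h := fun x m => m * φ x) (fun _ => zero_mul _)
      (fun _ _ _ => add_mul _ _ _), hE, Finsupp.sum_zero_index, mul_zero]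
  -- averaging over the group
  have hinv : ∀ (s : H) Q, D' ((s : F ≃ₐ[Q̄] F) • Q) = D' Q := fun s Q => by
    refine mul_left_cancel₀ (Int.natCast_ne_zero.mpr hn) ?_
    rw [← hord, ← hord]
    have hfixg : (s : F ≃ₐ[Q̄] F) (ι g) = ι g :=
      (mem_fixedField_iff H _).mp (hfix ▸ ⟨g, rfl⟩ : ι g ∈ fixedField H) _ s.2
    conv_lhs => rw [← hfixg]
    rw [Place.ord_smul]
  set S := D'.support
  have htot : ∀ s : H, D.tot (ι g) =
      n * ∑ Q ∈ S, (if D.InDisc ((s : F ≃ₐ[Q̄] F) • Q) then D' Q else 0) := fun s => by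
    rw [DiscData.tot, ← finsum_comp_equiv (MulAction.toPerm (s : F ≃ₐ[Q̄] F)), Finset.mul_sum,
      finsum_eq_sum_of_support_subset (s := S)]
    · refine Finset.sum_congr rfl fun Q _ => ?_
      show (if D.InDisc ((s : F ≃ₐ[Q̄] F) • Q) then _ else _) = _
      rw [hord]
      show (if _ then (n : ℤ) * D' ((s : F ≃ₐ[Q̄] F) • Q) else 0) = _
      rw [hinv, mul_ite, mul_zero]
    · intro Q hQ
      rw [Function.mem_support] at hQ
      rw [Finset.mem_coe, Finsupp.mem_support_iff]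
      intro h0
      refine hQ ?_
      show (if D.InDisc ((s : F ≃ₐ[Q̄] F) • Q) then _ else _) = _
      rw [hord]
      show (if _ then (n : ℤ) * D' ((s : F ≃ₐ[Q̄] F) • Q) else 0) = _
      rw [hinv, h0, mul_zero, ite_self]
  have hsum : (Fintype.card H : ℤ) * D.tot (ι g) = n * Λ D' := by
    rw [← nsmul_eq_mul, ← Finset.card_univ, ← Finset.sum_const, Finset.sum_congr rfl fun s _ => htot s,
      ← Finset.mul_sum, Finset.sum_comm, hΛ]
    congr 1
    refine Finset.sum_congr rfl fun Q _ => ?_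
    simp only [cnt, Nat.card_eq_fintype_card, Fintype.card_subtype, Finset.card_filter,
      Nat.cast_sum, Finset.mul_sum]
    refine Finset.sum_congr rfl fun s _ => ?_
    split_ifs <;> simp
  rw [hzero, mul_zero] at hsum
  exact (mul_eq_zero.mp hsum).resolve_left (Int.natCast_ne_zero.mpr Fintype.card_ne_zero)

end Cover

end Fermat.Agent.MCurve.Spec
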