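import Fermat.Agent.MCurve.Spec.Reduction
import Fermat.Agent.MCurve.Spec.Ratio
import Fermat.Agent.MCurve.Spec.Totals
import Fermat.Agent.GalRep.Model.Reduction

/-!
A divisor with trivial push forward to the centres modulo `ℓ` and a multiple prime to `ℓ` principal
is principal.
-/

set_option autoImplicit false

noncomputable section

namespace Fermat.Agent.MCurve.Spec

open AlgebraicCurve ModularCurve Polynomial IsLocalRing CongruenceSubgroup IntermediateField
open Fermat.Agent.GalRep.Model (Lev)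

local notation "Q̄" => AlgebraicClosure ℚ

/-- Simultaneous normalisation of finitely many polynomials. -/
theorem exists_primitive_family (A : ValuationSubring Q̄) {ι : Type*} [Fintype ι]
    {p : ι → Polynomial Q̄} (hp : p ≠ 0) :
    ∃ (c : Q̄) (P : ι → Polynomial A), c ≠ 0 ∧ (∀ i, (P i).map A.subtype = C c * p i) ∧
      ∃ i, (P i).map (residue A) ≠ 0 := by
  classical
  obtain ⟨i₁, hi₁⟩ := Function.ne_iff.mp hp
  set S : Finset (Σ _ : ι, ℕ) := Finset.univ.sigma fun i => (p i).support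
  have hS : S.Nonempty := by
    obtain ⟨k, hk⟩ := Polynomial.support_nonempty.mpr hi₁
    exact ⟨⟨i₁, k⟩, Finset.mem_sigma.mpr ⟨Finset.mem_univ _, hk⟩⟩
  obtain ⟨⟨i₀, k₀⟩, hik, hmax⟩ :=
    Finset.exists_max_image S (fun x => A.valuation ((p x.1).coeff x.2)) hS
  have h0 : (p i₀).coeff k₀ ≠ 0 := mem_support_iff.mp (Finset.mem_sigma.mp hik).2
  have hle : ∀ i k, ((p i₀).coeff k₀)⁻¹ * (p i).coeff k ∈ A := fun i k => by
    by_cases hk : k ∈ (p i).support
    · rw [← A.valuation_le_one_iff, map_mul, map_inv₀]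
      exact inv_mul_le_one_of_le₀ (hmax ⟨i, k⟩ (Finset.mem_sigma.mpr ⟨Finset.mem_univ _, hk⟩))
        zero_le
    · rw [notMem_support_iff.mp hk, mul_zero]; exact zero_mem A
  have hlift : ∀ i, ∃ P : Polynomial A, P.map A.subtype = C ((p i₀).coeff k₀)⁻¹ * p i := fun i =>
    (lifts_iff_coeff_lifts _).mpr fun k =>
      ⟨⟨((p i₀).coeff k₀)⁻¹ * (p i).coeff k, hle i k⟩, (coeff_C_mul (p i)).symm⟩
  choose P hP using hlift
  refine ⟨_, P, inv_ne_zero h0, hP, i₀, fun hz => ?_⟩
  have h1 : (P i₀).coeff k₀ = 1 := Subtype.val_injective (by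
    have := congrArg (fun r : Polynomial Q̄ => r.coeff k₀) (hP i₀)
    simpa [coeff_map, h0] using this)
  have h2 := congrArg (fun r : Polynomial (ResidueField A) => r.coeff k₀) hz
  simp [coeff_map, h1] at h2

section Field

variable (A : ValuationSubring Q̄) (N : ℕ) [NeZero N]

/-- A polynomial in `j` and `j (q ^ N)` in the function field. -/
def polyF (P : Fin (Gamma0 N).index → Polynomial A) : modularFunctionFieldBar N :=
  ∑ b, polyA A (jBar N Q̄) (P b) * jNb N ^ (b : ℕ)

/-- Its series over the valuation ring. -/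
def serA (P : Fin (Gamma0 N).index → Polynomial A) : LaurentSeries A :=
  ∑ b, aJ A (P b) * qExpand A N (jqModC A) ^ (b : ℕ)

theorem coe_polyA_jBar (P : Polynomial A) :
    ((polyA A (jBar N Q̄) P : modularFunctionFieldBar N) : LaurentSeries Q̄) =
      coeffMap (subA A) (aJ A P) := by
  letI : Algebra Q̄ ℂ := GalRep.qbarToC.toAlgebra
  refine RingHom.congr_fun (f := (modularFunctionFieldBar N).val.toRingHom.comp (polyA A (jBar N Q̄)))
    (g := (coeffMap (subA A)).comp (aJ A)) (Polynomial.ringHom_ext (fun a => ?_) ?_) P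
  · simp only [RingHom.comp_apply, polyA_C, aJ, coe_eval₂RingHom, eval₂_C]
    rw [HahnSeries.C_apply, coeffMap_single, ← algebraMap_laurentSeries_eq_single]
    rfl
  · simp only [RingHom.comp_apply, polyA_X, aJ, coe_eval₂RingHom, eval₂_X, MCurve.coeffMap_jqModC]
    exact coe_jBar N Q̄

theorem coe_polyF (P : Fin (Gamma0 N).index → Polynomial A) :
    ((polyF A N P : modularFunctionFieldBar N) : LaurentSeries Q̄) =
      coeffMap (subA A) (serA A N P) := by
  show (modularFunctionFieldBar N).val (polyF A N P) = _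
  rw [polyF, serA, map_sum, map_sum]
  refine Finset.sum_congr rfl fun b _ => ?_
  rw [map_mul, map_pow, map_mul, map_pow, qExpand_coeffMap, MCurve.coeffMap_jqModC]
  exact congrArg₂ (· * ·) (coe_polyA_jBar A N (P b)) rfl

theorem serA_mem_genAlg (P : Fin (Gamma0 N).index → Polynomial A) :
    coeffMap (subA A) (serA A N P) ∈ genAlg Q̄ N := by
  rw [serA, map_sum]
  refine sum_mem fun b _ => ?_
  rw [map_mul, map_pow, coeffMap_aJ, qExpand_coeffMap, MCurve.coeffMap_jqModC]
  exact mul_mem (evJq_mem Q̄ N _)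
    (pow_mem (Algebra.subset_adjoin (mem_divisorExpansionsC Q̄ N dvd_rfl)) _)

theorem red_serA (P : Fin (Gamma0 N).index → Polynomial A) :
    coeffMap (residue A) (serA A N P) = ∑ b, jHom (ResidueField A) ((P b).map (residue A)) *
      qExpand (ResidueField A) N (jqModC (ResidueField A)) ^ (b : ℕ) := by
  rw [serA, map_sum]
  refine Finset.sum_congr rfl fun b _ => ?_
  rw [map_mul, map_pow, coeffMap_aJ, qExpand_coeffMap, MCurve.coeffMap_jqModC, evJq_eq_jHom]

variable {A N} {M : ℕ} [NeZero M] [hu : Fact (IsUnit (M : A))]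

theorem red_serA_ne_zero (hNM : N ∣ M) {P : Fin (Gamma0 N).index → Polynomial A}
    (hP : ∃ b, (P b).map (residue A) ≠ 0) : coeffMap (residue A) (serA A N P) ≠ 0 := by
  obtain ⟨b, hb⟩ := hP
  rw [red_serA]
  exact fun h => hb (congrFun (redIndependent_residue A hNM _ h) b)

theorem polyF_ne_zero (hNM : N ∣ M) {P : Fin (Gamma0 N).index → Polynomial A}
    (hP : ∃ b, (P b).map (residue A) ≠ 0) : polyF A N P ≠ 0 := fun h =>
  red_serA_ne_zero hNM hP (by
    have h1 := coe_polyF A N P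
    rw [h, ZeroMemClass.coe_zero] at h1
    rw [coeffMap_subA_injective A (h1.symm.trans (map_zero _).symm), map_zero])

include hu in
/-- Every function is a constant times a ratio of primitive polynomials in `j` and `j (q ^ N)`. -/
theorem exists_ratio (hNM : N ∣ M) {g : modularFunctionFieldBar N} (hg : g ≠ 0) :
    ∃ (c : Q̄) (P R : Fin (Gamma0 N).index → Polynomial A), c ≠ 0 ∧
      (∃ b, (P b).map (residue A) ≠ 0) ∧ (∃ b, (R b).map (residue A) ≠ 0) ∧
      g * polyF A N R = algebraMap Q̄ _ c * polyF A N P := by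
  classical
  letI : Algebra Q̄ ℂ := GalRep.qbarToC.toAlgebra
  set j : modularFunctionFieldBar N := jBar N Q̄
  have hfin : IsFinOver Q̄ j := (bar_isFinOver_and_finrank N Q̄).1
  have hrank : Module.finrank Q̄⟮j⟯ (modularFunctionFieldBar N) = (Gamma0 N).index :=
    (bar_isFinOver_and_finrank N Q̄).2
  haveI := hfin.finite
  have hinj : Function.Injective (aeval (R := Q̄) j) := transcendental_iff_injective.mp hfin.transcendental
  have hpol : ∀ (p : Fin (Gamma0 N).index → Polynomial Q̄), p ≠ 0 →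
      ∃ (c : Q̄) (P : Fin (Gamma0 N).index → Polynomial A), c ≠ 0 ∧
        (∃ b, (P b).map (residue A) ≠ 0) ∧
        ∑ b, aeval j (p b) * jNb N ^ (b : ℕ) = algebraMap Q̄ _ c * polyF A N P := fun p hp => by
    obtain ⟨c, P, hc, hP, hP0⟩ := exists_primitive_family A hp
    refine ⟨c⁻¹, P, inv_ne_zero hc, hP0, ?_⟩
    rw [polyF, Finset.mul_sum]
    refine Finset.sum_congr rfl fun b _ => ?_
    rw [polyA_eq_aeval, hP b, map_mul, aeval_C, ← mul_assoc, ← mul_assoc, ← map_mul,
      inv_mul_cancel₀ hc, map_one, one_mul]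
  have hclear : ∀ r : Fin (Gamma0 N).index → Q̄⟮j⟯, ∃ (D : Polynomial Q̄)
      (p : Fin (Gamma0 N).index → Polynomial Q̄), D ≠ 0 ∧
        ∀ b, (r b : modularFunctionFieldBar N) * aeval j D = aeval j (p b) := fun r => by
    have h : ∀ b, ∃ p q : Polynomial Q̄, q ≠ 0 ∧
        (r b : modularFunctionFieldBar N) * aeval j q = aeval j p := fun b => by
      obtain ⟨p, q, hpq⟩ := (mem_adjoin_simple_iff Q̄ _).mp (r b).2
      rcases eq_or_ne q 0 with rfl | hq
      · rw [map_zero, div_zero] at hpq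
        exact ⟨0, 1, one_ne_zero, by rw [hpq, zero_mul, map_zero]⟩
      · exact ⟨p, q, hq, by rw [hpq, div_mul_cancel₀]; exact (map_ne_zero_iff _ hinj).mpr hq⟩
    choose p q hq hpq using h
    refine ⟨∏ b, q b, fun b => p b * ∏ i ∈ Finset.univ.erase b, q i,
      Finset.prod_ne_zero_iff.mpr fun b _ => hq b, fun b => ?_⟩
    rw [← Finset.mul_prod_erase _ _ (Finset.mem_univ b), map_mul, ← mul_assoc, hpq, map_mul]
  have hli : LinearIndependent Q̄⟮j⟯ fun b : Fin (Gamma0 N).index => jNb N ^ (b : ℕ) := by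
    rw [Fintype.linearIndependent_iff]
    intro r hr
    by_contra hne
    push Not at hne
    obtain ⟨b₀, hb₀⟩ := hne
    obtain ⟨D, p, hD, hp⟩ := hclear r
    have hp0 : p ≠ 0 := fun h => by
      have := hp b₀
      rw [h, Pi.zero_apply, map_zero, mul_eq_zero, map_eq_zero_iff _ hinj] at this
      exact hb₀ (Subtype.ext (this.resolve_right hD))
    obtain ⟨c, P, hc, hP, hsum⟩ := hpol p hp0
    have hz : ∑ b, aeval j (p b) * jNb N ^ (b : ℕ) = 0 := by
      have := congrArg (· * aeval j D) hr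
      rw [zero_mul, Finset.sum_mul] at this
      rw [← this]
      refine Finset.sum_congr rfl fun b _ => ?_
      rw [← hp b]
      show _ = (r b : modularFunctionFieldBar N) * _ * _
      ring
    rw [hz, eq_comm, mul_eq_zero, _root_.map_eq_zero] at hsum
    exact polyF_ne_zero hNM hP (hsum.resolve_left hc)
  haveI : Nonempty (Fin (Gamma0 N).index) :=
    ⟨⟨0, Nat.pos_of_ne_zero Subgroup.FiniteIndex.index_ne_zero⟩⟩
  let B := basisOfLinearIndependentOfCardEqFinrank hli (by rw [Fintype.card_fin, hrank])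
  obtain ⟨D, p, hD, hp⟩ := hclear fun b => B.repr g b
  have hsum : g * aeval j D = ∑ b, aeval j (p b) * jNb N ^ (b : ℕ) := by
    conv_lhs => rw [← B.sum_repr g, Finset.sum_mul]
    refine Finset.sum_congr rfl fun b _ => ?_
    rw [← hp b]
    show (B.repr g b : modularFunctionFieldBar N) * B b * _ = _
    rw [show B b = jNb N ^ (b : ℕ) from congrFun (coe_basisOfLinearIndependentOfCardEqFinrank hli _) b]
    ring
  have hp0 : p ≠ 0 := fun h => by
    simp only [h, Pi.zero_apply, map_zero, zero_mul, Finset.sum_const_zero, mul_eq_zero] at hsum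
    exact hD ((map_eq_zero_iff _ hinj).mp (hsum.resolve_left hg))
  obtain ⟨c, P, hc, hP, hP'⟩ := hpol p hp0
  let b₀ : Fin (Gamma0 N).index := ⟨0, Nat.pos_of_ne_zero Subgroup.FiniteIndex.index_ne_zero⟩
  obtain ⟨d, R, hd, hR, hR'⟩ := hpol (Pi.single b₀ D) fun h => hD (by
    have := congrFun h b₀
    rwa [Pi.single_eq_same] at this)
  rw [Finset.sum_eq_single b₀ (fun b _ hb => by rw [Pi.single_eq_of_ne hb, map_zero, zero_mul])
    (fun h => absurd (Finset.mem_univ _) h), Pi.single_eq_same,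
    show (b₀ : ℕ) = 0 from rfl, pow_zero, mul_one] at hR'
  refine ⟨c / d, P, R, div_ne_zero hc hd, hP, hR, ?_⟩
  rw [hR', hP'] at hsum
  have hd' : algebraMap Q̄ (modularFunctionFieldBar N) d ≠ 0 := (_root_.map_ne_zero _).mpr hd
  rw [map_div₀, div_mul_eq_mul_div, eq_div_iff hd', ← hsum]
  ring

end Field

section Centres

variable {A : ValuationSubring Q̄} {F : Type*} [Field F] [Algebra Q̄ F]
  (P P' : Place Q̄ F) [Module.Finite Q̄ P.ResidueField] [Module.Finite Q̄ P'.ResidueField]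

theorem centre_dep {t : F} (h : cen A P t = cen A P' t) :
    (IsIntAt A P t ↔ IsIntAt A P' t) ∧ ∀ h h', cval A P t h = cval A P' t h' := by
  by_cases h1 : IsIntAt A P t <;> by_cases h2 : IsIntAt A P' t
  · rw [cen_of_isIntAt A P h1, cen_of_isIntAt A P' h2] at h
    exact ⟨iff_of_true h1 h2, fun _ _ => Sum.inl.inj h⟩
  · rw [cen_of_isIntAt A P h1, cen_of_not A P' h2] at h
    exact absurd h Sum.inl_ne_inr
  · rw [cen_of_not A P h1, cen_of_isIntAt A P' h2] at h
    exact absurd h Sum.inr_ne_inl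
  · exact ⟨iff_of_false h1 h2, fun h => absurd h h1⟩

theorem isIntAt_inv_iff {t : F} (ht : t ≠ 0) (h : IsIntAt A P t) :
    IsIntAt A P t⁻¹ ↔ cval A P t h ⟨t, self_mem_chart A t⟩ ≠ 0 := by
  obtain ⟨a, ha⟩ := isIntAt_iff.mp h
  rw [cval_of_hasVal P h ⟨t, self_mem_chart A t⟩ ha]
  constructor
  · intro hi
    obtain ⟨a', ha'⟩ := isIntAt_iff.mp hi
    have h1 := ha.mul P ha'
    rw [mul_inv_cancel₀ ht] at h1
    have h2 : (a : Q̄) * a' = 1 := h1.unique P (Or.inl (map_one _).symm)
    exact (residue_ne_zero_iff_isUnit _).mpr (IsUnit.of_mul_eq_one a' (Subtype.ext h2))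
  · intro hne
    obtain ⟨u, hu⟩ := ((residue_ne_zero_iff_isUnit _).mp hne).exists_right_inv
    have hu' : (a : Q̄) * (u : Q̄) = 1 := congrArg Subtype.val hu
    have hi : t⁻¹ ∈ P.toValuationSubring := (mem_iff_ord_nonneg P (inv_ne_zero ht)).mpr (by
      rw [P.ord_inv, ha.ord_eq_zero (left_ne_zero_of_mul_eq_one hu'), neg_zero])
    have h1 := ha.mul P (b := placeVal P ⟨t⁻¹, hi⟩) ((hasVal_iff P).mpr ⟨hi, rfl⟩)
    rw [mul_inv_cancel₀ ht] at h1
    refine isIntAt_of_hasVal P (a := u) ((hasVal_iff P).mpr ⟨hi, ?_⟩)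
    have h2 := h1.unique P (Or.inl (map_one _).symm)
    exact (eq_inv_of_mul_eq_one_right h2).trans (eq_inv_of_mul_eq_one_right hu').symm

theorem centre_dep_inv {t : F} (ht : t ≠ 0) (h : cen A P t = cen A P' t) :
    (IsIntAt A P t⁻¹ ↔ IsIntAt A P' t⁻¹) ∧ ∀ h h', cval A P t⁻¹ h = cval A P' t⁻¹ h' := by
  obtain ⟨hiff, hval⟩ := centre_dep P P' h
  by_cases h1 : IsIntAt A P t
  swap
  · have h2 := mt hiff.mpr h1
    rw [cen_of_not A P h1, cen_of_not A P' h2] at h
    exact ⟨iff_of_true (isIntAt_inv h1) (isIntAt_inv h2), fun _ _ => Sum.inr.inj h⟩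
  have h2 := hiff.mp h1
  refine ⟨by rw [isIntAt_inv_iff P ht h1, isIntAt_inv_iff P' ht h2, hval h1 h2], fun g g' => ?_⟩
  refine RingHom.ext fun y => ?_
  obtain ⟨m, hm⟩ := exists_inv_pow_mul_mem (inv_ne_zero ht) y.2
  have hy : (y : F) * t ^ m ∈ chart A t := by simpa using hm m le_rfl
  have key : ∀ (Q : Place Q̄ F) [Module.Finite Q̄ Q.ResidueField] (hQ : IsIntAt A Q t)
      (hQ' : IsIntAt A Q t⁻¹), cval A Q t⁻¹ hQ' y *
        cval A Q t hQ ⟨t, self_mem_chart A t⟩ ^ m = cval A Q t hQ ⟨_, hy⟩ := fun Q _ hQ hQ' => by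
    obtain ⟨a, ha⟩ := exists_hasVal_of_mem_chart Q hQ' y.2
    obtain ⟨s, hs⟩ := exists_hasVal_of_mem_chart Q hQ (self_mem_chart A t)
    rw [cval_of_hasVal Q hQ' y ha, cval_of_hasVal Q hQ ⟨t, self_mem_chart A t⟩ hs, ← map_pow,
      ← map_mul]
    refine (cval_of_hasVal Q hQ ⟨_, hy⟩ ?_).symm
    exact ha.mul Q (hs.pow Q m)
  refine mul_right_cancel₀ (pow_ne_zero m ((isIntAt_inv_iff P ht h1).mp g)) ?_
  rw [key P h1 g]
  conv_rhs => rw [hval h1 h2, key P' h2 g']
  rw [hval h1 h2]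

end Centres

variable {N : ℕ} [NeZero N] {ℓ : ℕ} [hℓ : Fact ℓ.Prime] {A : ValuationSubring Q̄}
  [∀ P : Place Q̄ (modularFunctionFieldBar N), Module.Finite Q̄ P.ResidueField]

set_option maxHeartbeats 1000000 in
/-- Specialisation is injective on torsion prime to `ℓ`. -/
theorem isPrincipal_of_push (hℓN : ¬ ℓ ∣ N) (hA : A.LiesOverPrime ℓ) {n : ℕ} (hn : ¬ ℓ ∣ n)
    {E : Divisor Q̄ (modularFunctionFieldBar N)}
    (hE : Finsupp.mapDomain (fun P => cen A P (jBar N Q̄)) E = 0)
    (hnE : Divisor.IsPrincipal (n • E)) : Divisor.IsPrincipal E := by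
  classical
  letI : Algebra Q̄ ℂ := GalRep.qbarToC.toAlgebra
  have hn0 : n ≠ 0 := fun h => hn (h ▸ dvd_zero ℓ)
  obtain ⟨k, hk, hℓk, ⟨L⟩⟩ := GalRep.Model.exists_lev (M := N) hℓ.out hℓN
  haveI : NeZero (N * k) := ⟨Nat.mul_ne_zero (NeZero.ne N) hk.ne'⟩
  haveI hu : Fact (IsUnit ((N * k : ℕ) : A)) := ⟨by
    rw [← residue_ne_zero_iff_isUnit, map_natCast]
    intro h0
    have h1 : (ℓ : ResidueField A) = 0 := by
      rw [← map_natCast (residue A), residue_eq_zero_iff]
      exact (A.valuation_lt_one_iff _).mpr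
        (GalRep.valuation_ell_lt_one hA)
    obtain ⟨u, v, huv⟩ := ((Nat.prime_iff_prime_int.mp hℓ.out).coprime_iff_not_dvd.mpr
      (mt Int.natCast_dvd_natCast.mp hℓk) : IsCoprime (ℓ : ℤ) ((N * k : ℕ) : ℤ))
    have h2 := congrArg (fun z : ℤ => (z : ResidueField A)) huv
    simp only [Int.cast_add, Int.cast_mul, Int.cast_natCast, Int.cast_one] at h2
    rw [h1, h0, mul_zero, mul_zero, add_zero] at h2
    exact zero_ne_one h2⟩
  have hNM : N ∣ N * k := dvd_mul_right N k
  set ι := iotaBar A L hNM hA hℓN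
  obtain ⟨g, hg0, hg⟩ := hnE
  have hdiv : ∀ P : Place Q̄ (modularFunctionFieldBar N), P.ord g = n * E P := fun P => by
    rw [← hg P, Finsupp.smul_apply, nsmul_eq_mul]
  obtain ⟨c, Pa, Pb, hc0, hPa, hPb, hgab⟩ := exists_ratio (A := A) (M := N * k) hNM hg0
  set a := polyF A N Pa with ha_def
  set b := polyF A N Pb with hb_def
  have ha0 : a ≠ 0 := polyF_ne_zero hNM hPa
  have hb0 : b ≠ 0 := polyF_ne_zero hNM hPb
  have hx₀ : IsFinOver Q̄ (jBar N Q̄) := (bar_isFinOver_and_finrank N Q̄).1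
  have hj0 : jBar N Q̄ ≠ 0 := fun h => hx₀.transcendental (h ▸ isAlgebraic_zero)
  -- the totals
  have htot : ∀ (W : Cover A (LK (N * k) A)) (t : modularFunctionFieldBar N),
      W.G = fullG (N * k) A → ι t = W.t₀ →
      (∀ (P P' : Place Q̄ (modularFunctionFieldBar N)) [Module.Finite Q̄ P.ResidueField]
        [Module.Finite Q̄ P'.ResidueField], cen A P (jBar N Q̄) = cen A P' (jBar N Q̄) →
        (IsIntAt A P t ↔ IsIntAt A P' t) ∧ ∀ h h', cval A P t h = cval A P' t h') →
      ∀ χ hχ, (W.disc χ hχ).tot (ι a) = (W.disc χ hχ).tot (ι b) := by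
    intro W t hG ht hdep χ hχ
    haveI := W.fin.hasPrincipalDivisors
    have h0 := W.tot_eq_zero_of_push hχ ι (gam0G N (N * k) A) (hG ▸ gam0G_le A)
      (fixedField_gam0G A L hNM hA hℓN) ht hx₀ (fun P => cen A P (jBar N Q̄)) hdep hE hn0 hdiv
    have hne : ∀ {x : modularFunctionFieldBar N}, x ≠ 0 → ι x ≠ 0 := fun hx =>
      (_root_.map_ne_zero (ι : modularFunctionFieldBar N →+* LK (N * k) A)).mpr hx
    have h1 := congrArg (fun x => (W.disc χ hχ).tot (ι x)) hgab
    simp only [map_mul] at h1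
    rw [DiscData.tot_mul (hne hg0) (hne hb0), h0, zero_add, AlgHom.commutes,
      DiscData.tot_mul ((_root_.map_ne_zero _).mpr hc0) (hne ha0)] at h1
    have h2 : (W.disc χ hχ).tot (algebraMap Q̄ (LK (N * k) A) c) = 0 := by
      simp [DiscData.tot, ord_algebraMap]
    rw [h2, zero_add] at h1
    exact h1.symm
  -- upstairs
  obtain ⟨V, hle, hV, hkey⟩ := exists_gauss_rS A L
  have hgen : ∀ P : Fin (Gamma0 N).index → Polynomial A, ι (polyF A N P) ∈ lvlHol A := fun P => by
    rw [polyF, map_sum]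
    refine Subring.sum_mem _ fun b _ => ?_
    rw [map_mul, map_pow]
    refine mul_mem ?_ (pow_mem (iotaBar_jNb_mem A L hNM hA hℓN) _)
    rw [map_polyA, show (ι : modularFunctionFieldBar N →ₐ[Q̄] LK (N * k) A) (jBar N Q̄) = jK A L from
      iotaBar_jBar A L hNM hA hℓN]
    induction P b using Polynomial.induction_on' with
    | add p q hp hq => rw [map_add]; exact add_mem hp hq
    | monomial i x =>
      rw [← C_mul_X_pow_eq_monomial, map_mul, map_pow, polyA_C, polyA_X]
      exact mul_mem (algebraMap_mem_lvlHol A x) (pow_mem (jK_mem_lvlHol A L) _)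
  let el : (Fin (Gamma0 N).index → Polynomial A) → intHol (N * k) A := fun P =>
    ⟨ι (polyF A N P), lvlHol_le_intHol A (hgen P)⟩
  have hrS : ∀ P, rS A (el P) =
      qExpand (ResidueField A) (N * k) (coeffMap (residue A) (serA A N P)) := fun P => by
    have e : el P = ∑ b, polI A L (P b) *
        ⟨_, lvlHol_le_intHol A (iotaBar_jNb_mem A L hNM hA hℓN)⟩ ^ (b : ℕ) := Subtype.ext (by
      show ι (polyF A N P) = _
      rw [AddSubmonoidClass.coe_finsetSum, polyF, map_sum]
      refine Finset.sum_congr rfl fun b _ => ?_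
      rw [map_mul, map_pow, map_polyA, MulMemClass.coe_mul, SubmonoidClass.coe_pow,
        show (ι : modularFunctionFieldBar N →ₐ[Q̄] LK (N * k) A) (jBar N Q̄) = jK A L from
          iotaBar_jBar A L hNM hA hℓN]
      rfl)
    rw [e, map_sum, red_serA, map_sum]
    refine Finset.sum_congr rfl fun b _ => ?_
    rw [map_mul, map_pow, rS_polI, rS_iotaBar_jNb, ← map_pow, ← map_mul]
  have hchart : ∀ P, ι (polyF A N P) ∈ chart A (jK A L) := fun P =>
    intHol_le_chart A L (el P).2
  have hred : ∀ (x : LK (N * k) A) (hx : x ∈ intHol (N * k) A) (hx' : x ∈ chart A (jK A L)),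
      hV.red ⟨x, hx'⟩ = 0 ↔ rS A ⟨x, hx⟩ = 0 := fun x hx hx' => hkey ⟨x, hx⟩
  have hne : ∀ P, (∃ b, (P b).map (residue A) ≠ 0) → ∀ σ : fullG (N * k) A,
      hV.red ⟨(σ : LK (N * k) A ≃ₐ[Q̄] LK (N * k) A) (⟨_, hchart P⟩ : chart A (jK A L)),
        (coverW A L).map_chart σ.2 (hchart P)⟩ ≠ 0 := by
    rintro P hP ⟨_, γ, rfl⟩
    refine mt (hred _ (shiftA_mem_intHol A γ (el P).2) _).mp (rS_shiftA_ne_zero A (hgen P) ?_ γ)
    rw [show (⟨_, lvlHol_le_intHol A (hgen P)⟩ : intHol (N * k) A) = el P from rfl, hrS,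
      map_ne_zero_iff _ (qExpand_injective (N * k))]
    exact red_serA_ne_zero hNM hP
  obtain ⟨e, he⟩ := exists_const_mul_of_tot A L hV (a := ⟨_, hchart Pa⟩) (b := ⟨_, hchart Pb⟩)
    (hne Pa hPa) (hne Pb hPb)
    (htot (coverW A L) (jBar N Q̄) rfl (iotaBar_jBar A L hNM hA hℓN)
      fun P P' _ _ h => centre_dep P P' h)
    (htot (coverI A L) (jBar N Q̄)⁻¹ rfl (by rw [map_inv₀, iotaBar_jBar]; rfl)
      fun P P' _ _ h => centre_dep_inv P P' hj0 h)
  obtain ⟨e, rfl⟩ := residue_surjective e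
  -- the series are congruent
  set sa := serA A N Pa
  set sb := serA A N Pb
  have hcong : coeffMap (residue A) sa = HahnSeries.C (residue A e) * coeffMap (residue A) sb := by
    have hce : algebraMap Q̄ (LK (N * k) A) e ∈ intHol (N * k) A :=
      lvlHol_le_intHol A (algebraMap_mem_lvlHol A e)
    let ce : intHol (N * k) A := ⟨_, hce⟩
    have h1 : rS A (el Pa - ce * el Pb) = 0 := by
      rw [← hkey]
      have : residue V (Subring.inclusion hle (el Pa)) =
          residue V (Subring.inclusion hle ce) * residue V (Subring.inclusion hle (el Pb)) := by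
        refine he.trans ?_
        rw [hV.theta_residue]
        rfl
      rw [map_sub, map_sub, map_mul, map_mul, this, sub_self]
    rw [map_sub, map_mul, hrS, hrS, sub_eq_zero, rS_algebraMap, ← qExpand_C (N * k), ← map_mul] at h1
    exact qExpand_injective (N * k) h1
  have he0 : residue A e ≠ 0 := fun h => red_serA_ne_zero hNM hPa (by
    rw [hcong, h, map_zero, zero_mul])
  obtain ⟨r, hr⟩ := IsAlgClosed.exists_pow_nat_eq (residue A e) (Nat.pos_of_ne_zero hn0)
  obtain ⟨r, rfl⟩ := residue_surjective r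
  have hCmap : ∀ x : A, coeffMap (residue A) (HahnSeries.C x) = HahnSeries.C (residue A x) :=
    fun x => coeffMap_single _ 0 x
  set f : LaurentSeries A := sa * sb ^ (n - 1) with hf_def
  set v : LaurentSeries A := HahnSeries.C r * sb with hv_def
  have hfgen : coeffMap (subA A) f ∈ genAlg Q̄ N := by
    rw [hf_def, map_mul, map_pow]
    exact mul_mem (serA_mem_genAlg A N Pa) (pow_mem (serA_mem_genAlg A N Pb) _)
  have hvgen : coeffMap (subA A) v ∈ genAlg Q̄ N := by
    rw [hv_def, map_mul, HahnSeries.C_apply, coeffMap_single, ← algebraMap_laurentSeries_eq_single]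
    exact mul_mem (Subalgebra.algebraMap_mem _ _) (serA_mem_genAlg A N Pb)
  have hr0 : residue A r ≠ 0 := fun h => he0 (by rw [← hr, h, zero_pow hn0])
  have hv0 : coeffMap (residue A) v ≠ 0 := by
    rw [hv_def, map_mul, hCmap]
    exact mul_ne_zero ((map_ne_zero_iff _ HahnSeries.C_injective).mpr hr0)
      (red_serA_ne_zero hNM hPb)
  have hfv : coeffMap (residue A) f = coeffMap (residue A) v ^ n := by
    simp only [hf_def, hv_def, map_mul, map_pow, hcong, hCmap]
    rw [mul_pow, ← map_pow HahnSeries.C, hr, mul_assoc, mul_pow_sub_one hn0]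
  have hfF : (⟨coeffMap (subA A) f, genAlg_le_bar hfgen⟩ : modularFunctionFieldBar N) =
      a * b ^ (n - 1) := Subtype.ext (by
    show coeffMap (subA A) f = _
    rw [hf_def, map_mul, map_pow, MulMemClass.coe_mul, SubmonoidClass.coe_pow, coe_polyF,
      coe_polyF])
  have hord : ∀ P : Place Q̄ (modularFunctionFieldBar N),
      P.ord (a * b ^ (n - 1)) = n * (E P + P.ord b) := fun P => by
    have h1 := congrArg P.ord hgab
    rw [P.ord_mul hg0 hb0, P.ord_mul ((_root_.map_ne_zero _).mpr hc0) ha0, ord_algebraMap, zero_add,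
      hdiv] at h1
    rw [P.ord_mul ha0 (pow_ne_zero _ hb0), ord_pow, ← h1, Nat.cast_sub (Nat.pos_of_ne_zero hn0)]
    push_cast
    ring
  have hroot := rootLifts_of_kummerExact (N := N)
    (fun n _ hn A hA χ h v hq vq h1 h2 h3 h4 h5 h6 h7 h8 =>
      GalRep.Model.kummerReduction_exact hℓ.out hℓN hn hA h1 h2 h3 h4 h5 h6 h7 h8) hℓN hA hn
  obtain ⟨c₀, h, hc₀, hh⟩ := hroot f v (genAlg_le_bar hfgen) hfgen hvgen hv0 hfv fun P => by
    rw [hfF, hord]; exact dvd_mul_right _ _
  rw [hfF] at hh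
  have hh0 : h ≠ 0 := fun h0 => mul_ne_zero ha0 (pow_ne_zero _ hb0) (by
    rw [← hh, h0, zero_pow hn0, mul_zero])
  refine ⟨h / b, div_ne_zero hh0 hb0, fun P => ?_⟩
  have h1 := congrArg P.ord hh
  rw [P.ord_mul ((_root_.map_ne_zero _).mpr hc₀) (pow_ne_zero _ hh0), ord_algebraMap, zero_add,
    ord_pow, hord] at h1
  rw [div_eq_mul_inv, P.ord_mul hh0 (inv_ne_zero hb0), P.ord_inv,
    mul_left_cancel₀ (Int.natCast_ne_zero.mpr hn0) h1]
  ring

end Fermat.Agent.MCurve.Spec
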