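import Fermat.Agent.MCurve.NormFormula
import Mathlib.LinearAlgebra.Charpoly.ToMatrix
import Mathlib.RingTheory.Localization.NormTrace
import Mathlib.LinearAlgebra.Lagrange

/-!
The characteristic polynomial of a function, evaluated at a place of the base: its roots are the
values on the fibre, with the ramification indices as multiplicities.
-/

set_option autoImplicit false

set_option linter.style.haveILetI false
set_option linter.unusedSectionVars false

noncomputable section

namespace Fermat.Agent.MCurve

open AlgebraicCurve IsDedekindDomain Polynomial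

section Val

variable {K L : Type*} [Field K] [Field L] [Algebra K L] [IsAlgClosed K] (w : Place K L)
  [Module.Finite K w.ResidueField]

theorem algebraMap_residue_bijective : Function.Bijective (algebraMap K w.ResidueField) :=
  IsAlgClosed.algebraMap_bijective_of_isIntegral (k := K) (K := w.ResidueField)

/-- The value at a place. -/
def placeVal : w.toValuationSubring →+* K :=
  (RingEquiv.ofBijective _ (algebraMap_residue_bijective w)).symm.toRingHom.comp
    (IsLocalRing.residue w.toValuationSubring)

theorem algebraMap_placeVal (f : w.toValuationSubring) :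
    algebraMap K w.ResidueField (placeVal w f) = IsLocalRing.residue w.toValuationSubring f :=
  (RingEquiv.ofBijective _ (algebraMap_residue_bijective w)).apply_symm_apply _

theorem placeVal_algebraMap (a : K) : placeVal w (algebraMap K w.toValuationSubring a) = a :=
  (algebraMap_residue_bijective w).injective ((algebraMap_placeVal w _).trans rfl)

theorem placeVal_eq_zero_iff (f : w.toValuationSubring) :
    placeVal w f = 0 ↔ (f : L) = 0 ∨ 0 < w.ord (f : L) := by
  rw [← map_eq_zero_iff _ (algebraMap_residue_bijective w).injective, algebraMap_placeVal,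
    IsLocalRing.residue_eq_zero_iff, IsLocalRing.mem_maximalIdeal, mem_nonunits_iff]
  refine ⟨fun h => ?_, ?_⟩
  · by_contra! hcon
    obtain ⟨h0, hle⟩ := hcon
    have h1 : (f : L)⁻¹ ∈ w.toValuationSubring :=
      (mem_iff_ord_nonneg w (inv_ne_zero h0)).mpr (by rw [w.ord_inv]; omega)
    exact h (.of_mul_eq_one ⟨_, h1⟩ (Subtype.ext (mul_inv_cancel₀ h0)))
  · rintro (h | h) hu
    · exact hu.ne_zero (Subtype.ext h)
    · obtain ⟨u, rfl⟩ := hu
      rw [w.ord_coe_unit] at h
      exact lt_irrefl _ h

end Val

variable {K F F' : Type*} [Field K] [Field F] [Field F'] [Algebra K F] [Algebra K F']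
  [Algebra F F'] [IsScalarTower K F F'] [FiniteDimensional F F'] [IsAlgClosed K] [CharZero K]
  [HasPrincipalDivisors K F'] (v : Place K F) [Module.Finite K v.ResidueField]
  [hres : ∀ w : Place K F', Module.Finite K w.ResidueField]

/-- A member of the fibre. -/
abbrev Fib (F' : Type*) [Field F'] [Algebra K F'] [Algebra F F'] [IsScalarTower K F F']
    [FiniteDimensional F F'] [HasPrincipalDivisors K F'] (v : Place K F) :=
  {w : Place K F' // w ∈ v.fiber F'}

/-- The value on the fibre. -/
def fibVal (w : Fib F' v) : overRing F' v →+* K :=
  (placeVal w.1).comp (((overRing F' v).val : overRing F' v →+* F').codRestrict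
    w.1.toValuationSubring.toSubring (coe_overRing_mem v (Place.mem_fiber.mp w.2)))

theorem fibVal_eq_zero_iff (w : Fib F' v) (g : overRing F' v) :
    fibVal v w g = 0 ↔ (g : F') = 0 ∨ 0 < w.1.ord (g : F') :=
  placeVal_eq_zero_iff w.1 _

theorem fibVal_algebraMap (w : Fib F' v) (a : K) :
    fibVal v w (algebraMap K (overRing F' v) a) = a := by
  refine Eq.trans (congrArg (placeVal w.1) (Subtype.ext ?_)) (placeVal_algebraMap w.1 a)
  exact (IsScalarTower.algebraMap_apply K (overRing F' v) F' a).symm

theorem mem_overRing {f : F'} (h : ∀ w ∈ v.fiber F', f ∈ w.toValuationSubring) :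
    f ∈ overRing F' v := by
  suffices hs : f ∈ (algebraMap (overRing F' v) F').range by
    obtain ⟨g, rfl⟩ := hs; exact g.2
  exact HeightOneSpectrum.mem_integers_of_valuation_le_one F' f fun P =>
    h _ (Place.mem_fiber.mpr (restrict_placeOver v P))

instance : Module.Free v.toValuationSubring (overRing F' v) := inferInstance

/-- A basis of the integral closure. -/
def ovBasis : Module.Basis (Module.Free.ChooseBasisIndex v.toValuationSubring (overRing F' v))
    v.toValuationSubring (overRing F' v) :=
  Module.Free.chooseBasis _ _

open scoped Classical in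
/-- The characteristic polynomial of an integral function. -/
def ovCharpoly (g : overRing F' v) : v.toValuationSubring[X] :=
  (Algebra.leftMulMatrix (ovBasis v) g).charpoly

open scoped Classical in
theorem map_ovCharpoly (g : overRing F' v) :
    (ovCharpoly v g).map (algebraMap v.toValuationSubring F) =
      (Algebra.lmul F F' (g : F')).charpoly := by
  haveI := charZero_field (K := K) F
  haveI : IsLocalization (Algebra.algebraMapSubmonoid (overRing F' v)
      (nonZeroDivisors v.toValuationSubring)) F' :=
    IsIntegralClosure.isLocalization v.toValuationSubring F F' (overRing F' v)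
  rw [ovCharpoly, ← Matrix.charpoly_map, ← LinearMap.charpoly_toMatrix (Algebra.lmul F F' (g : F'))
    ((ovBasis (F' := F') v).localizationLocalization F (nonZeroDivisors v.toValuationSubring) F' :
      Module.Basis _ F F')]
  congr 1
  rw [← RingHom.mapMatrix_apply, Algebra.map_leftMulMatrix_localization v.toValuationSubring (Sₘ := F')
    (nonZeroDivisors v.toValuationSubring)]
  rfl

open scoped Classical in
/-- Evaluation is the norm. -/
theorem eval_ovCharpoly (g : overRing F' v) (c : v.toValuationSubring) :
    (((ovCharpoly v g).eval c : v.toValuationSubring) : F) =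
      Algebra.norm F (((algebraMap _ (overRing F' v) c - g : overRing F' v)) : F') := by
  haveI := charZero_field (K := K) F
  haveI : IsLocalization (Algebra.algebraMapSubmonoid (overRing F' v)
      (nonZeroDivisors v.toValuationSubring)) F' :=
    IsIntegralClosure.isLocalization v.toValuationSubring F F' (overRing F' v)
  rw [ovCharpoly, Matrix.eval_charpoly]
  have h : Matrix.scalar _ c - Algebra.leftMulMatrix (ovBasis v) g =
      Algebra.leftMulMatrix (ovBasis v) (algebraMap _ _ c - g) := by
    rw [map_sub, AlgHom.commutes]; rfl
  rw [h, ← Algebra.norm_eq_matrix_det,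
    show ((Algebra.norm v.toValuationSubring (algebraMap _ (overRing F' v) c - g) :
      v.toValuationSubring) : F) = algebraMap v.toValuationSubring F _ from rfl,
    ← Algebra.norm_localization (Sₘ := F') v.toValuationSubring
      (nonZeroDivisors v.toValuationSubring)]
  rfl

/-- The reduced characteristic polynomial. -/
def redPoly (g : overRing F' v) : K[X] := (ovCharpoly v g).map (placeVal v)

open scoped Classical in
theorem monic_redPoly (g : overRing F' v) : (redPoly v g).Monic :=
  (Matrix.charpoly_monic _).map _

open scoped Classical in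
theorem natDegree_redPoly (g : overRing F' v) :
    (redPoly v g).natDegree = Module.finrank F F' := by
  have h1 := congrArg natDegree (map_ovCharpoly v g)
  have hm : (ovCharpoly v g).Monic := Matrix.charpoly_monic _
  rw [hm.natDegree_map, LinearMap.charpoly_natDegree] at h1
  rw [redPoly, hm.natDegree_map, h1]

omit [Module.Finite K v.ResidueField] in
theorem sum_ram : ∑ w ∈ v.fiber F', (w.ramificationIndex F : ℤ) = Module.finrank F F' := by
  obtain ⟨π, hπ, h1⟩ := exists_ord_eq_one v
  have h := ord_norm (F' := F') v hres ((map_ne_zero (algebraMap F F')).mpr hπ)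
  rw [Algebra.norm_algebraMap, ← zpow_natCast, v.ord_zpow, h1, mul_one] at h
  rw [h]
  refine Finset.sum_congr rfl fun w hw => ?_
  rw [Place.ord_restrict, Place.mem_fiber.mp hw, h1, mul_one]

/-- The roots are the values. -/
theorem eval_redPoly_eq_zero_iff (g : overRing F' v) (a : K) :
    (redPoly v g).eval a = 0 ↔ ∃ w : Fib F' v, fibVal v w g = a := by
  have hev : (redPoly v g).eval a =
      placeVal v ((ovCharpoly v g).eval (algebraMap K v.toValuationSubring a)) := by
    rw [redPoly, eval_map, ← eval₂_at_apply, placeVal_algebraMap]
  rw [hev, placeVal_eq_zero_iff, eval_ovCharpoly]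
  set h : overRing F' v :=
    algebraMap _ (overRing F' v) (algebraMap K v.toValuationSubring a) - g
  have hval : ∀ w : Fib F' v, fibVal v w h = a - fibVal v w g := fun w => by
    rw [map_sub]; congr 1; exact fibVal_algebraMap v w a
  by_cases h0 : (h : F') = 0
  · simp only [h0, Algebra.norm_zero, true_or, true_iff]
    obtain ⟨w, hw⟩ : (v.fiber F').Nonempty := by
      by_contra hne
      rw [Finset.not_nonempty_iff_eq_empty] at hne
      have hs := sum_ram (F' := F') (K := K) (F := F) v
      rw [hne, Finset.sum_empty] at hs
      exact Module.finrank_pos.ne' (by exact_mod_cast hs.symm)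
    refine ⟨⟨w, hw⟩, (sub_eq_zero.mp ?_).symm⟩
    rw [← hval, fibVal_eq_zero_iff]
    exact Or.inl h0
  simp only [Algebra.norm_eq_zero_iff, h0, false_or, ord_norm v hres h0]
  constructor
  · intro hpos
    obtain ⟨w, hw, hw0⟩ := Finset.exists_lt_of_sum_lt
      (show ∑ _w ∈ v.fiber F', (0 : ℤ) < ∑ w ∈ v.fiber F', w.ord (h : F') by simpa using hpos)
    refine ⟨⟨w, hw⟩, (sub_eq_zero.mp ?_).symm⟩
    rw [← hval, fibVal_eq_zero_iff]
    exact Or.inr hw0
  · rintro ⟨w, hw⟩
    refine Finset.sum_pos' (fun u hu => ord_nonneg_of_mem' u
      (coe_overRing_mem v (Place.mem_fiber.mp hu) h)) ⟨w.1, w.2, ?_⟩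
    exact ((fibVal_eq_zero_iff v w h).mp (by rw [hval, hw, sub_self])).resolve_left h0

open scoped Classical in
/-- Only the values matter. -/
theorem redPoly_congr (g g' : overRing F' v) (h : ∀ w, fibVal v w g = fibVal v w g') :
    redPoly v g = redPoly v g' := by
  set x := g' - g with hx
  let red : Matrix (Module.Free.ChooseBasisIndex v.toValuationSubring (overRing F' v))
      (Module.Free.ChooseBasisIndex v.toValuationSubring (overRing F' v)) v.toValuationSubring →+*
      Matrix (Module.Free.ChooseBasisIndex v.toValuationSubring (overRing F' v))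
      (Module.Free.ChooseBasisIndex v.toValuationSubring (overRing F' v)) K := (placeVal v).mapMatrix
  have hred : ∀ a : overRing F' v,
      redPoly v a = (red (Algebra.leftMulMatrix (ovBasis v) a)).charpoly := fun a => by
    rw [redPoly, ovCharpoly, ← Matrix.charpoly_map]; rfl
  let G : Matrix (Module.Free.ChooseBasisIndex v.toValuationSubring (overRing F' v))
      (Module.Free.ChooseBasisIndex v.toValuationSubring (overRing F' v)) K[X] :=
    (red (Algebra.leftMulMatrix (ovBasis v) g)).map C +
      (X : K[X]) • (red (Algebra.leftMulMatrix (ovBasis v) x)).map C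
  have hfam : ∀ s : K, G.charpoly.map (evalRingHom s) =
      redPoly v (g + algebraMap K (overRing F' v) s * x) := by
    intro s
    rw [← Matrix.charpoly_map, hred, map_add, map_mul, map_add, map_mul]
    have hs : red (Algebra.leftMulMatrix (ovBasis v) (algebraMap K (overRing F' v) s)) =
        Matrix.scalar _ s := by
      rw [show algebraMap K (overRing F' v) s = algebraMap v.toValuationSubring (overRing F' v)
        (algebraMap K v.toValuationSubring s) from rfl, AlgHom.commutes]
      ext i j
      simp [red, Matrix.algebraMap_matrix_apply, Matrix.diagonal_apply, apply_ite (placeVal v),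
        placeVal_algebraMap]
    rw [hs]
    congr 1
    ext i j
    simp [G, Matrix.scalar_apply, Matrix.diagonal_mul, Matrix.add_apply, Matrix.smul_apply]
    ring
  let S : Finset K := Finset.univ.image fun w : Fib F' v => fibVal v w g
  have hroots : ∀ s, ∀ a ∈ (G.charpoly.map (evalRingHom s)).roots, a ∈ S := by
    intro s a ha
    rw [hfam] at ha
    obtain ⟨w, hw⟩ := (eval_redPoly_eq_zero_iff v _ a).mp (isRoot_of_mem_roots ha)
    refine Finset.mem_image.mpr ⟨w, Finset.mem_univ _, ?_⟩
    rw [← hw, map_add, map_mul, hx, map_sub, h w, sub_self, mul_zero, add_zero]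
  have hconst : ∀ k, ∃ c, G.charpoly.coeff k = C c := by
    intro k
    set n := Module.finrank F F'
    let T : Finset K := (S.sym n).image fun m =>
      (((m : Multiset K).map fun a => X - C a).prod).coeff k
    have hT : ∏ t ∈ T, (G.charpoly.coeff k - C t) = 0 := by
      refine Polynomial.funext fun s => ?_
      rw [eval_zero, eval_prod]
      have hp := IsAlgClosed.splits (G.charpoly.map (evalRingHom s))
      have hm : (G.charpoly.map (evalRingHom s)).Monic := (Matrix.charpoly_monic _).map _
      have hcard : Multiset.card (G.charpoly.map (evalRingHom s)).roots = n := by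
        rw [splits_iff_card_roots.mp hp, hfam, natDegree_redPoly]
      refine Finset.prod_eq_zero (i := (G.charpoly.coeff k).eval s) (Finset.mem_image.mpr
        ⟨⟨_, hcard⟩, Finset.mem_sym_iff.mpr fun a ha => hroots s a ha, ?_⟩) (by simp)
      show ((G.charpoly.map (evalRingHom s)).roots.map fun a => X - C a).prod.coeff k = _
      rw [prod_multiset_X_sub_C_of_monic_of_roots_card_eq hm (by rw [hcard, hfam, natDegree_redPoly]),
        coeff_map]
      rfl
    obtain ⟨t, -, ht⟩ := Finset.prod_eq_zero_iff.mp hT
    exact ⟨t, sub_eq_zero.mp ht⟩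
  have h01 : G.charpoly.map (evalRingHom (0 : K)) = G.charpoly.map (evalRingHom 1) := by
    ext k
    obtain ⟨c, hc⟩ := hconst k
    simp [coeff_map, hc]
  rw [hfam, hfam] at h01
  simpa [hx] using h01

open scoped Classical in
/-- The reduced characteristic polynomial is the product over the fibre. -/
theorem redPoly_eq_prod (g : overRing F' v) :
    redPoly v g = ∏ w : Fib F' v, (X - C (fibVal v w g)) ^ w.1.ramificationIndex F := by
  classical
  obtain ⟨t, ht0, ht⟩ := exists_ord_eq_one v
  have htm : t ∈ v.toValuationSubring := (mem_iff_ord_nonneg v ht0).mpr (by omega)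
  set n := Module.finrank F F'
  -- a representative with high contact
  obtain ⟨g', hg', hcontact⟩ : ∃ g' : overRing F' v, (∀ w, fibVal v w g' = fibVal v w g) ∧
      ∀ w : Fib F' v, (g' : F') = algebraMap K F' (fibVal v w g) ∨
        (n : ℤ) < w.1.ord ((g' : F') - algebraMap K F' (fibVal v w g)) := by
    have hex : ∀ w : Fib F' v, ∃ P, placeOver v P = w.1 := fun w =>
      exists_placeOver v (Place.mem_fiber.mp w.2)
    choose Q hQ using hex
    obtain ⟨g', hg'⟩ := IsDedekindDomain.exists_forall_sub_mem_ideal
      (s := (Finset.univ : Finset (Fib F' v))) (fun w => (Q w).asIdeal) (fun _ => n + 1)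
      (fun w _ => (Q w).prime) (fun a _ b _ hab h => hab (Subtype.ext (by
        rw [← hQ a, ← hQ b, HeightOneSpectrum.ext h])))
      (fun w => algebraMap K (overRing F' v) (fibVal v w.1 g))
    have hcon : ∀ w : Fib F' v, (g' : F') = algebraMap K F' (fibVal v w g) ∨
        (n : ℤ) < w.1.ord ((g' : F') - algebraMap K F' (fibVal v w g)) := by
      intro w
      set d := g' - algebraMap K (overRing F' v) (fibVal v w g)
      have hd : (d : F') = (g' : F') - algebraMap K F' (fibVal v w g) := by
        rw [IsScalarTower.algebraMap_apply K (overRing F' v) F']; rfl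
      rw [← sub_eq_zero (a := (g' : F')), ← hd, or_iff_not_imp_left]
      intro h0
      have h0' : d ≠ 0 := fun h => h0 (by rw [h]; rfl)
      have hle := ((Q w).intValuation_le_pow_iff_mem d (n + 1)).mpr (hg' w (Finset.mem_univ _))
      rw [← (Q w).valuation_of_algebraMap (K := F')] at hle
      have hord := ord_placeOver v (Q w) h0
      rw [hQ] at hord
      rw [hord]
      have h2 := (WithZero.log_le_log (by simpa using h0) WithZero.exp_ne_zero).mpr hle
      rw [WithZero.log_exp] at h2
      change (WithZero.log ((Q w).valuation F' (d : F')) : ℤ) ≤ _ at h2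
      push_cast at h2
      omega
    refine ⟨g', fun w => ?_, hcon⟩
    rw [← sub_eq_zero, ← fibVal_algebraMap v w (fibVal v w g), ← map_sub, fibVal_eq_zero_iff,
      AddSubgroupClass.coe_sub, show ((algebraMap K (overRing F' v) (fibVal v w g) : overRing F' v) :
        F') = algebraMap K F' (fibVal v w g) from
        (IsScalarTower.algebraMap_apply K (overRing F' v) F' _).symm, sub_eq_zero]
    refine (hcon w).imp id fun h => lt_of_le_of_lt ?_ h
    exact Int.natCast_nonneg n
  rw [← redPoly_congr v g' g hg']
  -- multiplicities
  set R := redPoly v g' with hR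
  have hmult : ∀ a, (∑ w : Fib F' v with fibVal v w g = a, w.1.ramificationIndex F) ≤
      R.rootMultiplicity a := by
    intro a
    by_contra! hlt
    set m := R.rootMultiplicity a
    set E := ∑ w : Fib F' v with fibVal v w g = a, w.1.ramificationIndex F with hE
    set Pv := (ovCharpoly v g').comp (X + C (algebraMap K v.toValuationSubring a))
    have hPv : Pv.map (placeVal v) = R.comp (X + C a) := by
      simp [Pv, R, redPoly, map_comp, placeVal_algebraMap]
    have hcm : (Pv.map (placeVal v)).coeff m ≠ 0 := by
      rw [hPv]
      have hne : R.comp (X + C a) ≠ 0 := fun h => (monic_redPoly v g').ne_zero (by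
        have h2 := congrArg (fun p => p.comp (X - C a)) h
        simpa [comp_assoc, hR] using h2)
      have := trailingCoeff_nonzero_iff_nonzero.mpr hne
      rwa [trailingCoeff, ← rootMultiplicity_eq_natTrailingDegree] at this
    set T : v.toValuationSubring := ⟨t, htm⟩
    -- at every constant the value vanishes to order `> m`
    have hdiv : ∀ i : ℕ, T ^ (m + 1) ∣
        Pv.eval (algebraMap K v.toValuationSubring ((i + 1 : ℕ) : K) * T) := by
      intro i
      set ε : K := ((i + 1 : ℕ) : K)
      have hε : ε ≠ 0 := Nat.cast_ne_zero.mpr (by omega)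
      set z : v.toValuationSubring := algebraMap K _ ε * T + algebraMap K _ a
      have hev : Pv.eval (algebraMap K v.toValuationSubring ε * T) = (ovCharpoly v g').eval z := by
        simp [Pv, z]
      rw [hev]
      set h : overRing F' v := algebraMap _ (overRing F' v) z - g'
      rcases eq_or_ne (h : F') 0 with h0 | h0
      · rw [show (ovCharpoly v g').eval z = 0 from Subtype.ext (by
          rw [eval_ovCharpoly, h0, Algebra.norm_zero]; rfl)]
        exact dvd_zero _
      have hcoe : (h : F') = algebraMap F F' (algebraMap K F ε * t) +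
          algebraMap K F' a - (g' : F') := by
        simp only [h, z, map_add, map_mul, AddSubgroupClass.coe_sub, AddMemClass.coe_add,
          MulMemClass.coe_mul]
        rw [IsScalarTower.algebraMap_apply K F F' a]
        rfl
      have hord : ∀ w : Fib F' v, fibVal v w g = a →
          (w.1.ramificationIndex F : ℤ) ≤ w.1.ord (h : F') := by
        intro w hw
        have he : (w.1.ramificationIndex F : ℤ) ≤ n := by
          have hs := sum_ram (F' := F') (K := K) (F := F) v
          rw [← hs]
          exact Finset.single_le_sum (f := fun u : Place K F' => (u.ramificationIndex F : ℤ))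
            (fun u _ => Int.natCast_nonneg _) w.2
        have hεt : w.1.ord (algebraMap F F' (algebraMap K F ε * t)) = w.1.ramificationIndex F := by
          rw [Place.ord_restrict, Place.mem_fiber.mp w.2,
            v.ord_mul ((_root_.map_ne_zero _).mpr hε) ht0, ord_algebraMap, ht, zero_add, mul_one]
        rcases hcontact w with hc | hc
        · rw [hcoe, hc, hw, add_sub_cancel_right, hεt]
        · rw [hw] at hc
          have hne : algebraMap F F' (algebraMap K F ε * t) ≠ 0 := by simp [hε, ht0]
          have hne' : algebraMap K F' a - (g' : F') ≠ 0 := fun h1 => by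
            rw [← neg_sub, h1, neg_zero, Place.ord_zero] at hc; omega
          rw [hcoe, add_sub_assoc, ord_add_eq w.1 hne hne' (by
            rw [hεt, ← neg_sub, ord_neg]; omega), hεt]
      have hN : Algebra.norm F (h : F') ≠ 0 := Algebra.norm_ne_zero_iff.mpr h0
      have hge : (m : ℤ) + 1 ≤ v.ord (((ovCharpoly v g').eval z : v.toValuationSubring) : F) := by
        rw [eval_ovCharpoly, ord_norm v hres h0, ← Finset.sum_coe_sort]
        refine le_trans ?_ (Finset.sum_le_sum_of_subset_of_nonneg (Finset.subset_univ
          (Finset.univ.filter fun w : Fib F' v => fibVal v w g = a)) fun w _ _ =>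
          ord_nonneg_of_mem' w.1 (coe_overRing_mem v (Place.mem_fiber.mp w.2) h))
        refine le_trans ?_ (Finset.sum_le_sum fun w hw => hord w (Finset.mem_filter.mp hw).2)
        rw [← Nat.cast_sum, ← hE]
        exact_mod_cast hlt
      have hz0 : (((ovCharpoly v g').eval z : v.toValuationSubring) : F) ≠ 0 := by
        rwa [eval_ovCharpoly]
      refine ⟨⟨(((ovCharpoly v g').eval z : v.toValuationSubring) : F) / t ^ (m + 1),
        (mem_iff_ord_nonneg v (div_ne_zero hz0 (pow_ne_zero _ ht0))).mpr ?_⟩, Subtype.ext ?_⟩
      · rw [div_eq_mul_inv, v.ord_mul hz0 (inv_ne_zero (pow_ne_zero _ ht0)), v.ord_inv,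
          ord_pow, ht]
        push_cast
        omega
      · show _ = t ^ (m + 1) * (_ / t ^ (m + 1))
        rw [mul_div_cancel₀ _ (pow_ne_zero _ ht0)]
    -- so the coefficient of degree `m` is divisible by `t`
    have hcoef : T ^ (m + 1) ∣ Pv.coeff m * T ^ m := by
      set Q : v.toValuationSubring[X] := Pv.comp (C T * X)
      have hQm : Q.coeff m = Pv.coeff m * T ^ m := comp_C_mul_X_coeff
      rw [← hQm]
      let node : ℕ → F := fun i => algebraMap K F ((i + 1 : ℕ) : K)
      set d := Q.natDegree + 1
      have hinj : Set.InjOn node (Finset.range d : Finset ℕ) := fun i _ j _ hij => by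
        have := (algebraMap K F).injective hij
        have h2 : i + 1 = j + 1 := Nat.cast_injective this
        omega
      have hQ : Q.map (algebraMap v.toValuationSubring F) = Lagrange.interpolate (Finset.range d)
          node fun i => (Q.map (algebraMap v.toValuationSubring F)).eval (node i) :=
        Lagrange.eq_interpolate hinj (by
          rw [Finset.card_range]
          exact lt_of_le_of_lt (degree_le_natDegree.trans (WithBot.coe_le_coe.mpr natDegree_map_le))
            (WithBot.coe_lt_coe.mpr (by simp [d])))
      have hk : ∀ i, ∃ c : K, (Lagrange.basis (Finset.range d) node i).coeff m = algebraMap K F c := by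
        intro i
        have : Lagrange.basis (Finset.range d) node i =
            (Lagrange.basis (Finset.range d) (fun i => ((i + 1 : ℕ) : K)) i).map (algebraMap K F) := by
          simp [Lagrange.basis, Lagrange.basisDivisor, Polynomial.map_prod, node]
        exact ⟨_, by rw [this, coeff_map]⟩
      choose c hc using hk
      choose q hq using hdiv
      refine ⟨∑ i ∈ Finset.range d, q i * algebraMap K _ (c i), Subtype.val_injective ?_⟩
      have := congrArg (fun p : F[X] => p.coeff m) hQ
      simp only [coeff_map, Lagrange.interpolate_apply, finsetSum_coeff, coeff_C_mul] at this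
      refine this.trans ?_
      simp only [MulMemClass.coe_mul, SubmonoidClass.coe_pow, AddSubmonoidClass.coe_finsetSum,
        Finset.mul_sum]
      refine Finset.sum_congr rfl fun i _ => ?_
      rw [hc, eval_map, show node i = algebraMap v.toValuationSubring F
        (algebraMap K v.toValuationSubring ((i + 1 : ℕ) : K)) from rfl, eval₂_at_apply,
        show Q.eval (algebraMap K v.toValuationSubring ((i + 1 : ℕ) : K)) =
          T ^ (m + 1) * q i by rw [← hq]; simp [Q, mul_comm T]]
      show ((T : F) ^ (m + 1) * (q i : F)) * algebraMap K F (c i) = _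
      rw [mul_assoc]
      rfl
    refine hcm ?_
    rw [coeff_map, placeVal_eq_zero_iff]
    obtain ⟨r, hr⟩ := hcoef
    have h1 : Pv.coeff m = T * r := mul_right_cancel₀ (pow_ne_zero m fun h =>
      ht0 (congrArg Subtype.val h)) (by rw [hr, pow_succ]; ring)
    rcases eq_or_ne (r : F) 0 with hr0 | hr0
    · left; simp [h1, hr0]
    · right
      rw [h1, MulMemClass.coe_mul, v.ord_mul ht0 hr0, ht]
      have := ord_nonneg_of_mem' v r.2
      omega
  -- equality
  set V : Finset K := Finset.univ.image fun w : Fib F' v => fibVal v w g
  set Q : K[X] := ∏ w : Fib F' v, (X - C (fibVal v w g)) ^ w.1.ramificationIndex F with hQdef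
  have hQ : Q = ∏ a ∈ V, (X - C a) ^ (∑ w : Fib F' v with fibVal v w g = a,
      w.1.ramificationIndex F) := by
    rw [hQdef, ← Finset.prod_fiberwise_of_maps_to (t := V) (g := fun w => fibVal v w g)
      (fun w hw => Finset.mem_image_of_mem _ hw)]
    refine Finset.prod_congr rfl fun a _ => ?_
    rw [← Finset.prod_pow_eq_pow_sum]
    exact Finset.prod_congr rfl fun w hw => by rw [(Finset.mem_filter.mp hw).2]
  have hdvd : Q ∣ R := by
    rw [hQ]
    refine Finset.prod_dvd_of_coprime (fun a _ b _ hab => (isCoprime_X_sub_C_of_isUnit_sub
      (sub_ne_zero.mpr hab).isUnit).pow) fun a _ =>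
      (pow_dvd_pow _ (hmult a)).trans (pow_rootMultiplicity_dvd R a)
  have hQmon : Q.Monic := monic_prod_of_monic _ _ fun w _ => (monic_X_sub_C _).pow _
  refine (eq_of_monic_of_dvd_of_natDegree_le hQmon (monic_redPoly v g') hdvd (le_of_eq ?_))
  rw [natDegree_redPoly, hQdef, natDegree_prod_of_monic _ _ fun w _ => (monic_X_sub_C _).pow _]
  have hs := sum_ram (F' := F') (K := K) (F := F) v
  rw [← Finset.sum_coe_sort] at hs
  have : (Module.finrank F F' : ℤ) = ∑ w : Fib F' v, ((w.1.ramificationIndex F : ℕ) : ℤ) := hs.symm
  simp [natDegree_pow]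
  exact_mod_cast this

end Fermat.Agent.MCurve
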