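import Fermat.Agent.MCurve.Spec.Gauss

/-!
Charts and values along maps of function fields, the fibre of a place on a chart, and the recovery of
a multiset of characters from its products of linear factors.
-/

set_option autoImplicit false

set_option linter.style.haveILetI false
set_option linter.unusedSectionVars false

noncomputable section

namespace Fermat.Agent.MCurve.Spec

open AlgebraicCurve Polynomial IsLocalRing

local notation "Q̄" => AlgebraicClosure ℚ

section Maps

variable {A : ValuationSubring Q̄} {F F' : Type*} [Field F] [Field F'] [Algebra Q̄ F] [Algebra Q̄ F']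

theorem polyA_mem_of_mem {t t' : F} (h : t' ∈ chart A t) (g : Polynomial A) :
    polyA A t' g ∈ chart A t := by
  induction g using Polynomial.induction_on' with
  | add a b ha hb => rw [map_add]; exact add_mem ha hb
  | monomial n a =>
    rw [← C_mul_X_pow_eq_monomial, map_mul, map_pow, polyA_C, polyA_X]
    exact mul_mem (algebraMap_mem_chart A t a) (pow_mem h n)

theorem chart_le {t t' : F} (h : t' ∈ chart A t) : chart A t' ≤ chart A t := by
  rintro y ⟨p, hp, hpy⟩
  refine mem_chart_of_monic A (p.map (polyA A t')) (hp.map _) (fun i => ?_) ?_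
  · rw [coeff_map]; exact polyA_mem_of_mem h _
  · rw [eval_map]; exact hpy

/-- A monic relation between two coordinates gives, after clearing by a polynomial with constant
term one, one between their inverses. -/
theorem exists_scale_inv {a b : F} (ha : a ≠ 0) (hb : b ≠ 0) (h : b ∈ chart A a) :
    ∃ S : Polynomial A, S.coeff 0 = 1 ∧ polyA A b⁻¹ S * a⁻¹ ∈ chart A b⁻¹ := by
  obtain ⟨p, hp, hpb⟩ := h
  set n := p.natDegree
  set S : Polynomial A := 1 + ∑ i ∈ Finset.range n, C ((p.coeff i).coeff 0) * X ^ (n - i) with hS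
  refine ⟨S, ?_, ?_⟩
  · rw [hS, coeff_add, coeff_one_zero, finsetSum_coeff, Finset.sum_eq_zero, add_zero]
    intro i hi
    rw [coeff_C_mul_X_pow, if_neg]
    have := Finset.mem_range.mp hi
    omega
  set w := b⁻¹
  set s := polyA A w S
  set r := s * a⁻¹
  have hsr : s = a * r := by rw [show r = s * a⁻¹ from rfl, ← mul_assoc, mul_comm a, mul_assoc,
    mul_inv_cancel₀ ha, mul_one]
  have hsum : 1 + ∑ i ∈ Finset.range n, polyA A a (p.coeff i) * w ^ (n - i) = 0 := by
    have h1 := hpb
    rw [eval₂_eq_sum_range, Finset.sum_range_succ, hp.coeff_natDegree, map_one, one_mul] at h1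
    have h2 := congrArg (· * w ^ n) h1
    simp only [zero_mul, add_mul, Finset.sum_mul] at h2
    rw [← mul_pow, show b * w = 1 from mul_inv_cancel₀ hb, one_pow] at h2
    rw [← h2, add_comm]
    congr 1
    refine Finset.sum_congr rfl fun i hi => ?_
    obtain ⟨k, hk⟩ := Nat.exists_eq_add_of_le (Finset.mem_range.mp hi).le
    rw [show n = i + k from hk, show i + k - i = k by omega, pow_add, mul_assoc (polyA A a _), ← mul_assoc (b ^ i),
      ← mul_pow, show b * w = 1 from mul_inv_cancel₀ hb, one_pow, one_mul]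
  have hr : r + ∑ i ∈ Finset.range n, polyA A a (p.coeff i).divX * w ^ (n - i) = 0 := by
    refine (mul_eq_zero.mp (show a * _ = 0 from ?_)).resolve_left ha
    rw [mul_add, ← hsr, ← hsum, show s = polyA A w S from rfl, hS, map_add, map_one, map_sum,
      add_assoc, Finset.mul_sum, ← Finset.sum_add_distrib]
    refine congrArg (1 + ·) (Finset.sum_congr rfl fun i _ => ?_)
    conv_rhs => rw [← (p.coeff i).X_mul_divX_add]
    rw [map_add, map_mul, map_mul, map_pow, polyA_X, polyA_C, polyA_C, polyA_X]
    ring
  set D := (Finset.range n).sup fun i => (p.coeff i).divX.natDegree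
  have hD : ∀ i ∈ Finset.range n, (p.coeff i).divX.natDegree ≤ D := fun i hi =>
    Finset.le_sup (f := fun i => (p.coeff i).divX.natDegree) hi
  set q : F[X] := X ^ (D + 1) + ∑ i ∈ Finset.range n, ∑ k ∈ Finset.range (D + 1),
    C (algebraMap Q̄ F (((p.coeff i).divX.coeff k : A) : Q̄) * s ^ k * w ^ (n - i)) * X ^ (D - k)
    with hq
  refine mem_chart_of_monic A q ?_ (fun j => ?_) ?_
  · refine monic_X_pow_add (lt_of_le_of_lt (degree_sum_le _ _) ((Finset.sup_lt_iff ?_).mpr
      fun i _ => lt_of_le_of_lt (degree_sum_le _ _) ((Finset.sup_lt_iff ?_).mpr fun k _ =>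
        lt_of_le_of_lt (degree_C_mul_X_pow_le _ _) (by exact_mod_cast (show D - k < D + 1 by omega)))))
    · exact WithBot.bot_lt_coe _
    · exact WithBot.bot_lt_coe _
  · rw [hq, coeff_add, finsetSum_coeff]
    refine add_mem ?_ (sum_mem fun i _ => ?_)
    · rw [coeff_X_pow]; split_ifs
      · exact one_mem _
      · exact zero_mem _
    · rw [finsetSum_coeff]
      refine sum_mem fun k _ => ?_
      rw [coeff_C_mul_X_pow]
      split_ifs
      · exact mul_mem (mul_mem (algebraMap_mem_chart A w _)
          (pow_mem (polyA_mem_chart A w S) k)) (pow_mem (self_mem_chart A w) _)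
      · exact zero_mem _
  · rw [hq, eval_add, eval_pow, eval_X, eval_finsetSum]
    calc _ = r ^ D * (r + ∑ i ∈ Finset.range n, polyA A a (p.coeff i).divX * w ^ (n - i)) := by
          rw [mul_add, ← pow_succ, Finset.mul_sum]
          refine congrArg (r ^ (D + 1) + ·) (Finset.sum_congr rfl fun i hi => ?_)
          rw [eval_finsetSum]
          conv_rhs => rw [(p.coeff i).divX.as_sum_range_C_mul_X_pow'
            (Nat.lt_succ_of_le (hD i hi)), map_sum, Finset.sum_mul, Finset.mul_sum]
          refine Finset.sum_congr rfl fun k hk => ?_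
          obtain ⟨m, hm⟩ := Nat.exists_eq_add_of_le (Nat.lt_succ_iff.mp (Finset.mem_range.mp hk))
          rw [eval_mul, eval_C, eval_pow, eval_X, map_mul, map_pow, polyA_C, polyA_X,
            show D - k = m by omega, hm, pow_add, hsr]
          ring
      _ = 0 := by rw [hr, mul_zero]

theorem exists_scale_pow {x y w s : F} (hs : s ∈ chart A w) (hsx : s * x ∈ chart A w)
    (hy : y ∈ chart A x) : ∃ K : ℕ, s ^ K * y ∈ chart A w := by
  obtain ⟨p, hp, hpy⟩ := hy
  set K := (Finset.range p.natDegree).sup fun i => (p.coeff i).natDegree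
  refine ⟨K, mem_chart_of_monic A ((p.map (polyA A x)).scaleRoots (s ^ K))
    ((monic_scaleRoots_iff _).mpr (hp.map _)) (fun i => ?_) ?_⟩
  · rw [coeff_scaleRoots, coeff_map, hp.natDegree_map]
    rcases lt_trichotomy i p.natDegree with h | h | h
    · obtain ⟨m, hm⟩ := Nat.exists_eq_add_of_lt h
      rw [show p.natDegree - i = m + 1 by omega, pow_succ', ← mul_assoc]
      refine mul_mem ?_ (pow_mem (pow_mem hs _) _)
      have hK : (p.coeff i).natDegree ≤ K :=
        Finset.le_sup (f := fun i => (p.coeff i).natDegree) (Finset.mem_range.mpr h)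
      rw [(p.coeff i).as_sum_range_C_mul_X_pow' (Nat.lt_succ_of_le hK), map_sum, Finset.sum_mul]
      refine sum_mem fun k hk => ?_
      obtain ⟨l, hl⟩ := Nat.exists_eq_add_of_le (Nat.lt_succ_iff.mp (Finset.mem_range.mp hk))
      rw [map_mul, map_pow, polyA_C, polyA_X, mul_assoc, hl, pow_add, ← mul_assoc (x ^ k),
        ← mul_pow, mul_comm x s]
      exact mul_mem (algebraMap_mem_chart A w _) (mul_mem (pow_mem hsx k) (pow_mem hs l))
    · rw [h, Nat.sub_self, pow_zero, mul_one, hp.coeff_natDegree, map_one]
      exact one_mem _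
    · rw [coeff_eq_zero_of_natDegree_lt h, map_zero, zero_mul]
      exact zero_mem _
  · rw [scaleRoots_eval_mul, eval_map, hpy, mul_zero]

theorem placeVal_eq_zero_of_nonunit (P : Place Q̄ F) [Module.Finite Q̄ P.ResidueField]
    {f : P.toValuationSubring} (h : ¬ IsUnit f) : placeVal P f = 0 := by
  show (RingEquiv.ofBijective _ (algebraMap_residue_bijective P)).symm
    (IsLocalRing.residue P.toValuationSubring f) = 0
  rw [(residue_eq_zero_iff _).mpr h, map_zero]

/-- A ring map between the rings of two places, semilinear over `σ` on constants and reflecting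
units, commutes with values. -/
theorem placeVal_comm (P : Place Q̄ F) (P' : Place Q̄ F') [Module.Finite Q̄ P.ResidueField]
    [Module.Finite Q̄ P'.ResidueField] (e : P.toValuationSubring →+* P'.toValuationSubring)
    (σ : Q̄ →+* Q̄)
    (hc : ∀ a : Q̄, e (algebraMap Q̄ P.toValuationSubring a) = algebraMap Q̄ _ (σ a))
    (hu : ∀ f, IsUnit (e f) → IsUnit f) (f : P.toValuationSubring) :
    placeVal P' (e f) = σ (placeVal P f) := by
  set d := f - algebraMap Q̄ P.toValuationSubring (placeVal P f) with hd
  have h0 : placeVal P d = 0 := by rw [hd, map_sub, placeVal_algebraMap, sub_self]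
  have hn : ¬ IsUnit d := fun h => (h.map (placeVal P)).ne_zero h0
  have h1 : placeVal P' (e d) = 0 := placeVal_eq_zero_of_nonunit P' fun h => hn (hu d h)
  rwa [hd, map_sub, hc, map_sub, placeVal_algebraMap, sub_eq_zero] at h1

/-- Values along a map of fields. -/
theorem placeVal_restrictAlong (φ : F →ₐ[Q̄] F') (hφ : φ.toRingHom.IsIntegral) (w : Place Q̄ F')
    [Module.Finite Q̄ w.ResidueField] [Module.Finite Q̄ (w.restrictAlong φ hφ).ResidueField]
    (f : F) (h : f ∈ (w.restrictAlong φ hφ).toValuationSubring)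
    (h' : φ f ∈ w.toValuationSubring) :
    placeVal w ⟨φ f, h'⟩ = placeVal (w.restrictAlong φ hφ) ⟨f, h⟩ := by
  let e : (w.restrictAlong φ hφ).toValuationSubring →+* w.toValuationSubring :=
    (φ.toRingHom.comp (w.restrictAlong φ hφ).toValuationSubring.subtype).codRestrict
      w.toValuationSubring.toSubring fun x => x.2
  refine placeVal_comm (w.restrictAlong φ hφ) w e (RingHom.id Q̄)
    (fun a => Subtype.ext (φ.commutes a)) (fun g hg => ?_) ⟨f, h⟩
  obtain ⟨u, hu⟩ := hg.exists_right_inv
  have hg0 : (g : F) ≠ 0 := fun h0 => by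
    have : φ (g : F) * (u : F') = 1 := congrArg Subtype.val hu
    rw [h0, map_zero, zero_mul] at this
    exact zero_ne_one this
  have hinv : φ (g : F)⁻¹ = (u : F') := by
    rw [map_inv₀]; exact inv_eq_of_mul_eq_one_right (congrArg Subtype.val hu)
  exact .of_mul_eq_one ⟨(g : F)⁻¹, show φ _ ∈ w.toValuationSubring from hinv ▸ u.2⟩
    (Subtype.ext (mul_inv_cancel₀ hg0))

/-- Values of the factors of a product with a unit factor. -/
theorem value_split (φ ψ : F →ₐ[Q̄] F') (hφ : φ.toRingHom.IsIntegral) (hψ : ψ.toRingHom.IsIntegral)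
    (w : Place Q̄ F') [Module.Finite Q̄ w.ResidueField]
    [Module.Finite Q̄ (w.restrictAlong ψ hψ).ResidueField] (P : Place Q̄ F)
    [Module.Finite Q̄ P.ResidueField] (hw : w.restrictAlong φ hφ = P) {s : F}
    (hs : IsIntAt A P s) (hs1 : residue A (intVal A P ⟨s, hs⟩) = 1) (K : ℕ) {y : F} (a : A)
    (hz : ∃ h : φ s ^ K * ψ y ∈ w.toValuationSubring, placeVal w ⟨_, h⟩ = (a : Q̄)) :
    ∃ h : IsIntAt A (w.restrictAlong ψ hψ) y,
      residue A (intVal A (w.restrictAlong ψ hψ) ⟨y, h⟩) = residue A a := by
  subst hw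
  obtain ⟨hzw, hzv⟩ := hz
  obtain ⟨hsm, hsA⟩ := hs
  set sv : A := ⟨placeVal (w.restrictAlong φ hφ) ⟨s, hsm⟩, hsA⟩ with hsv
  have hres : residue A sv = 1 := hs1
  have hsu : IsUnit sv := by
    by_contra hn
    rw [(residue_eq_zero_iff _).mpr hn] at hres
    exact zero_ne_one hres
  obtain ⟨v, hv⟩ := hsu.exists_right_inv
  have hu : IsUnit (⟨s, hsm⟩ : (w.restrictAlong φ hφ).toValuationSubring) := by
    by_contra hn
    have h0 := placeVal_eq_zero_of_nonunit (w.restrictAlong φ hφ) hn
    have h1 : sv = 0 := Subtype.ext h0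
    rw [h1, map_zero] at hres
    exact zero_ne_one hres
  obtain ⟨u, hu⟩ := hu.exists_right_inv
  have hu' : s * (u : F) = 1 := congrArg Subtype.val hu
  have hy : ψ y ∈ w.toValuationSubring := by
    have h := mul_mem (pow_mem (show φ (u : F) ∈ w.toValuationSubring from u.2) K) hzw
    rwa [← mul_assoc, ← mul_pow, ← map_mul, mul_comm (u : F), hu', map_one, one_pow, one_mul] at h
  have hsplit : placeVal w ⟨_, hzw⟩ =
      (sv : Q̄) ^ K * placeVal (w.restrictAlong ψ hψ) ⟨y, hy⟩ := by
    have e : (⟨_, hzw⟩ : w.toValuationSubring) =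
        (⟨φ s, hsm⟩ : w.toValuationSubring) ^ K * ⟨ψ y, hy⟩ := Subtype.ext rfl
    rw [e, map_mul, map_pow, placeVal_restrictAlong φ hφ w s hsm hsm,
      placeVal_restrictAlong ψ hψ w y hy hy]
  rw [hzv] at hsplit
  have hv' : (sv : Q̄) * (v : Q̄) = 1 := congrArg Subtype.val hv
  have hval : placeVal (w.restrictAlong ψ hψ) ⟨y, hy⟩ = ((v ^ K * a : A) : Q̄) := by
    rw [MulMemClass.coe_mul, SubmonoidClass.coe_pow, hsplit, ← mul_assoc, ← mul_pow,
      mul_comm (v : Q̄), hv', one_pow, one_mul]
  refine ⟨⟨hy, hval ▸ SetLike.coe_mem _⟩, ?_⟩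
  have hvres : residue A v = 1 := by
    have := congrArg (residue A) hv
    rwa [map_mul, hres, one_mul, map_one] at this
  rw [show intVal A (w.restrictAlong ψ hψ) ⟨y, _⟩ = v ^ K * a from Subtype.ext hval, map_mul,
    map_pow, hvres, one_pow, one_mul]

end Maps

/-- The charpoly of a multiplication, evaluated, is a norm. -/
theorem eval_charpoly_lmul {F F' : Type*} [Field F] [Field F'] [Algebra F F']
    [FiniteDimensional F F'] (z : F') (c : F) :
    (Algebra.lmul F F' z).charpoly.eval c = Algebra.norm F (algebraMap F F' c - z) := by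
  classical
  let b := Module.finBasis F F'
  rw [← LinearMap.charpoly_toMatrix (Algebra.lmul F F' z) b, Matrix.eval_charpoly,
    Algebra.norm_eq_matrix_det b, map_sub, AlgHom.commutes]
  rfl

theorem aeval_charpoly_lmul {F F' : Type*} [Field F] [Field F'] [Algebra F F']
    [FiniteDimensional F F'] (z : F') : aeval z (Algebra.lmul F F' z).charpoly = 0 := by
  have h : Algebra.lmul F F' (aeval z (Algebra.lmul F F' z).charpoly) = 0 := by
    rw [← aeval_algHom_apply, LinearMap.aeval_self_charpoly]
  have h1 := LinearMap.congr_fun h 1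
  simpa using h1

section Fibre

variable {A : ValuationSubring Q̄} {F F' : Type*} [Field F] [Field F'] [Algebra Q̄ F] [Algebra Q̄ F']
  [Algebra F F'] [IsScalarTower Q̄ F F'] [FiniteDimensional F F'] [HasPrincipalDivisors Q̄ F']
  (v : Place Q̄ F) [Module.Finite Q̄ v.ResidueField]
  [hres : ∀ w : Place Q̄ F', Module.Finite Q̄ w.ResidueField]

open scoped Classical in
/-- On a chart of the base, the reduced values on the fibre are the roots of the reduced
characteristic polynomial. -/
theorem fibre_values {t : F} (ht : IsIntAt A v t) {z : F'} (Q : Polynomial (chart A t))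
    (hQ : Q.map (chart A t).subtype = (Algebra.lmul F F' z).charpoly) :
    ∃ a : Fib F' v → A,
      (∀ w, ∃ h : z ∈ w.1.toValuationSubring, placeVal w.1 ⟨z, h⟩ = (a w : Q̄)) ∧
      Q.map (cval A v t ht) =
        ∏ w : Fib F' v, (X - C (residue A (a w))) ^ w.1.ramificationIndex F := by
  haveI := charZero_field (K := Q̄) F
  have hQm : Q.Monic := monic_of_injective (chart A t).subtype_injective
    (hQ ▸ LinearMap.charpoly_monic _)
  have hQz : Q.eval₂ ((algebraMap F F').comp (chart A t).subtype) z = 0 := by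
    rw [← eval₂_map, hQ]; exact aeval_charpoly_lmul z
  let ι : chart A t →+* v.toValuationSubring :=
    ((chart A t).subtype).codRestrict v.toValuationSubring.toSubring
      fun y => (chart_le_intRingAt ht y.2).1
  have hz : ∀ w ∈ v.fiber F', z ∈ w.toValuationSubring := by
    intro w hw
    have hmem : ∀ y : chart A t, algebraMap F F' (y : F) ∈ w.toValuationSubring := fun y => by
      have h : (y : F) ∈ v.toValuationSubring := (ι y).2
      rw [← Place.mem_fiber.mp hw] at h
      exact h
    let ι' : chart A t →+* w.toValuationSubring :=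
      ((algebraMap F F').comp (chart A t).subtype).codRestrict w.toValuationSubring.toSubring hmem
    have hint : _root_.IsIntegral w.toValuationSubring z :=
      ⟨Q.map ι', hQm.map _, by rw [eval₂_map]; exact hQz⟩
    obtain ⟨u, hu⟩ := IsIntegrallyClosed.isIntegral_iff.mp hint
    exact hu ▸ u.2
  let g : overRing F' v := ⟨z, mem_overRing v hz⟩
  let iv : chart A t →+* A := (intVal A v).comp (Subring.inclusion (chart_le_intRingAt ht))
  have hov : ovCharpoly v g = Q.map ι := by
    apply map_injective (algebraMap v.toValuationSubring F) Subtype.val_injective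
    rw [map_ovCharpoly, map_map]
    exact hQ.symm
  have hred : redPoly v g = (Q.map iv).map A.subtype := by
    rw [redPoly, hov, map_map, map_map]
    rfl
  have hA : ∀ w, fibVal v w g ∈ A := fun w => by
    have h := (eval_redPoly_eq_zero_iff v g (fibVal v w g)).mpr ⟨w, rfl⟩
    rw [hred, eval_map] at h
    obtain ⟨u, hu⟩ := IsIntegrallyClosed.isIntegral_iff.mp
      (show _root_.IsIntegral A (fibVal v w g) from ⟨Q.map iv, hQm.map _, h⟩)
    exact hu ▸ u.2
  refine ⟨fun w => ⟨fibVal v w g, hA w⟩, fun w => ⟨hz w.1 w.2, rfl⟩, ?_⟩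
  have h := hred.symm.trans (redPoly_eq_prod v g)
  have h2 : Q.map iv = ∏ w : Fib F' v,
      (X - C (⟨fibVal v w g, hA w⟩ : A)) ^ w.1.ramificationIndex F := by
    apply map_injective A.subtype Subtype.val_injective
    rw [h, Polynomial.map_prod]
    refine Finset.prod_congr rfl fun w _ => ?_
    rw [Polynomial.map_pow, Polynomial.map_sub, map_X, map_C]
    rfl
  rw [show cval A v t ht = (residue A).comp iv from rfl, ← map_map, h2, Polynomial.map_prod]
  refine Finset.prod_congr rfl fun w _ => ?_
  rw [Polynomial.map_pow, Polynomial.map_sub, map_X, map_C]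

end Fibre

section Separate

variable {R k : Type*} [CommRing R] [Field k] [Infinite k]

/-- Finitely many characters agreeing on a ring of constants surjecting onto `k` are separated by
one element. -/
theorem exists_separating {B : Type*} (c : B → R) (π : B → k) (hπ : Function.Surjective π)
    (S : Finset (R →+* k)) (hS : ∀ f ∈ S, ∀ b, f (c b) = π b) :
    ∃ y : R, Set.InjOn (fun f : R →+* k => f y) S := by
  classical
  let P := (S ×ˢ S).filter fun p => p.1 ≠ p.2
  have hex : ∀ p : P, ∃ y : R, p.1.1 y ≠ p.1.2 y := fun p => by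
    by_contra h
    push Not at h
    exact (Finset.mem_filter.mp p.2).2 (RingHom.ext h)
  choose y hy using hex
  let i : P → ℕ := fun p => (Fintype.equivFin P p : ℕ)
  have hi : Function.Injective i := Fin.val_injective.comp (Fintype.equivFin P).injective
  let G : P → k[X] := fun q => ∑ p : P, C (q.1.1 (y p) - q.1.2 (y p)) * X ^ i p
  have hG : ∀ q, G q ≠ 0 := fun q h => by
    have h1 := congrArg (fun r : k[X] => r.coeff (i q)) h
    simp only [G, finsetSum_coeff, coeff_C_mul_X_pow, coeff_zero] at h1
    rw [Finset.sum_eq_single q (fun p _ hp => if_neg fun h => hp (hi h.symm))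
      (fun h => absurd (Finset.mem_univ q) h), if_pos rfl] at h1
    exact hy q (sub_eq_zero.mp h1)
  obtain ⟨x, hx⟩ : ∃ x, (∏ q, G q).eval x ≠ 0 := by
    by_contra h
    push Not at h
    exact Finset.prod_ne_zero_iff.mpr (fun q _ => hG q)
      (Polynomial.funext fun x => by rw [h x, eval_zero])
  obtain ⟨b, hb⟩ := hπ x
  refine ⟨∑ p : P, c b ^ i p * y p, fun f hf f' hf' he => ?_⟩
  by_contra hne
  apply hx
  rw [eval_prod]
  refine Finset.prod_eq_zero (i := (⟨(f, f'), Finset.mem_filter.mpr
    ⟨Finset.mem_product.mpr ⟨hf, hf'⟩, hne⟩⟩ : P)) (Finset.mem_univ _) ?_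
  simp only [map_sum, map_mul, map_pow, hS f hf, hS f' hf', hb] at he
  simp only [G, eval_finsetSum, eval_mul, eval_C, eval_pow, eval_X]
  rw [← sub_eq_zero.mpr he, ← Finset.sum_sub_distrib]
  exact Finset.sum_congr rfl fun p _ => by ring

/-- A multiset of such characters is determined by its products of linear factors. -/
theorem multiset_eq_of_prod {B : Type*} (c : B → R) (π : B → k) (hπ : Function.Surjective π)
    (M₁ M₂ : Multiset (R →+* k)) (h₁ : ∀ f ∈ M₁, ∀ b, f (c b) = π b)
    (h₂ : ∀ f ∈ M₂, ∀ b, f (c b) = π b)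
    (h : ∀ y : R, (M₁.map fun f => X - C (f y)).prod = (M₂.map fun f => X - C (f y)).prod) :
    M₁ = M₂ := by
  classical
  obtain ⟨y, hy⟩ := exists_separating c π hπ (M₁ + M₂).toFinset (fun f hf => by
    rcases Multiset.mem_add.mp (Multiset.mem_toFinset.mp hf) with h | h
    · exact h₁ f h
    · exact h₂ f h)
  rcases isEmpty_or_nonempty (R →+* k) with he | he
  · rw [Multiset.eq_zero_of_forall_notMem (s := M₁) fun f => (he.false f).elim,
      Multiset.eq_zero_of_forall_notMem (s := M₂) fun f => (he.false f).elim]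
  have hm : M₁.map (fun f => f y) = M₂.map (fun f => f y) := by
    have h1 := congrArg Polynomial.roots (h y)
    have e : ∀ M : Multiset (R →+* k), (M.map fun f => X - C (f y)).prod =
        ((M.map fun f => f y).map fun a => X - C a).prod := fun M => by
      rw [Multiset.map_map]; rfl
    rwa [e, e, roots_multiset_prod_X_sub_C, roots_multiset_prod_X_sub_C] at h1
  have hinv : ∀ M : Multiset (R →+* k), (∀ f ∈ M, f ∈ (M₁ + M₂).toFinset) →
      (M.map fun f => f y).map (Function.invFunOn (fun f : R →+* k => f y)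
        ((M₁ + M₂).toFinset : Set (R →+* k))) = M := fun M hM => by
    rw [Multiset.map_map]
    conv_rhs => rw [← Multiset.map_id M]
    exact Multiset.map_congr rfl fun f hf => hy.leftInvOn_invFunOn (hM f hf)
  rw [← hinv M₁ (fun f hf => Multiset.mem_toFinset.mpr (Multiset.mem_add.mpr (Or.inl hf))), hm,
    hinv M₂ (fun f hf => Multiset.mem_toFinset.mpr (Multiset.mem_add.mpr (Or.inr hf)))]

/-- Weights of characters from products of linear factors. -/
theorem sum_single_of_prod {B ι D : Type*} [Fintype ι] (c : B → R) (π : B → k)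
    (hπ : Function.Surjective π) (e : ι → ℕ) (f : ι → (R →+* k)) (f₁ f₂ : R →+* k) (m : ℕ)
    (hf : ∀ i b, f i (c b) = π b) (hf₁ : ∀ b, f₁ (c b) = π b) (hf₂ : ∀ b, f₂ (c b) = π b)
    (h : ∀ y, ∏ i, (X - C (f i y)) ^ e i = (X - C (f₁ y)) * (X - C (f₂ y)) ^ m)
    (G : (R →+* k) → D) :
    ∑ i, Finsupp.single (G (f i)) (e i : ℤ) =
      Finsupp.single (G f₁) (1 : ℤ) + Finsupp.single (G f₂) (m : ℤ) := by
  classical
  have hM : ((Finset.univ : Finset ι).val.bind fun i => Multiset.replicate (e i) (f i)) =
      f₁ ::ₘ Multiset.replicate m f₂ := by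
    refine multiset_eq_of_prod c π hπ _ _ ?_ ?_ fun y => ?_
    · intro g hg b
      obtain ⟨i, -, hi⟩ := Multiset.mem_bind.mp hg
      rw [Multiset.eq_of_mem_replicate hi, hf]
    · intro g hg b
      rcases Multiset.mem_cons.mp hg with rfl | hg
      · exact hf₁ b
      · rw [Multiset.eq_of_mem_replicate hg, hf₂]
    · rw [Multiset.map_bind, Multiset.prod_bind, Multiset.map_cons, Multiset.prod_cons]
      simp only [Multiset.map_replicate, Multiset.prod_replicate]
      exact h y
  have h' := congrArg (fun M : Multiset (R →+* k) =>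
    (M.map fun g => Finsupp.single (G g) (1 : ℤ)).sum) hM
  simp only [Multiset.map_bind, Multiset.sum_bind, Multiset.map_cons, Multiset.sum_cons,
    Multiset.map_replicate, Multiset.sum_replicate, Finsupp.smul_single, nsmul_eq_mul,
    mul_one] at h'
  exact h'

end Separate

end Fermat.Agent.MCurve.Spec
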