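import Fermat.Agent.MCurve.Spec.SeriesRed
import Fermat.Agent.MCurve.Spec.ChartMaps
import Fermat.Prelude.Def_ModularCurve_ArithmeticGalois

/-!
The two coordinates on the `j`-line and the action of decomposition elements on centres.
-/

set_option autoImplicit false

set_option linter.style.haveILetI false
set_option linter.unusedSectionVars false
set_option maxHeartbeats 1000000
set_option synthInstance.maxHeartbeats 400000

noncomputable section

namespace Fermat.Agent.MCurve.Spec

open AlgebraicCurve ModularCurve IsLocalRing IntermediateField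
open Fermat.Agent.GalRep (qbarToC)

local notation "Q̄" => AlgebraicClosure ℚ

variable {A : ValuationSubring Q̄} {N : ℕ} [NeZero N]

local notation "𝔽" => modularFunctionFieldBar N

theorem injective_aeval_inv {K L : Type*} [Field K] [Field L] [Algebra K L] {x : L}
    (h : Function.Injective (Polynomial.aeval (R := K) x)) :
    Function.Injective (Polynomial.aeval (R := K) x⁻¹) := by
  rw [← transcendental_iff_injective] at h ⊢
  intro hx
  exact h (inv_inv x ▸ hx.inv)

theorem adjoin_inv_eq {K L : Type*} [Field K] [Field L] [Algebra K L] (x : L) :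
    K⟮x⁻¹⟯ = K⟮x⟯ := by
  refine le_antisymm (adjoin_simple_le_iff.mpr (inv_mem (mem_adjoin_simple_self K x)))
    (adjoin_simple_le_iff.mpr ?_)
  simpa using inv_mem (mem_adjoin_simple_self K x⁻¹)

/-! ## The coordinates -/

variable (A) in
/-- The chart of `j`. -/
def chartVarJ : ChartVar A (jBar N Q̄) where
  T := jqModC A
  coe_T := by rw [sQ, MCurve.coeffMap_jqModC, coe_jBar']
  red_inj := by
    rw [sk, MCurve.coeffMap_jqModC]
    exact evJq_injective _
  adjoin_eq := rfl

theorem isUnit_jqModC (R : Type*) [CommRing R] [IsDomain R] : IsUnit (jqModC R) := by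
  have h1 : (jqModC R).coeff (-1) = 1 := coeff_jqModC_neg_one R
  have h0 : jqModC R ≠ 0 := fun h => one_ne_zero (h1.symm.trans (by rw [h]; rfl))
  have ho : (jqModC R).order = -1 := by
    refine le_antisymm (HahnSeries.order_le_of_coeff_ne_zero (by rw [h1]; exact one_ne_zero)) ?_
    by_contra hlt
    push Not at hlt
    exact HahnSeries.coeff_order_eq_zero.not.mpr h0 (coeff_jqModC_of_lt R hlt)
  rw [HahnSeries.isUnit_iff, HahnSeries.leadingCoeff_eq, ho, h1]
  exact isUnit_one

variable (A) in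
/-- The chart of `1/j`. -/
def chartVarInv : ChartVar A (jBar N Q̄)⁻¹ where
  T := ↑(isUnit_jqModC A).unit⁻¹
  coe_T := by
    have h := congrArg (sQ A) (isUnit_jqModC A).val_inv_mul
    rw [map_mul, map_one, show sQ A (jqModC A) = ((jBar N Q̄ : 𝔽) : LaurentSeries Q̄) by
      rw [sQ, MCurve.coeffMap_jqModC, coe_jBar']] at h
    exact (eq_inv_of_mul_eq_one_left h).trans
      (map_inv₀ ((modularFunctionFieldBar N).val : 𝔽 →+* LaurentSeries Q̄) (jBar N Q̄)).symm
  red_inj := by
    have h := congrArg (sk A) (isUnit_jqModC A).val_inv_mul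
    rw [map_mul, map_one, show sk A (jqModC A) = jqModC (ResidueField A) by
      rw [sk, MCurve.coeffMap_jqModC]] at h
    rw [eq_inv_of_mul_eq_one_left h]
    exact injective_aeval_inv (evJq_injective (ResidueField A))
  adjoin_eq := adjoin_inv_eq _

/-! ## Galois action -/

/-- The action on the field. -/
abbrev galA (σ : Q̄ ≃ₐ[ℚ] Q̄) : 𝔽 ≃+* 𝔽 := arithmeticRingAut (modularFunctionFieldFull N) σ

theorem galA_jBar (σ : Q̄ ≃ₐ[ℚ] Q̄) : galA σ (jBar N Q̄) = jBar N Q̄ := by
  apply Subtype.ext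
  rw [coe_arithmeticRingAut_apply, coe_jBar', MCurve.coeffMap_jqModC]

theorem galA_jBar_inv (σ : Q̄ ≃ₐ[ℚ] Q̄) : galA σ (jBar N Q̄)⁻¹ = (jBar N Q̄)⁻¹ := by
  rw [map_inv₀, galA_jBar]

theorem galA_galA_inv (σ : Q̄ ≃ₐ[ℚ] Q̄) (y : 𝔽) : galA σ (galA σ⁻¹ y) = y := by
  apply Subtype.ext
  rw [coe_arithmeticRingAut_apply, coe_arithmeticRingAut_apply, coeffMap_coeffMap,
    coeffMap_congr (g := RingHom.id Q̄) (RingHom.ext fun a => σ.apply_symm_apply a), coeffMap_id]

variable {σ : Q̄ ≃ₐ[ℚ] Q̄} {t : modularFunctionFieldBar N}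

theorem galA_polyA (hσ : σ ∈ A.decompositionSubgroup ℚ) (g : Polynomial A) :
    galA σ (polyA A t g) = polyA A (galA σ t) (g.map (decA A hσ)) := by
  induction g using Polynomial.induction_on' with
  | add a b ha hb => rw [Polynomial.map_add, map_add, map_add, map_add, ha, hb]
  | monomial n a =>
    rw [Polynomial.map_monomial, ← Polynomial.C_mul_X_pow_eq_monomial,
      ← Polynomial.C_mul_X_pow_eq_monomial, map_mul, map_mul, map_mul, map_pow, map_pow, map_pow,
      polyA_C, polyA_C, polyA_X, polyA_X, arithmeticRingAut_algebraMap]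
    rfl

theorem galA_mem_chart (hσ : σ ∈ A.decompositionSubgroup ℚ) (ht : galA σ t = t) {y : 𝔽}
    (hy : y ∈ chart A t) : galA σ y ∈ chart A t := by
  obtain ⟨p, hp, hpy⟩ := hy
  refine ⟨p.map (Polynomial.mapRingHom (decA A hσ)), hp.map _, ?_⟩
  have h := congrArg (galA σ).toRingHom hpy
  rw [Polynomial.hom_eval₂, map_zero] at h
  rw [Polynomial.eval₂_map]
  refine (congrArg (fun f => Polynomial.eval₂ f (galA σ y) p) (RingHom.ext fun g => ?_)).trans h
  show polyA A t (g.map (decA A hσ)) = galA σ (polyA A t g)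
  rw [galA_polyA hσ, ht]

theorem mem_gal_smul (σ : Q̄ ≃ₐ[ℚ] Q̄) (P : Place Q̄ 𝔽) (y : 𝔽) :
    galA σ y ∈ (arithmeticGalois (modularFunctionFieldFull N) σ • P).toValuationSubring ↔
      y ∈ P.toValuationSubring :=
  ValuationSubring.smul_mem_pointwise_smul_iff (g := arithmeticGalois (modularFunctionFieldFull N) σ)

variable [∀ P : Place Q̄ (modularFunctionFieldBar N), Module.Finite Q̄ P.ResidueField]

theorem placeVal_gal (σ : Q̄ ≃ₐ[ℚ] Q̄) (P : Place Q̄ 𝔽) {y : 𝔽} (h : y ∈ P.toValuationSubring)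
    (h' : galA σ y ∈ (arithmeticGalois (modularFunctionFieldFull N) σ • P).toValuationSubring) :
    placeVal (arithmeticGalois (modularFunctionFieldFull N) σ • P) ⟨galA σ y, h'⟩ =
      σ (placeVal P ⟨y, h⟩) := by
  let g := arithmeticGalois (modularFunctionFieldFull N) σ
  let e := SemilinearAut.smulValuationSubringEquiv g P.toValuationSubring
  refine placeVal_comm P (g • P) (e : P.toValuationSubring →+* (g • P).toValuationSubring)
    (σ : Q̄ →+* Q̄) (fun a => Subtype.ext ?_) (fun f hf => ?_) ⟨y, h⟩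
  · exact arithmeticRingAut_algebraMap (modularFunctionFieldFull N) σ a
  · exact (MulEquiv.isUnit_map e.toMulEquiv).mp hf

theorem isIntAt_gal_iff (hσ : σ ∈ A.decompositionSubgroup ℚ) (ht : galA σ t = t)
    (P : Place Q̄ 𝔽) :
    IsIntAt A (arithmeticGalois (modularFunctionFieldFull N) σ • P) t ↔ IsIntAt A P t := by
  constructor
  · rintro ⟨h, h'⟩
    have hP : t ∈ P.toValuationSubring := (mem_gal_smul σ P t).mp (by rw [ht]; exact h)
    refine ⟨hP, ?_⟩
    have h2 := placeVal_gal σ P hP (by rw [ht]; exact h)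
    rw [show (⟨galA σ t, _⟩ : (arithmeticGalois (modularFunctionFieldFull N) σ • P).toValuationSubring)
      = ⟨t, h⟩ from Subtype.ext ht] at h2
    have h3 := Galois.apply_mem_of_mem_decomposition (inv_mem hσ) (h2 ▸ h')
    rwa [show σ⁻¹ (σ (placeVal P ⟨t, hP⟩)) = placeVal P ⟨t, hP⟩ from σ.symm_apply_apply _] at h3
  · rintro ⟨h, h'⟩
    have hP : galA σ t ∈ (arithmeticGalois (modularFunctionFieldFull N) σ • P).toValuationSubring :=
      (mem_gal_smul σ P t).mpr h
    refine ⟨ht ▸ hP, ?_⟩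
    rw [show (⟨t, ht ▸ hP⟩ : (arithmeticGalois (modularFunctionFieldFull N) σ • P).toValuationSubring)
      = ⟨galA σ t, hP⟩ from Subtype.ext ht.symm, placeVal_gal σ P h hP]
    exact Galois.apply_mem_of_mem_decomposition hσ h'

/-- A decomposition element on a chart. -/
def galC (hσ : σ ∈ A.decompositionSubgroup ℚ) (ht : galA σ t = t) : chart A t →+* chart A t :=
  ((galA σ).toRingHom.comp (chart A t).subtype).codRestrict (chart A t) fun y =>
    galA_mem_chart hσ ht y.2

theorem cval_gal (hσ : σ ∈ A.decompositionSubgroup ℚ) (ht : galA σ t = t) (P : Place Q̄ 𝔽)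
    (hP : IsIntAt A P t) (hP' : IsIntAt A (arithmeticGalois (modularFunctionFieldFull N) σ • P) t)
    (y : chart A t) :
    cval A (arithmeticGalois (modularFunctionFieldFull N) σ • P) t hP' (galC hσ ht y) =
      decK A hσ (cval A P t hP y) := by
  rw [cval_apply, cval_apply, ← residue_decA]
  refine congrArg (residue A) (Subtype.ext ?_)
  exact placeVal_gal σ P (y := (y : 𝔽)) (chart_le_intRingAt hP y.2).1 (chart_le_intRingAt hP' (galC hσ ht y).2).1

variable {ℓ : ℕ} [Fact ℓ.Prime] (hA : A.LiesOverPrime ℓ) (hℓN : ¬ ℓ ∣ N)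
include hA hℓN

theorem redC_gal (hv : ChartVar A t) (hσ : σ ∈ A.decompositionSubgroup ℚ) (ht : galA σ t = t)
    (y : chart A t) :
    redExpC hA hℓN hv (galC hσ ht y) = coeffMap (decK A hσ) (redExpC hA hℓN hv y) :=
  (congrArg (redS A) (Subtype.ext rfl)).trans
    (redS_map (coeffMap (σ : Q̄ →+* Q̄)) (coeffMap (decK A hσ)) (coeffMap_compat A hσ)
      ⟨((y : 𝔽) : LaurentSeries Q̄), chart_mem_red hA hℓN hv y.2⟩)

/-- Inertia fixes centres on a chart. -/
theorem cval_inertia (hv : ChartVar A t) (hσ : σ ∈ A.decompositionSubgroup ℚ)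
    (hid : ∀ x, decK A hσ x = x) (ht : galA σ t = t) (P : Place Q̄ 𝔽) (hP : IsIntAt A P t)
    (hP' : IsIntAt A (arithmeticGalois (modularFunctionFieldFull N) σ • P) t) :
    cval A (arithmeticGalois (modularFunctionFieldFull N) σ • P) t hP' = cval A P t hP := by
  refine RingHom.ext fun y => ?_
  rw [← cval_congr hA hℓN hv _ hP' (y := galC hσ ht y) (z := y), cval_gal hσ ht P hP hP', hid]
  rw [redC_gal hA hℓN hv hσ ht, show decK A hσ = RingHom.id _ from RingHom.ext hid, coeffMap_id]

end Fermat.Agent.MCurve.Spec
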