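import Fermat.Agent.MCurve.Spec.NormValue

/-!
Centres of the places of a function field over `ℚ̄` on the two charts over a valuation ring `A`:
values at the place followed by reduction.
-/

set_option autoImplicit false

set_option linter.style.haveILetI false
set_option linter.unusedSectionVars false

noncomputable section

namespace Fermat.Agent.MCurve.Spec

open AlgebraicCurve Polynomial IsLocalRing

local notation "Q̄" => AlgebraicClosure ℚ

variable (A : ValuationSubring Q̄) {F : Type*} [Field F] [Algebra Q̄ F]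

/-- Evaluation of polynomials over `A` at `t`. -/
def polyA (t : F) : Polynomial A →+* F :=
  (Polynomial.aeval (R := Q̄) t).toRingHom.comp (Polynomial.mapRingHom A.subtype)

theorem polyA_C (t : F) (a : A) : polyA A t (C a) = algebraMap Q̄ F a := by simp [polyA]

theorem polyA_X (t : F) : polyA A t X = t := by simp [polyA]

/-- The functions integral over `A[t]`. -/
def chart (t : F) : Subring F where
  carrier := {y | (polyA A t).IsIntegralElem y}
  one_mem' := RingHom.isIntegralElem_one _
  zero_mem' := RingHom.isIntegralElem_zero _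
  mul_mem' := RingHom.IsIntegralElem.mul _
  add_mem' := RingHom.IsIntegralElem.add _
  neg_mem' := RingHom.IsIntegralElem.neg _

theorem polyA_mem_chart (t : F) (P : Polynomial A) : polyA A t P ∈ chart A t :=
  RingHom.isIntegralElem_map _

theorem self_mem_chart (t : F) : t ∈ chart A t := by
  simpa [polyA_X] using polyA_mem_chart A t X

theorem algebraMap_mem_chart (t : F) (a : A) : algebraMap Q̄ F a ∈ chart A t := by
  simpa [polyA_C] using polyA_mem_chart A t (C a)

theorem mem_chart_of_monic {t y : F} (p : F[X]) (hp : p.Monic)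
    (hcoef : ∀ i, p.coeff i ∈ chart A t) (hy : p.eval y = 0) : y ∈ chart A t := by
  obtain ⟨q, hq, -, hqm⟩ := lifts_and_natDegree_eq_and_monic
    ((lifts_iff_coeff_lifts (f := (chart A t).subtype) p).mpr fun i => ⟨⟨_, hcoef i⟩, rfl⟩) hp
  letI : Algebra (Polynomial A) F := (polyA A t).toAlgebra
  have hy' : IsIntegral (integralClosure (Polynomial A) F) y := by
    refine ⟨q, hqm, ?_⟩
    refine Eq.trans ?_ hy
    rw [← hq]
    exact (eval_map (chart A t).subtype y).symm
  exact isIntegral_trans (R := Polynomial A) y hy'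

section Place

variable (P : Place Q̄ F) [Module.Finite Q̄ P.ResidueField]

/-- The place has a value in `A` at `t`. -/
def IsIntAt (t : F) : Prop := ∃ h : t ∈ P.toValuationSubring, placeVal P ⟨t, h⟩ ∈ A

variable {A P}

theorem IsIntAt.algebraMap' (a : A) : IsIntAt A P (algebraMap Q̄ F a) :=
  ⟨P.algebraMap_mem' a, by
    rw [show (⟨algebraMap Q̄ F a, P.algebraMap_mem' a⟩ : P.toValuationSubring) =
      algebraMap Q̄ P.toValuationSubring a from rfl, placeVal_algebraMap]
    exact a.2⟩

variable (A P)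

/-- The functions with a value in `A`. -/
def intRingAt : Subring F where
  carrier := {y | IsIntAt A P y}
  one_mem' := ⟨one_mem _, by
    rw [show (⟨1, one_mem _⟩ : P.toValuationSubring) = 1 from rfl, map_one]; exact one_mem A⟩
  zero_mem' := ⟨zero_mem _, by
    rw [show (⟨0, zero_mem _⟩ : P.toValuationSubring) = 0 from rfl, map_zero]; exact zero_mem A⟩
  mul_mem' := fun ⟨ha, ha'⟩ ⟨hb, hb'⟩ => ⟨mul_mem ha hb, by
    rw [show (⟨_, mul_mem ha hb⟩ : P.toValuationSubring) = ⟨_, ha⟩ * ⟨_, hb⟩ from rfl, map_mul]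
    exact mul_mem ha' hb'⟩
  add_mem' := fun ⟨ha, ha'⟩ ⟨hb, hb'⟩ => ⟨add_mem ha hb, by
    rw [show (⟨_, add_mem ha hb⟩ : P.toValuationSubring) = ⟨_, ha⟩ + ⟨_, hb⟩ from rfl, map_add]
    exact add_mem ha' hb'⟩
  neg_mem' := fun ⟨ha, ha'⟩ => ⟨neg_mem ha, by
    rw [show (⟨_, neg_mem ha⟩ : P.toValuationSubring) = -⟨_, ha⟩ from rfl, map_neg]
    exact neg_mem ha'⟩

/-- The value. -/
def intVal : intRingAt A P →+* A :=
  ((placeVal P).comp (((intRingAt A P).subtype).codRestrict P.toValuationSubring.toSubring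
    fun y => y.2.1)).codRestrict A.toSubring fun y => y.2.2

theorem coe_intVal (y : intRingAt A P) : (intVal A P y : Q̄) = placeVal P ⟨y, y.2.1⟩ := rfl

variable {A P}

theorem chart_le_intRingAt {t : F} (ht : IsIntAt A P t) : chart A t ≤ intRingAt A P := by
  rintro y ⟨p, hp, hpy⟩
  have hc : ∀ q : Polynomial A, polyA A t q ∈ intRingAt A P := fun q => by
    induction q using Polynomial.induction_on' with
    | add a b ha hb => rw [map_add]; exact add_mem ha hb
    | monomial n a =>
      rw [← C_mul_X_pow_eq_monomial, map_mul, map_pow, polyA_C, polyA_X]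
      exact mul_mem (IsIntAt.algebraMap' a) (pow_mem ht n)
  let φ : Polynomial A →+* intRingAt A P := (polyA A t).codRestrict _ hc
  let φ' : Polynomial A →+* P.toValuationSubring :=
    (polyA A t).codRestrict P.toValuationSubring.toSubring fun q => (hc q).1
  have hy : y ∈ P.toValuationSubring := by
    have hint : _root_.IsIntegral P.toValuationSubring y :=
      ⟨p.map φ', hp.map _, by rw [eval₂_map]; exact hpy⟩
    obtain ⟨z, hz⟩ := IsIntegrallyClosed.isIntegral_iff.mp hint
    exact hz ▸ z.2
  refine ⟨hy, ?_⟩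
  have hint : _root_.IsIntegral A (placeVal P ⟨y, hy⟩) := by
    refine ⟨p.map ((intVal A P).comp φ), hp.map _, ?_⟩
    have h0 : Polynomial.eval₂ φ' (⟨y, hy⟩ : P.toValuationSubring) p = 0 := by
      apply Subtype.val_injective
      show P.toValuationSubring.toSubring.subtype _ = 0
      rw [Polynomial.hom_eval₂]
      exact hpy
    have h1 := congrArg (placeVal P) h0
    rw [map_zero, Polynomial.hom_eval₂] at h1
    rw [eval₂_map]
    exact h1
  obtain ⟨z, hz⟩ := IsIntegrallyClosed.isIntegral_iff.mp hint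
  rw [← hz]
  exact z.2

variable (A P)

/-- The centre on a chart. -/
def cval (t : F) (ht : IsIntAt A P t) : chart A t →+* ResidueField A :=
  ((residue A).comp (intVal A P)).comp (Subring.inclusion (chart_le_intRingAt ht))

theorem cval_apply (t : F) (ht : IsIntAt A P t) (y : chart A t) :
    cval A P t ht y = residue A ⟨placeVal P ⟨y, (chart_le_intRingAt ht y.2).1⟩,
      (chart_le_intRingAt ht y.2).2⟩ := rfl

variable {A P}

theorem isIntAt_inv {t : F} (ht : ¬ IsIntAt A P t) : IsIntAt A P t⁻¹ := by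
  rcases P.toValuationSubring.mem_or_inv_mem t with h | h
  · have hv : placeVal P ⟨t, h⟩ ∉ A := fun hv => ht ⟨h, hv⟩
    have h0 : placeVal P ⟨t, h⟩ ≠ 0 := fun h0 => hv (h0 ▸ zero_mem A)
    have hu : IsUnit (⟨t, h⟩ : P.toValuationSubring) := by
      by_contra hn
      refine h0 ((placeVal_eq_zero_iff P _).mpr ?_)
      by_cases ht0 : t = 0
      · exact Or.inl ht0
      right
      rcases (lt_or_eq_of_le ((mem_iff_ord_nonneg P ht0).mp h)) with h1 | h1
      · exact h1
      · refine absurd ?_ hn
        have hi : t⁻¹ ∈ P.toValuationSubring :=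
          (mem_iff_ord_nonneg P (inv_ne_zero ht0)).mpr (by rw [P.ord_inv]; omega)
        exact .of_mul_eq_one ⟨_, hi⟩ (Subtype.ext (mul_inv_cancel₀ ht0))
    obtain ⟨u, hu⟩ := hu.exists_right_inv
    have hut : t⁻¹ = (u : F) := inv_eq_of_mul_eq_one_right (congrArg Subtype.val hu)
    refine ⟨hut ▸ u.2, ?_⟩
    rw [show (⟨t⁻¹, hut ▸ u.2⟩ : P.toValuationSubring) = u from Subtype.ext hut]
    have h1 := congrArg (placeVal P) hu
    rw [map_mul, map_one] at h1
    rw [eq_inv_of_mul_eq_one_right h1]
    exact (A.mem_or_inv_mem _).resolve_left hv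
  · refine ⟨h, ?_⟩
    rcases eq_or_ne t 0 with rfl | ht0
    · exact absurd ⟨zero_mem _, by
        rw [show (⟨0, zero_mem _⟩ : P.toValuationSubring) = 0 from rfl, map_zero]
        exact zero_mem A⟩ ht
    by_cases h0 : placeVal P ⟨t⁻¹, h⟩ = 0
    · rw [h0]; exact zero_mem A
    have ht' : t ∈ P.toValuationSubring := by
      refine (mem_iff_ord_nonneg P ht0).mpr ?_
      have := (mem_iff_ord_nonneg P (inv_ne_zero ht0)).mp h
      rw [P.ord_inv] at this
      by_contra hlt
      exact h0 ((placeVal_eq_zero_iff P _).mpr (Or.inr (by rw [P.ord_inv]; omega)))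
    have h1 : placeVal P ⟨t, ht'⟩ * placeVal P ⟨t⁻¹, h⟩ = 1 := by
      rw [← map_mul, show (⟨t, ht'⟩ * ⟨t⁻¹, h⟩ : P.toValuationSubring) = 1 from
        Subtype.ext (mul_inv_cancel₀ ht0), map_one]
    rw [eq_inv_of_mul_eq_one_right h1]
    exact (A.mem_or_inv_mem _).resolve_left fun hv => ht ⟨ht', hv⟩

variable (A P)

open scoped Classical in
/-- The centre: on the chart of `t` if `t` has a value in `A`, on that of `t⁻¹` otherwise. -/
def cen (t : F) : (chart A t →+* ResidueField A) ⊕ (chart A t⁻¹ →+* ResidueField A) :=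
  if h : IsIntAt A P t then Sum.inl (cval A P t h) else Sum.inr (cval A P t⁻¹ (isIntAt_inv h))

theorem cen_of_isIntAt {t : F} (h : IsIntAt A P t) : cen A P t = Sum.inl (cval A P t h) := dif_pos h

theorem cen_of_not {t : F} (h : ¬ IsIntAt A P t) :
    cen A P t = Sum.inr (cval A P t⁻¹ (isIntAt_inv h)) := dif_neg h

theorem cval_inv_eq_zero {t : F} (h : ¬ IsIntAt A P t) :
    cval A P t⁻¹ (isIntAt_inv h) ⟨t⁻¹, self_mem_chart A _⟩ = 0 := by
  have hm := (isIntAt_inv h).1
  show residue A ⟨placeVal P ⟨t⁻¹, hm⟩, (isIntAt_inv h).2⟩ = 0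
  rw [residue_eq_zero_iff, mem_maximalIdeal, mem_nonunits_iff]
  intro hu
  refine h ?_
  rcases eq_or_ne t 0 with rfl | ht0
  · exact (intRingAt A P).zero_mem
  obtain ⟨u, hu⟩ := hu.exists_right_inv
  have hu' : placeVal P ⟨t⁻¹, hm⟩ * (u : Q̄) = 1 := congrArg Subtype.val hu
  have hP : IsUnit (⟨t⁻¹, hm⟩ : P.toValuationSubring) := by
    by_contra hn
    have h0 : placeVal P ⟨t⁻¹, hm⟩ = 0 := by
      show (RingEquiv.ofBijective _ (algebraMap_residue_bijective P)).symm
        (IsLocalRing.residue P.toValuationSubring _) = 0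
      rw [(residue_eq_zero_iff _).mpr hn, map_zero]
    rw [h0, zero_mul] at hu'
    exact zero_ne_one hu'
  obtain ⟨s, hs⟩ := hP.exists_right_inv
  have hst : t = (s : F) := by
    have h1 : t⁻¹ * (s : F) = 1 := congrArg Subtype.val hs
    rw [← mul_one t, ← h1, ← mul_assoc, mul_inv_cancel₀ ht0, one_mul]
  refine ⟨hst ▸ s.2, ?_⟩
  rw [show (⟨t, hst ▸ s.2⟩ : P.toValuationSubring) = s from Subtype.ext hst]
  have h1 := congrArg (placeVal P) hs
  rw [map_mul, map_one] at h1
  rw [show placeVal P s = (u : Q̄) from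
    (eq_inv_of_mul_eq_one_right h1).trans (eq_inv_of_mul_eq_one_right hu').symm]
  exact u.2

end Place

end Fermat.Agent.MCurve.Spec
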