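import Fermat.Agent.MCurve.RootBridge
import Fermat.Agent.MCurve.HeckeInputs
import Fermat.Agent.Galois.Places
import Fermat.Agent.Period.CosetCount

/-!
The Atkin–Lehner involution at a prime `ℓ ∤ N` on the function field of `X₀(Nℓ)`, exchanging the
two degeneracy maps, and the embeddings into series over the second one.
-/

set_option autoImplicit false

set_option linter.style.haveILetI false
set_option linter.unusedSectionVars false
set_option maxHeartbeats 1000000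
set_option synthInstance.maxHeartbeats 100000

noncomputable section

namespace Fermat.Agent.MCurve.Spec

open AlgebraicCurve ModularCurve IntermediateField CongruenceSubgroup
open Fermat.Agent.GalRep (jNFun HasQSeries seriesToC posMat coe_posMat_smul qbarToC twist)
open scoped MatrixGroups

local notation "Q̄" => AlgebraicClosure ℚ
local notation "ℍ" => UpperHalfPlane

/-! ## The matrix -/

variable (N ℓ : ℕ) [NeZero N] [NeZero ℓ]

/-- The Bézout coefficients. -/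
def wX : ℤ := Nat.gcdA ℓ N

/-- The Bézout coefficients. -/
def wY : ℤ := -Nat.gcdB ℓ N

variable {N ℓ} in
theorem wXY (hc : Nat.Coprime ℓ N) : (ℓ : ℤ) * wX N ℓ - (N : ℤ) * wY N ℓ = 1 := by
  have h := Nat.gcd_eq_gcd_ab ℓ N
  rw [hc.gcd_eq_one] at h
  rw [wX, wY]
  push_cast at h
  linarith

/-- The Atkin–Lehner matrix. -/
def wMat : Matrix (Fin 2) (Fin 2) ℤ :=
  !![(ℓ : ℤ) * wX N ℓ, wY N ℓ; (N : ℤ) * ℓ, (ℓ : ℤ)]

variable {N ℓ} in
theorem det_wMat (hc : Nat.Coprime ℓ N) : 0 < (wMat N ℓ).det := by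
  rw [wMat, Matrix.det_fin_two_of]
  have h : (ℓ : ℤ) * wX N ℓ * ℓ - wY N ℓ * (N * ℓ) = ℓ := by
    linear_combination (ℓ : ℤ) * wXY hc
  rw [h]
  exact_mod_cast NeZero.pos ℓ

variable {N ℓ} (hc : Nat.Coprime ℓ N)

/-- Its action. -/
def wPt (τ : ℍ) : ℍ := posMat _ (det_wMat hc) • τ

theorem coe_wPt (τ : ℍ) : (wPt hc τ : ℂ) =
    ((ℓ : ℂ) * wX N ℓ * τ + wY N ℓ) / ((N : ℂ) * ℓ * τ + ℓ) := by
  rw [wPt, coe_posMat_smul]
  simp [wMat]

theorem lin_ne_zero (τ : ℍ) {c d : ℂ} (c' d' : ℝ) (hc' : c = c') (hd' : d = d') (h : c' ≠ 0) :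
    c * τ + d ≠ 0 := fun h0 => by
  have h1 := congrArg Complex.im h0
  simp only [hc', hd', Complex.add_im, Complex.mul_im, Complex.ofReal_re, Complex.ofReal_im,
    zero_mul, add_zero, Complex.zero_im, mul_eq_zero] at h1
  exact h1.elim h τ.im_pos.ne'

theorem jNFun_eq_of_coe (m : ℕ) [NeZero m] (n : ℕ) [NeZero n] (g : SL(2, ℤ)) (τ τ' : ℍ)
    (h : (m : ℂ) * τ = ((g 0 0 : ℂ) * (n * τ') + g 0 1) / ((g 1 0 : ℂ) * (n * τ') + g 1 1)) :
    jNFun m τ = jNFun n τ' := by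
  rw [jNFun, jNFun, ← Period.jFun_smul g (posMat _ (GalRep.det_diagN n) • τ')]
  congr 1
  apply UpperHalfPlane.ext
  rw [UpperHalfPlane.coe_specialLinearGroup_apply, coe_posMat_smul, coe_posMat_smul]
  simpa using h

theorem jNFun_wPt (d : ℕ) [NeZero d] [NeZero (d * ℓ)] (hd : d ∣ N) (τ : ℍ) :
    jNFun d (wPt hc τ) = jNFun (d * ℓ) τ := by
  obtain ⟨e, he⟩ := hd
  have he' : (N : ℂ) = d * e := by exact_mod_cast congrArg (Nat.cast : ℕ → ℂ) he
  have hxy := wXY hc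
  rw [he] at hxy
  push_cast at hxy
  let g : SL(2, ℤ) := ⟨!![wX N ℓ, (d : ℤ) * wY N ℓ; (e : ℤ), (ℓ : ℤ)], by
    rw [Matrix.det_fin_two_of]; rw [he]; linear_combination hxy⟩
  refine jNFun_eq_of_coe d (d * ℓ) g _ _ ?_
  rw [coe_wPt]
  simp only [g, Matrix.cons_val', Matrix.cons_val_zero, Matrix.cons_val_one, Matrix.of_apply,
    Matrix.empty_val', Matrix.cons_val_fin_one]
  push_cast
  rw [he']
  rw [← mul_div_assoc]
  congr 1 <;> ring

theorem jNFun_mul_wPt (d : ℕ) [NeZero d] [NeZero (d * ℓ)] (hd : d ∣ N) (τ : ℍ) :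
    jNFun (d * ℓ) (wPt hc τ) = jNFun d τ := by
  obtain ⟨e, he⟩ := hd
  have hxy := wXY hc
  rw [he] at hxy
  push_cast at hxy
  let g : SL(2, ℤ) := ⟨!![(ℓ : ℤ) * wX N ℓ, (d : ℤ) * wY N ℓ; (e : ℤ), 1], by
    rw [Matrix.det_fin_two_of]; rw [he]; linear_combination hxy⟩
  refine jNFun_eq_of_coe (d * ℓ) d g _ _ ?_
  have hl : (ℓ : ℂ) ≠ 0 := Nat.cast_ne_zero.mpr (NeZero.ne ℓ)
  have he' : (N : ℂ) = d * e := by exact_mod_cast congrArg (Nat.cast : ℕ → ℂ) he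
  have he0 : e ≠ 0 := fun h => NeZero.ne N (by rw [he, h, mul_zero])
  have hN1 : (N : ℂ) * τ + 1 ≠ 0 :=
    lin_ne_zero τ (N : ℝ) 1 (by simp) (by simp) (Nat.cast_ne_zero.mpr (NeZero.ne N))
  rw [coe_wPt]
  simp only [g, Matrix.cons_val', Matrix.cons_val_zero, Matrix.cons_val_one, Matrix.of_apply,
    Matrix.empty_val', Matrix.cons_val_fin_one]
  push_cast
  rw [show (e : ℂ) * ((d : ℂ) * τ) + 1 = (N : ℂ) * τ + 1 by rw [he']; ring,
    show (N : ℂ) * ℓ * τ + ℓ = ℓ * ((N : ℂ) * τ + 1) by ring,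
    ← mul_div_assoc, mul_right_comm (d : ℂ) (ℓ : ℂ), mul_comm _ (ℓ : ℂ), mul_div_mul_left _ _ hl]
  ring

theorem wPt_wPt (τ : ℍ) : ∃ γ ∈ Gamma0 (N * ℓ), wPt hc (wPt hc τ) = γ • τ := by
  have hxy := wXY hc
  set x := wX N ℓ
  set y := wY N ℓ
  let γ : SL(2, ℤ) := ⟨!![(ℓ : ℤ) * x * x + N * y, y * (x + 1);
      (N : ℤ) * ℓ * (x + 1), (N : ℤ) * y + ℓ], by
    rw [Matrix.det_fin_two_of]; linear_combination ((ℓ : ℤ) * x - N * y + 1) * hxy⟩
  refine ⟨γ, ?_, ?_⟩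
  · rw [Gamma0_mem, ZMod.intCast_zmod_eq_zero_iff_dvd]
    exact ⟨x + 1, by simp [γ]⟩
  · apply UpperHalfPlane.ext
    rw [UpperHalfPlane.coe_specialLinearGroup_apply, coe_wPt, coe_wPt]
    have hl : (ℓ : ℂ) ≠ 0 := Nat.cast_ne_zero.mpr (NeZero.ne ℓ)
    have hN0 : (N : ℝ) ≠ 0 := Nat.cast_ne_zero.mpr (NeZero.ne N)
    have hl0 : (ℓ : ℝ) ≠ 0 := Nat.cast_ne_zero.mpr (NeZero.ne ℓ)
    have h1 : (N : ℂ) * ℓ * τ + ℓ ≠ 0 :=
      lin_ne_zero τ ((N : ℝ) * ℓ) ℓ (by simp) (by simp) (mul_ne_zero hN0 hl0)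
    simp only [γ, Matrix.cons_val', Matrix.cons_val_zero, Matrix.cons_val_one, Matrix.of_apply,
      Matrix.empty_val', Matrix.cons_val_fin_one]
    simp only [eq_intCast]
    push_cast
    simp only [x, y] at *
    set X : ℂ := (wX N ℓ : ℂ)
    set Y : ℂ := (wY N ℓ : ℂ)
    set T : ℂ := (τ : ℂ)
    have e₁ : (ℓ : ℂ) * X * (((ℓ : ℂ) * X * T + Y) / ((N : ℂ) * ℓ * T + ℓ)) + Y =
        ((ℓ : ℂ) * X * ((ℓ : ℂ) * X * T + Y) + Y * ((N : ℂ) * ℓ * T + ℓ)) /
          ((N : ℂ) * ℓ * T + ℓ) := by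
      rw [eq_div_iff h1, add_mul, mul_assoc _ (((ℓ : ℂ) * X * T + Y) / _) _, div_mul_cancel₀ _ h1]
    have e₂ : (N : ℂ) * ℓ * (((ℓ : ℂ) * X * T + Y) / ((N : ℂ) * ℓ * T + ℓ)) + ℓ =
        ((N : ℂ) * ℓ * ((ℓ : ℂ) * X * T + Y) + ℓ * ((N : ℂ) * ℓ * T + ℓ)) /
          ((N : ℂ) * ℓ * T + ℓ) := by
      rw [eq_div_iff h1, add_mul, mul_assoc _ (((ℓ : ℂ) * X * T + Y) / _) _, div_mul_cancel₀ _ h1]
    rw [e₁, e₂, div_div_div_cancel_right₀ h1,
      show (ℓ : ℂ) * X * ((ℓ : ℂ) * X * T + Y) + Y * ((N : ℂ) * ℓ * T + ℓ) =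
        (ℓ : ℂ) * (((ℓ : ℂ) * X * X + N * Y) * T + Y * (X + 1)) by ring,
      show (N : ℂ) * ℓ * ((ℓ : ℂ) * X * T + Y) + ℓ * ((N : ℂ) * ℓ * T + ℓ) =
        (ℓ : ℂ) * ((N : ℂ) * ℓ * (X + 1) * T + (N * Y + ℓ)) by ring,
      mul_div_mul_left _ _ hl]

/-! ## On polynomials in the `j (q ^ d)` -/

variable [Fact ℓ.Prime]

include hc in
theorem exists_wAlg {y : LaurentSeries Q̄} (hy : y ∈ genAlg Q̄ (N * ℓ)) :
    ∃ y' : barAlg (N * ℓ), ∀ τ,
      (toMod (N * ℓ) y' : ℍ → ℂ) τ =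
        (toMod (N * ℓ) ⟨⟨y, genAlg_le_bar hy⟩, hy⟩ : ℍ → ℂ) (wPt hc τ) := by
  induction hy using Algebra.adjoin_induction with
  | mem y hy =>
    obtain ⟨d, hd0, hd, rfl⟩ := hy
    have hgen : ∀ (e : ℕ) [NeZero e] (he : e ∣ N * ℓ) (h : qExpand Q̄ e (jqModC Q̄) ∈
        genAlg Q̄ (N * ℓ)), (toMod (N * ℓ) ⟨⟨_, genAlg_le_bar h⟩, h⟩ : ℍ → ℂ) = jNFun e := by
      intro e _ he h
      have h2 : toMod (N * ℓ) ⟨⟨_, genAlg_le_bar h⟩, h⟩ =
          ⟨jNFun e, GalRep.modFuns_anti (Gamma0_le_of_dvd he) (GalRep.isModFun_jNFun e)⟩ :=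
        modFun_ext (hasQSeries_toMod (N * ℓ) _) (seriesToC_gen e ▸ GalRep.hasQSeries_jNFun e)
      rw [h2]
    have hmem : ∀ (e : ℕ) [NeZero e], e ∣ N * ℓ →
        qExpand Q̄ e (jqModC Q̄) ∈ genAlg Q̄ (N * ℓ) := fun e _ he =>
      Algebra.subset_adjoin (mem_divisorExpansionsC Q̄ (N * ℓ) he)
    by_cases hdN : d ∣ N
    · haveI : NeZero (d * ℓ) := ⟨mul_ne_zero (NeZero.ne d) (NeZero.ne ℓ)⟩
      refine ⟨⟨⟨_, genAlg_le_bar (hmem (d * ℓ) (mul_dvd_mul_right hdN ℓ))⟩,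
        hmem (d * ℓ) (mul_dvd_mul_right hdN ℓ)⟩, fun τ => ?_⟩
      rw [hgen (d * ℓ) (mul_dvd_mul_right hdN ℓ)]
      exact (jNFun_wPt hc d hdN τ).symm.trans (congrFun (hgen d hd _) _).symm
    · obtain ⟨a, rfl⟩ : ℓ ∣ d := by
        by_contra hl
        exact hdN ((Nat.Coprime.symm ((Fact.out : ℓ.Prime).coprime_iff_not_dvd.mpr hl)).dvd_of_dvd_mul_right hd)
      have ha : a ∣ N := Nat.dvd_of_mul_dvd_mul_left (NeZero.pos ℓ) (mul_comm N ℓ ▸ hd)
      haveI : NeZero a := ⟨fun h => NeZero.ne (ℓ * a) (by rw [h, mul_zero])⟩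
      haveI : NeZero (a * ℓ) := ⟨mul_ne_zero (NeZero.ne a) (NeZero.ne ℓ)⟩
      refine ⟨⟨⟨_, genAlg_le_bar (hmem a (ha.mul_right ℓ))⟩, hmem a (ha.mul_right ℓ)⟩, fun τ => ?_⟩
      rw [hgen a (ha.mul_right ℓ)]
      refine ((jNFun_mul_wPt hc a ha τ).symm.trans ?_).trans (congrFun (hgen (ℓ * a) hd _) _).symm
      simp only [mul_comm ℓ a]
  | algebraMap a =>
    refine ⟨algebraMap Q̄ _ a, fun τ => ?_⟩
    rw [show (⟨⟨algebraMap Q̄ (LaurentSeries Q̄) a, _⟩, _⟩ : barAlg (N * ℓ)) =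
      algebraMap Q̄ _ a from rfl, toMod_algebraMap]
    rfl
  | add y z hy hz hy' hz' =>
    obtain ⟨a, ha⟩ := hy'
    obtain ⟨b, hb⟩ := hz'
    refine ⟨a + b, fun τ => ?_⟩
    have e : (⟨⟨y + z, genAlg_le_bar (add_mem hy hz)⟩, add_mem hy hz⟩ : barAlg (N * ℓ)) =
      ⟨⟨y, genAlg_le_bar hy⟩, hy⟩ + ⟨⟨z, genAlg_le_bar hz⟩, hz⟩ :=
      Subtype.ext (Subtype.ext (by simp only [AddMemClass.coe_add]))
    rw [e, map_add, map_add]
    exact congrArg₂ (· + ·) (ha τ) (hb τ)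
  | mul y z hy hz hy' hz' =>
    obtain ⟨a, ha⟩ := hy'
    obtain ⟨b, hb⟩ := hz'
    refine ⟨a * b, fun τ => ?_⟩
    have hyz : y * z ∈ genAlg Q̄ (N * ℓ) := Subalgebra.mul_mem _ hy hz
    have e : (⟨⟨y * z, genAlg_le_bar hyz⟩, hyz⟩ : barAlg (N * ℓ)) =
      ⟨⟨y, genAlg_le_bar hy⟩, hy⟩ * ⟨⟨z, genAlg_le_bar hz⟩, hz⟩ :=
      Subtype.ext (Subtype.ext (by simp only [MulMemClass.coe_mul]))
    rw [e, map_mul, map_mul]
    exact congrArg₂ (· * ·) (ha τ) (hb τ)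

/-- The involution on polynomials. -/
def wFun (y : barAlg (N * ℓ)) : barAlg (N * ℓ) :=
  (exists_wAlg hc (y := ((y : modularFunctionFieldBar (N * ℓ)) : LaurentSeries Q̄)) y.2).choose

theorem toMod_wFun (y : barAlg (N * ℓ)) (τ : ℍ) :
    (toMod (N * ℓ) (wFun hc y) : ℍ → ℂ) τ = (toMod (N * ℓ) y : ℍ → ℂ) (wPt hc τ) :=
  (exists_wAlg hc (y := ((y : modularFunctionFieldBar (N * ℓ)) : LaurentSeries Q̄)) y.2).choose_spec τ

theorem barAlg_ext {a b : barAlg (N * ℓ)}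
    (h : ∀ τ, (toMod (N * ℓ) a : ℍ → ℂ) τ = (toMod (N * ℓ) b : ℍ → ℂ) τ) : a = b :=
  toMod_injective (N * ℓ) (Subtype.ext (funext h))

theorem wFun_wFun (y : barAlg (N * ℓ)) : wFun hc (wFun hc y) = y := barAlg_ext fun τ => by
  obtain ⟨γ, hγ, h⟩ := wPt_wPt hc τ
  rw [toMod_wFun, toMod_wFun, h]
  exact (toMod (N * ℓ) y).2.invariant γ hγ τ

/-- The involution on polynomials, as an algebra automorphism. -/
def wAlg : barAlg (N * ℓ) ≃ₐ[Q̄] barAlg (N * ℓ) where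
  toFun := wFun hc
  invFun := wFun hc
  left_inv := wFun_wFun hc
  right_inv := wFun_wFun hc
  map_mul' a b := barAlg_ext fun τ => by
    rw [toMod_wFun, map_mul, map_mul]
    exact (congrArg₂ (· * ·) (toMod_wFun hc a τ) (toMod_wFun hc b τ)).symm
  map_add' a b := barAlg_ext fun τ => by
    rw [toMod_wFun, map_add, map_add]
    exact (congrArg₂ (· + ·) (toMod_wFun hc a τ) (toMod_wFun hc b τ)).symm
  commutes' c := barAlg_ext fun τ => by
    rw [toMod_wFun, toMod_algebraMap]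
    rfl

theorem wAlg_swap (d : ℕ) [NeZero d] [NeZero (d * ℓ)] (hd : d ∣ N)
    (h₁ : qExpand Q̄ d (jqModC Q̄) ∈ genAlg Q̄ (N * ℓ))
    (h₂ : qExpand Q̄ (d * ℓ) (jqModC Q̄) ∈ genAlg Q̄ (N * ℓ)) :
    wAlg hc ⟨⟨_, genAlg_le_bar h₁⟩, h₁⟩ = ⟨⟨_, genAlg_le_bar h₂⟩, h₂⟩ := by
  refine barAlg_ext fun τ => (toMod_wFun hc _ τ).trans ?_
  have e₁ : toMod (N * ℓ) ⟨⟨_, genAlg_le_bar h₁⟩, h₁⟩ =
      ⟨jNFun d, GalRep.modFuns_anti (Gamma0_le_of_dvd (hd.mul_right ℓ)) (GalRep.isModFun_jNFun d)⟩ :=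
    modFun_ext (hasQSeries_toMod (N * ℓ) _) (seriesToC_gen d ▸ GalRep.hasQSeries_jNFun d)
  have e₂ : toMod (N * ℓ) ⟨⟨_, genAlg_le_bar h₂⟩, h₂⟩ =
      ⟨jNFun (d * ℓ), GalRep.modFuns_anti (Gamma0_le_of_dvd (mul_dvd_mul_right hd ℓ))
        (GalRep.isModFun_jNFun (d * ℓ))⟩ :=
    modFun_ext (hasQSeries_toMod (N * ℓ) _) (seriesToC_gen (d * ℓ) ▸ GalRep.hasQSeries_jNFun _)
  rw [e₁, e₂]
  exact jNFun_wPt hc d hd τ

/-! ## On the field -/

theorem isFractionRing_bar (M : ℕ) [NeZero M] :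
    IsFractionRing (barAlg M) (modularFunctionFieldBar M) := by
  obtain ⟨p, hpM, hp⟩ := Nat.exists_infinite_primes (M + 1)
  haveI : Fact p.Prime := ⟨hp⟩
  obtain ⟨A, hA⟩ := Galois.exists_liesOverPrime hp
  exact isFractionRing_barAlg M hA fun h =>
    absurd (Nat.le_of_dvd (NeZero.pos M) h) (by omega)

/-- The Atkin–Lehner involution. -/
def wBar : modularFunctionFieldBar (N * ℓ) ≃ₐ[Q̄] modularFunctionFieldBar (N * ℓ) :=
  haveI := isFractionRing_bar (N * ℓ)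
  AlgEquiv.ofRingEquiv
    (f := IsFractionRing.ringEquivOfRingEquiv (K := modularFunctionFieldBar (N * ℓ))
      (L := modularFunctionFieldBar (N * ℓ)) (wAlg hc).toRingEquiv) fun c => by
    rw [show algebraMap Q̄ (modularFunctionFieldBar (N * ℓ)) c =
      algebraMap (barAlg (N * ℓ)) (modularFunctionFieldBar (N * ℓ)) (algebraMap Q̄ _ c) from rfl,
      IsFractionRing.ringEquivOfRingEquiv_algebraMap]
    exact congrArg (algebraMap _ _) ((wAlg hc).commutes c)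

theorem wBar_coe (y : barAlg (N * ℓ)) :
    wBar hc (y : modularFunctionFieldBar (N * ℓ)) =
      ((wAlg hc y : barAlg (N * ℓ)) : modularFunctionFieldBar (N * ℓ)) :=
  haveI := isFractionRing_bar (N * ℓ)
  IsFractionRing.ringEquivOfRingEquiv_algebraMap (K := modularFunctionFieldBar (N * ℓ))
    (L := modularFunctionFieldBar (N * ℓ)) (wAlg hc).toRingEquiv y

theorem wBar_wBar (x : modularFunctionFieldBar (N * ℓ)) : wBar hc (wBar hc x) = x := by
  haveI := isFractionRing_bar (N * ℓ)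
  have h : ((wBar hc).trans (wBar hc) : modularFunctionFieldBar (N * ℓ) →+*
      modularFunctionFieldBar (N * ℓ)) = RingHom.id _ := by
    refine IsLocalization.ringHom_ext (nonZeroDivisors (barAlg (N * ℓ))) (RingHom.ext fun y => ?_)
    show wBar hc (wBar hc (y : modularFunctionFieldBar (N * ℓ))) = (y : modularFunctionFieldBar _)
    exact ((congrArg (wBar hc) (wBar_coe hc y)).trans (wBar_coe hc _)).trans
      (congrArg Subtype.val ((wAlg hc).left_inv y))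
  exact RingHom.congr_fun h x

theorem wBar_alpha (x : modularFunctionFieldBar N) :
    wBar hc (heckeAlphaBar Q̄ N ℓ x) = heckeBetaBar Q̄ N ℓ x := by
  obtain ⟨x, hx⟩ := x
  have hx' : x ∈ modularFunctionFieldFullC Q̄ N := laurentBaseChange_full Q̄ N ▸ hx
  induction hx' using IntermediateField.adjoin_induction with
  | mem y hy =>
    obtain ⟨d, hd0, hd, rfl⟩ := hy
    haveI : NeZero (d * ℓ) := ⟨mul_ne_zero (NeZero.ne d) (NeZero.ne ℓ)⟩
    have h₁ : qExpand Q̄ d (jqModC Q̄) ∈ genAlg Q̄ (N * ℓ) :=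
      Algebra.subset_adjoin (mem_divisorExpansionsC Q̄ (N * ℓ) (hd.mul_right ℓ))
    have h₂ : qExpand Q̄ (d * ℓ) (jqModC Q̄) ∈ genAlg Q̄ (N * ℓ) :=
      Algebra.subset_adjoin (mem_divisorExpansionsC Q̄ (N * ℓ) (mul_dvd_mul_right hd ℓ))
    rw [show heckeAlphaBar Q̄ N ℓ ⟨qExpand Q̄ d (jqModC Q̄), hx⟩ =
      ((⟨⟨_, genAlg_le_bar h₁⟩, h₁⟩ : barAlg (N * ℓ)) : modularFunctionFieldBar (N * ℓ)) from
      Subtype.ext (coe_heckeAlphaBar N ℓ _), wBar_coe, wAlg_swap hc d hd h₁ h₂]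
    apply Subtype.ext
    show qExpand Q̄ (d * ℓ) (jqModC Q̄) = qExpand Q̄ ℓ (qExpand Q̄ d (jqModC Q̄))
    haveI : NeZero (ℓ * d) := ⟨mul_ne_zero (NeZero.ne ℓ) (NeZero.ne d)⟩
    rw [qExpand_qExpand]
    simp only [mul_comm d ℓ]
  | algebraMap q =>
    rw [show (⟨algebraMap Q̄ (LaurentSeries Q̄) q, hx⟩ : modularFunctionFieldBar N) =
      algebraMap Q̄ _ q from rfl, AlgHom.commutes, AlgHom.commutes, AlgEquiv.commutes]
  | add y z hy hz hy' hz' =>
    have hy₀ : y ∈ modularFunctionFieldBar N := by rw [show modularFunctionFieldBar N = _ from laurentBaseChange_full Q̄ N]; exact hy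
    have hz₀ : z ∈ modularFunctionFieldBar N := by rw [show modularFunctionFieldBar N = _ from laurentBaseChange_full Q̄ N]; exact hz
    rw [show (⟨y + z, hx⟩ : modularFunctionFieldBar N) = ⟨y, hy₀⟩ + ⟨z, hz₀⟩ from rfl]
    simp only [map_add, hy' hy₀, hz' hz₀]
  | inv y hy hy' =>
    have hy₀ : y ∈ modularFunctionFieldBar N := by rw [show modularFunctionFieldBar N = _ from laurentBaseChange_full Q̄ N]; exact hy
    rw [show (⟨y⁻¹, hx⟩ : modularFunctionFieldBar N) = (⟨y, hy₀⟩)⁻¹ from rfl]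
    simp only [map_inv₀, hy' hy₀]
  | mul y z hy hz hy' hz' =>
    have hy₀ : y ∈ modularFunctionFieldBar N := by rw [show modularFunctionFieldBar N = _ from laurentBaseChange_full Q̄ N]; exact hy
    have hz₀ : z ∈ modularFunctionFieldBar N := by rw [show modularFunctionFieldBar N = _ from laurentBaseChange_full Q̄ N]; exact hz
    rw [show (⟨y * z, hx⟩ : modularFunctionFieldBar N) = ⟨y, hy₀⟩ * ⟨z, hz₀⟩ from rfl]
    simp only [map_mul, hy' hy₀, hz' hz₀]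

theorem wBar_beta (x : modularFunctionFieldBar N) :
    wBar hc (heckeBetaBar Q̄ N ℓ x) = heckeAlphaBar Q̄ N ℓ x := by
  rw [← wBar_alpha hc x, wBar_wBar]

/-! ## The degree -/

include hc in
theorem dedekindPsi_mul : dedekindPsi (N * ℓ) = dedekindPsi N * (ℓ + 1) := by
  have hp : ℓ.Prime := Fact.out
  rw [Period.psi_eq_sum, Period.sum_divisors_mul_of_coprime hc.symm Period.psiTerm ?_,
    ← Period.psi_eq_sum]
  · congr 1
    rw [hp.divisors, Finset.sum_pair hp.one_lt.ne]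
    simp [Period.psiTerm, hp.prime.squarefree, Nat.div_self hp.pos]
  · intro e₁ f₁ e₂ f₂ h1 h2
    subst h1 h2
    have hee : Nat.Coprime e₁ e₂ :=
      (hc.symm.coprime_dvd_left (dvd_mul_right _ _)).coprime_dvd_right (dvd_mul_right _ _)
    simp only [Period.psiTerm, Nat.squarefree_mul hee]
    split_ifs <;> simp_all

theorem finrankAlong_alpha : Nat.Coprime ℓ N →
    finrankAlong Q̄ (heckeAlphaBar Q̄ N ℓ) = ℓ + 1 := by
  intro hc
  letI : Algebra Q̄ ℂ := qbarToC.toAlgebra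
  obtain ⟨-, hr₁⟩ := bar_isFinOver_and_finrank N Q̄
  obtain ⟨-, hr₂⟩ := bar_isFinOver_and_finrank (N * ℓ) Q̄
  letI := algebraAlong (heckeAlphaBar Q̄ N ℓ)
  haveI := isScalarTower_along (heckeAlphaBar Q̄ N ℓ)
  show Module.finrank (modularFunctionFieldBar N) (modularFunctionFieldBar (N * ℓ)) = ℓ + 1
  let K := Q̄⟮jBar N Q̄⟯
  letI : Algebra K (modularFunctionFieldBar (N * ℓ)) :=
    ((algebraMap (modularFunctionFieldBar N) (modularFunctionFieldBar (N * ℓ))).comp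
      (algebraMap K (modularFunctionFieldBar N))).toAlgebra
  haveI : IsScalarTower K (modularFunctionFieldBar N) (modularFunctionFieldBar (N * ℓ)) :=
    IsScalarTower.of_algebraMap_eq fun _ => rfl
  have hmap : K.map (heckeAlphaBar Q̄ N ℓ) = Q̄⟮jBar (N * ℓ) Q̄⟯ := by
    rw [adjoin_map, Set.image_singleton]
    congr 2
  have htot : Module.finrank K (modularFunctionFieldBar (N * ℓ)) = (Gamma0 (N * ℓ)).index := by
    rw [← hr₂]
    exact Algebra.finrank_eq_of_equiv_equiv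
      ((K.equivMap (heckeAlphaBar Q̄ N ℓ)).trans (IntermediateField.equivOfEq hmap)).toRingEquiv
      (RingEquiv.refl _) rfl
  have hmul := Module.finrank_mul_finrank K (modularFunctionFieldBar N)
    (modularFunctionFieldBar (N * ℓ))
  rw [htot, hr₁, Period.index_Gamma0, Period.index_Gamma0, dedekindPsi_mul hc] at hmul
  refine Nat.eq_of_mul_eq_mul_left ?_ hmul
  rw [← Period.index_Gamma0]
  exact Nat.pos_of_ne_zero Subgroup.FiniteIndex.index_ne_zero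

include hc in
theorem finrankAlong_beta : finrankAlong Q̄ (heckeBetaBar Q̄ N ℓ) = ℓ + 1 := by
  rw [← finrankAlong_alpha hc]
  exact @Algebra.finrank_eq_of_equiv_equiv _ _ _ _ (algebraAlong (heckeBetaBar Q̄ N ℓ)) _ _ _ _
    (algebraAlong (heckeAlphaBar Q̄ N ℓ)) (RingEquiv.refl _) (wBar hc).toRingEquiv
    (RingHom.ext fun x => (wBar_beta hc x).symm)

/-! ## The embeddings over `β` -/

/-- The norm as the product over a full set of embeddings. -/
theorem norm_eq_prod_of_embeddings {F F' E ι : Type*} [Field F] [Field F'] [Field E] [CharZero F]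
    [Algebra F F'] [FiniteDimensional F F'] [Fintype ι] (φ : F →+* E) (e : ι → F' →+* E)
    (he : ∀ i x, e i (algebraMap F F' x) = φ x) (hinj : Function.Injective e)
    (hcard : Fintype.card ι = Module.finrank F F') (x : F') :
    φ (Algebra.norm F x) = ∏ i, e i x := by
  letI : Algebra F (AlgebraicClosure E) :=
    ((algebraMap E (AlgebraicClosure E)).comp φ).toAlgebra
  let emb : ι → (F' →ₐ[F] AlgebraicClosure E) := fun i =>
    { (algebraMap E (AlgebraicClosure E)).comp (e i) with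
      commutes' := fun c => congrArg (algebraMap E (AlgebraicClosure E)) (he i c) }
  have hbij : Function.Bijective emb := by
    refine (Fintype.bijective_iff_injective_and_card emb).mpr
      ⟨fun i i' h => hinj (RingHom.ext fun y => (algebraMap E (AlgebraicClosure E)).injective
        (AlgHom.congr_fun h y)), ?_⟩
    rw [hcard, AlgHom.card F F' (AlgebraicClosure E)]
  apply (algebraMap E (AlgebraicClosure E)).injective
  rw [map_prod, show algebraMap E (AlgebraicClosure E) (φ (Algebra.norm F x)) =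
    algebraMap F (AlgebraicClosure E) (Algebra.norm F x) from rfl,
    Algebra.norm_eq_prod_embeddings F (AlgebraicClosure E) x]
  exact (Fintype.prod_bijective emb hbij _ _ fun i => rfl).symm

variable {ζ : Q̄ˣ}

/-- The embeddings of `F_{Nℓ}` over `β`. -/
def emb (ζ : Q̄ˣ) : Option (Fin ℓ) → (modularFunctionFieldBar (N * ℓ) →+* LaurentSeries Q̄)
  | some b => (twist (ζ ^ (b : ℕ))).comp (modularFunctionFieldBar (N * ℓ)).val.toRingHom
  | none => (qExpand Q̄ ℓ).comp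
      ((modularFunctionFieldBar (N * ℓ)).val.toRingHom.comp (wBar hc).toAlgHom.toRingHom)

theorem twist_qExpand (hζ : ζ ^ ℓ = 1) (b : ℕ) (f : LaurentSeries Q̄) :
    twist (ζ ^ b) (qExpand Q̄ ℓ f) = qExpand Q̄ ℓ f := by
  ext m
  rw [GalRep.twist_coeff]
  by_cases hm : (ℓ : ℤ) ∣ m
  · obtain ⟨i, rfl⟩ := hm
    rw [zpow_mul, zpow_natCast, ← pow_mul, mul_comm b, pow_mul, hζ, one_pow, one_zpow,
      Units.val_one, mul_one]
  · rw [qExpand_coeff_of_not_dvd ℓ _ hm, zero_mul]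

theorem emb_beta (hζ : ζ ^ ℓ = 1) (o : Option (Fin ℓ)) (x : modularFunctionFieldBar N) :
    emb hc ζ o (heckeBetaBar Q̄ N ℓ x) = qExpand Q̄ ℓ (x : LaurentSeries Q̄) := by
  rcases o with _ | b
  · show qExpand Q̄ ℓ (((wBar hc (heckeBetaBar Q̄ N ℓ x)) : modularFunctionFieldBar (N * ℓ)) :
      LaurentSeries Q̄) = _
    rw [wBar_beta, coe_heckeAlphaBar]
  · show twist (ζ ^ (b : ℕ)) ((heckeBetaBar Q̄ N ℓ x : modularFunctionFieldBar (N * ℓ)) :
      LaurentSeries Q̄) = _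
    rw [coe_heckeBetaBar, twist_qExpand hζ]

theorem emb_alpha_some (ζ : Q̄ˣ) (b : Fin ℓ) (x : modularFunctionFieldBar N) :
    emb hc ζ (some b) (heckeAlphaBar Q̄ N ℓ x) = twist (ζ ^ (b : ℕ)) (x : LaurentSeries Q̄) := by
  show twist (ζ ^ (b : ℕ)) ((heckeAlphaBar Q̄ N ℓ x : modularFunctionFieldBar (N * ℓ)) :
    LaurentSeries Q̄) = _
  rw [coe_heckeAlphaBar]

theorem emb_alpha_none (ζ : Q̄ˣ) (x : modularFunctionFieldBar N) :
    emb hc ζ none (heckeAlphaBar Q̄ N ℓ x) =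
      qExpand Q̄ ℓ (qExpand Q̄ ℓ (x : LaurentSeries Q̄)) := by
  show qExpand Q̄ ℓ (((wBar hc (heckeAlphaBar Q̄ N ℓ x)) : modularFunctionFieldBar (N * ℓ)) :
    LaurentSeries Q̄) = _
  rw [wBar_alpha, coe_heckeBetaBar]

theorem emb_injective (hζ : IsPrimitiveRoot ζ ℓ) : Function.Injective (emb hc (N := N) ζ) := by
  letI : Algebra Q̄ ℂ := qbarToC.toAlgebra
  intro o o' h
  have h1 := RingHom.congr_fun h (heckeAlphaBar Q̄ N ℓ (jBar N Q̄))
  have hs : ∀ b : Fin ℓ, (emb hc ζ (some b) (heckeAlphaBar Q̄ N ℓ (jBar N Q̄))).coeff (-1) =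
      (((ζ ^ (b : ℕ)) ^ (-1 : ℤ) : Q̄ˣ) : Q̄) := fun b => by
    rw [emb_alpha_some, GalRep.twist_coeff, coe_jBar, coeff_jqModC_neg_one, one_mul]
  have hn : (emb hc ζ none (heckeAlphaBar Q̄ N ℓ (jBar N Q̄))).coeff (-1) = 0 := by
    rw [emb_alpha_none, qExpand_coeff_of_not_dvd]
    intro hd
    have := Int.le_of_dvd one_pos (Int.dvd_neg.mp hd)
    have := (Fact.out : ℓ.Prime).two_le
    omega
  have h2 := congrArg (fun f : LaurentSeries Q̄ => f.coeff (-1)) h1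
  rcases o with _ | b <;> rcases o' with _ | b'
  · rfl
  · rw [hn, hs] at h2; exact absurd h2.symm (Units.ne_zero _)
  · rw [hn, hs] at h2; exact absurd h2 (Units.ne_zero _)
  · rw [hs, hs] at h2
    have h3 : ζ ^ (b : ℕ) = ζ ^ (b' : ℕ) := by
      have := Units.ext h2
      simpa using this
    exact congrArg some (Fin.ext (hζ.pow_inj b.2 b'.2 h3))

/-- The norm over `β` in series. -/
theorem qExpand_norm (hζ : IsPrimitiveRoot ζ ℓ) (z : modularFunctionFieldBar (N * ℓ)) :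
    letI := algebraAlong (heckeBetaBar Q̄ N ℓ)
    qExpand Q̄ ℓ ((Algebra.norm (modularFunctionFieldBar N) z : modularFunctionFieldBar N) :
      LaurentSeries Q̄) = ∏ o, emb hc ζ o z := by
  letI := algebraAlong (heckeBetaBar Q̄ N ℓ)
  have hn : Module.finrank (modularFunctionFieldBar N) (modularFunctionFieldBar (N * ℓ)) = ℓ + 1 :=
    finrankAlong_beta hc
  haveI : FiniteDimensional (modularFunctionFieldBar N) (modularFunctionFieldBar (N * ℓ)) :=
    Module.finite_of_finrank_pos (by omega)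
  haveI := charZero_field (K := Q̄) (modularFunctionFieldBar N)
  exact norm_eq_prod_of_embeddings
    ((qExpand Q̄ ℓ).comp (modularFunctionFieldBar N).val.toRingHom) (emb hc ζ)
    (fun o x => emb_beta hc hζ.pow_eq_one o x) (emb_injective hc hζ)
    (by rw [Fintype.card_option, Fintype.card_fin, hn]) z

/-! ## Integrality -/

include hc in
/-- `j (q)` is integral over the polynomials in `j (q ^ ℓ)`. -/
theorem isIntegral_alpha_jBar :
    (Polynomial.aeval (R := Q̄) (heckeBetaBar Q̄ N ℓ (jBar N Q̄))).toRingHom.IsIntegralElem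
      (heckeAlphaBar Q̄ N ℓ (jBar N Q̄)) := by
  letI : Algebra Q̄ ℂ := qbarToC.toAlgebra
  obtain ⟨p, hpM, hp⟩ := Nat.exists_infinite_primes (N * ℓ + 1)
  haveI : Fact p.Prime := ⟨hp⟩
  obtain ⟨A, hA⟩ := Galois.exists_liesOverPrime hp
  have hpN : ¬ p ∣ N * ℓ := fun h => absurd (Nat.le_of_dvd (NeZero.pos _) h) (by omega)
  obtain ⟨r, hr, hr0⟩ := hint_bar A (N * ℓ) hA hpN (qExpand Q̄ ℓ (jqModC Q̄))
    (mem_divisorExpansionsC Q̄ (N * ℓ) (dvd_mul_left ℓ N))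
  refine ⟨r, hr, ?_⟩
  set a := heckeAlphaBar Q̄ N ℓ (jBar N Q̄) with ha
  set b := heckeBetaBar Q̄ N ℓ (jBar N Q̄) with hb
  have hφ : ((modularFunctionFieldBar (N * ℓ)).val.comp (Polynomial.aeval (R := Q̄) a)) =
      evJq Q̄ := by
    refine Polynomial.algHom_ext ?_
    rw [AlgHom.comp_apply, Polynomial.aeval_X, evJq, Polynomial.aeval_X, IntermediateField.coe_val,
      ha, coe_heckeAlphaBar, coe_jBar]
  have hb' : (modularFunctionFieldBar (N * ℓ)).val b = qExpand Q̄ ℓ (jqModC Q̄) := by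
    rw [IntermediateField.coe_val, hb, coe_heckeBetaBar, coe_jBar]
  have h1 : r.eval₂ (Polynomial.aeval (R := Q̄) a).toRingHom b = 0 := by
    refine (map_eq_zero_iff (modularFunctionFieldBar (N * ℓ)).val.toRingHom
      Subtype.val_injective).mp ?_
    rw [Polynomial.hom_eval₂]
    exact (congrArg₂ (fun f u => Polynomial.eval₂ f u r) (congrArg AlgHom.toRingHom hφ) hb').trans hr0
  have hw : ((wBar hc).toAlgHom.comp (Polynomial.aeval (R := Q̄) a)) = Polynomial.aeval b := by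
    refine Polynomial.algHom_ext ?_
    rw [AlgHom.comp_apply, Polynomial.aeval_X, Polynomial.aeval_X]
    exact wBar_alpha hc _
  have hwb : (wBar hc).toAlgHom.toRingHom b = a := wBar_beta hc _
  have h2 := congrArg (wBar hc).toAlgHom.toRingHom h1
  rw [Polynomial.hom_eval₂, map_zero] at h2
  exact (congrArg₂ (fun f u => Polynomial.eval₂ f u r) (congrArg AlgHom.toRingHom hw) hwb).symm.trans
    h2

end Fermat.Agent.MCurve.Spec
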