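import Fermat.Agent.MCurve.Spec.GaloisRed
import Fermat.Agent.MCurve.Spec.Fricke
import Fermat.Agent.MCurve.Spec.ChartMaps

/-!
The characteristic polynomial over `β` in series, its reduction, and the integrality of the two
degeneracy images of `j` over one another.
-/

set_option autoImplicit false

set_option linter.style.haveILetI false
set_option linter.unusedSectionVars false
set_option maxHeartbeats 1000000
set_option synthInstance.maxHeartbeats 400000

noncomputable section

namespace Fermat.Agent.MCurve.Spec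

open AlgebraicCurve ModularCurve IsLocalRing IntermediateField
open Fermat.Agent.GalRep (qbarToC twist)

local notation "Q̄" => AlgebraicClosure ℚ

variable {A : ValuationSubring Q̄} {N ℓ : ℕ} [NeZero N] [NeZero ℓ] [Fact ℓ.Prime]

/-- Expansion in `q ^ ℓ` of a function. -/
def qE (N ℓ : ℕ) [NeZero ℓ] : modularFunctionFieldBar N →+* LaurentSeries Q̄ :=
  (qExpand Q̄ ℓ).comp (modularFunctionFieldBar N).val.toRingHom

theorem qE_apply (x : modularFunctionFieldBar N) :
    qE N ℓ x = qExpand Q̄ ℓ (x : LaurentSeries Q̄) := rfl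

theorem exists_primitiveRoot : ∃ ζ : Q̄ˣ, IsPrimitiveRoot ζ ℓ := by
  have hℓ : ℓ.Prime := Fact.out
  obtain ⟨z, hz⟩ := IsAlgClosed.exists_root (Polynomial.cyclotomic ℓ Q̄)
    (Polynomial.degree_cyclotomic_pos ℓ Q̄ hℓ.pos).ne'
  haveI : NeZero (ℓ : Q̄) := ⟨Nat.cast_ne_zero.mpr hℓ.ne_zero⟩
  rw [Polynomial.isRoot_cyclotomic_iff] at hz
  exact ⟨(hz.isUnit hℓ.ne_zero).unit, IsPrimitiveRoot.coe_units_iff.mp hz⟩

section Roots

variable (hc : Nat.Coprime ℓ N) {ζ : Q̄ˣ} (hζ : IsPrimitiveRoot ζ ℓ)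
  [Algebra (modularFunctionFieldBar N) (modularFunctionFieldBar (N * ℓ))]
  [FiniteDimensional (modularFunctionFieldBar N) (modularFunctionFieldBar (N * ℓ))]
  (hβ : ∀ x, algebraMap (modularFunctionFieldBar N) (modularFunctionFieldBar (N * ℓ)) x =
    heckeBetaBar Q̄ N ℓ x)
  (hn : Module.finrank (modularFunctionFieldBar N) (modularFunctionFieldBar (N * ℓ)) = ℓ + 1)
include hc hζ hβ hn

/-- The roots of the characteristic polynomial over `β`. -/
theorem map_charpoly (z : modularFunctionFieldBar (N * ℓ)) :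
    (Algebra.lmul (modularFunctionFieldBar N) (modularFunctionFieldBar (N * ℓ)) z).charpoly.map
      (qE N ℓ) = ∏ o, (Polynomial.X - Polynomial.C (emb hc ζ o z)) := by
  haveI := charZero_field (K := Q̄) (modularFunctionFieldBar N)
  refine Polynomial.eq_of_infinite_eval_eq _ _ (Set.Infinite.mono ?_
    (Set.infinite_range_of_injective
      ((qE N ℓ).comp (algebraMap Q̄ (modularFunctionFieldBar N))).injective))
  rintro _ ⟨a, rfl⟩
  show Polynomial.eval (qE N ℓ (algebraMap Q̄ (modularFunctionFieldBar N) a)) _ =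
    Polynomial.eval (qE N ℓ (algebraMap Q̄ (modularFunctionFieldBar N) a)) _
  rw [Polynomial.eval_map, Polynomial.eval₂_at_apply, eval_charpoly_lmul, Polynomial.eval_prod]
  refine (norm_eq_prod_of_embeddings (qE N ℓ) (emb hc ζ)
    (fun o x => by rw [hβ]; exact emb_beta hc hζ.pow_eq_one o x) (emb_injective hc hζ)
    (by rw [Fintype.card_option, Fintype.card_fin, hn]) _).trans (Finset.prod_congr rfl fun o _ => ?_)
  rw [map_sub, hβ, emb_beta hc hζ.pow_eq_one o, Polynomial.eval_sub, Polynomial.eval_X,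
    Polynomial.eval_C]
  rfl

/-- Integrality descends to the coefficients. -/
theorem isIntegralElem_coeff {R : Type*} [CommRing R] (φ : R →+* modularFunctionFieldBar N)
    {z : modularFunctionFieldBar (N * ℓ)}
    (hz : ((heckeBetaBar Q̄ N ℓ).toRingHom.comp φ).IsIntegralElem z) (i : ℕ) :
    φ.IsIntegralElem
      ((Algebra.lmul (modularFunctionFieldBar N) (modularFunctionFieldBar (N * ℓ)) z).charpoly.coeff i) := by
  letI : Algebra R (LaurentSeries Q̄) := ((qE N ℓ).comp φ).toAlgebra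
  have hroot : ∀ o, IsIntegral R (emb hc ζ o z) := by
    intro o
    obtain ⟨p, hp, hpz⟩ := hz
    refine ⟨p, hp, ?_⟩
    have h := congrArg (emb hc ζ o) hpz
    rw [Polynomial.hom_eval₂, map_zero] at h
    refine (congrArg (fun f => Polynomial.eval₂ f (emb hc ζ o z) p) (RingHom.ext fun r => ?_)).trans h
    exact (emb_beta hc hζ.pow_eq_one o (φ r)).symm
  set P : Polynomial (integralClosure R (LaurentSeries Q̄)) :=
    ∏ o, (Polynomial.X - Polynomial.C ⟨emb hc ζ o z, hroot o⟩) with hP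
  have hmap : P.map (integralClosure R (LaurentSeries Q̄)).val.toRingHom =
      (Algebra.lmul (modularFunctionFieldBar N) (modularFunctionFieldBar (N * ℓ)) z).charpoly.map
        (qE N ℓ) := by
    rw [map_charpoly hc hζ hβ hn, hP, Polynomial.map_prod]
    refine Finset.prod_congr rfl fun o _ => ?_
    rw [Polynomial.map_sub, Polynomial.map_X, Polynomial.map_C]
    rfl
  have hi := congrArg (fun p : Polynomial (LaurentSeries Q̄) => p.coeff i) hmap
  simp only [Polynomial.coeff_map] at hi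
  obtain ⟨p, hp, hpc⟩ := (P.coeff i).2
  refine ⟨p, hp, (qE N ℓ).injective ?_⟩
  rw [Polynomial.hom_eval₂, map_zero, ← hi]
  exact hpc

variable (hA : A.LiesOverPrime ℓ) (hℓN : ¬ ℓ ∣ N)
include hA hℓN

/-- If the roots are in the reduction ring, so are the coefficients. -/
theorem coeff_mem_red {z : modularFunctionFieldBar (N * ℓ)}
    (hz : ∀ o, emb hc ζ o z ∈ redRing A) (i : ℕ) :
    (((Algebra.lmul (modularFunctionFieldBar N) (modularFunctionFieldBar (N * ℓ)) z).charpoly.coeff i :
      modularFunctionFieldBar N) : LaurentSeries Q̄) ∈ redRing A := by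
  set c := (Algebra.lmul (modularFunctionFieldBar N)
    (modularFunctionFieldBar (N * ℓ)) z).charpoly.coeff i
  have hq : qExpand Q̄ ℓ (c : LaurentSeries Q̄) ∈ redRing A := by
    set P : Polynomial (redRing A) := ∏ o, (Polynomial.X - Polynomial.C ⟨emb hc ζ o z, hz o⟩) with hP
    have hmap : P.map (redRing A).subtype = (Algebra.lmul (modularFunctionFieldBar N)
        (modularFunctionFieldBar (N * ℓ)) z).charpoly.map (qE N ℓ) := by
      rw [map_charpoly hc hζ hβ hn, hP, Polynomial.map_prod]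
      refine Finset.prod_congr rfl fun o _ => ?_
      rw [Polynomial.map_sub, Polynomial.map_X, Polynomial.map_C]
      rfl
    have hi := congrArg (fun p : Polynomial (LaurentSeries Q̄) => p.coeff i) hmap
    simp only [Polynomial.coeff_map] at hi
    rw [← qE_apply, ← hi]
    exact (P.coeff i).2
  by_contra hnot
  obtain ⟨h, h0⟩ := (mem_or_inv_red hA hℓN c).resolve_left hnot
  generalize (c : LaurentSeries Q̄) = y at h h0 hq hnot
  have hy : y ≠ 0 := fun hy => hnot (hy ▸ zero_mem _)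
  have hm := map_mem_redRing (qExpand Q̄ ℓ) (qExpand (ResidueField A) ℓ) (qExpand_compat A ℓ) h
  have h1 : (⟨qExpand Q̄ ℓ y⁻¹, hm⟩ : redRing A) * ⟨qExpand Q̄ ℓ y, hq⟩ = 1 := Subtype.ext (by
    show qExpand Q̄ ℓ y⁻¹ * qExpand Q̄ ℓ y = 1
    rw [← map_mul, inv_mul_cancel₀ hy, map_one])
  have h2 := congrArg (redS A) h1
  rw [map_mul, map_one, redS_map (qExpand Q̄ ℓ) (qExpand (ResidueField A) ℓ) (qExpand_compat A ℓ)
    ⟨y⁻¹, h⟩, h0, map_zero, zero_mul] at h2
  exact zero_ne_one h2

/-- Integrality with integral series puts a function on the chart over `β`. -/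
theorem mem_chart_beta {t : modularFunctionFieldBar N} (hv : ChartVar A t)
    {z : modularFunctionFieldBar (N * ℓ)}
    (hzQ : ((heckeBetaBar Q̄ N ℓ).toRingHom.comp
      (Polynomial.aeval (R := Q̄) t).toRingHom).IsIntegralElem z)
    (hz : ∀ o, emb hc ζ o z ∈ redRing A) : z ∈ chart A (heckeBetaBar Q̄ N ℓ t) := by
  refine mem_chart_of_monic A ((Algebra.lmul (modularFunctionFieldBar N)
      (modularFunctionFieldBar (N * ℓ)) z).charpoly.map (heckeBetaBar Q̄ N ℓ).toRingHom)
    ((LinearMap.charpoly_monic _).map _) (fun i => ?_) ?_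
  · rw [Polynomial.coeff_map]
    exact map_mem_chart (heckeBetaBar Q̄ N ℓ) (mem_chart_of_red hA hℓN hv
      (coeff_mem_red hc hζ hβ hn hA hℓN hz i) (isIntegralElem_coeff hc hζ hβ hn _ hzQ i))
  · rw [Polynomial.eval_map, ← show algebraMap (modularFunctionFieldBar N)
      (modularFunctionFieldBar (N * ℓ)) = (heckeBetaBar Q̄ N ℓ).toRingHom from RingHom.ext hβ]
    exact aeval_charpoly_lmul z

end Roots

theorem emb_alpha_mem (hc : Nat.Coprime ℓ N) (hA : A.LiesOverPrime ℓ) {ζ : Q̄ˣ}
    (hζ : IsPrimitiveRoot ζ ℓ) {y : modularFunctionFieldBar N}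
    (hy : (y : LaurentSeries Q̄) ∈ redRing A) (o : Option (Fin ℓ)) :
    emb hc ζ o (heckeAlphaBar Q̄ N ℓ y) ∈ redRing A := by
  rcases o with _ | b
  · rw [emb_alpha_none]
    exact map_mem_redRing _ _ (qExpand_compat A ℓ) (map_mem_redRing _ _ (qExpand_compat A ℓ) hy)
  · rw [emb_alpha_some]
    exact map_mem_redRing _ _ (twist_compat A hA
      (by rw [← pow_mul, mul_comm, pow_mul, hζ.pow_eq_one, one_pow])) hy

variable (hA : A.LiesOverPrime ℓ) (hℓN : ¬ ℓ ∣ N)
include hA hℓN

omit hA in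
theorem coprime_of : Nat.Coprime ℓ N := (Fact.out : ℓ.Prime).coprime_iff_not_dvd.mpr hℓN

/-- `j (q)` is integral over `A [j (q ^ ℓ)]`. -/
theorem alpha_jBar_mem_chart :
    heckeAlphaBar Q̄ N ℓ (jBar N Q̄) ∈ chart A (heckeBetaBar Q̄ N ℓ (jBar N Q̄)) := by
  have hc := coprime_of hℓN
  obtain ⟨ζ, hζ⟩ := exists_primitiveRoot (ℓ := ℓ)
  letI := algebraAlong (heckeBetaBar Q̄ N ℓ)
  have hn : Module.finrank (modularFunctionFieldBar N) (modularFunctionFieldBar (N * ℓ)) = ℓ + 1 :=
    finrankAlong_beta hc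
  haveI : FiniteDimensional (modularFunctionFieldBar N) (modularFunctionFieldBar (N * ℓ)) :=
    Module.finite_of_finrank_pos (by omega)
  refine mem_chart_beta hc hζ (fun _ => rfl) hn hA hℓN (chartVarJ A) ?_ fun o => ?_
  · obtain ⟨p, hp, hp0⟩ := isIntegral_alpha_jBar hc
    refine ⟨p, hp, (congrArg (fun f => Polynomial.eval₂ f _ p) ?_).trans hp0⟩
    exact congrArg AlgHom.toRingHom (Polynomial.algHom_ext
      (f := (heckeBetaBar Q̄ N ℓ).comp (Polynomial.aeval (jBar N Q̄)))
      (g := Polynomial.aeval (heckeBetaBar Q̄ N ℓ (jBar N Q̄))) (by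
        rw [AlgHom.comp_apply, Polynomial.aeval_X, Polynomial.aeval_X]))
  · refine emb_alpha_mem hc hA hζ ?_ o
    rw [← (chartVarJ A).coe_T]
    exact sQ_mem A _

/-- `j (q ^ ℓ)` is integral over `A [j (q)]`. -/
theorem beta_jBar_mem_chart :
    heckeBetaBar Q̄ N ℓ (jBar N Q̄) ∈ chart A (heckeAlphaBar Q̄ N ℓ (jBar N Q̄)) := by
  have hc := coprime_of hℓN
  have h := map_mem_chart (wBar hc).toAlgHom (alpha_jBar_mem_chart hA hℓN)
  rwa [AlgEquiv.toAlgHom_eq_coe, AlgEquiv.coe_toAlgHom, wBar_alpha, wBar_beta] at h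

end Fermat.Agent.MCurve.Spec
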