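import Fermat.Agent.MCurve.Spec.Gauss
import Fermat.Agent.MCurve.PlaceFibre

/-!
Orders on a disc of a Galois covering of the line over a valuation ring: the valuation of a reduction
at a centre is the sum of the orders at the places of the disc.
-/

set_option autoImplicit false
set_option linter.style.haveILetI false
set_option linter.unusedSectionVars false

noncomputable section

namespace Fermat.Agent.MCurve.Spec

open AlgebraicCurve Polynomial IsLocalRing IntermediateField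

local notation "Q̄" => AlgebraicClosure ℚ

variable {A : ValuationSubring Q̄} {F : Type*} [Field F] [Algebra Q̄ F]

/-- `a` is the value of `y` at `Q`. -/
def HasVal (Q : Place Q̄ F) (y : F) (a : Q̄) : Prop :=
  y = algebraMap Q̄ F a ∨ 0 < Q.ord (y - algebraMap Q̄ F a)

theorem hasVal_smul (g : F ≃ₐ[Q̄] F) (Q : Place Q̄ F) (y : F) (a : Q̄) :
    HasVal (g • Q) (g y) a ↔ HasVal Q y a := by
  have h : g y - algebraMap Q̄ F a = g (y - algebraMap Q̄ F a) := by rw [map_sub, g.commutes]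
  unfold HasVal
  rw [h, Place.ord_smul]
  refine or_congr_left ?_
  conv_lhs => rw [← g.commutes a]
  exact g.injective.eq_iff

theorem HasVal.mem {Q : Place Q̄ F} {y : F} {a : Q̄} (h : HasVal Q y a) :
    y ∈ Q.toValuationSubring := by
  rcases h with rfl | h
  · exact Q.algebraMap_mem' a
  · have h0 : y - algebraMap Q̄ F a ≠ 0 := fun h0 => by simp [h0] at h
    rw [← sub_add_cancel y (algebraMap Q̄ F a)]
    exact add_mem ((mem_iff_ord_nonneg Q h0).mpr h.le) (Q.algebraMap_mem' a)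

theorem HasVal.ord_nonneg {Q : Place Q̄ F} {y : F} {a : Q̄} (h : HasVal Q y a) : 0 ≤ Q.ord y :=
  ord_nonneg_of_mem' Q h.mem

theorem HasVal.ord_eq_zero {Q : Place Q̄ F} {y : F} {a : Q̄} (h : HasVal Q y a) (ha : a ≠ 0) :
    Q.ord y = 0 := by
  rcases h with rfl | h
  · exact ord_algebraMap Q a
  · have h0 : y - algebraMap Q̄ F a ≠ 0 := fun h0 => by simp [h0] at h
    have := ord_add_eq Q (f := algebraMap Q̄ F a) (g := y - algebraMap Q̄ F a)
      ((_root_.map_ne_zero _).mpr ha) h0 (by rwa [ord_algebraMap])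
    rwa [add_sub_cancel, ord_algebraMap] at this

theorem finite_ord_support [HasPrincipalDivisors Q̄ F] (x : F) :
    {Q : Place Q̄ F | Q.ord x ≠ 0}.Finite := by
  rcases eq_or_ne x 0 with rfl | hx
  · simp
  obtain ⟨D, hD, -⟩ := HasPrincipalDivisors.exists_divisor (K := Q̄) x hx
  refine D.support.finite_toSet.subset fun Q hQ => ?_
  rw [Finset.mem_coe, Finsupp.mem_support_iff, hD]
  exact hQ

variable (A F) in
/-- A centre of a Galois covering of the line with coordinate `T` over the valuation ring. -/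
structure DiscData where
  /-- The group. -/
  Γ : Subgroup (F ≃ₐ[Q̄] F)
  finΓ : Finite Γ
  /-- The coordinate. -/
  T : F
  fin : IsFinOver Q̄ T
  fixed : fixedField Γ = Q̄⟮T⟯
  /-- The chart. -/
  B : Subring F
  const_mem : ∀ a : A, algebraMap Q̄ F a ∈ B
  T_mem : T ∈ B
  stable : ∀ g ∈ Γ, ∀ y ∈ B, g y ∈ B
  /-- The centre. -/
  χ : B →+* ResidueField A
  χ_const : ∀ a : A, χ ⟨_, const_mem a⟩ = residue A a
  val : ∀ (Q : Place Q̄ F) (β : A), residue A β = χ ⟨T, T_mem⟩ →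
    0 < Q.ord (T - algebraMap Q̄ F β) → ∀ y ∈ B, ∃ a : A, HasVal Q y a
  conj : ∀ (Q : Place Q̄ F) (β : A), residue A β = χ ⟨T, T_mem⟩ →
    0 < Q.ord (T - algebraMap Q̄ F β) →
    ∃ g ∈ Γ, ∀ (y : B) (a : A), HasVal Q (g y) a → residue A a = χ y
  closed : ∀ x ∈ B, ∀ β : A, residue A β = χ ⟨T, T_mem⟩ → (∀ Q : Place Q̄ F,
    0 < Q.ord (T - algebraMap Q̄ F β) → Q.ord (T - algebraMap Q̄ F β) ≤ Q.ord x) →
    x / (T - algebraMap Q̄ F β) ∈ B

namespace DiscData

variable (D : DiscData A F)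

instance : Finite D.Γ := D.finΓ

/-- Constants in the chart. -/
def cst (a : A) : D.B := ⟨_, D.const_mem a⟩

/-- The coordinate in the chart. -/
def T' : D.B := ⟨D.T, D.T_mem⟩

/-- `T - β`. -/
def Tsub (β : A) : D.B := D.T' - D.cst β

theorem coe_Tsub (β : A) : (D.Tsub β : F) = D.T - algebraMap Q̄ F β := rfl

theorem χ_cst (a : A) : D.χ (D.cst a) = residue A a := D.χ_const a

theorem χ_Tsub (β : A) : D.χ (D.Tsub β) = D.χ D.T' - residue A β := by
  rw [Tsub, map_sub, χ_cst]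

/-- The action on the chart. -/
def act (g : D.Γ) (y : D.B) : D.B := ⟨(g : F ≃ₐ[Q̄] F) y, D.stable g g.2 y y.2⟩

/-- The disc. -/
def InDisc (Q : Place Q̄ F) : Prop :=
  (∃ β : A, residue A β = D.χ D.T' ∧ 0 < Q.ord (D.T - algebraMap Q̄ F β)) ∧
    ∀ (y : D.B) (a : A), HasVal Q y a → residue A a = D.χ y

/-- The stabiliser of the centre. -/
def stab : Set D.Γ := {g | ∀ y : D.B, D.χ (D.act g y) = D.χ y}

open scoped Classical in
/-- The sum of the orders at the places of the disc. -/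
def tot (x : F) : ℤ := ∑ᶠ Q : Place Q̄ F, if D.InDisc Q then Q.ord x else 0

variable {D}

theorem InDisc.exists_val {Q : Place Q̄ F} (h : D.InDisc Q) (y : D.B) :
    ∃ a : A, HasVal Q y a ∧ residue A a = D.χ y := by
  obtain ⟨⟨β, hβ, hpos⟩, hQ⟩ := h
  obtain ⟨a, ha⟩ := D.val Q β hβ hpos y y.2
  exact ⟨a, ha, hQ y a ha⟩

theorem InDisc.ord_nonneg {Q : Place Q̄ F} (h : D.InDisc Q) (y : D.B) : 0 ≤ Q.ord (y : F) := by
  obtain ⟨a, ha, -⟩ := h.exists_val y
  exact ha.ord_nonneg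

theorem InDisc.ord_eq_zero {Q : Place Q̄ F} (h : D.InDisc Q) {y : D.B} (hy : D.χ y ≠ 0) :
    Q.ord (y : F) = 0 := by
  obtain ⟨a, ha, har⟩ := h.exists_val y
  refine ha.ord_eq_zero fun h0 => hy ?_
  rw [← har, show a = 0 from Subtype.ext h0, map_zero]

theorem smul_T {g : F ≃ₐ[Q̄] F} (hg : g ∈ D.Γ) : g D.T = D.T :=
  (mem_fixedField_iff _ _).mp (D.fixed ▸ mem_adjoin_simple_self Q̄ D.T) g hg

theorem ord_smul_Tsub (g : D.Γ) (Q : Place Q̄ F) (β : A) :
    ((g : F ≃ₐ[Q̄] F) • Q).ord (D.T - algebraMap Q̄ F β) = Q.ord (D.T - algebraMap Q̄ F β) := by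
  conv_lhs => rw [show D.T - algebraMap Q̄ F β = (g : F ≃ₐ[Q̄] F) (D.T - algebraMap Q̄ F β) by
    rw [map_sub, smul_T g.2, AlgEquiv.commutes], Place.ord_smul]

theorem InDisc.smul_iff {Q : Place Q̄ F} (h : D.InDisc Q) (g : D.Γ) :
    D.InDisc ((g : F ≃ₐ[Q̄] F) • Q) ↔ g ∈ D.stab := by
  constructor
  · intro hg y
    obtain ⟨a, ha, har⟩ := h.exists_val y
    rw [← hg.2 (D.act g y) a ((hasVal_smul _ Q y a).mpr ha), har]
  · intro hg
    obtain ⟨⟨β, hβ, hpos⟩, hQ⟩ := h
    refine ⟨⟨β, hβ, by rwa [ord_smul_Tsub]⟩, fun y a ha => ?_⟩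
    have h1 : (D.act g (D.act g⁻¹ y)) = y := Subtype.ext ((g : F ≃ₐ[Q̄] F).apply_symm_apply y)
    rw [← h1, hg (D.act g⁻¹ y)]
    refine hQ _ a ((hasVal_smul (g : F ≃ₐ[Q̄] F) Q _ a).mp ?_)
    rw [show (g : F ≃ₐ[Q̄] F) (D.act g⁻¹ y : F) = y from congrArg Subtype.val h1]
    exact ha

theorem exists_inDisc {β : A} (hβ : residue A β = D.χ D.T') :
    ∃ Q, D.InDisc Q ∧ 0 < Q.ord (D.T - algebraMap Q̄ F β) := by
  haveI := D.fin.finite
  obtain ⟨Z, hZ, hsum⟩ := D.fin.exists_zeros (β : Q̄)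
  obtain ⟨Q, hQ⟩ : Z.Nonempty := by
    by_contra hne
    rw [Finset.not_nonempty_iff_eq_empty.mp hne, Finset.sum_empty] at hsum
    exact Module.finrank_pos.ne' (by exact_mod_cast hsum.symm)
  obtain ⟨g, hg, hgQ⟩ := D.conj Q β hβ ((hZ Q).mp hQ)
  have hpos : 0 < (g⁻¹ • Q).ord (D.T - algebraMap Q̄ F β) :=
    lt_of_lt_of_eq ((hZ Q).mp hQ) (ord_smul_Tsub ⟨g⁻¹, inv_mem hg⟩ Q β).symm
  refine ⟨g⁻¹ • Q, ⟨⟨β, hβ, hpos⟩, fun y a ha => hgQ y a ?_⟩, hpos⟩
  rwa [← hasVal_smul g, smul_inv_smul] at ha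

open scoped Classical in
theorem card_fibre_smul [Fintype D.Γ] (Q₀ : Place Q̄ F) (g : D.Γ) :
    (Finset.univ.filter fun h : D.Γ => (h : F ≃ₐ[Q̄] F) • Q₀ = (g : F ≃ₐ[Q̄] F) • Q₀).card =
      Nat.card (MulAction.stabilizer D.Γ Q₀) := by
  rw [← Nat.card_eq_finsetCard]
  exact (Nat.card_congr
    { toFun := fun h => ⟨g * h.1, Finset.mem_filter.mpr ⟨Finset.mem_univ _, by
        have hh : (h.1 : F ≃ₐ[Q̄] F) • Q₀ = Q₀ := h.2
        rw [Subgroup.coe_mul, mul_smul, hh]⟩⟩
      invFun := fun h => ⟨g⁻¹ * h.1, by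
        rw [MulAction.mem_stabilizer_iff, mul_smul, inv_smul_eq_iff]
        exact (Finset.mem_filter.mp h.2).2⟩
      left_inv := fun h => Subtype.ext (inv_mul_cancel_left _ _)
      right_inv := fun h => Subtype.ext (mul_inv_cancel_left _ _) }).symm

variable [HasPrincipalDivisors Q̄ F]

theorem tot_mul {x y : F} (hx : x ≠ 0) (hy : y ≠ 0) : D.tot (x * y) = D.tot x + D.tot y := by
  classical
  have hs : ∀ z : F, (Function.support fun Q : Place Q̄ F =>
      if D.InDisc Q then Q.ord z else 0).Finite := fun z =>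
    (finite_ord_support z).subset fun Q hQ => by
      simp only [Function.mem_support, ne_eq, ite_eq_right_iff, Classical.not_imp] at hQ
      exact hQ.2
  rw [tot, tot, tot, ← finsum_add_distrib (hs x) (hs y)]
  refine finsum_congr fun Q => ?_
  split_ifs
  · exact Q.ord_mul hx hy
  · rw [add_zero]

theorem tot_prod {ι : Type*} (s : Finset ι) (f : ι → F) (hf : ∀ i ∈ s, f i ≠ 0) :
    D.tot (∏ i ∈ s, f i) = ∑ i ∈ s, D.tot (f i) := by
  classical
  induction s using Finset.induction_on with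
  | empty => simp [tot]
  | insert i s hi ih =>
    rw [Finset.prod_insert hi, Finset.sum_insert hi, tot_mul (hf i (Finset.mem_insert_self i s))
      (Finset.prod_ne_zero_iff.mpr fun j hj => hf j (Finset.mem_insert_of_mem hj)),
      ih fun j hj => hf j (Finset.mem_insert_of_mem hj)]

theorem tot_nonneg (y : D.B) : 0 ≤ D.tot y := by
  classical
  refine finsum_nonneg fun Q => ?_
  split_ifs with h
  · exact h.ord_nonneg y
  · exact le_rfl

theorem tot_eq_zero {y : D.B} (hy : D.χ y ≠ 0) : D.tot y = 0 := by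
  classical
  refine finsum_eq_zero_of_forall_eq_zero fun Q => ?_
  split_ifs with h
  · exact h.ord_eq_zero hy
  · rfl

theorem exists_ord_pos {x : F} (hx : 0 < D.tot x) : ∃ Q, D.InDisc Q ∧ 0 < Q.ord x := by
  classical
  by_contra! h
  refine not_lt.mpr ?_ hx
  refine finsum_induction (fun z => z ≤ 0) le_rfl (fun a b ha hb => by omega) fun Q => ?_
  split_ifs with hQ
  · exact h Q hQ
  · exact le_rfl

theorem le_tot {y : D.B} {Q : Place Q̄ F} (hQ : D.InDisc Q) : Q.ord (y : F) ≤ D.tot y := by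
  classical
  have := single_le_finsum Q (f := fun Q : Place Q̄ F => if D.InDisc Q then Q.ord (y : F) else 0)
    ((finite_ord_support (y : F)).subset fun Q hQ => by
      simp only [Function.mem_support, ne_eq, ite_eq_right_iff, Classical.not_imp] at hQ
      exact hQ.2) fun Q => by
    show 0 ≤ ite _ _ _
    split_ifs with h
    · exact h.ord_nonneg y
    · exact le_rfl
  simpa [if_pos hQ, tot] using this

/-- The zeros of `T - β` in the disc have total order the order of the stabiliser. -/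
theorem tot_Tsub {β : A} (hβ : residue A β = D.χ D.T') : D.tot (D.Tsub β) = Nat.card D.stab := by
  classical
  haveI := Fintype.ofFinite D.Γ
  obtain ⟨Q₀, hQ₀, hpos⟩ := exists_inDisc hβ
  obtain ⟨hconj, hcard⟩ := D.fin.galois_fibre D.Γ D.fixed (β : Q̄) Q₀ hpos
  let S : Finset D.Γ := Finset.univ.filter (· ∈ D.stab)
  let Z : Finset (Place Q̄ F) := S.image fun g : D.Γ => (g : F ≃ₐ[Q̄] F) • Q₀
  rw [tot, finsum_eq_sum_of_support_subset _ (s := Z) fun Q hQ => ?_]
  · have hterm : ∀ Q ∈ Z, (if D.InDisc Q then Q.ord (D.Tsub β : F) else 0) =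
        ((S.filter fun g : D.Γ => (g : F ≃ₐ[Q̄] F) • Q₀ = Q).card : ℤ) := by
      intro Q hQ
      obtain ⟨g, hg, rfl⟩ := Finset.mem_image.mp hQ
      have hgS : g ∈ D.stab := (Finset.mem_filter.mp hg).2
      rw [if_pos ((hQ₀.smul_iff g).mpr hgS), coe_Tsub, ord_smul_Tsub, ← hcard,
        ← card_fibre_smul Q₀ g]
      norm_cast
      refine congrArg Finset.card (Finset.ext fun h => ?_)
      simp only [Finset.mem_filter, Finset.mem_univ, true_and, S, iff_and_self]
      intro hh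
      rw [← hQ₀.smul_iff, hh]
      exact (hQ₀.smul_iff g).mpr hgS
    rw [Finset.sum_congr rfl hterm, ← Nat.cast_sum,
      ← Finset.card_eq_sum_card_image (fun g : D.Γ => (g : F ≃ₐ[Q̄] F) • Q₀) S,
      Nat.card_eq_card_toFinset]
    congr 1
    exact congrArg Finset.card (Finset.ext fun g => by simp [S])
  · simp only [Function.mem_support, ne_eq, ite_eq_right_iff, Classical.not_imp] at hQ
    have hp : 0 < Q.ord (D.T - algebraMap Q̄ F β) :=
      lt_of_le_of_ne (hQ.1.ord_nonneg (D.Tsub β)) (Ne.symm hQ.2)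
    obtain ⟨g, hg, rfl⟩ := hconj Q hp
    exact Finset.mem_image.mpr ⟨⟨g, hg⟩, Finset.mem_filter.mpr
      ⟨Finset.mem_univ _, (hQ₀.smul_iff ⟨g, hg⟩).mp hQ.1⟩, rfl⟩

/-! ### The valuation of the reduction -/

variable {κ : Type*} [Field κ] {Γ₀ : Type*} [LinearOrderedCommGroupWithZero Γ₀]
  (w : Valuation κ Γ₀) (ρ : D.B →+* κ)

/-- Constants of the chart as polynomials. -/
def polyB : Polynomial A →+* D.B :=
  (polyA A D.T).codRestrict D.B fun P => by
    induction P using Polynomial.induction_on' with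
    | add a b ha hb => rw [map_add]; exact add_mem ha hb
    | monomial n a =>
      rw [← C_mul_X_pow_eq_monomial, map_mul, map_pow, polyA_C, polyA_X]
      exact mul_mem (D.const_mem a) (pow_mem D.T_mem n)

theorem polyB_C (a : A) : D.polyB (C a) = D.cst a := Subtype.ext (polyA_C A D.T a)

theorem polyB_X : D.polyB X = D.T' := Subtype.ext (polyA_X A D.T)

/-- Compatibility of a valuation of a reduction with the centre. -/
structure Compat : Prop where
  const : ∀ a : A, a ∈ maximalIdeal A → ρ (D.cst a) = 0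
  poly : ∀ P : Polynomial A, P.map (residue A) ≠ 0 → ρ (D.polyB P) ≠ 0
  le_one : ∀ y, w (ρ y) ≤ 1
  lt_one_iff : ∀ y, w (ρ y) < 1 ↔ D.χ y = 0

variable {w ρ}

theorem Compat.eq_one (hc : Compat w ρ) {y : D.B} (hy : D.χ y ≠ 0) : w (ρ y) = 1 :=
  le_antisymm (hc.le_one y) (not_lt.mp fun h => hy ((hc.lt_one_iff y).mp h))

theorem Compat.rho_cst_eq (hc : Compat w ρ) {a b : A} (h : residue A a = residue A b) :
    ρ (D.cst a) = ρ (D.cst b) := by
  have h1 : a - b ∈ maximalIdeal A := by rw [← residue_eq_zero_iff, map_sub, h, sub_self]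
  have h2 := hc.const _ h1
  rw [show D.cst (a - b) = D.cst a - D.cst b from Subtype.ext (by simp [cst]), map_sub] at h2
  exact sub_eq_zero.mp h2

theorem Compat.rho_Tsub_ne_zero (hc : Compat w ρ) (β : A) : ρ (D.Tsub β) ≠ 0 := by
  have h := hc.poly (X - C β) (by
    rw [Polynomial.map_sub, map_X, map_C]; exact X_sub_C_ne_zero _)
  rwa [map_sub, polyB_X, polyB_C] at h

variable (D) in
/-- A uniformiser of the disc. -/
structure Unif where
  /-- The zero. -/
  β₀ : A
  /-- The function. -/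
  t : D.B
  /-- The unit. -/
  η : D.B
  β₀_eq : residue A β₀ = D.χ D.T'
  χ_t : D.χ t = 0
  χ_η : D.χ η ≠ 0
  pow_eq : t ^ Nat.card D.stab = η * D.Tsub β₀

theorem Compat.rho_t_pow (hc : Compat w ρ) (U : D.Unif) {β : A}
    (hβ : residue A β = D.χ D.T') :
    w (ρ U.t) ^ Nat.card D.stab = w (ρ (D.Tsub β)) := by
  have h : ρ (D.Tsub β) = ρ (D.Tsub U.β₀) := by
    simp only [Tsub, map_sub, hc.rho_cst_eq (hβ.trans U.β₀_eq.symm)]
  rw [← map_pow, ← map_pow, U.pow_eq, map_mul, map_mul, hc.eq_one U.χ_η, one_mul, h]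

theorem Compat.rho_t_ne_zero (hc : Compat w ρ) (U : D.Unif) : ρ U.t ≠ 0 := fun h => by
  have h1 := hc.rho_t_pow U U.β₀_eq
  rw [h, map_zero, zero_pow (fun h0 => ?_), eq_comm, map_eq_zero] at h1
  · exact hc.rho_Tsub_ne_zero _ h1
  · haveI : Nonempty D.stab := ⟨⟨1, fun y => congrArg D.χ (Subtype.ext rfl)⟩⟩
    exact Nat.card_pos.ne' h0

theorem Compat.exists_descend (hc : Compat w ρ) (U : D.Unif) {x : D.B} (hx : (x : F) ≠ 0)
    {Q₀ : Place Q̄ F} (hQ₀ : D.InDisc Q₀) (hxQ : 0 < Q₀.ord (x : F)) :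
    ∃ z : D.B, (z : F) ≠ 0 ∧ D.tot x - 1 ≤ D.tot z ∧ w (ρ x) = w (ρ z) * w (ρ U.t) := by
  classical
  haveI := Fintype.ofFinite D.Γ
  obtain ⟨β, hβ, hpos⟩ := hQ₀.1
  obtain ⟨hconj, hcard⟩ := D.fin.galois_fibre D.Γ D.fixed (β : Q̄) Q₀ hpos
  set E := Finset.univ.erase (1 : D.Γ)
  -- functions vanishing at the other places over `β`
  have hf : ∀ g : D.Γ, ∃ f : D.B, HasVal ((g : F ≃ₐ[Q̄] F) • Q₀) (f : F) 0 ∧
      if g ∈ D.stab then ρ f = ρ U.t else w (ρ f) = 1 := by
    intro g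
    by_cases hg : g ∈ D.stab
    · obtain ⟨a, ha, har⟩ := ((hQ₀.smul_iff g).mpr hg).exists_val U.t
      rw [U.χ_t, residue_eq_zero_iff] at har
      refine ⟨U.t - D.cst a, ?_, ?_⟩
      · exact ha.imp (fun h => by
          rw [map_zero]; exact sub_eq_zero.mpr h) fun h => by rw [map_zero, sub_zero]; exact h
      · rw [if_pos hg, map_sub, hc.const a har, sub_zero]
    · have hnd : ¬ D.InDisc ((g : F ≃ₐ[Q̄] F) • Q₀) := fun h => hg ((hQ₀.smul_iff g).mp h)
      simp only [InDisc, not_and, not_forall] at hnd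
      obtain ⟨y, a, ha, hya⟩ := hnd ⟨β, hβ, by rwa [ord_smul_Tsub]⟩
      refine ⟨y - D.cst a, ?_, ?_⟩
      · exact ha.imp (fun h => by
          rw [map_zero]; exact sub_eq_zero.mpr h) fun h => by rw [map_zero, sub_zero]; exact h
      · rw [if_neg hg]
        refine hc.eq_one ?_
        rw [map_sub, χ_cst, sub_ne_zero]
        exact fun h => hya h.symm
  choose f hf0 hf1 using hf
  have hρf : ∀ g, ρ (f g) ≠ 0 := fun g => by
    have := hf1 g
    split_ifs at this with hg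
    · rw [this]; exact hc.rho_t_ne_zero U
    · exact fun h => by simp [h] at this
  have hfne : ∀ g, (f g : F) ≠ 0 := fun g h => hρf g (by
    rw [show f g = 0 from Subtype.ext h, map_zero])
  set s : D.B := ∏ g ∈ E, f g with hs
  have hscoe : (s : F) = ∏ g ∈ E, (f g : F) := by rw [hs]; exact SubmonoidClass.coe_finsetProd _ _
  have hs0 : (s : F) ≠ 0 := hscoe ▸ Finset.prod_ne_zero_iff.mpr fun g _ => hfne g
  have hfnn : ∀ g, ∀ Q : Place Q̄ F, 0 < Q.ord (D.T - algebraMap Q̄ F β) →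
      0 ≤ Q.ord (f g : F) := fun g Q hQ => by
    obtain ⟨a, ha⟩ := D.val Q β hβ hQ (f g) (f g).2
    exact ha.ord_nonneg
  have hfpos : ∀ g : D.Γ, 0 < ((g : F ≃ₐ[Q̄] F) • Q₀).ord (f g : F) := fun g => by
    rcases hf0 g with h | h
    · rw [map_zero] at h; exact absurd h (hfne g)
    · rwa [map_zero, sub_zero] at h
  have hord : ∀ Q : Place Q̄ F, 0 < Q.ord (D.T - algebraMap Q̄ F β) →
      Q.ord (D.T - algebraMap Q̄ F β) ≤ Q.ord ((x * s : D.B) : F) := by
    intro Q hQ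
    obtain ⟨g, hg, rfl⟩ := hconj Q hQ
    set G : Finset D.Γ := Finset.univ.filter fun h : D.Γ => (h : F ≃ₐ[Q̄] F) • Q₀ = g • Q₀ with hG
    have hr : (g • Q₀).ord (D.T - algebraMap Q̄ F β) = G.card := by
      rw [ord_smul_Tsub ⟨g, hg⟩ Q₀ β, ← hcard, ← card_fibre_smul Q₀ ⟨g, hg⟩]
    have hxnn : 0 ≤ (g • Q₀).ord (x : F) := by
      obtain ⟨a, ha⟩ := D.val _ β hβ hQ x x.2
      exact ha.ord_nonneg
    have hsum : ∀ Q : Place Q̄ F, Q.ord (s : F) = ∑ h ∈ E, Q.ord (f h : F) := fun Q => by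
      rw [hscoe]
      induction E using Finset.induction_on with
      | empty => simp
      | insert i E hi ih =>
        rw [Finset.prod_insert hi, Finset.sum_insert hi, Q.ord_mul (hfne i)
          (Finset.prod_ne_zero_iff.mpr fun j _ => hfne j), ih]
    rw [hr, MulMemClass.coe_mul, Place.ord_mul _ hx hs0, hsum]
    have h1 : ∀ h ∈ G ∩ E, (1 : ℤ) ≤ (g • Q₀).ord (f h : F) := fun h hh => by
      rw [← (Finset.mem_filter.mp (Finset.mem_inter.mp hh).1).2]
      exact hfpos h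
    have h2 : ((G ∩ E).card : ℤ) ≤ ∑ h ∈ E, (g • Q₀).ord (f h : F) :=
      le_trans (by simpa using Finset.card_nsmul_le_sum _ _ 1 h1)
        (Finset.sum_le_sum_of_subset_of_nonneg Finset.inter_subset_right fun h _ _ => hfnn h _ hQ)
    by_cases h1G : (1 : D.Γ) ∈ G
    · have hgQ : g • Q₀ = Q₀ := by
        have := (Finset.mem_filter.mp h1G).2
        rwa [Subgroup.coe_one, one_smul, eq_comm] at this
      have : (G ∩ E).card + 1 = G.card := by
        rw [show G ∩ E = G.erase 1 by ext; simp [E, and_comm], Finset.card_erase_add_one h1G]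
      rw [hgQ] at h2 ⊢
      omega
    · have : G ∩ E = G := Finset.inter_eq_left.mpr fun h hh =>
        Finset.mem_erase.mpr ⟨fun he => h1G (he ▸ hh), Finset.mem_univ _⟩
      rw [this] at h2
      omega
  set z : D.B := ⟨_, D.closed _ (x * s).2 β hβ hord⟩
  have hTne : (D.Tsub β : F) ≠ 0 := fun h => hc.rho_Tsub_ne_zero β (by
    rw [show D.Tsub β = 0 from Subtype.ext h, map_zero])
  have hz0 : (z : F) ≠ 0 := by
    show ((x * s : D.B) : F) / (D.Tsub β : F) ≠ 0
    rw [MulMemClass.coe_mul]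
    exact div_ne_zero (mul_ne_zero hx hs0) hTne
  have hxz : x * s = z * D.Tsub β := Subtype.ext (by
    show _ = ((x * s : D.B) : F) / (D.Tsub β : F) * (D.Tsub β : F)
    rw [div_mul_cancel₀ _ hTne])
  have hw : w (ρ s) = w (ρ U.t) ^ (Nat.card D.stab - 1) := by
    rw [hs, map_prod, map_prod, Finset.prod_congr rfl (g := fun g => if g ∈ D.stab then w (ρ U.t)
      else 1) fun g _ => by
        have := hf1 g
        split_ifs at this ⊢
        · rw [this]
        · exact this,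
      Finset.prod_ite, Finset.prod_const, Finset.prod_const_one, mul_one]
    congr 1
    rw [Nat.card_eq_card_toFinset, show E.filter (· ∈ D.stab) = D.stab.toFinset.erase 1 by
      ext; simp [E, and_comm], Finset.card_erase_of_mem (by
        rw [Set.mem_toFinset]; exact fun y => congrArg D.χ (Subtype.ext rfl))]
  have hts : (Nat.card D.stab : ℤ) - 1 ≤ D.tot s := by
    rw [hscoe, tot_prod _ _ fun g _ => hfne g]
    refine le_trans ?_ (Finset.sum_le_sum_of_subset_of_nonneg (s := E.filter (· ∈ D.stab))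
      (Finset.filter_subset _ _) fun g _ _ => tot_nonneg (f g))
    refine le_trans ?_ (Finset.card_nsmul_le_sum _ _ 1 fun g hg => le_trans (hfpos g)
      (le_tot ((hQ₀.smul_iff g).mpr (Finset.mem_filter.mp hg).2)))
    rw [nsmul_eq_mul, mul_one, Nat.card_eq_card_toFinset,
      show E.filter (· ∈ D.stab) = D.stab.toFinset.erase 1 by ext; simp [E, and_comm],
      Finset.card_erase_of_mem (by
        rw [Set.mem_toFinset]; exact fun y => congrArg D.χ (Subtype.ext rfl))]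
    omega
  have htot := congrArg (fun y : D.B => D.tot (y : F)) hxz
  simp only [MulMemClass.coe_mul] at htot
  rw [tot_mul hx hs0, tot_mul hz0 hTne, tot_Tsub hβ] at htot
  have hwxz := congrArg (fun y => w (ρ y)) hxz
  simp only [map_mul] at hwxz
  rw [hw, ← hc.rho_t_pow U hβ] at hwxz
  have hτ : w (ρ U.t) ≠ 0 := (_root_.map_ne_zero w).mpr (hc.rho_t_ne_zero U)
  have he : 1 ≤ Nat.card D.stab := by
    haveI : Nonempty D.stab := ⟨⟨1, fun y => congrArg D.χ (Subtype.ext rfl)⟩⟩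
    exact Nat.card_pos
  have hxeq : w (ρ x) = w (ρ z) * w (ρ U.t) := by
    refine mul_right_cancel₀ (pow_ne_zero (Nat.card D.stab - 1) hτ) (hwxz.trans ?_)
    rw [mul_assoc, ← pow_succ', Nat.sub_add_cancel he]
  exact ⟨z, hz0, by omega, hxeq⟩

/-- The valuation of a reduction is bounded by the total order in the disc. -/
theorem Compat.le_pow_tot (hc : Compat w ρ) (U : D.Unif) :
    ∀ (n : ℕ) (x : D.B), (x : F) ≠ 0 → (n : ℤ) ≤ D.tot x →
      w (ρ x) ^ Nat.card D.stab ≤ w (ρ (D.Tsub U.β₀)) ^ n := by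
  intro n
  induction n with
  | zero => exact fun x _ _ => by rw [pow_zero]; exact pow_le_one₀ zero_le (hc.le_one x)
  | succ n ih =>
    intro x hx hn
    obtain ⟨Q₀, hQ₀, hxQ⟩ := exists_ord_pos (D := D) (x := (x : F)) (by omega)
    obtain ⟨z, hz0, hz, hxz⟩ := hc.exists_descend U hx hQ₀ hxQ
    rw [hxz, mul_pow, hc.rho_t_pow U U.β₀_eq, pow_succ]
    exact mul_le_mul' (ih z hz0 (by push_cast at hn; omega)) le_rfl

theorem Compat.zpow_le (hc : Compat w ρ) (U : D.Unif) {x : D.B} (hx : (x : F) ≠ 0) :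
    w (ρ x) ^ Nat.card D.stab ≤ w (ρ (D.Tsub U.β₀)) ^ D.tot x := by
  obtain ⟨n, hn⟩ := Int.eq_ofNat_of_zero_le (tot_nonneg (D := D) x)
  rw [hn, zpow_natCast]
  exact hc.le_pow_tot U n x hx hn.ge

theorem exists_linear (r : Q̄) : ∃ (L : Polynomial A) (s : Q̄), s ≠ 0 ∧ L.natDegree = 1 ∧
    L.map A.subtype = C s * (X - C r) ∧ L.map (residue A) ≠ 0 ∧
    ((∃ β : A, L = X - C β) ∨ ∃ m : A, m ∈ maximalIdeal A ∧ L = C m * X - 1) := by
  by_cases h : r ∈ A
  · obtain ⟨β, hβ⟩ : ∃ β : A, (β : Q̄) = r := ⟨⟨r, h⟩, rfl⟩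
    refine ⟨X - C β, 1, one_ne_zero, natDegree_X_sub_C β, ?_, ?_, Or.inl ⟨β, rfl⟩⟩
    · rw [Polynomial.map_sub, map_X, map_C, C_1, one_mul, ValuationSubring.subtype_apply, hβ]
    · rw [Polynomial.map_sub, map_X, map_C]; exact X_sub_C_ne_zero _
  · have hr0 : r ≠ 0 := fun h0 => h (h0 ▸ zero_mem A)
    obtain ⟨m, hm⟩ : ∃ m : A, (m : Q̄) = r⁻¹ := ⟨⟨_, (A.mem_or_inv_mem r).resolve_left h⟩, rfl⟩
    have hmm : m ∈ maximalIdeal A := by
      rw [mem_maximalIdeal, mem_nonunits_iff]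
      intro hu
      obtain ⟨u, hu⟩ := hu.exists_right_inv
      refine h ?_
      have hu' : r⁻¹ * (u : Q̄) = 1 := hm ▸ congrArg Subtype.val hu
      rw [show r = (u : Q̄) from (inv_inv r).symm.trans (inv_eq_of_mul_eq_one_right hu')]
      exact u.2
    have hm0 : m ≠ 0 := fun h0 => inv_ne_zero hr0 (by rw [← hm, h0]; rfl)
    refine ⟨C m * X - 1, r⁻¹, inv_ne_zero hr0, ?_, ?_, ?_, Or.inr ⟨m, hmm, rfl⟩⟩
    · rw [← C_1, sub_eq_add_neg, ← C_neg]
      exact natDegree_linear hm0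
    · rw [Polynomial.map_sub, Polynomial.map_mul, map_X, map_C, Polynomial.map_one, mul_sub,
        ← C_mul, inv_mul_cancel₀ hr0, C_1, ValuationSubring.subtype_apply, hm]
    · rw [Polynomial.map_sub, Polynomial.map_mul, map_X, map_C, Polynomial.map_one,
        (residue_eq_zero_iff m).mpr hmm, C_0, zero_mul, zero_sub]
      exact neg_ne_zero.mpr one_ne_zero

theorem exists_linear_factor {P : Polynomial A} (hP : P.map (residue A) ≠ 0)
    (hd : P.natDegree ≠ 0) :
    ∃ (a : A) (L P₁ : Polynomial A), residue A a ≠ 0 ∧ P = C a * L * P₁ ∧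
      P₁.map (residue A) ≠ 0 ∧ P₁.natDegree < P.natDegree ∧
      ((∃ β : A, L = X - C β) ∨ ∃ m : A, m ∈ maximalIdeal A ∧ L = C m * X - 1) := by
  obtain ⟨r, hr⟩ := IsAlgClosed.exists_root (P.map A.subtype) (by
    rw [degree_map_eq_of_injective Subtype.val_injective]
    exact fun h => hd (natDegree_eq_of_degree_eq_some h))
  obtain ⟨L, s, hs, hLd, hLmap, hL, hshape⟩ := exists_linear (A := A) r
  obtain ⟨R, hR⟩ : L.map A.subtype ∣ P.map A.subtype := by
    rw [hLmap]
    exact (associated_unit_mul_left _ _ (isUnit_C.mpr (isUnit_iff_ne_zero.mpr hs))).dvd.trans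
      (dvd_iff_isRoot.mpr hr)
  have hR0 : R ≠ 0 := fun h => by
    rw [h, mul_zero, Polynomial.map_eq_zero_iff Subtype.val_injective] at hR
    exact hP (by rw [hR, Polynomial.map_zero])
  obtain ⟨c, hc0, P₁, hP₁, rfl⟩ := exists_primitive (A := A) hR0
  have hLP : (L * P₁).map (residue A) ≠ 0 := by
    rw [Polynomial.map_mul]; exact mul_ne_zero hL hP₁
  obtain ⟨a, ha, hPa⟩ : ∃ a : A, residue A a ≠ 0 ∧ P = C a * (L * P₁) := by
    rcases A.mem_or_inv_mem c with h | h
    · have e : P = C ⟨c, h⟩ * (L * P₁) := Polynomial.map_injective A.subtype Subtype.val_injective (by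
        rw [hR, Polynomial.map_mul, map_C, Polynomial.map_mul]
        show _ = C c * _
        ring)
      exact ⟨_, fun h0 => hP (by rw [e, Polynomial.map_mul, map_C, h0, map_zero, zero_mul]), e⟩
    · have e : C ⟨c⁻¹, h⟩ * P = L * P₁ := Polynomial.map_injective A.subtype Subtype.val_injective (by
        rw [Polynomial.map_mul, hR, map_C, Polynomial.map_mul]
        show C c⁻¹ * _ = _
        rw [show C c⁻¹ * (L.map A.subtype * (C c * P₁.map A.subtype)) =
          (C c⁻¹ * C c) * (L.map A.subtype * P₁.map A.subtype) by ring, ← C_mul,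
          inv_mul_cancel₀ hc0, C_1, one_mul])
      have hu : residue A ⟨c⁻¹, h⟩ ≠ 0 := fun h0 => hLP (by
        rw [← e, Polynomial.map_mul, map_C, h0, map_zero, zero_mul])
      obtain ⟨u, hu⟩ := (residue_ne_zero_iff_isUnit _).mp hu
      exact ⟨↑u⁻¹, fun h0 => (u⁻¹).isUnit.map (residue A) |>.ne_zero h0, by
        rw [← e, ← mul_assoc, ← C_mul, ← hu, Units.inv_mul, C_1, one_mul]⟩
  refine ⟨a, L, P₁, ha, by rw [hPa, mul_assoc], hP₁, ?_, hshape⟩
  have hP10 : P₁ ≠ 0 := fun h => hP₁ (by rw [h, Polynomial.map_zero])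
  have hL0' : L ≠ 0 := fun h => hL (by rw [h, Polynomial.map_zero])
  have hC0 : (C a : Polynomial A) ≠ 0 := C_ne_zero.mpr fun h => ha (by rw [h, map_zero])
  rw [hPa, natDegree_mul hC0 (mul_ne_zero hL0' hP10), natDegree_mul hL0' hP10, hLd, natDegree_C]
  omega

theorem Compat.poly_eq (hc : Compat w ρ) (U : D.Unif) : ∀ (n : ℕ) (P : Polynomial A),
    P.natDegree ≤ n → P.map (residue A) ≠ 0 →
    w (ρ (D.polyB P)) ^ Nat.card D.stab = w (ρ (D.Tsub U.β₀)) ^ D.tot (D.polyB P) := by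
  have hne : ∀ P : Polynomial A, P.map (residue A) ≠ 0 → (D.polyB P : F) ≠ 0 := fun P hP h =>
    hc.poly P hP (by rw [show D.polyB P = 0 from Subtype.ext h, map_zero])
  have hone : ∀ y : D.B, D.χ y ≠ 0 →
      w (ρ y) ^ Nat.card D.stab = w (ρ (D.Tsub U.β₀)) ^ D.tot (y : F) := fun y hy => by
    rw [hc.eq_one hy, tot_eq_zero hy, one_pow, zpow_zero]
  have hconst : ∀ a : A, residue A a ≠ 0 →
      w (ρ (D.polyB (C a))) ^ Nat.card D.stab = w (ρ (D.Tsub U.β₀)) ^ D.tot (D.polyB (C a)) :=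
    fun a ha => by rw [polyB_C]; exact hone _ (by rwa [χ_cst])
  intro n
  induction n with
  | zero =>
    intro P hd hP
    obtain ⟨a, rfl⟩ := natDegree_eq_zero.mp (Nat.le_zero.mp hd)
    exact hconst a fun h => hP (by rw [map_C, h, map_zero])
  | succ n ih =>
    intro P hd hP
    rcases Nat.eq_zero_or_pos P.natDegree with h0 | h0
    · exact ih P (by omega) hP
    obtain ⟨a, L, P₁, ha, rfl, hP₁, hdeg, hL⟩ := exists_linear_factor hP (by omega)
    have hu0 : w (ρ (D.Tsub U.β₀)) ≠ 0 := (_root_.map_ne_zero w).mpr (hc.rho_Tsub_ne_zero _)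
    have hLm : L.map (residue A) ≠ 0 := fun h => hP (by
      rw [Polynomial.map_mul, Polynomial.map_mul, h, mul_zero, zero_mul])
    have hCm : (C a).map (residue A) ≠ 0 := by rw [map_C]; exact C_ne_zero.mpr ha
    have hLeq : w (ρ (D.polyB L)) ^ Nat.card D.stab =
        w (ρ (D.Tsub U.β₀)) ^ D.tot (D.polyB L) := by
      rcases hL with ⟨β, rfl⟩ | ⟨m, hm, rfl⟩
      · rw [map_sub, polyB_X, polyB_C, ← Tsub]
        by_cases hβ : residue A β = D.χ D.T'
        · rw [tot_Tsub hβ, zpow_natCast]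
          congr 1
          rw [← hc.rho_t_pow U hβ, hc.rho_t_pow U U.β₀_eq]
        · exact hone _ (by rw [χ_Tsub, sub_ne_zero]; exact Ne.symm hβ)
      · refine hone _ ?_
        rw [map_sub, map_mul, polyB_C, polyB_X, map_one, map_sub, map_mul, χ_cst,
          (residue_eq_zero_iff m).mpr hm, zero_mul, map_one, zero_sub]
        exact neg_ne_zero.mpr one_ne_zero
    have h12 : (C a * L).map (residue A) ≠ 0 := by
      rw [Polynomial.map_mul]; exact mul_ne_zero hCm hLm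
    rw [map_mul, map_mul, map_mul, map_mul, map_mul, map_mul, mul_pow, mul_pow, hconst a ha, hLeq,
      ih P₁ (by omega) hP₁, ← zpow_add₀ hu0, ← zpow_add₀ hu0, MulMemClass.coe_mul,
      MulMemClass.coe_mul, tot_mul _ (hne _ hP₁), tot_mul (hne _ hCm) (hne _ hLm)]
    have := hne _ h12
    rwa [map_mul, MulMemClass.coe_mul] at this

open scoped Classical in
/-- The valuation of a reduction is the total order in the disc. -/
theorem Compat.eq_zpow_tot (hc : Compat w ρ) (U : D.Unif) {x : D.B}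
    (hx : ∀ g : D.Γ, ρ (D.act g x) ≠ 0) :
    w (ρ x) ^ Nat.card D.stab = w (ρ (D.Tsub U.β₀)) ^ D.tot x := by
  haveI := Fintype.ofFinite D.Γ
  set e := Nat.card D.stab
  set u := w (ρ (D.Tsub U.β₀))
  have hu0 : u ≠ 0 := (_root_.map_ne_zero w).mpr (hc.rho_Tsub_ne_zero _)
  have hFne : ∀ g, (D.act g x : F) ≠ 0 := fun g h => hx g (by
    rw [show D.act g x = 0 from Subtype.ext h, map_zero])
  set r : D.B := ∏ g : D.Γ, D.act g x with hr
  have hrF : (r : F) = ∏ g : D.Γ, (g : F ≃ₐ[Q̄] F) x := by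
    rw [hr]; exact SubmonoidClass.coe_finsetProd _ _
  have hrfix : (r : F) ∈ Q̄⟮D.T⟯ := by
    rw [← D.fixed, mem_fixedField_iff]
    intro σ hσ
    rw [hrF, map_prod]
    exact Fintype.prod_equiv (Equiv.mulLeft (⟨σ, hσ⟩ : D.Γ)) _ _ fun g => rfl
  have hr0 : (r : F) ≠ 0 := hrF ▸ Finset.prod_ne_zero_iff.mpr fun g _ => hFne g
  obtain ⟨p, q, hpq⟩ := (mem_adjoin_simple_iff Q̄ _).mp hrfix
  have hp : p ≠ 0 := fun h => hr0 (by rw [hpq, h, map_zero, zero_div])
  have hq : q ≠ 0 := fun h => hr0 (by rw [hpq, h, map_zero, div_zero])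
  obtain ⟨a, ha0, P, hP, rfl⟩ := exists_primitive (A := A) hp
  obtain ⟨b, hb0, Q, hQ, rfl⟩ := exists_primitive (A := A) hq
  have hPne : (D.polyB P : F) ≠ 0 := fun h => hc.poly P hP (by
    rw [show D.polyB P = 0 from Subtype.ext h, map_zero])
  have hQne : (D.polyB Q : F) ≠ 0 := fun h => hc.poly Q hQ (by
    rw [show D.polyB Q = 0 from Subtype.ext h, map_zero])
  have hrQ : (r : F) * (D.polyB Q : F) = algebraMap Q̄ F (a / b) * (D.polyB P : F) := by
    rw [map_mul, map_mul, aeval_C, aeval_C] at hpq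
    have hb : algebraMap Q̄ F b ≠ 0 := (_root_.map_ne_zero _).mpr hb0
    have hQne' : aeval D.T (Q.map A.subtype) ≠ 0 := hQne
    rw [hpq, map_div₀]
    show _ * aeval D.T (Q.map A.subtype) = _ * aeval D.T (P.map A.subtype)
    field_simp
  have hρr : ρ r ≠ 0 := by rw [hr, map_prod]; exact Finset.prod_ne_zero_iff.mpr fun g _ => hx g
  have hab : a / b ∈ A := by
    by_contra h
    have hi : (a / b)⁻¹ ∈ A := (A.mem_or_inv_mem _).resolve_left h
    have hm : (⟨_, hi⟩ : A) ∈ maximalIdeal A := by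
      rw [mem_maximalIdeal, mem_nonunits_iff]
      intro hu
      obtain ⟨v, hv⟩ := hu.exists_right_inv
      refine h ?_
      rw [show a / b = (v : Q̄) from by
        rw [← inv_inv (a / b)]; exact inv_eq_of_mul_eq_one_right (congrArg Subtype.val hv)]
      exact v.2
    refine hc.poly P hP ?_
    have e1 : D.cst ⟨_, hi⟩ * (r * D.polyB Q) = D.polyB P := Subtype.ext (by
      show algebraMap Q̄ F (a / b)⁻¹ * ((r : F) * (D.polyB Q : F)) = _
      rw [hrQ, ← mul_assoc, ← map_mul, inv_mul_cancel₀ (div_ne_zero ha0 hb0), map_one, one_mul])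
    rw [← e1, map_mul, hc.const _ hm, zero_mul]
  have e2 : r * D.polyB Q = D.cst ⟨_, hab⟩ * D.polyB P := Subtype.ext hrQ
  have hunit : residue A ⟨_, hab⟩ ≠ 0 := fun h => by
    have := congrArg ρ e2
    rw [map_mul, map_mul, hc.const _ ((residue_eq_zero_iff _).mp h), zero_mul] at this
    exact (mul_ne_zero hρr (hc.poly Q hQ)) this
  have hcst : (D.cst ⟨_, hab⟩ : F) ≠ 0 := (_root_.map_ne_zero _).mpr (div_ne_zero ha0 hb0)
  -- the product of the inequalities is an equality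
  have hreq : w (ρ r) ^ e = u ^ D.tot (r : F) := by
    have h1 := congrArg (fun y => w (ρ y) ^ e) e2
    simp only [map_mul, mul_pow] at h1
    have h2 := congrArg (fun y : D.B => D.tot (y : F)) e2
    simp only [MulMemClass.coe_mul] at h2
    rw [tot_mul hr0 hQne, tot_mul hcst hPne, tot_eq_zero (y := D.cst ⟨_, hab⟩) (by rwa [χ_cst]), zero_add] at h2
    rw [hc.poly_eq U _ Q le_rfl hQ, hc.poly_eq U _ P le_rfl hP, hc.eq_one (y := D.cst ⟨_, hab⟩) (by rwa [χ_cst]),
      one_pow, one_mul, ← h2, zpow_add₀ hu0] at h1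
    exact mul_right_cancel₀ (zpow_ne_zero _ hu0) h1
  have hsum : D.tot (r : F) = ∑ g : D.Γ, D.tot (D.act g x : F) := by
    rw [hrF]; exact tot_prod _ _ fun g _ => hFne g
  set rest := Finset.univ.erase (1 : D.Γ)
  have h1x : D.act 1 x = x := Subtype.ext rfl
  refine le_antisymm (hc.zpow_le U (h1x ▸ hFne 1)) (not_lt.mp fun hlt => ?_)
  have hrest : ∏ g ∈ rest, w (ρ (D.act g x)) ^ e ≤ ∏ g ∈ rest, u ^ D.tot (D.act g x : F) :=
    Finset.prod_le_prod' fun g _ => hc.zpow_le U (hFne g)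
  have hprod : ∏ g : D.Γ, w (ρ (D.act g x)) ^ e = ∏ g : D.Γ, u ^ D.tot (D.act g x : F) := by
    rw [Finset.prod_pow, ← map_prod, ← map_prod, ← hr, hreq, hsum]
    induction (Finset.univ : Finset D.Γ) using Finset.induction_on with
    | empty => simp
    | insert i s hi ih => rw [Finset.sum_insert hi, Finset.prod_insert hi, zpow_add₀ hu0, ih]
  rw [← Finset.mul_prod_erase _ _ (Finset.mem_univ (1 : D.Γ)),
    ← Finset.mul_prod_erase _ _ (Finset.mem_univ (1 : D.Γ)), h1x] at hprod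
  refine (lt_of_le_of_lt (mul_le_mul' le_rfl hrest) ?_).ne hprod
  exact mul_lt_mul_of_pos_right hlt (zero_lt_iff.mpr (Finset.prod_ne_zero_iff.mpr fun g _ =>
    zpow_ne_zero _ hu0))

end DiscData

end Fermat.Agent.MCurve.Spec
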