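import Fermat.Agent.MCurve.Spec.Centre
import Fermat.Agent.MCurve.RootBridge
import Fermat.Agent.MCurve.PlaceFibre
import Fermat.Agent.GalRep.Model.Descent
import Fermat.Agent.GalRep.Model.IntegralFuns
import Fermat.Agent.GalRep.KummerAut

/-!
The field of modular functions of level `Γ(M)` with algebraic series, over the constants `ℚ̄`, with
the valuation ring `A` as base ring: translations, the fixed field `ℚ̄(j)`, and integrality over
`A[j]` of holomorphic functions with integral series.
-/

set_option autoImplicit false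
set_option linter.style.haveILetI false
set_option linter.unusedSectionVars false

noncomputable section

namespace Fermat.Agent.MCurve.Spec

open AlgebraicCurve Polynomial IsLocalRing CongruenceSubgroup IntermediateField
open Fermat.Agent.GalRep (modFuns jMF serHom shift qbarToC expand jq shift_shift)
open Fermat.Agent.GalRep.Model (Lev Cyc WFld lvlField cstW fShift serAt holRing wShift wSer zetaC
  SeriesField cycBar)
open scoped MatrixGroups

local notation "Q̄" => AlgebraicClosure ℚ
local notation "ℍ" => UpperHalfPlane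

/-! ## Coefficients of polynomials in `j` -/

theorem coeff_jq_pow (n : ℕ) : (jq ^ n).coeff (-(n : ℤ)) = 1 := by
  have ho := GalRep.order_aeval_jq (P := (X : ℂ[X]) ^ n) (pow_ne_zero _ X_ne_zero)
  simp only [map_pow, aeval_X, natDegree_X_pow] at ho
  rw [← ho.2, ← HahnSeries.leadingCoeff_eq]
  clear ho
  induction n with
  | zero => simp
  | succ n ih =>
    rw [pow_succ, HahnSeries.leadingCoeff_mul, ih, one_mul, HahnSeries.leadingCoeff_eq,
      GalRep.order_jq, GalRep.coeff_jq_neg_one]

theorem coeff_aeval_jq_neg (P : ℂ[X]) :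
    (aeval jq P).coeff (-(P.natDegree : ℤ)) = P.leadingCoeff := by
  rw [aeval_eq_sum_range, Finset.sum_range_succ, HahnSeries.coeff_add, HahnSeries.coeff_sum,
    Finset.sum_eq_zero fun i hi => ?_, zero_add]
  · rw [Algebra.smul_def, HahnSeries.algebraMap_apply', PowerSeries.algebraMap_eq,
      HahnSeries.ofPowerSeries_C, HahnSeries.C_apply, HahnSeries.coeff_single_zero_mul,
      coeff_jq_pow, mul_one]
    rfl
  · rw [Finset.mem_range] at hi
    rw [Algebra.smul_def, HahnSeries.algebraMap_apply', PowerSeries.algebraMap_eq,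
      HahnSeries.ofPowerSeries_C, HahnSeries.C_apply, HahnSeries.coeff_single_zero_mul]
    have ho := GalRep.order_aeval_jq (P := (X : ℂ[X]) ^ i) (pow_ne_zero _ X_ne_zero)
    simp only [map_pow, aeval_X, natDegree_X_pow] at ho
    rw [HahnSeries.coeff_eq_zero_of_lt_order (by rw [ho.2]; omega), mul_zero]

theorem jq_coeff_mem (R : Subring ℂ) (k : ℤ) : jq.coeff k ∈ R := by
  rw [GalRep.jq_eq_jqModC, ← ModularCurve.map_jqModC (Int.castRingHom ℂ), HahnSeries.map_coeff]
  exact intCast_mem R _

theorem jq_pow_coeff_mem (R : Subring ℂ) : ∀ (n : ℕ) (k : ℤ), (jq ^ n).coeff k ∈ R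
  | 0, k => by
    rw [pow_zero, HahnSeries.coeff_one]
    split_ifs
    exacts [one_mem R, zero_mem R]
  | n + 1, k => by
    rw [pow_succ, HahnSeries.coeff_mul]
    exact Subring.sum_mem _ fun ij _ => mul_mem (jq_pow_coeff_mem R n _) (jq_coeff_mem R _)

/-- Polynomials in `j` with coefficients in a ring are recognised on the series. -/
theorem coeff_mem_of_series {R : Subring ℂ} : ∀ (n : ℕ) {P : ℂ[X]}, P.natDegree ≤ n →
    (∀ k, (aeval jq P).coeff k ∈ R) → ∀ i, P.coeff i ∈ R
  | 0, P, hP, h => fun i => by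
    obtain ⟨c, rfl⟩ := natDegree_eq_zero.mp (Nat.le_zero.mp hP)
    have := h 0
    rw [aeval_C, HahnSeries.algebraMap_apply', PowerSeries.algebraMap_eq,
      HahnSeries.ofPowerSeries_C, HahnSeries.C_apply, HahnSeries.coeff_single_same] at this
    rw [coeff_C]
    split_ifs
    exacts [this, zero_mem R]
  | n + 1, P, hP, h => fun i => by
    rcases Nat.lt_or_ge P.natDegree (n + 1) with hd | hd
    · exact coeff_mem_of_series n (Nat.lt_succ_iff.mp hd) h i
    have hlead : P.leadingCoeff ∈ R := coeff_aeval_jq_neg P ▸ h _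
    have hr : ∀ k, (aeval jq P.eraseLead).coeff k ∈ R := fun k => by
      have he := congrArg (fun s : LaurentSeries ℂ => s.coeff k)
        (congrArg (aeval jq) P.eraseLead_add_C_mul_X_pow)
      simp only [map_add, map_mul, aeval_C, map_pow, aeval_X, HahnSeries.algebraMap_apply',
        PowerSeries.algebraMap_eq, HahnSeries.ofPowerSeries_C, HahnSeries.C_apply,
        HahnSeries.coeff_add, HahnSeries.coeff_single_zero_mul] at he
      rw [eq_sub_of_add_eq he]
      exact sub_mem (h k) (mul_mem hlead (jq_pow_coeff_mem R _ k))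
    have hdeg := P.eraseLead_natDegree_le
    have := coeff_mem_of_series n (by omega) hr i
    rw [eraseLead_coeff] at this
    split_ifs at this with hi
    · subst hi; exact hlead
    · exact this

/-! ## The field -/

variable (M : ℕ) [NeZero M] (A : ValuationSubring Q̄) [hu : Fact (IsUnit (M : A))]

theorem zeta_mem : (cycBar M).ζ ∈ A :=
  Galois.integralClosure_le A ⟨_, ((cycBar M).isPrimitiveRoot).isIntegral (NeZero.pos M)⟩

/-- The valuation ring as a base. -/
def cyc : Cyc A M :=
  ⟨qbarToC.comp A.subtype, (RingHom.injective qbarToC).comp Subtype.val_injective,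
    ⟨_, zeta_mem M A⟩, (cycBar M).map_ζ, hu.out⟩

/-- The field of level `M`. -/
abbrev LK : Type := lvlField (cyc M A)

/-- The constants in the field. -/
def cQ : Q̄ →+* LK M A :=
  (((algebraMap (modFuns (Gamma M)) (WFld M)).comp (algebraMap ℂ (modFuns (Gamma M)))).comp
    qbarToC).codRestrict _ fun a => by
    rcases A.mem_or_inv_mem a with h | h
    · exact GalRep.Model.cstW_mem (cyc M A) ⟨a, h⟩
    · rw [← inv_inv a, map_inv₀]
      exact inv_mem (GalRep.Model.cstW_mem (cyc M A) ⟨a⁻¹, h⟩)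

instance instAlgebraQbarLK : Algebra Q̄ (LK M A) := (cQ M A).toAlgebra

theorem coe_algebraMap_LK (a : Q̄) : ((algebraMap Q̄ (LK M A) a : LK M A) : WFld M) =
    algebraMap (modFuns (Gamma M)) (WFld M) (algebraMap ℂ (modFuns (Gamma M)) (qbarToC a)) := rfl

instance : IsScalarTower A Q̄ (LK M A) := IsScalarTower.of_algebraMap_eq fun _ => rfl

theorem aeval_eq_polyA (x : LK M A) (P : Polynomial A) : aeval x P = polyA A x P := by
  show _ = aeval x (P.map A.subtype)
  rw [show A.subtype = algebraMap A Q̄ from rfl, aeval_map_algebraMap]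

instance : CharZero (LK M A) := charZero_of_injective_algebraMap (algebraMap Q̄ (LK M A)).injective

theorem cyc_kC {x : ℂ} (hx : x ∈ qbarToC.fieldRange) : x ∈ (cyc M A).kC := by
  obtain ⟨a, rfl⟩ := hx
  rcases A.mem_or_inv_mem a with h | h
  · exact Subfield.subset_closure ⟨⟨a, h⟩, rfl⟩
  · rw [← inv_inv a, map_inv₀]
    exact inv_mem (Subfield.subset_closure ⟨⟨a⁻¹, h⟩, rfl⟩)

theorem coeff_serHom_mem {f : modFuns (Gamma M)}
    (hf : algebraMap (modFuns (Gamma M)) (WFld M) f ∈ lvlField (cyc M A)) (k : ℤ) :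
    (serHom M f).coeff k ∈ qbarToC.fieldRange := by
  have h1 := GalRep.Model.toC_serF (cyc M A) ⟨_, hf⟩
  rw [GalRep.Model.wSer_algebraMap] at h1
  have h2 := GalRep.Model.coeff_toC_mem (cyc M A) (GalRep.Model.serF (cyc M A) ⟨_, hf⟩) k
  rw [h1] at h2
  refine (Subfield.closure_le.mpr ?_) h2
  rintro _ ⟨a, rfl⟩
  exact ⟨_, rfl⟩

variable {M} (L : Lev M)

include L in
theorem mem_LK (f : modFuns (Gamma M)) (hf : ∀ k, (serHom M f).coeff k ∈ qbarToC.fieldRange) :
    algebraMap (modFuns (Gamma M)) (WFld M) f ∈ lvlField (cyc M A) := by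
  obtain ⟨S, hS⟩ := L.exists_descent f hf
  exact hS A (cyc M A) fun s _ => cyc_kC M A ⟨s, rfl⟩

theorem serHom_jMF : serHom M (jMF (Gamma M)) = expand M (NeZero.ne M) jq :=
  (show GalRep.serAlg M (jMF (Gamma M)) = _ from GalRep.jqN_eq (N := M))

/-- `j` in the field of level `M`. -/
def jK : LK M A := ⟨algebraMap (modFuns (Gamma M)) (WFld M) (jMF (Gamma M)), mem_LK A L _ fun k => by
  rw [serHom_jMF]
  by_cases hd : (M : ℤ) ∣ k
  · obtain ⟨j, rfl⟩ := hd
    rw [GalRep.expand_coeff_mul]
    exact jq_coeff_mem qbarToC.fieldRange.toSubring j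
  · rw [GalRep.expand_coeff_of_not_dvd _ _ _ _ hd]
    exact zero_mem _⟩

/-! ## Translations -/

variable (M) in
/-- Translations as automorphisms over the constants. -/
def shiftA : SL(2, ℤ) →* (LK M A ≃ₐ[Q̄] LK M A) where
  toFun g := AlgEquiv.ofRingEquiv (f := fShift (cyc M A) g⁻¹) fun a => Subtype.ext (by
    rw [GalRep.Model.coe_fShift, coe_algebraMap_LK, GalRep.Model.wShift_algebraMap, AlgHom.commutes])
  map_one' := AlgEquiv.ext fun x => by
    show fShift (cyc M A) (1 : SL(2, ℤ))⁻¹ x = x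
    rw [inv_one]; exact Subtype.ext (GalRep.Model.wShift_one x.1)
  map_mul' g h := AlgEquiv.ext fun x => by
    show fShift (cyc M A) (g * h)⁻¹ x = fShift (cyc M A) g⁻¹ (fShift (cyc M A) h⁻¹ x)
    rw [GalRep.Model.fShift_fShift, mul_inv_rev]

theorem shiftA_apply (g : SL(2, ℤ)) (x : LK M A) : shiftA M A g x = fShift (cyc M A) g⁻¹ x := rfl

theorem shiftA_of_mem {g : SL(2, ℤ)} (hg : g ∈ Gamma M) : shiftA M A g = 1 :=
  AlgEquiv.ext fun x => GalRep.Model.fShift_of_mem (cyc M A) (inv_mem hg) x

variable (M) in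
/-- All translations. -/
def fullG : Subgroup (LK M A ≃ₐ[Q̄] LK M A) := (shiftA M A).range

instance finite_map_shiftA (H : Subgroup SL(2, ℤ)) : Finite (H.map (shiftA M A)) := by
  haveI : (Gamma M).Normal := Gamma_normal M
  haveI : Finite (SL(2, ℤ) ⧸ Gamma M) := Subgroup.finite_quotient_of_finiteIndex
  have hsub : (H.map (shiftA M A) : Set (LK M A ≃ₐ[Q̄] LK M A)) ⊆
      Set.range fun q : SL(2, ℤ) ⧸ Gamma M => shiftA M A q.out := by
    rintro _ ⟨g, -, rfl⟩
    refine ⟨(g : SL(2, ℤ) ⧸ Gamma M), ?_⟩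
    obtain ⟨⟨ε, hε⟩, h⟩ := QuotientGroup.mk_out_eq_mul (Gamma M) g
    show shiftA M A _ = _
    rw [h, map_mul, shiftA_of_mem A hε, mul_one]
  exact Set.Finite.to_subtype ((Set.finite_range _).subset hsub)

instance : Finite (fullG M A) := by
  rw [fullG, MonoidHom.range_eq_map]; exact finite_map_shiftA A ⊤

theorem shiftA_mem_fullG (g : SL(2, ℤ)) : shiftA M A g ∈ fullG M A := ⟨g, rfl⟩

theorem shiftA_jK (g : SL(2, ℤ)) : shiftA M A g (jK A L) = jK A L := by
  refine Subtype.ext ?_
  rw [shiftA_apply, GalRep.Model.coe_fShift, jK, GalRep.Model.wShift_algebraMap]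
  exact congrArg _ (Subtype.ext (funext fun τ => Period.jFun_smul _ τ))

theorem fullG_jK {σ : LK M A ≃ₐ[Q̄] LK M A} (hσ : σ ∈ fullG M A) : σ (jK A L) = jK A L := by
  obtain ⟨g, rfl⟩ := hσ
  exact shiftA_jK A L g

theorem shiftA_mem_holRing (g : SL(2, ℤ)) {x : LK M A} (hx : x ∈ holRing (cyc M A)) :
    shiftA M A g x ∈ holRing (cyc M A) := GalRep.Model.fShift_mem_holRing _ _ hx

/-- Invariant holomorphic elements are polynomials in `j`, with coefficients in any subring of
`ℂ` containing the coefficients of their series. -/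
theorem exists_poly_of_fixed {x : LK M A} (hx : x ∈ holRing (cyc M A))
    (hfix : ∀ σ ∈ fullG M A, σ x = x) (R : Subring ℂ)
    (hR : ∀ k, (wSer (x : WFld M)).coeff k ∈ R) :
    ∃ P : ℂ[X], (∀ i, P.coeff i ∈ R) ∧
      (x : WFld M) = algebraMap (modFuns (Gamma M)) (WFld M) (aeval (jMF (Gamma M)) P) := by
  obtain ⟨f, hf⟩ := hx
  have hinv : ∀ g, shift M g f = f := fun g => by
    refine IsFractionRing.injective (modFuns (Gamma M)) (WFld M) ?_
    rw [← GalRep.Model.wShift_algebraMap, hf]
    have := hfix _ (shiftA_mem_fullG A g⁻¹)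
    rw [shiftA_apply, inv_inv] at this
    exact congrArg Subtype.val this
  obtain ⟨P, hP⟩ := GalRep.exists_eq_eval_jFun (F := (f : ℍ → ℂ)) ⟨f.2.holo, fun γ _ τ =>
    congrFun (congrArg Subtype.val (hinv γ)) τ, f.2.cusps⟩
  have hfP : f = aeval (jMF (Gamma M)) P := Subtype.ext (funext fun τ => by
    rw [hP]
    show _ = (modFuns (Gamma M)).val (aeval (jMF (Gamma M)) P) τ
    rw [← Polynomial.aeval_algHom_apply (modFuns (Gamma M)).val]
    simp [Polynomial.aeval_fn_apply, jMF])
  refine ⟨P, coeff_mem_of_series P.natDegree le_rfl fun k => ?_, by rw [← hf, hfP]⟩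
  have hs : wSer (x : WFld M) = expand M (NeZero.ne M) (aeval jq P) := by
    rw [← hf, GalRep.Model.wSer_algebraMap, hfP, show serHom M (aeval (jMF (Gamma M)) P) =
      GalRep.serAlg M (aeval (jMF (Gamma M)) P) from rfl, ← aeval_algHom_apply,
      show GalRep.serAlg M (jMF (Gamma M)) = _ from GalRep.jqN_eq (N := M)]
    clear hP hfP
    induction P using Polynomial.induction_on' with
    | add p q hp hq => simp [map_add, hp, hq]
    | monomial n c =>
      rw [aeval_monomial, aeval_monomial, map_mul, map_pow]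
      congr 1
      rw [HahnSeries.algebraMap_apply', PowerSeries.algebraMap_eq, HahnSeries.ofPowerSeries_C]
      ext i
      by_cases hi : (M : ℤ) ∣ i
      · obtain ⟨t, rfl⟩ := hi
        rw [GalRep.expand_coeff_mul, HahnSeries.C_apply, HahnSeries.coeff_single,
          HahnSeries.coeff_single]
        simp [NeZero.ne M]
      · rw [GalRep.expand_coeff_of_not_dvd _ _ _ _ hi, HahnSeries.C_apply,
          HahnSeries.coeff_single_of_ne fun h => hi (by rw [h]; exact dvd_zero _)]
  have := hR ((M : ℤ) * k)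
  rwa [hs, GalRep.expand_coeff_mul] at this

theorem coe_aeval_jK (P : Polynomial Q̄) : ((aeval (jK A L) P : LK M A) : WFld M) =
    algebraMap (modFuns (Gamma M)) (WFld M) (aeval (jMF (Gamma M)) (P.map qbarToC)) := by
  induction P using Polynomial.induction_on' with
  | add p q hp hq => simp [map_add, hp, hq]
  | monomial n c =>
    rw [Polynomial.map_monomial, aeval_monomial, aeval_monomial, map_mul, map_pow]
    rfl

/-- The invariants are rational functions of `j`. -/
theorem fixedField_fullG : fixedField (fullG M A) = Q̄⟮jK A L⟯ := by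
  classical
  haveI := Fintype.ofFinite (fullG M A)
  refine le_antisymm (fun x hx => ?_) (adjoin_simple_le_iff.mpr
    ((mem_fixedField_iff _ _).mpr fun σ hσ => fullG_jK A L hσ))
  rw [mem_fixedField_iff] at hx
  obtain ⟨a, ha, b, hb, hb0, hxb⟩ := GalRep.Model.exists_hol_div (cyc M A) x
  set Nb : LK M A := ∏ σ : fullG M A, (σ : LK M A ≃ₐ[Q̄] LK M A) b with hNb
  have hN0 : Nb ≠ 0 := Finset.prod_ne_zero_iff.mpr fun σ _ => (_root_.map_ne_zero _).mpr hb0
  have hhol : ∀ σ : fullG M A, (σ : LK M A ≃ₐ[Q̄] LK M A) b ∈ holRing (cyc M A) := by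
    rintro ⟨_, g, rfl⟩; exact shiftA_mem_holRing A g hb
  have hNfix : ∀ σ ∈ fullG M A, σ Nb = Nb := fun σ hσ => by
    rw [hNb, map_prod]
    exact Fintype.prod_equiv (Equiv.mulLeft ⟨σ, hσ⟩) _ _ fun _ => rfl
  have hxN : x * Nb ∈ holRing (cyc M A) := by
    rw [hNb, ← Finset.mul_prod_erase _ _ (Finset.mem_univ (1 : fullG M A)), ← mul_assoc,
      show x * ((1 : fullG M A) : LK M A ≃ₐ[Q̄] LK M A) b = a from hxb]
    exact mul_mem ha (Subring.prod_mem _ fun σ _ => hhol σ)
  have hpoly : ∀ y : LK M A, y ∈ holRing (cyc M A) → (∀ σ ∈ fullG M A, σ y = y) →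
      y ∈ Q̄⟮jK A L⟯ := by
    intro y hy hfix
    obtain ⟨f, hf⟩ := id hy
    obtain ⟨P, hP, hyP⟩ := exists_poly_of_fixed A hy hfix qbarToC.fieldRange.toSubring fun k => by
      rw [← hf, GalRep.Model.wSer_algebraMap]
      exact coeff_serHom_mem M A (hf ▸ y.2) k
    obtain ⟨Q, hQ⟩ := (Polynomial.mem_lifts P).mp ((Polynomial.lifts_iff_coeff_lifts P).mpr hP)
    rw [show y = aeval (jK A L) Q from Subtype.ext (by rw [coe_aeval_jK, hQ, hyP])]
    exact algebra_adjoin_le_adjoin Q̄ _ (aeval_mem_adjoin_singleton _ _)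
  rw [show x = x * Nb / Nb by rw [mul_div_assoc, div_self hN0, mul_one]]
  exact div_mem (hpoly _ hxN fun σ hσ => by rw [map_mul, hx σ hσ, hNfix σ hσ])
    (hpoly _ (Subring.prod_mem _ fun σ _ => hhol σ) hNfix)

theorem transcendental_jK : Transcendental Q̄ (jK A L) := by
  rw [transcendental_iff_injective, injective_iff_map_eq_zero]
  intro P hP
  have h := congrArg Subtype.val hP
  rw [coe_aeval_jK, ZeroMemClass.coe_zero, map_eq_zero_iff _ (IsFractionRing.injective _ _)] at h
  refine Polynomial.map_injective _ (RingHom.injective qbarToC) ?_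
  rw [Polynomial.map_zero]
  refine GalRep.eq_zero_of_eval_jFun fun τ => ?_
  have h2 : (modFuns (Gamma M)).val (aeval (jMF (Gamma M)) (P.map qbarToC)) τ = 0 := by rw [h]; rfl
  rw [← Polynomial.aeval_algHom_apply (modFuns (Gamma M)).val] at h2
  simpa [Polynomial.aeval_fn_apply, jMF] using h2

theorem isFinOver_jK : IsFinOver Q̄ (jK A L) := by
  refine ⟨transcendental_jK A L, ?_⟩
  rw [← fixedField_fullG A L]
  haveI := Fintype.ofFinite (fullG M A)
  exact inferInstanceAs (FiniteDimensional (FixedPoints.subfield (fullG M A) (LK M A)) (LK M A))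

/-! ## Integrality of holomorphic functions with integral series -/

/-- The series has coefficients in the valuation ring. -/
def IntSer (x : LK M A) : Prop := ∀ k, (wSer (x : WFld M)).coeff k ∈ A.toSubring.map qbarToC

variable (M) in
/-- Holomorphic with integral series at every cusp. -/
def intHol : Subring (LK M A) where
  carrier := {x | x ∈ holRing (cyc M A) ∧ ∀ g, IntSer A (shiftA M A g x)}
  one_mem' := ⟨one_mem _, fun g k => by
    rw [map_one, OneMemClass.coe_one, map_one, HahnSeries.coeff_one]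
    split_ifs
    exacts [one_mem _, zero_mem _]⟩
  zero_mem' := ⟨zero_mem _, fun g k => by
    rw [map_zero, ZeroMemClass.coe_zero, map_zero, HahnSeries.coeff_zero]; exact zero_mem _⟩
  add_mem' ha hb := ⟨add_mem ha.1 hb.1, fun g k => by
    rw [map_add, AddMemClass.coe_add, map_add, HahnSeries.coeff_add]
    exact add_mem (ha.2 g k) (hb.2 g k)⟩
  mul_mem' ha hb := ⟨mul_mem ha.1 hb.1, fun g k => by
    rw [map_mul, MulMemClass.coe_mul, map_mul, HahnSeries.coeff_mul]
    exact Subring.sum_mem _ fun ij _ => mul_mem (ha.2 g _) (hb.2 g _)⟩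
  neg_mem' ha := ⟨neg_mem ha.1, fun g k => by
    rw [map_neg, NegMemClass.coe_neg, map_neg, HahnSeries.coeff_neg]
    exact neg_mem (ha.2 g k)⟩

theorem shiftA_mem_intHol (g : SL(2, ℤ)) {x : LK M A} (hx : x ∈ intHol M A) :
    shiftA M A g x ∈ intHol M A := by
  refine ⟨shiftA_mem_holRing A g hx.1, fun h => ?_⟩
  rw [← AlgEquiv.mul_apply, ← map_mul]
  exact hx.2 _

include L in
/-- They are integral over `A[j]`. -/
theorem intHol_le_chart : intHol M A ≤ chart A (jK A L) := by
  classical
  haveI := Fintype.ofFinite (fullG M A)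
  intro x hx
  let op : (LK M A)[X] := ∏ σ : fullG M A, (X - C ((σ : LK M A ≃ₐ[Q̄] LK M A) x))
  refine mem_chart_of_monic A op (monic_prod_of_monic _ _ fun σ _ => monic_X_sub_C _) (fun i => ?_)
    (by
      rw [eval_prod]
      exact Finset.prod_eq_zero (Finset.mem_univ (1 : fullG M A)) (by simp))
  have hc : op.coeff i ∈ intHol M A := by
    let opI : (intHol M A)[X] := ∏ σ : fullG M A,
      (X - C ⟨(σ : LK M A ≃ₐ[Q̄] LK M A) x, by
        obtain ⟨_, g, rfl⟩ := σ
        exact shiftA_mem_intHol A g hx⟩)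
    have : op = opI.map (intHol M A).subtype := by
      rw [Polynomial.map_prod]
      refine Finset.prod_congr rfl fun σ _ => ?_
      rw [Polynomial.map_sub, map_X, map_C, Subring.subtype_apply]
    rw [this, coeff_map]
    exact (opI.coeff i).2
  have hfix : ∀ σ ∈ fullG M A, σ (op.coeff i) = op.coeff i := fun σ hσ => by
    have h : op.map (σ : LK M A →+* LK M A) = op := by
      rw [Polynomial.map_prod]
      refine Fintype.prod_equiv (Equiv.mulLeft ⟨σ, hσ⟩) _ _ fun τ => ?_
      rw [Polynomial.map_sub, map_X, map_C, Equiv.coe_mulLeft, Subgroup.coe_mul,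
        AlgEquiv.mul_apply, RingHom.coe_coe]
    conv_rhs => rw [← h, coeff_map, RingHom.coe_coe]
  obtain ⟨P, hP, hxP⟩ := exists_poly_of_fixed A hc.1 hfix (A.toSubring.map qbarToC) (by
    have := hc.2 1
    rwa [map_one] at this)
  obtain ⟨Q, hQ⟩ := (Polynomial.mem_lifts (f := qbarToC.comp A.subtype) P).mp
    ((Polynomial.lifts_iff_coeff_lifts P).mpr fun n => by
      obtain ⟨a, ha, he⟩ := hP n
      exact ⟨⟨a, ha⟩, he⟩)
  have : op.coeff i = polyA A (jK A L) Q := Subtype.ext (by
    rw [hxP, ← hQ, ← Polynomial.map_map]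
    exact (coe_aeval_jK A L _).symm)
  rw [this]
  exact polyA_mem_chart A _ Q

end Fermat.Agent.MCurve.Spec
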