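import Fermat.Agent.MCurve.Spec.GaloisRed
import Fermat.Agent.MCurve.Spec.Principal
import Fermat.Agent.MCurve.RiemannRoch.Curve
import Fermat.Agent.MCurve.RedLift

/-!
The reduction of the function field of `X₀(N)` at a good place onto the function field modulo `ℓ`,
and the centres of the places of the latter on the charts.
-/

set_option autoImplicit false
set_option linter.style.haveILetI false
set_option linter.unusedSectionVars false
set_option maxHeartbeats 1000000
set_option synthInstance.maxHeartbeats 400000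

noncomputable section

namespace Fermat.Agent.MCurve.Spec

open AlgebraicCurve ModularCurve IsLocalRing IntermediateField CongruenceSubgroup

local notation "Q̄" => AlgebraicClosure ℚ

theorem exists_fibre_zeros {K F : Type*} [Field K] [Field F] [Algebra K F] [IsAlgClosed K] {x : F}
    (h : IsFinOver K x) (c : K) :
    ∃ Z : Finset (Place K F), (∀ Q, Q ∈ Z ↔ 0 < Q.ord (x - algebraMap K F c)) ∧
      ∑ Q ∈ Z, Q.ord (x - algebraMap K F c) = Module.finrank K⟮x⟯ F := by
  classical
  haveI := RR.finiteResidue_of_isFinOver h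
  haveI := RR.hasPrincipalDivisors_of_isFinOver h
  set y := (x - algebraMap K F c)⁻¹ with hy
  have he : K⟮y⟯ = K⟮x⟯ := by
    refine le_antisymm (adjoin_simple_le_iff.mpr (inv_mem (sub_mem (mem_adjoin_simple_self K x)
      (IntermediateField.algebraMap_mem _ c)))) (adjoin_simple_le_iff.mpr ?_)
    have h1 : y⁻¹ + algebraMap K F c ∈ K⟮y⟯ :=
      add_mem (inv_mem (mem_adjoin_simple_self K y)) (IntermediateField.algebraMap_mem _ c)
    rwa [hy, inv_inv, sub_add_cancel] at h1
  have hy' : IsFinOver K y := h.of_transcendental fun halg => h.transcendental (by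
    simpa [hy] using halg.inv.add (isAlgebraic_algebraMap (R := K) (A := F) c))
  obtain ⟨P, hP, hd⟩ := RR.exists_pole_divisor hy'
  have hord : ∀ Q : Place K F, -Q.ord y = Q.ord (x - algebraMap K F c) := fun Q => by
    rw [hy, Q.ord_inv, neg_neg]
  have hmem : ∀ Q, Q ∈ P.support ↔ 0 < Q.ord (x - algebraMap K F c) := fun Q => by
    rw [Finsupp.mem_support_iff, hP, ← hord]
    omega
  refine ⟨P.support, hmem, ?_⟩
  rw [← he, ← hd, RR.degree_eq_sum]
  refine Finset.sum_congr rfl fun Q hQ => ?_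
  have := (hmem Q).mp hQ
  show _ = P Q
  rw [hP, hord]
  omega

section Field

variable {A : ValuationSubring Q̄} {N : ℕ} [NeZero N] {ℓ : ℕ} [Fact ℓ.Prime]
  (hA : A.LiesOverPrime ℓ) (hℓN : ¬ ℓ ∣ N)

local notation "𝔽" => modularFunctionFieldBar N
local notation "k" => ResidueField A
local notation "F'" => modularFunctionFieldFullC (ResidueField A) N

variable (A N) in
/-- The functions with series in the domain of the reduction. -/
def redDom : Subring 𝔽 :=
  (redRing A).comap ((modularFunctionFieldBar N).val : 𝔽 →+* LaurentSeries Q̄)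

include hA hℓN in
/-- A reducible function as a ratio of polynomials in `j` and `j (q ^ N)`. -/
theorem exists_red_repr {x : 𝔽} (hx : x ∈ redDom A N) :
    ∃ (D : Polynomial A) (P : Fin (Gamma0 N).index → Polynomial A),
      D.map (residue A) ≠ 0 ∧ x * polyA A (jBar N Q̄) D = polyF A N P ∧
        redS A ⟨(x : LaurentSeries Q̄), hx⟩ * sk A (aJ A D) = sk A (serA A N P) := by
  obtain ⟨D, P, hor, -, hxe⟩ := exists_repr hA hℓN x
  rw [show (∑ i, aJ A (P i) * bSer A N i) = serA A N P from rfl] at hxe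
  have hxr : (x : LaurentSeries Q̄) ∈ redRing A := hx
  have hD : D.map (residue A) ≠ 0 := fun hD => by
    obtain ⟨i, hi⟩ := hor.resolve_left (not_not.mpr hD)
    obtain ⟨S', E, hE, hSE⟩ := hxr
    have h := red_cross A hxe hSE
    rw [sk_aJ D, hD, map_zero, mul_zero] at h
    exact hi (red_indep hA hℓN P ((mul_eq_zero.mp h).resolve_right hE) i)
  refine ⟨D, P, hD, Subtype.ext ?_, ?_⟩
  · rw [coe_polyF, MulMemClass.coe_mul, coe_polyA_jBar]
    exact hxe
  · show redS A ⟨_, hxr⟩ * _ = _
    rw [redS_mk A hxr (sk_aJ_ne_zero hD) hxe, div_mul_cancel₀ _ (sk_aJ_ne_zero hD)]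

theorem sk_serA_mem_full (P : Fin (Gamma0 N).index → Polynomial A) : sk A (serA A N P) ∈ F' := by
  show coeffMap (residue A) (serA A N P) ∈ _
  rw [red_serA]
  refine sum_mem fun b _ => mul_mem ?_ (pow_mem (subset_adjoin _ _
    (mem_divisorExpansionsC k N dvd_rfl)) _)
  rw [← evJq_eq_jHom]
  exact genAlgK_le_full (evJq_mem k N _)

include hA hℓN in
theorem redS_mem_full {x : 𝔽} (hx : x ∈ redDom A N) :
    redS A ⟨(x : LaurentSeries Q̄), hx⟩ ∈ F' := by
  obtain ⟨D, P, hD, -, h⟩ := exists_red_repr hA hℓN hx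
  have hE := sk_aJ_ne_zero hD
  rw [← eq_div_iff hE] at h
  rw [h, sk_aJ]
  exact div_mem (sk_serA_mem_full P) (genAlgK_le_full (evJq_mem k N _))

/-- The reduction into the function field modulo `ℓ`. -/
def redF : redDom A N →+* F' :=
  ((redS A).comp (((((modularFunctionFieldBar N).val : 𝔽 →+* LaurentSeries Q̄)).comp
    (redDom A N).subtype).codRestrict (redRing A) fun x => x.2)).codRestrict
    (modularFunctionFieldFullC (ResidueField A) N) fun x => redS_mem_full hA hℓN x.2

theorem coe_redF (x : redDom A N) :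
    (redF hA hℓN x : LaurentSeries k) = redS A ⟨((x : 𝔽) : LaurentSeries Q̄), x.2⟩ := rfl

include hA hℓN in
theorem inv_mem_redDom {x : redDom A N} (hx : redF hA hℓN x ≠ 0) : (x : 𝔽)⁻¹ ∈ redDom A N := by
  have hcoe : (((x : 𝔽)⁻¹ : 𝔽) : LaurentSeries Q̄) = ((x : 𝔽) : LaurentSeries Q̄)⁻¹ :=
    map_inv₀ ((modularFunctionFieldBar N).val : 𝔽 →+* LaurentSeries Q̄) _
  rcases mem_or_inv_red hA hℓN (x : 𝔽)⁻¹ with h | ⟨h, h0⟩
  · exact h
  · refine absurd (Subtype.ext ?_) hx
    refine Eq.trans ?_ h0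
    rw [coe_redF]
    exact congrArg (redS A) (Subtype.ext (by show _ = (_ : LaurentSeries Q̄)⁻¹; rw [hcoe, inv_inv]))

theorem redF_algebraMap (a : A) (h : algebraMap Q̄ 𝔽 a ∈ redDom A N) :
    redF hA hℓN ⟨_, h⟩ = algebraMap k F' (residue A a) := by
  apply Subtype.ext
  rw [coe_redF]
  have e := redS_polyA (chartVarJ A (N := N)) (Polynomial.C a)
  rw [Polynomial.map_C, Polynomial.aeval_C] at e
  refine Eq.trans ?_ e
  exact congrArg (redS A) (Subtype.ext
    (congrArg (fun z : 𝔽 => (z : LaurentSeries Q̄)) (polyA_C A (jBar N Q̄) a).symm))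

theorem algebraMap_mem_redDom (a : A) : algebraMap Q̄ 𝔽 a ∈ redDom A N := by
  have e := polyA_mem_red (chartVarJ A (N := N)) (Polynomial.C a)
  rw [polyA_C] at e
  exact e

/-- The reduction is onto. -/
theorem redF_surjective : Function.Surjective (redF hA hℓN : redDom A N →+* F') := by
  rintro ⟨y, hy⟩
  suffices ∃ x : redDom A N, (redF hA hℓN x : LaurentSeries k) = y by
    obtain ⟨x, hx⟩ := this
    exact ⟨x, Subtype.ext hx⟩
  rw [modularFunctionFieldFullC] at hy
  induction hy using IntermediateField.adjoin_induction with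
  | mem z hz =>
    obtain ⟨d, hd0, hd, rfl⟩ := hz
    have hs : coeffMap (subA A) (qExpand A d (jqModC A)) = qExpand Q̄ d (jqModC Q̄) := by
      rw [qExpand_coeffMap, MCurve.coeffMap_jqModC]
    let g : 𝔽 := ⟨qExpand Q̄ d (jqModC Q̄),
      genAlg_le_bar (Algebra.subset_adjoin (mem_divisorExpansionsC Q̄ N hd))⟩
    have hg : g ∈ redDom A N := by
      show qExpand Q̄ d (jqModC Q̄) ∈ redRing A
      rw [← hs]
      exact sQ_mem A _
    refine ⟨⟨g, hg⟩, ?_⟩
    rw [coe_redF, show (⟨((g : 𝔽) : LaurentSeries Q̄), hg⟩ : redRing A) =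
      ⟨sQ A (qExpand A d (jqModC A)), sQ_mem A _⟩ from Subtype.ext hs.symm, redS_sQ, sk,
      qExpand_coeffMap, MCurve.coeffMap_jqModC]
  | algebraMap c =>
    obtain ⟨a, rfl⟩ := residue_surjective c
    exact ⟨⟨_, algebraMap_mem_redDom a⟩, by rw [redF_algebraMap]; rfl⟩
  | add x y _ _ hx hy =>
    obtain ⟨u, rfl⟩ := hx
    obtain ⟨v, rfl⟩ := hy
    exact ⟨u + v, by rw [map_add]; rfl⟩
  | mul x y _ _ hx hy =>
    obtain ⟨u, rfl⟩ := hx
    obtain ⟨v, rfl⟩ := hy
    exact ⟨u * v, by rw [map_mul]; rfl⟩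
  | inv x _ hx =>
    obtain ⟨u, rfl⟩ := hx
    by_cases hu : redF hA hℓN u = 0
    · exact ⟨0, by rw [map_zero, hu, ZeroMemClass.coe_zero, inv_zero]⟩
    refine ⟨⟨_, inv_mem_redDom hA hℓN hu⟩, ?_⟩
    have hu0 : (u : 𝔽) ≠ 0 := fun h => hu (by rw [show u = 0 from Subtype.ext h, map_zero])
    have h1 : redF hA hℓN ⟨_, inv_mem_redDom hA hℓN hu⟩ * redF hA hℓN u = 1 := by
      rw [← map_mul, ← map_one (redF hA hℓN)]
      exact congrArg _ (Subtype.ext (inv_mul_cancel₀ hu0))
    exact eq_inv_of_mul_eq_one_left (congrArg Subtype.val h1)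

/-! ## Charts -/

variable {t : modularFunctionFieldBar N}

include hA hℓN in
theorem chart_le_redDom (hv : ChartVar A t) : chart A t ≤ redDom A N :=
  fun _ hz => chart_mem_red hA hℓN hv hz

/-- The reduction on a chart. -/
def redFC (hv : ChartVar A t) : chart A t →+* F' :=
  (redF hA hℓN).comp (Subring.inclusion (chart_le_redDom hA hℓN hv))

theorem coe_redFC (hv : ChartVar A t) (y : chart A t) :
    (redFC hA hℓN hv y : LaurentSeries k) = redExpC hA hℓN hv y := rfl

theorem coe_redFC_polyA (hv : ChartVar A t) (g : Polynomial A) :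
    (redFC hA hℓN hv ⟨_, polyA_mem_chart A t g⟩ : LaurentSeries k) =
      Polynomial.aeval (sk A hv.T) (g.map (residue A)) :=
  redS_polyA hv g

theorem redFC_polyA_ne_zero (hv : ChartVar A t) {g : Polynomial A} (hg : g.map (residue A) ≠ 0) :
    redFC hA hℓN hv ⟨_, polyA_mem_chart A t g⟩ ≠ 0 := fun h => hg ((map_eq_zero_iff _ hv.red_inj).mp
  ((coe_redFC_polyA hA hℓN hv g).symm.trans (congrArg Subtype.val h)))

theorem redFC_cst (hv : ChartVar A t) (a : A) :
    redFC hA hℓN hv ⟨_, algebraMap_mem_chart A t a⟩ = algebraMap k F' (residue A a) :=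
  redF_algebraMap hA hℓN a _

/-- The reduction of the coordinate. -/
def redT (hv : ChartVar A t) : F' := redFC hA hℓN hv ⟨t, self_mem_chart A t⟩

theorem coe_redT (hv : ChartVar A t) : (redT hA hℓN hv : LaurentSeries k) = sk A hv.T := by
  have e := coe_redFC_polyA hA hℓN hv Polynomial.X
  rw [Polynomial.map_X, Polynomial.aeval_X] at e
  refine Eq.trans ?_ e
  rw [redT]
  exact congrArg (fun z : chart A t => (redFC hA hℓN hv z : LaurentSeries k))
    (Subtype.ext (polyA_X A t).symm)

theorem redT_J : redT hA hℓN (chartVarJ A (N := N)) = jFullC k N := Subtype.ext (by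
  rw [coe_redT]
  show coeffMap (residue A) (jqModC A) = _
  rw [MCurve.coeffMap_jqModC]
  rfl)

theorem redT_Inv : redT hA hℓN (chartVarInv A (N := N)) = (jFullC k N)⁻¹ := by
  have hj : jBar N Q̄ ≠ 0 := fun h =>
    (letI : Algebra Q̄ ℂ := GalRep.qbarToC.toAlgebra
     (bar_isFinOver_and_finrank N Q̄).1).transcendental (h ▸ isAlgebraic_zero)
  rw [← redT_J hA hℓN]
  refine eq_inv_of_mul_eq_one_left ?_
  rw [redT, redT, redFC, redFC, RingHom.comp_apply, RingHom.comp_apply, ← map_mul,
    ← map_one (redF hA hℓN)]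
  exact congrArg _ (Subtype.ext (inv_mul_cancel₀ hj))

theorem adjoin_redT (hv : ChartVar A t) (h : redT hA hℓN hv = jFullC k N ∨
    redT hA hℓN hv = (jFullC k N)⁻¹) : k⟮redT hA hℓN hv⟯ = k⟮jFullC k N⟯ := by
  rcases h with h | h <;> rw [h]
  exact adjoin_inv_eq _

theorem isFinOver_redT (hv : ChartVar A t) : IsFinOver k (redT hA hℓN hv) :=
  (isFinOver_jFullC (hint_red A N hA hℓN)).of_transcendental (transcendental_iff.mpr fun p hp => by
    refine (map_eq_zero_iff _ hv.red_inj).mp ?_
    rw [← coe_redT hA hℓN hv, ← IntermediateField.coe_val, Polynomial.aeval_algHom_apply, hp,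
      map_zero])

include hA hℓN in
theorem finiteResidue_red (Q : Place k F') : Module.Finite k Q.ResidueField :=
  (RR.finiteResidue_of_isFinOver (isFinOver_jFullC (hint_red A N hA hℓN)) Q).finite

include hA hℓN in
/-- The degree over the line of `j` modulo `ℓ` is at least the index. -/
theorem index_le_finrank :
    (Gamma0 N).index ≤ Module.finrank k⟮jFullC k N⟯ F' := by
  classical
  haveI := (isFinOver_jFullC (hint_red A N hA hℓN)).finite
  let y : F' := ⟨qExpand k N (jqModC k), subset_adjoin _ _ (mem_divisorExpansionsC k N dvd_rfl)⟩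
  suffices h : LinearIndependent k⟮jFullC k N⟯ fun b : Fin (Gamma0 N).index => y ^ (b : ℕ) by
    simpa using h.fintype_card_le_finrank
  have hinj : ∀ p : Polynomial k, p ≠ 0 → Polynomial.aeval (jFullC k N) p ≠ 0 := fun p hp h0 =>
    hp (transcendental_iff.mp (isFinOver_jFullC (hint_red A N hA hℓN)).transcendental p h0)
  rw [Fintype.linearIndependent_iff]
  intro c hc
  by_contra hne
  push Not at hne
  obtain ⟨b₀, hb₀⟩ := hne
  have h1 : ∀ b, ∃ r p : Polynomial k, r ≠ 0 ∧
      (c b : F') * Polynomial.aeval (jFullC k N) r = Polynomial.aeval (jFullC k N) p := fun b => by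
    obtain ⟨p, r, hpr⟩ := (mem_adjoin_simple_iff k _).mp (c b).2
    rcases eq_or_ne r 0 with rfl | hr
    · exact ⟨1, 0, one_ne_zero, by simp [hpr]⟩
    · exact ⟨r, p, hr, by rw [hpr, div_mul_cancel₀ _ (hinj r hr)]⟩
  choose r p hr hrp using h1
  set D := ∏ b, r b with hDdef
  have hD0 : D ≠ 0 := Finset.prod_ne_zero_iff.mpr fun b _ => hr b
  set P := fun b => p b * ∏ i ∈ Finset.univ.erase b, r i
  have hP : ∀ b, (c b : F') * Polynomial.aeval (jFullC k N) D =
      Polynomial.aeval (jFullC k N) (P b) := fun b => by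
    rw [hDdef, ← Finset.mul_prod_erase _ _ (Finset.mem_univ b), map_mul, ← mul_assoc, hrp, map_mul]
  have hz : ∑ b, jHom k (P b) * qExpand k N (jqModC k) ^ (b : ℕ) = 0 := by
    have h2 := congrArg (fun z : F' => ((z * Polynomial.aeval (jFullC k N) D : F') :
      LaurentSeries k)) hc
    simp only [Finset.sum_mul, zero_mul, ZeroMemClass.coe_zero] at h2
    rw [← h2, AddSubmonoidClass.coe_finsetSum]
    refine Finset.sum_congr rfl fun b _ => ?_
    rw [show c b • y ^ (b : ℕ) = (c b : F') * y ^ (b : ℕ) from rfl, mul_right_comm, hP,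
      MulMemClass.coe_mul, SubmonoidClass.coe_pow, ← IntermediateField.coe_val,
      ← Polynomial.aeval_algHom_apply]
    rw [← evJq_eq_jHom]
    rfl
  have h3 := hP b₀
  rw [congrFun (redIndependent_of_not_dvd hA hℓN P hz) b₀, Pi.zero_apply, map_zero, mul_eq_zero] at h3
  exact hb₀ (Subtype.ext (h3.resolve_right (hinj D hD0)))

/-- Every reducible function is a ratio in the chart with a nonzero denominator modulo `ℓ`. -/
theorem exists_lift_J (u : redDom A N) :
    ∃ a b : chart A (jBar N Q̄), redFC hA hℓN (chartVarJ A) b ≠ 0 ∧ (u : 𝔽) * b = a := by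
  obtain ⟨D, P, hD, he, -⟩ := exists_red_repr hA hℓN u.2
  have hjN : jNb N ∈ chart A (jBar N Q̄) := by
    refine mem_chart_of_red hA hℓN (chartVarJ A) ?_ ?_
    · show qExpand Q̄ N (jqModC Q̄) ∈ redRing A
      rw [show qExpand Q̄ N (jqModC Q̄) = sQ A (qExpand A N (jqModC A)) by
        rw [sQ, qExpand_coeffMap, MCurve.coeffMap_jqModC]]
      exact sQ_mem A _
    · obtain ⟨p, hp, hpy⟩ := hint_bar A N hA hℓN _ (mem_divisorExpansionsC Q̄ N dvd_rfl)
      refine ⟨p, hp, Subtype.val_injective ?_⟩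
      show (modularFunctionFieldBar N).val.toRingHom _ = (0 : LaurentSeries Q̄)
      rw [Polynomial.hom_eval₂, show (modularFunctionFieldBar N).val.toRingHom.comp
        (Polynomial.aeval (R := Q̄) (jBar N Q̄)).toRingHom = (evJq Q̄).toRingHom from
        RingHom.ext fun q => coe_aeval_jBar q]
      exact hpy
  have ha : polyF A N P ∈ chart A (jBar N Q̄) := Subring.sum_mem _ fun b _ =>
    mul_mem (polyA_mem_chart A _ _) (pow_mem hjN _)
  exact ⟨⟨_, ha⟩, ⟨_, polyA_mem_chart A _ D⟩, redFC_polyA_ne_zero hA hℓN _ hD, he⟩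

theorem exists_lift_Inv (u : redDom A N) :
    ∃ a b : chart A (jBar N Q̄)⁻¹, redFC hA hℓN (chartVarInv A) b ≠ 0 ∧ (u : 𝔽) * b = a := by
  obtain ⟨a, b, hb, he⟩ := exists_lift_J hA hℓN u
  have hj : jBar N Q̄ ≠ 0 := fun h =>
    (letI : Algebra Q̄ ℂ := GalRep.qbarToC.toAlgebra
     (bar_isFinOver_and_finrank N Q̄).1).transcendental (h ▸ isAlgebraic_zero)
  obtain ⟨m₁, hm₁⟩ := exists_inv_pow_mul_mem hj a.2
  obtain ⟨m₂, hm₂⟩ := exists_inv_pow_mul_mem hj b.2
  refine ⟨⟨_, hm₁ (m₁ + m₂) (by omega)⟩, ⟨_, hm₂ (m₁ + m₂) (by omega)⟩, ?_, ?_⟩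
  · have ht : (jBar N Q̄)⁻¹ ∈ redDom A N :=
      chart_le_redDom hA hℓN (chartVarInv A) (self_mem_chart A _)
    show redF hA hℓN _ ≠ 0
    rw [show Subring.inclusion (chart_le_redDom hA hℓN (chartVarInv A))
        ⟨_, hm₂ (m₁ + m₂) (by omega)⟩ =
      Subring.inclusion (chart_le_redDom hA hℓN (chartVarJ A)) b * ⟨_, ht⟩ ^ (m₁ + m₂) from
      Subtype.ext rfl, map_mul, map_pow]
    refine mul_ne_zero hb (pow_ne_zero _ ?_)
    exact fun h => (isFinOver_redT hA hℓN (chartVarInv A (N := N))).transcendental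
      ((show redT hA hℓN (chartVarInv A (N := N)) = 0 from h) ▸ isAlgebraic_zero)
  · show (u : 𝔽) * (_ * _) = _ * _
    rw [← mul_assoc, he]

/-! ## Centres downstairs -/

variable [∀ Q : Place (ResidueField A) (modularFunctionFieldFullC (ResidueField A) N),
  Module.Finite (ResidueField A) Q.ResidueField]

theorem redFC_mem_place (hv : ChartVar A t) {Q : Place k F'}
    (hQ : redT hA hℓN hv ∈ Q.toValuationSubring) (y : chart A t) :
    redFC hA hℓN hv y ∈ Q.toValuationSubring := by
  let pC : Polynomial A →+* chart A t := polC A t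
  have hc : ∀ g, redFC hA hℓN hv (pC g) ∈ Q.toValuationSubring := fun g => by
    induction g using Polynomial.induction_on' with
    | add a b ha hb => rw [map_add, map_add]; exact add_mem ha hb
    | monomial n a =>
      rw [← Polynomial.C_mul_X_pow_eq_monomial, map_mul, map_pow, map_mul, map_pow,
        show pC (Polynomial.C a) = ⟨_, algebraMap_mem_chart A t a⟩ from Subtype.ext (polyA_C A t a),
        redFC_cst, show pC Polynomial.X = ⟨t, self_mem_chart A t⟩ from Subtype.ext (polyA_X A t)]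
      exact mul_mem (Q.algebraMap_mem' _) (pow_mem hQ n)
  obtain ⟨p, hp, hpy⟩ := y.2
  let φ : Polynomial A →+* Q.toValuationSubring :=
    ((redFC hA hℓN hv).comp pC).codRestrict Q.toValuationSubring.toSubring hc
  have h0 : Polynomial.eval₂ pC y p = 0 := by
    apply Subtype.val_injective
    show (chart A t).subtype _ = _
    rw [Polynomial.hom_eval₂]
    exact hpy
  have hint : _root_.IsIntegral Q.toValuationSubring (redFC hA hℓN hv y) := by
    refine ⟨p.map φ, hp.map _, ?_⟩
    rw [Polynomial.eval₂_map]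
    have h1 := congrArg (redFC hA hℓN hv) h0
    rw [Polynomial.hom_eval₂, map_zero] at h1
    exact h1
  obtain ⟨z, hz⟩ := IsIntegrallyClosed.isIntegral_iff.mp hint
  exact hz ▸ z.2

/-- The centre of a place of the reduced field. -/
def cenQ (hv : ChartVar A t) (Q : Place (ResidueField A) (modularFunctionFieldFullC (ResidueField A) N))
    (hQ : redT hA hℓN hv ∈ Q.toValuationSubring) : chart A t →+* ResidueField A :=
  (placeVal Q).comp ((redFC hA hℓN hv).codRestrict Q.toValuationSubring.toSubring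
    (redFC_mem_place hA hℓN hv hQ))

theorem cenQ_eq_zero_iff (hv : ChartVar A t) {Q : Place k F'}
    (hQ : redT hA hℓN hv ∈ Q.toValuationSubring) (y : chart A t) :
    cenQ hA hℓN hv Q hQ y = 0 ↔ redFC hA hℓN hv y = 0 ∨ 0 < Q.ord (redFC hA hℓN hv y) :=
  placeVal_eq_zero_iff Q _

theorem cenQ_cst (hv : ChartVar A t) {Q : Place k F'}
    (hQ : redT hA hℓN hv ∈ Q.toValuationSubring) (a : A) :
    cenQ hA hℓN hv Q hQ ⟨_, algebraMap_mem_chart A t a⟩ = residue A a := by
  refine Eq.trans (congrArg (placeVal Q) (Subtype.ext ?_)) (placeVal_algebraMap Q (residue A a))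
  exact redFC_cst hA hℓN hv a

theorem cenQ_self (hv : ChartVar A t) {Q : Place k F'}
    (hQ : redT hA hℓN hv ∈ Q.toValuationSubring) {c : k}
    (hc : 0 < Q.ord (redT hA hℓN hv - algebraMap k F' c)) :
    cenQ hA hℓN hv Q hQ ⟨t, self_mem_chart A t⟩ = c := by
  obtain ⟨a, rfl⟩ := residue_surjective c
  rw [← cenQ_cst hA hℓN hv hQ a, ← sub_eq_zero, ← map_sub, cenQ_eq_zero_iff, map_sub, redFC_cst]
  exact Or.inr hc

end Field

end Fermat.Agent.MCurve.Spec
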