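import Fermat.Agent.MCurve.Spec.Totals

/-!
The total order in a disc of a function from below is a fixed positive multiple of the sum of its
orders at the places below with the centre of the disc.
-/

set_option autoImplicit false
set_option linter.unusedSectionVars false

noncomputable section

namespace Fermat.Agent.MCurve.Spec

open AlgebraicCurve Polynomial IsLocalRing IntermediateField

local notation "Q̄" => AlgebraicClosure ℚ

variable {A : ValuationSubring Q̄} {F₀ : Type*} [Field F₀] [Algebra Q̄ F₀]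
  [∀ P : Place Q̄ F₀, Module.Finite Q̄ P.ResidueField]

/-- The place `P` has centre `χ₀` on the chart of `t`. -/
def AtCen (t : F₀) (χ₀ : chart A t →+* ResidueField A) (P : Place Q̄ F₀) : Prop :=
  ∃ h : IsIntAt A P t, cval A P t h = χ₀

open scoped Classical in
/-- The sum of the orders at the places with centre `χ₀`. -/
def cenTot (t : F₀) (χ₀ : chart A t →+* ResidueField A) (x : F₀) : ℤ :=
  ∑ᶠ P : Place Q̄ F₀, if AtCen t χ₀ P then P.ord x else 0

theorem cenTot_mul [HasPrincipalDivisors Q̄ F₀] {t : F₀} (χ₀ : chart A t →+* ResidueField A)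
    {x y : F₀} (hx : x ≠ 0) (hy : y ≠ 0) :
    cenTot t χ₀ (x * y) = cenTot t χ₀ x + cenTot t χ₀ y := by
  classical
  have hs : ∀ z : F₀, (Function.support fun P : Place Q̄ F₀ =>
      if AtCen t χ₀ P then P.ord z else 0).Finite := fun z =>
    (finite_ord_support z).subset fun P hP => by
      simp only [Function.mem_support, ne_eq, ite_eq_right_iff, Classical.not_imp] at hP
      exact hP.2
  rw [cenTot, cenTot, cenTot, ← finsum_add_distrib (hs x) (hs y)]
  refine finsum_congr fun P => ?_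
  split_ifs
  · exact P.ord_mul hx hy
  · rw [add_zero]

open scoped Classical in
theorem cenTot_eq_sum {t : F₀} (χ₀ : chart A t →+* ResidueField A) (x : F₀)
    {D : Divisor Q̄ F₀} (hD : ∀ P, D P = P.ord x) :
    cenTot t χ₀ x = D.sum fun P n => if AtCen t χ₀ P then n else 0 := by
  rw [cenTot, finsum_eq_sum_of_support_subset _ (s := D.support) fun P hP => ?_]
  · exact Finset.sum_congr rfl fun P _ => by rw [hD]
  · simp only [Function.mem_support, ne_eq, ite_eq_right_iff, Classical.not_imp] at hP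
    rw [Finset.mem_coe, Finsupp.mem_support_iff, hD]
    exact hP.2

namespace Cover

variable {F : Type*} [Field F] [Algebra Q̄ F] (W : Cover A F) [IsAlgClosed (ResidueField A)]
  {χ : chart A W.t₀ →+* ResidueField A} (hχ : ∀ a, χ (W.cst a) = residue A a)
  (ι : F₀ →ₐ[Q̄] F) (H : Subgroup (F ≃ₐ[Q̄] F)) [Finite H] (hH : H ≤ W.G)
  (hfix : fixedField H = ι.fieldRange) {t : F₀} (ht : ι t = W.t₀) {x₀ : F₀}
  (hx₀ : IsFinOver Q̄ x₀)

include hH hfix ht hx₀

/-- The total order in a disc of a function from below. -/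
theorem exists_tot_eq_mul {χ₀ : chart A t →+* ResidueField A}
    (hχ₀ : ∀ (y : chart A t) (h : ι y ∈ chart A W.t₀), χ ⟨ι y, h⟩ = χ₀ y) :
    ∃ m n : ℤ, 0 < m ∧ 0 < n ∧
      ∀ g : F₀, g ≠ 0 → m * (W.disc χ hχ).tot (ι g) = n * cenTot t χ₀ g := by
  classical
  haveI := W.fin.hasPrincipalDivisors
  haveI := hx₀.hasPrincipalDivisors
  haveI := Fintype.ofFinite H
  haveI hres : ∀ R : Place Q̄ F, Module.Finite Q̄ R.ResidueField := W.fin.finiteResidue
  have hfa : FiniteAlong Q̄ ι := finiteAlong_of_isFinOver hx₀ W.fin ι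
  have hι := isIntegral_of_finiteAlong hfa
  have hfr : 0 < finrankAlong Q̄ ι := by
    letI := algebraAlong ι
    haveI : Module.Finite F₀ F := hfa
    exact Module.finrank_pos
  set D := W.disc χ hχ
  have hsι : ∀ (s : H) (g : F₀), (s : F ≃ₐ[Q̄] F) (ι g) = ι g := fun s g =>
    (mem_fixedField_iff H _).mp (hfix ▸ ⟨g, rfl⟩ : ι g ∈ fixedField H) _ s.2
  let cnt : Place Q̄ F → ℤ := fun Q =>
    (Nat.card {s : H // D.InDisc ((s : F ≃ₐ[Q̄] F) • Q)} : ℕ)
  -- a translate in the disc forces the centre below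
  have hcen : ∀ (Q : Place Q̄ F) (s : H), D.InDisc ((s : F ≃ₐ[Q̄] F) • Q) →
      AtCen t χ₀ (Q.restrictAlong ι hι) := fun Q s hs => by
    obtain ⟨h, hχQ⟩ := (W.inDisc_iff hχ _).mp hs
    have key : ∀ (y : F₀) (a : Q̄), HasVal ((s : F ≃ₐ[Q̄] F) • Q) (ι y) a ↔
        HasVal (Q.restrictAlong ι hι) y a := fun y a => by
      rw [← hasVal_restrictAlong ι hι Q, ← hasVal_smul (s : F ≃ₐ[Q̄] F) Q, hsι]
    obtain ⟨a, ha⟩ := isIntAt_iff.mp h
    rw [← ht, key] at ha
    have h0 : IsIntAt A (Q.restrictAlong ι hι) t := isIntAt_of_hasVal _ ha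
    refine ⟨h0, RingHom.ext fun y => ?_⟩
    obtain ⟨b, hb⟩ := exists_hasVal_of_mem_chart _ h0 y.2
    have hy : ι (y : F₀) ∈ chart A W.t₀ := ht ▸ map_mem_chart ι y.2
    rw [← hχ₀ y hy, ← hχQ, cval_of_hasVal _ h0 y hb, cval_of_hasVal _ h ⟨_, hy⟩ ((key _ _).mpr hb)]
  obtain ⟨β, hβ⟩ := residue_surjective (D.χ D.T')
  obtain ⟨Q₁, hQ₁, -⟩ := DiscData.exists_inDisc hβ
  have hQ₁' : AtCen t χ₀ (Q₁.restrictAlong ι hι) :=
    hcen Q₁ 1 (by rwa [Subgroup.coe_one, one_smul])
  set C := cnt Q₁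
  have hC : 0 < C := by
    haveI : Nonempty {s : H // D.InDisc ((s : F ≃ₐ[Q̄] F) • Q₁)} :=
      ⟨⟨1, by rwa [Subgroup.coe_one, one_smul]⟩⟩
    exact Int.natCast_pos.mpr Nat.card_pos
  have hcnt : ∀ Q, cnt Q = if AtCen t χ₀ (Q.restrictAlong ι hι) then C else 0 := fun Q => by
    split_ifs with h
    · obtain ⟨h1, e1⟩ := h
      obtain ⟨h2, e2⟩ := hQ₁'
      exact congrArg Nat.cast (W.count_eq hχ ι H hH hfix ht hι Q Q₁
        ⟨iff_of_true h1 h2, fun _ _ => e1.trans e2.symm⟩)
    · show ((Nat.card _ : ℕ) : ℤ) = 0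
      rw [Nat.card_eq_zero.mpr (Or.inl ⟨fun s => h (hcen Q s.1 s.2)⟩), Nat.cast_zero]
  refine ⟨Fintype.card H, C * finrankAlong Q̄ ι, Int.natCast_pos.mpr Fintype.card_pos,
    mul_pos hC (Int.natCast_pos.mpr hfr), fun g hg => ?_⟩
  obtain ⟨E, hE, -⟩ := HasPrincipalDivisors.exists_divisor (K := Q̄) g hg
  set D' := Divisor.pullbackAlong ι hι E with hD'
  have hord : ∀ Q : Place Q̄ F, Q.ord (ι g) = D' Q := fun Q => by
    rw [hD', Divisor.pullbackAlong_apply, Q.ord_restrictAlong ι hι, hE]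
  -- the linear functional
  let Λ : Divisor Q̄ F →+ ℤ := Finsupp.liftAddHom fun Q => AddMonoidHom.mulRight (cnt Q)
  have hΛ : ∀ X : Divisor Q̄ F, Λ X = ∑ Q ∈ X.support, X Q * cnt Q := fun X => rfl
  let φ : Place Q̄ F₀ → ℤ := fun P => if AtCen t χ₀ P then 1 else 0
  have hφ : ∀ Q, cnt Q = C * φ (Q.restrictAlong ι hι) := fun Q => by
    rw [hcnt]
    simp only [φ]
    split_ifs <;> simp
  have hpull : ∀ E₁ : Divisor Q̄ F₀, Λ (Divisor.pullbackAlong ι hι E₁) =
      C * finrankAlong Q̄ ι * E₁.sum (fun P m => m * φ P) := by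
    intro E₁
    induction E₁ using Finsupp.induction_linear with
    | zero => simp
    | add X Y hX hY =>
      rw [map_add, map_add, hX, hY, Finsupp.sum_add_index' (fun _ => zero_mul _)
        (fun _ _ _ => add_mul _ _ _), mul_add]
    | single P m =>
      rw [Finsupp.sum_single_index (zero_mul _)]
      have hdeg := Divisor.degree_pullbackAlong ι hι
        (fundamentalIdentityAlong_of_isFinOver hx₀ W.fin ι hι) (Finsupp.single P m)
      rw [Divisor.degree_single, hx₀.deg_eq_one P, Nat.cast_one, mul_one] at hdeg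
      rw [show C * (finrankAlong Q̄ ι : ℤ) * (m * φ P) = (finrankAlong Q̄ ι : ℤ) * m * (C * φ P) by
        ring, ← hdeg, Divisor.pullbackAlong_single, map_sum, map_sum, Finset.sum_mul]
      refine Finset.sum_congr rfl fun Q hQ => ?_
      rw [Divisor.degree_single, W.fin.deg_eq_one Q, Nat.cast_one, mul_one]
      simp only [Λ, Finsupp.liftAddHom_apply_single, AddMonoidHom.coe_mulRight]
      rw [hφ, Place.mem_fiberAlong.mp hQ]
  -- averaging over the group
  have hinv : ∀ (s : H) Q, D' ((s : F ≃ₐ[Q̄] F) • Q) = D' Q := fun s Q => by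
    rw [← hord, ← hord]
    conv_lhs => rw [← hsι s g]
    rw [Place.ord_smul]
  set S := D'.support
  have htot : ∀ s : H, D.tot (ι g) =
      ∑ Q ∈ S, (if D.InDisc ((s : F ≃ₐ[Q̄] F) • Q) then D' Q else 0) := fun s => by
    rw [DiscData.tot, ← finsum_comp_equiv (MulAction.toPerm (s : F ≃ₐ[Q̄] F)),
      finsum_eq_sum_of_support_subset (s := S)]
    · refine Finset.sum_congr rfl fun Q _ => ?_
      show (if D.InDisc ((s : F ≃ₐ[Q̄] F) • Q) then _ else _) = _
      rw [hord]
      show (if _ then D' ((s : F ≃ₐ[Q̄] F) • Q) else 0) = _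
      rw [hinv]
    · intro Q hQ
      rw [Function.mem_support] at hQ
      rw [Finset.mem_coe, Finsupp.mem_support_iff]
      intro h0
      refine hQ ?_
      show (if D.InDisc ((s : F ≃ₐ[Q̄] F) • Q) then _ else _) = _
      rw [hord]
      show (if _ then D' ((s : F ≃ₐ[Q̄] F) • Q) else 0) = _
      rw [hinv, h0, ite_self]
  have hsum : (Fintype.card H : ℤ) * D.tot (ι g) = Λ D' := by
    rw [← nsmul_eq_mul, ← Finset.card_univ, ← Finset.sum_const,
      Finset.sum_congr rfl fun s _ => htot s, Finset.sum_comm, hΛ]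
    refine Finset.sum_congr rfl fun Q _ => ?_
    simp only [cnt, Nat.card_eq_fintype_card, Fintype.card_subtype, Finset.card_filter,
      Nat.cast_sum, Finset.mul_sum]
    refine Finset.sum_congr rfl fun s _ => ?_
    split_ifs <;> simp
  rw [hsum, hD', hpull, cenTot_eq_sum χ₀ g hE]
  refine congrArg _ (Finset.sum_congr rfl fun P _ => ?_)
  simp only [φ, mul_ite, mul_one, mul_zero]

end Cover

end Fermat.Agent.MCurve.Spec
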