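import Fermat.Agent.MCurve.Spec.PlaceCentre
import Fermat.Agent.MCurve.Spec.Push
import Fermat.Agent.MCurve.Spec.Tame

/-!
The order of a reduction at a place modulo `ℓ` is proportional to the sum of the orders at the places
with the same centre.
-/

set_option autoImplicit false
set_option linter.style.haveILetI false
set_option linter.unusedSectionVars false
set_option maxHeartbeats 1000000
set_option synthInstance.maxHeartbeats 400000

noncomputable section

namespace Fermat.Agent.MCurve.Spec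

open AlgebraicCurve ModularCurve IsLocalRing IntermediateField CongruenceSubgroup
open Fermat.Agent.GalRep.Model (Lev)

local notation "Q̄" => AlgebraicClosure ℚ

variable {N : ℕ} [NeZero N] {ℓ : ℕ} [hℓ : Fact ℓ.Prime] {A : ValuationSubring Q̄}

local notation "𝔽" => modularFunctionFieldBar N
local notation "k" => ResidueField A
local notation "F'" => modularFunctionFieldFullC (ResidueField A) N

/-- The place of the reduced field lies over `c` and the order of a reduction there is proportional to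
the orders at the places with that centre. -/
def OrdProp (hA : A.LiesOverPrime ℓ) (hℓN : ¬ ℓ ∣ N)
    [∀ P : Place Q̄ (modularFunctionFieldBar N), Module.Finite Q̄ P.ResidueField]
    [∀ Q : Place (ResidueField A) (modularFunctionFieldFullC (ResidueField A) N),
      Module.Finite (ResidueField A) Q.ResidueField]
    {t : modularFunctionFieldBar N} (hv : ChartVar A t) (c : ResidueField A) : Prop :=
  ∀ (Q : Place (ResidueField A) (modularFunctionFieldFullC (ResidueField A) N))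
    (hQ : redT hA hℓN hv ∈ Q.toValuationSubring),
    0 < Q.ord (redT hA hℓN hv - algebraMap _ _ c) →
    ∃ p q : ℤ, 0 < p ∧ 0 < q ∧ ∀ a : chart A t, redFC hA hℓN hv a ≠ 0 →
      p * Q.ord (redFC hA hℓN hv a) = q * cenTot t (cenQ hA hℓN hv Q hQ) (a : 𝔽)

section Level

variable {M : ℕ} [NeZero M] (A) [hu : Fact (IsUnit (M : A))] (L : Lev M) (hNM : N ∣ M)
  (hA : A.LiesOverPrime ℓ) (hℓN : ¬ ℓ ∣ N)

include L hNM hA hℓN in
/-- The function field of level `N` modulo `ℓ` in the reduced field of level `M`. -/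
theorem qExpand_mem_redFld_lev {y : LaurentSeries (ResidueField A)}
    (hy : y ∈ modularFunctionFieldFullC (ResidueField A) N) :
    qExpand (ResidueField A) M y ∈ redFld M A := by
  rw [modularFunctionFieldFullC] at hy
  induction hy using IntermediateField.adjoin_induction with
  | mem x hx =>
    obtain ⟨d, hd0, hd, rfl⟩ := hx
    rw [← rS_iotaBar_jNb A L (hd.trans hNM) hA fun h => hℓN (h.trans hd)]
    exact rS_mem_redFld A _
  | algebraMap c =>
    rw [HahnSeries.algebraMap_apply', PowerSeries.algebraMap_eq, HahnSeries.ofPowerSeries_C,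
      qExpand_C]
    exact C_mem_redFld A c
  | add x y _ _ hx hy => rw [map_add]; exact add_mem hx hy
  | inv x _ hx => rw [map_inv₀]; exact inv_mem hx
  | mul x y _ _ hx hy => rw [map_mul]; exact mul_mem hx hy

/-- The residue map on the reducible functions. -/
theorem exists_phi :
    ∃ (V : ValuationSubring (LK M A)) (_ : IsGauss A (jK A L) V)
      (Φ : modularFunctionFieldFullC (ResidueField A) N →+* ResidueField V),
      (∀ z : redDom A N, ∃ h : iotaBar A L hNM hA hℓN (z : 𝔽) ∈ V,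
        residue V ⟨_, h⟩ = Φ (redF hA hℓN z)) ∧
      ∀ z : redDom A N, redF hA hℓN z ≠ 0 → ∀ σ ∈ fullG M A,
        ∃ h : σ (iotaBar A L hNM hA hℓN (z : 𝔽)) ∈ V, residue V ⟨_, h⟩ ≠ 0 := by
  classical
  obtain ⟨V, hle, hV, hkey⟩ := exists_gauss_rS A L
  obtain ⟨ψ, hψ⟩ := exists_redEmb A hle hkey
  let qM : F' →+* redFld M A :=
    ((qExpand (ResidueField A) M).comp (modularFunctionFieldFullC (ResidueField A) N).val.toRingHom)
      |>.codRestrict (redFld M A) fun y => qExpand_mem_redFld_lev A L hNM hA hℓN y.2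
  have hj : iotaBar A L hNM hA hℓN (jBar N Q̄) = jK A L := iotaBar_jBar A L hNM hA hℓN
  -- polynomials in `j` and `j (q ^ N)`
  let el : (Fin (Gamma0 N).index → Polynomial A) → intHol M A := fun P =>
    ∑ b, polI A L (P b) * ⟨_, lvlHol_le_intHol A (iotaBar_jNb_mem A L hNM hA hℓN)⟩ ^ (b : ℕ)
  have hel : ∀ P, (el P : LK M A) = iotaBar A L hNM hA hℓN (polyF A N P) := fun P => by
    simp only [el, AddSubmonoidClass.coe_finsetSum, polyF, map_sum]
    refine Finset.sum_congr rfl fun b _ => ?_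
    rw [map_mul, map_pow, map_polyA, MulMemClass.coe_mul, SubmonoidClass.coe_pow, hj]
    rfl
  have hrS : ∀ P, rS A (el P) = qExpand (ResidueField A) M (sk A (serA A N P)) := fun P => by
    show _ = qExpand (ResidueField A) M (coeffMap (residue A) (serA A N P))
    simp only [el]
    rw [map_sum, red_serA, map_sum]
    refine Finset.sum_congr rfl fun b _ => ?_
    rw [map_mul, map_pow, rS_polI, rS_iotaBar_jNb, ← map_pow, ← map_mul]
  -- a reducible function over a polynomial in `j`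
  have key : ∀ z : redDom A N, ∃ d a : intHol M A, residue V (Subring.inclusion hle d) ≠ 0 ∧
      (∀ σ ∈ fullG M A, σ (d : LK M A) = d) ∧
      iotaBar A L hNM hA hℓN (z : 𝔽) * (d : LK M A) = a ∧
      qExpand (ResidueField A) M ((redF hA hℓN z : F') : LaurentSeries (ResidueField A)) * rS A d =
        rS A a := fun z => by
    obtain ⟨D, P, hD, he, hs⟩ := exists_red_repr hA hℓN z.2
    refine ⟨polI A L D, el P, fun h => ?_, fun σ hσ => ?_, ?_, ?_⟩
    · have h1 := (hkey _).mp h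
      rw [rS_polI, map_eq_zero_iff _ (qExpand_injective M), map_eq_zero_iff _ jHom_injective] at h1
      exact hD h1
    · show σ (polyA A (jK A L) D) = polyA A (jK A L) D
      rw [show σ (polyA A (jK A L) D) = (σ : LK M A →ₐ[Q̄] LK M A) (polyA A (jK A L) D) from rfl,
        map_polyA, show (σ : LK M A →ₐ[Q̄] LK M A) (jK A L) = jK A L from fullG_jK A L hσ]
    · show _ * polyA A (jK A L) D = _
      rw [hel, ← he, map_mul, map_polyA, hj]
    · rw [rS_polI, ← map_mul, hrS, ← hs, sk_aJ, evJq_eq_jHom]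
      rfl
  have hunit : ∀ d : intHol M A, residue V (Subring.inclusion hle d) ≠ 0 →
      ∃ u : V, (d : LK M A) * (u : LK M A) = 1 ∧
        residue V (Subring.inclusion hle d) * residue V u = 1 := fun d hd => by
    obtain ⟨u, hu⟩ := ((residue_ne_zero_iff_isUnit _).mp hd).exists_right_inv
    exact ⟨u, congrArg Subtype.val hu, by rw [← map_mul, hu, map_one]⟩
  refine ⟨V, hV, ψ.comp qM, fun z => ?_, fun z hz σ hσ => ?_⟩
  · obtain ⟨d, a, hd, -, he, hs⟩ := key z
    obtain ⟨u, hu1, hu2⟩ := hunit d hd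
    have hz : iotaBar A L hNM hA hℓN (z : 𝔽) = (a : LK M A) * (u : LK M A) := by
      rw [← he, mul_assoc, hu1, mul_one]
    have hzV : iotaBar A L hNM hA hℓN (z : 𝔽) ∈ V := hz ▸ mul_mem (hle a.2) u.2
    refine ⟨hzV, ?_⟩
    rw [show (⟨_, hzV⟩ : V) = Subring.inclusion hle a * u from Subtype.ext hz, map_mul]
    have h1 : residue V (Subring.inclusion hle a) =
        (ψ.comp qM) (redF hA hℓN z) * residue V (Subring.inclusion hle d) := by
      rw [← hψ, ← hψ, RingHom.comp_apply, ← map_mul]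
      exact congrArg ψ (Subtype.ext hs.symm)
    rw [h1, mul_assoc, hu2, mul_one]
  · obtain ⟨d, a, hd, hdσ, he, hs⟩ := key z
    obtain ⟨u, hu1, hu2⟩ := hunit d hd
    have ha : rS A a ≠ 0 := by
      rw [← hs]
      exact mul_ne_zero ((map_ne_zero_iff _ (qExpand_injective M)).mpr
        fun h => hz (Subtype.ext h)) fun h => hd ((hkey d).mpr h)
    obtain ⟨hσa, hσa0⟩ := rS_fullG_ne_zero A ha hσ
    have hz : σ (iotaBar A L hNM hA hℓN (z : 𝔽)) = σ (a : LK M A) * (u : LK M A) := by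
      rw [← he, map_mul, hdσ σ hσ, mul_assoc, hu1, mul_one]
    have hzV : σ (iotaBar A L hNM hA hℓN (z : 𝔽)) ∈ V := hz ▸ mul_mem (hle hσa) u.2
    refine ⟨hzV, ?_⟩
    rw [show (⟨_, hzV⟩ : V) = Subring.inclusion hle ⟨_, hσa⟩ * u from Subtype.ext hz, map_mul]
    exact mul_ne_zero (mt (hkey _).mp hσa0) (right_ne_zero_of_mul_eq_one hu2)

variable [∀ P : Place Q̄ (modularFunctionFieldBar N), Module.Finite Q̄ P.ResidueField]
  [∀ Q : Place (ResidueField A) (modularFunctionFieldFullC (ResidueField A) N),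
    Module.Finite (ResidueField A) Q.ResidueField]

/-- The proportionality through a cover of level `M`. -/
theorem ordProp_core (W : Cover A (LK M A)) (hG : W.G = fullG M A)
    {t : modularFunctionFieldBar N} (hv : ChartVar A t) (ht : iotaBar A L hNM hA hℓN t = W.t₀)
    {V : ValuationSubring (LK M A)} (hV : IsGauss A W.t₀ V)
    (Φ : modularFunctionFieldFullC (ResidueField A) N →+* ResidueField V)
    (hΦ : ∀ z : redDom A N, ∃ h : iotaBar A L hNM hA hℓN (z : 𝔽) ∈ V,
      residue V ⟨_, h⟩ = Φ (redF hA hℓN z))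
    (hconj : ∀ z : redDom A N, redF hA hℓN z ≠ 0 → ∀ σ ∈ fullG M A,
      ∃ h : σ (iotaBar A L hNM hA hℓN (z : 𝔽)) ∈ V, residue V ⟨_, h⟩ ≠ 0)
    {c : ResidueField A} (hunif : ∀ χ hχ, χ ⟨W.t₀, self_mem_chart A _⟩ = c →
      Nonempty (W.disc χ hχ).Unif) :
    OrdProp hA hℓN hv c := by
  classical
  intro Q hQ hc
  letI : Algebra Q̄ ℂ := GalRep.qbarToC.toAlgebra
  haveI := W.fin.hasPrincipalDivisors
  set ι := iotaBar A L hNM hA hℓN
  have hmem : ∀ y : chart A t, ι (y : 𝔽) ∈ chart A W.t₀ := fun y => ht ▸ map_mem_chart ι y.2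
  let up : chart A t → chart A W.t₀ := fun y => ⟨_, hmem y⟩
  have hred : ∀ y, hV.red (up y) = Φ (redFC hA hℓN hv y) := fun y => by
    obtain ⟨h, e⟩ := hΦ ⟨y, chart_le_redDom hA hℓN hv y.2⟩
    exact e
  have hupc : ∀ a : A, up ⟨_, algebraMap_mem_chart A t a⟩ = W.cst a := fun a =>
    Subtype.ext (ι.commutes _)
  have htheta : ∀ c' : k, hV.theta c' = Φ (algebraMap k F' c') := fun c' => by
    obtain ⟨a, rfl⟩ := residue_surjective c'
    rw [hV.theta_residue, ← redFC_cst hA hℓN hv a, ← hred, hupc]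
    rfl
  have hredT : hV.redT = Φ (redT hA hℓN hv) := by
    rw [redT, ← hred]
    show residue V _ = residue V _
    exact congrArg _ (Subtype.ext ht.symm)
  obtain ⟨V', hV'⟩ := exists_valuationSubring_comap Φ Q.toValuationSubring
  have hk : ∀ c', hV.theta c' ∈ V' := fun c' => by
    rw [htheta, hV']; exact Q.algebraMap_mem' c'
  have htV : hV.redT ∈ V' := by rw [hredT, hV']; exact hQ
  have hlt : ∀ z : F', V'.valuation (Φ z) < 1 ↔ z = 0 ∨ 0 < Q.ord z := fun z => by
    rcases eq_or_ne z 0 with rfl | hz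
    · simp
    rw [or_iff_right hz, ← not_le, ← not_le]
    refine not_congr ?_
    have h1 := hV' z⁻¹
    rw [← V'.valuation_le_one_iff, mem_iff_ord_nonneg Q (inv_ne_zero hz), Q.ord_inv, map_inv₀,
      map_inv₀, inv_le_one₀ (zero_lt_iff.mpr ((_root_.map_ne_zero _).mpr
        ((_root_.map_ne_zero Φ).mpr hz)))] at h1
    rw [h1]
    omega
  have hord0 : ∀ z : F', z ≠ 0 → Q.ord z = 0 → V'.valuation (Φ z) = 1 := fun z hz h0 =>
    le_antisymm ((V'.valuation_le_one_iff _).mpr ((hV' z).mpr ((mem_iff_ord_nonneg Q hz).mpr h0.ge)))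
      (not_lt.mp fun h => by have := ((hlt z).mp h).resolve_left hz; omega)
  have hres : residue V' ⟨_, htV⟩ = residue V' ⟨_, hk c⟩ := by
    rw [← sub_eq_zero, ← map_sub, residue_eq_zero_iff]
    refine (V'.valuation_lt_one_iff _).mpr ?_
    show V'.valuation (hV.redT - hV.theta c) < 1
    rw [hredT, htheta, ← map_sub Φ, hlt]
    exact Or.inr hc
  obtain ⟨χ, hχ, hχc, hcomp⟩ := W.exists_compat hV V' hk htV hres
  obtain ⟨U⟩ := hunif χ hχ hχc
  -- the centre below
  have hχ₀ : ∀ (y : chart A t) (h : ι (y : 𝔽) ∈ chart A W.t₀),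
      χ ⟨_, h⟩ = cenQ hA hℓN hv Q hQ y := fun y h => by
    obtain ⟨a, ha⟩ := residue_surjective (cenQ hA hℓN hv Q hQ y)
    rw [← ha, ← hχ a, ← sub_eq_zero, ← map_sub]
    refine (hcomp.lt_one_iff _).mp ?_
    show V'.valuation (hV.red ((⟨_, h⟩ : chart A W.t₀) - W.cst a)) < 1
    rw [show (⟨_, h⟩ : chart A W.t₀) - W.cst a =
      up (y - ⟨_, algebraMap_mem_chart A t a⟩) from Subtype.ext (by
        show ι (y : 𝔽) - algebraMap Q̄ _ (a : Q̄) = ι ((y : 𝔽) - algebraMap Q̄ _ (a : Q̄))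
        rw [map_sub, ι.commutes]), hred, hlt, ← cenQ_eq_zero_iff hA hℓN hv hQ, map_sub, cenQ_cst,
      ha, sub_self]
  have hx₀ : IsFinOver Q̄ (jBar N Q̄) := (bar_isFinOver_and_finrank N Q̄).1
  obtain ⟨m, n, hm, hn, hpush⟩ := W.exists_tot_eq_mul hχ ι (gam0G N M A) (hG ▸ gam0G_le A)
    (fixedField_gam0G A L hNM hA hℓN) ht hx₀ hχ₀
  set D := W.disc χ hχ
  set τ := V'.valuation (hV.red U.t)
  have hτ0 : τ ≠ 0 := (_root_.map_ne_zero _).mpr (hcomp.rho_t_ne_zero U)
  have hτ1 : τ < 1 := hcomp.rho_t_lt_one U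
  have hinj : ∀ a b : ℤ, τ ^ a = τ ^ b → a = b := fun a b hab =>
    (zpow_right_strictAnti₀ (zero_lt_iff.mpr hτ0) hτ1).injective hab
  have hval : ∀ a : chart A t, redFC hA hℓN hv a ≠ 0 →
      V'.valuation (Φ (redFC hA hℓN hv a)) = τ ^ D.tot (ι (a : 𝔽)) := fun a ha => by
    rw [← hred]
    refine hcomp.val_eq_zpow U (x := up a) fun g => ?_
    obtain ⟨h, hne⟩ := hconj ⟨a, chart_le_redDom hA hℓN hv a.2⟩ ha (g : LK M A ≃ₐ[Q̄] LK M A)
      (hG ▸ W.le g.2)
    exact hne
  -- the reference function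
  obtain ⟨α, rfl⟩ := residue_surjective c
  set a₀ : chart A t := ⟨t, self_mem_chart A t⟩ - ⟨_, algebraMap_mem_chart A t α⟩
  have ha₀ : redFC hA hℓN hv a₀ = redT hA hℓN hv - algebraMap k F' (residue A α) := by
    rw [map_sub, redFC_cst]; rfl
  set e₀ := Q.ord (redFC hA hℓN hv a₀)
  have he₀ : 0 < e₀ := by rw [← ha₀] at hc; exact hc
  have ha₀0 : redFC hA hℓN hv a₀ ≠ 0 := fun h => by
    simp [e₀, h] at he₀
  set E₀ := D.tot (ι (a₀ : 𝔽))
  have hE₀ : 0 < E₀ := not_le.mp fun h => by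
    have h1 := (hlt _).mpr (Or.inr he₀)
    rw [hval a₀ ha₀0] at h1
    exact (one_le_zpow_of_nonpos₀ (zero_lt_iff.mpr hτ0) hτ1.le h).not_gt h1
  refine ⟨m * E₀, n * e₀, mul_pos hm hE₀, mul_pos hn he₀, fun a ha => ?_⟩
  set o := Q.ord (redFC hA hℓN hv a)
  have hz0 : redFC hA hℓN hv a ^ e₀ / redFC hA hℓN hv a₀ ^ o ≠ 0 :=
    div_ne_zero (zpow_ne_zero _ ha) (zpow_ne_zero _ ha₀0)
  have h1 := hord0 _ hz0 (by
    rw [div_eq_mul_inv, Q.ord_mul (zpow_ne_zero _ ha) (inv_ne_zero (zpow_ne_zero _ ha₀0)), Q.ord_inv,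
      Q.ord_zpow, Q.ord_zpow]
    ring)
  rw [map_div₀, map_zpow₀, map_zpow₀, map_div₀, map_zpow₀, map_zpow₀, hval a ha, hval a₀ ha₀0,
    ← zpow_mul, ← zpow_mul, div_eq_one_iff_eq (zpow_ne_zero _ hτ0)] at h1
  have h2 := hinj _ _ h1
  have h3 := hpush (a : 𝔽) fun h => ha (by
    rw [show a = 0 from Subtype.ext h, map_zero])
  show m * E₀ * o = _
  linear_combination -m * h2 + e₀ * h3

end Level

variable (hA : A.LiesOverPrime ℓ) (hℓN : ¬ ℓ ∣ N)
  [∀ P : Place Q̄ (modularFunctionFieldBar N), Module.Finite Q̄ P.ResidueField]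
  [∀ Q : Place (ResidueField A) (modularFunctionFieldFullC (ResidueField A) N),
    Module.Finite (ResidueField A) Q.ResidueField]

/-- The proportionality over the finite points of the line and at infinity. -/
theorem ordProp : (∀ c, OrdProp hA hℓN (chartVarJ A (N := N)) c) ∧
    OrdProp hA hℓN (chartVarInv A (N := N)) 0 := by
  classical
  obtain ⟨d, hd, hℓd, ⟨L⟩⟩ := GalRep.Model.exists_lev (M := N) hℓ.out hℓN
  haveI : NeZero (N * d) := ⟨Nat.mul_ne_zero (NeZero.ne N) hd.ne'⟩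
  haveI hu : Fact (IsUnit ((N * d : ℕ) : A)) := ⟨by
    haveI := GalRep.charP_residue (A := A) hℓ.out hA
    rw [← residue_ne_zero_iff_isUnit, map_natCast]
    exact fun h => hℓd ((CharP.cast_eq_zero_iff k ℓ _).mp h)⟩
  have hNM : N ∣ N * d := dvd_mul_right N d
  obtain ⟨V, hV, Φ, hΦ, hconj⟩ := exists_phi A L hNM hA hℓN
  refine ⟨fun c => ?_, ?_⟩
  · exact ordProp_core A L hNM hA hℓN (coverW A L) rfl (chartVarJ A)
      (iotaBar_jBar A L hNM hA hℓN) hV Φ hΦ hconj fun χ hχ _ => unif_coverW A L χ hχ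
  · exact ordProp_core A L hNM hA hℓN (coverI A L) rfl (chartVarInv A)
      (by rw [map_inv₀, iotaBar_jBar]; rfl) (hV := hV.inv) Φ hΦ hconj
      fun χ hχ h0 => unif_coverI A L hχ h0

end Fermat.Agent.MCurve.Spec
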