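import Fermat.Agent.MCurve.Spec.Level
import Fermat.Agent.GalRep.Model.SheetsCusp

/-!
The relation between `j` and the coordinate `w` of level `2` or `3` over `A`.
-/

set_option autoImplicit false
set_option linter.style.haveILetI false
set_option linter.unusedSectionVars false

noncomputable section

namespace Fermat.Agent.MCurve.Spec

open Polynomial IsLocalRing CongruenceSubgroup
open Fermat.Agent.GalRep (modFuns jMF serHom shift qbarToC expand jq)
open Fermat.Agent.GalRep.Model (Lev WFld lvlField fShift serAt holRing wShift SeriesField cuspMat)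
open scoped MatrixGroups

local notation "Q̄" => AlgebraicClosure ℚ

variable {M : ℕ} [NeZero M] (A : ValuationSubring Q̄) [hu : Fact (IsUnit (M : A))] (L : Lev M)

local notation "al" => algebraMap (PowerSeries A) (SeriesField A)

theorem fShift_jK (δ : SL(2, ℤ)) : fShift (cyc M A) δ (jK A L) = jK A L := by
  have h := shiftA_jK A L δ⁻¹
  rwa [shiftA_apply, inv_inv] at h

/-- `q ^ M j` at a cusp is an integral unit series. -/
theorem exists_serAt_jK : ∃ U : (PowerSeries A)ˣ,
    PowerSeries.constantCoeff (U : PowerSeries A) = 1 ∧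
    ∀ δ, serAt (cyc M A) δ (jK A L) * al (PowerSeries.X ^ M) = al (U : PowerSeries A) := by
  classical
  set s : LaurentSeries ℂ := expand M (NeZero.ne M) jq with hs
  have hint : ∀ k, ∃ a : A, qbarToC (a : Q̄) = s.coeff k := fun k => by
    have h : s.coeff k ∈ (⊥ : Subring ℂ) := by
      by_cases hd : (M : ℤ) ∣ k
      · obtain ⟨i, rfl⟩ := hd
        rw [hs, GalRep.expand_coeff_mul]; exact jq_coeff_mem _ i
      · rw [hs, GalRep.expand_coeff_of_not_dvd _ _ _ _ hd]; exact zero_mem _
    obtain ⟨z, hz⟩ := Subring.mem_bot.mp h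
    exact ⟨(z : A), by rw [← hz]; simp⟩
  choose a ha using hint
  let P : PowerSeries A := PowerSeries.mk fun n => a ((n : ℤ) - M)
  have hP : (cyc M A).gC P = s * HahnSeries.single (M : ℤ) 1 := by
    ext k
    rw [HahnSeries.coeff_mul_single, mul_one]
    rcases lt_or_ge k 0 with hk | hk
    · rw [GalRep.Model.coeff_gC_neg (cyc M A) P hk, eq_comm]
      by_cases hd : (M : ℤ) ∣ k - M
      · obtain ⟨i, hi⟩ := hd
        rw [hi, hs, GalRep.expand_coeff_mul]
        refine HahnSeries.coeff_eq_zero_of_lt_order ?_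
        rw [GalRep.order_jq]
        by_contra h
        push Not at h
        have hM : (0 : ℤ) < M := by exact_mod_cast NeZero.pos M
        nlinarith
      · rw [hs, GalRep.expand_coeff_of_not_dvd _ _ _ _ hd]
    · obtain ⟨l, rfl⟩ := Int.eq_ofNat_of_zero_le hk
      rw [Cyc_gC_apply, PowerSeries.coeff_mk]
      exact ha _
  have hu1 : PowerSeries.constantCoeff P = 1 := by
    refine (cyc M A).inj ?_
    rw [map_one, ← GalRep.Model.coeff_gC_zero (cyc M A) P, hP, HahnSeries.coeff_mul_single, mul_one,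
      zero_sub, hs, show (-(M : ℤ)) = (M : ℤ) * (-1) by ring, GalRep.expand_coeff_mul,
      GalRep.coeff_jq_neg_one]
  have hu : IsUnit P := PowerSeries.isUnit_iff_constantCoeff.mpr (hu1 ▸ isUnit_one)
  refine ⟨hu.unit, hu1, fun δ => (cyc M A).toC.injective ?_⟩
  have hj : ((jK A L : LK M A) : WFld M) = algebraMap _ _ (jMF (Gamma M)) := rfl
  rw [map_mul, (cyc M A).toC_algebraMap, (cyc M A).toC_algebraMap, (cyc M A).gC_X_pow,
    IsUnit.unit_spec, hP]
  congr 1
  have h := congrArg Subtype.val (fShift_jK A L δ)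
  rw [GalRep.Model.coe_fShift] at h
  rw [GalRep.Model.toC_serAt, h, hj, GalRep.Model.wSer_algebraMap, serHom_jMF]
where
  Cyc_gC_apply {P : PowerSeries A} {l : ℕ} :
      ((cyc M A).gC P).coeff (l : ℤ) = qbarToC ((PowerSeries.coeff l P : A) : Q̄) := by
    rw [GalRep.Model.Cyc.gC, RingHom.comp_apply, HahnSeries.ofPowerSeries_apply_coeff,
      PowerSeries.coeff_map]
    rfl

theorem serAt_aeval_finite {i : Fin 4} (hi : i ∈ L.J) {δ : SL(2, ℤ)} (h : L.IsCusp i δ)
    (P : Polynomial A) : ∃ G : PowerSeries A,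
      serAt (cyc M A) δ (aeval (L.w (cyc M A)) P) = al G ∧
        PowerSeries.constantCoeff G = P.eval (L.cval (cyc M A) i) := by
  obtain ⟨U, hU⟩ := L.serAt_w_finite (cyc M A) hi h
  induction P using Polynomial.induction_on' with
  | add p q hp hq =>
    obtain ⟨g, hg, hg'⟩ := hp
    obtain ⟨g', hh, hh'⟩ := hq
    exact ⟨g + g', by rw [map_add, map_add, hg, hh, map_add], by rw [map_add, hg', hh', eval_add]⟩
  | monomial n a =>
    refine ⟨PowerSeries.C a *
      (PowerSeries.C (L.cval (cyc M A) i) + PowerSeries.X ^ L.e * (U : PowerSeries A)) ^ n, ?_, ?_⟩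
    · rw [aeval_monomial, map_mul, map_pow, GalRep.Model.serAt_algebraMap, hU, map_mul, map_pow]
    · simp [zero_pow L.e_pos.ne']

/-- `j` as a quotient of polynomials in `w` over `A`. -/
theorem exists_relW : ∃ R : Polynomial A,
    jK A L * aeval (L.w (cyc M A)) (L.cuspPoly (cyc M A) ^ L.m) = aeval (L.w (cyc M A)) R ∧
      (∀ i ∈ L.J, IsUnit (R.eval (L.cval (cyc M A) i))) ∧ IsUnit R.leadingCoeff ∧
      R.natDegree = L.m * (L.J.card + 1) := by
  classical
  set C := cyc M A
  obtain ⟨U, hU1, hU⟩ := exists_serAt_jK A L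
  have hjhol : jK A L ∈ holRing C := ⟨jMF (Gamma M), rfl⟩
  have hX : ∀ k : ℕ, al (PowerSeries.X ^ k) ≠ 0 := fun k => by
    rw [Ne, map_eq_zero_iff _ (IsFractionRing.injective _ _)]
    exact pow_ne_zero _ PowerSeries.X_ne_zero
  set y := jK A L * aeval (L.w C) (L.cuspPoly C ^ L.m)
  have hfin : ∀ i ∈ L.J, ∀ δ, L.IsCusp i δ → ∃ V : (PowerSeries A)ˣ,
      serAt C δ y = al (V : PowerSeries A) := by
    intro i hi δ hδ
    obtain ⟨V, hV⟩ := L.serAt_cuspPoly C hi hδ
    refine ⟨U * V ^ L.m, ?_⟩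
    rw [map_mul, map_pow, map_pow, hV, ← map_pow, mul_pow, ← pow_mul, ← L.eq, map_mul,
      ← mul_assoc, hU, Units.val_mul, Units.val_pow_eq_pow_val, map_mul]
  have hpole : ∀ δ, L.IsCusp 1 δ → ∃ V : (PowerSeries A)ˣ,
      serAt C δ y * al (PowerSeries.X ^ (L.e * (L.m * (L.J.card + 1)))) = al (V : PowerSeries A) := by
    intro δ hδ
    obtain ⟨V, hV⟩ := GalRep.Model.serAt_cuspPoly_pole L C δ hδ
    refine ⟨U * V ^ L.m, ?_⟩
    rw [map_mul, map_pow, map_pow,
      show L.e * (L.m * (L.J.card + 1)) = L.e * L.J.card * L.m + L.e * L.m by ring, ← L.eq, pow_add,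
      map_mul, pow_mul, map_pow, Units.val_mul, Units.val_pow_eq_pow_val, map_mul,
      map_pow al (V : PowerSeries A) L.m, ← hV, ← hU δ]
    ring
  have hy : y ∈ L.intRing C := ⟨mul_mem hjhol (GalRep.Model.aeval_mem_holRing C _
      (GalRep.Model.rat_mem_holRing C _)),
    fun i hi δ hδ => by obtain ⟨V, hV⟩ := hfin i hi δ hδ; exact ⟨_, hV.symm⟩,
    fun δ hδ => by obtain ⟨V, hV⟩ := hpole δ hδ; exact ⟨_, _, hV.symm⟩⟩
  obtain ⟨R, hR⟩ := L.exists_aeval_of_fixed C hy fun σ => by
    obtain ⟨γ, hγ, rfl⟩ := L.exists_eq_galOf C σ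
    rw [smul_mul', L.smul_aeval, L.galOf_smul, fShift_jK]
  refine ⟨R, hR, fun i hi => ?_, ?_⟩
  · obtain ⟨V, hV⟩ := hfin i hi _ (L.isCusp_cuspMat i (L.mem_J.mp hi).1)
    obtain ⟨G, hG, hG0⟩ := serAt_aeval_finite A L hi (L.isCusp_cuspMat i (L.mem_J.mp hi).1) R
    rw [← hG0, show G = (V : PowerSeries A) from IsFractionRing.injective _ (SeriesField A)
      (hG.symm.trans ((congrArg _ hR.symm).trans hV))]
    exact PowerSeries.isUnit_constantCoeff _ V.isUnit
  · obtain ⟨V, hV⟩ := hpole _ (L.isCusp_cuspMat 1 L.valid1)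
    obtain ⟨g, u, hu, hg, hgc⟩ := L.serAt_aeval_pole C R
    rw [hR] at hV
    set d := L.m * (L.J.card + 1)
    set n := R.natDegree
    have h2 : g * PowerSeries.X ^ (L.e * d) = PowerSeries.X ^ (L.e * n) * (V : PowerSeries A) :=
      IsFractionRing.injective _ (SeriesField A) (by
        rw [map_mul, map_mul, ← hg, mul_right_comm, hV, mul_comm])
    have hg0 : PowerSeries.constantCoeff g ≠ 0 := by
      rw [hgc]
      refine mul_ne_zero (leadingCoeff_ne_zero.mpr fun h0 => ?_) hu.ne_zero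
      rw [h0, map_zero, map_zero, zero_mul, eq_comm,
        map_eq_zero_iff _ (IsFractionRing.injective _ _)] at hV
      exact V.ne_zero hV
    have hV0 := PowerSeries.isUnit_constantCoeff _ V.isUnit
    rcases lt_trichotomy (L.e * d) (L.e * n) with h | h | h
    · have h3 := congrArg (PowerSeries.coeff (L.e * d)) h2
      rw [PowerSeries.coeff_mul_X_pow', if_pos le_rfl, Nat.sub_self, PowerSeries.coeff_X_pow_mul',
        if_neg (by omega), PowerSeries.coeff_zero_eq_constantCoeff] at h3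
      exact absurd h3 hg0
    · have h3 := congrArg (PowerSeries.coeff (L.e * d)) h2
      rw [PowerSeries.coeff_mul_X_pow', if_pos le_rfl, Nat.sub_self, PowerSeries.coeff_X_pow_mul',
        if_pos h.ge, h, Nat.sub_self, PowerSeries.coeff_zero_eq_constantCoeff, hgc] at h3
      exact ⟨isUnit_of_mul_isUnit_left (h3 ▸ hV0), (Nat.eq_of_mul_eq_mul_left L.e_pos h).symm⟩
    · have h3 := congrArg (PowerSeries.coeff (L.e * n)) h2
      rw [PowerSeries.coeff_mul_X_pow', if_neg (by omega), PowerSeries.coeff_X_pow_mul', if_pos le_rfl,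
        Nat.sub_self, PowerSeries.coeff_zero_eq_constantCoeff] at h3
      exact absurd h3.symm hV0.ne_zero

end Fermat.Agent.MCurve.Spec
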