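import Fermat.Agent.MCurve.Spec.Ratio
import Fermat.Agent.MCurve.Spec.RedField
import Fermat.Agent.Models.Gamma0.SeriesConv
import Fermat.Agent.Moduli.Germ
import Fermat.Agent.Moduli.JRelation

/-!
Tools for the places of the reduced field of level `M`: integral holomorphic functions have all
translates with series over `A`, the reduced field embeds in the residue field of a Gauss valuation,
and the relation of `j` with the coordinate of level two.
-/

set_option autoImplicit false
set_option linter.unusedSectionVars false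

noncomputable section

namespace Fermat.Agent.MCurve.Spec

open AlgebraicCurve ModularCurve Polynomial IsLocalRing CongruenceSubgroup
open Fermat.Agent.GalRep (modFuns jMF serHom shift qbarToC)
open Fermat.Agent.GalRep.Model (Lev WFld lvlField wShift wSer)
open scoped MatrixGroups

local notation "Q̄" => AlgebraicClosure ℚ
local notation "ℍ" => UpperHalfPlane

/-! ## Valuation rings along a field embedding -/

section Val

variable {K K' : Type*} [Field K] [Field K'] (ψ : K →+* K') (Wv : ValuationSubring K)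

/-- A valuation ring of a subfield is cut out by one of the field. -/
theorem exists_valuationSubring_comap : ∃ V' : ValuationSubring K', ∀ x, ψ x ∈ V' ↔ x ∈ Wv := by
  obtain ⟨V', hV', hloc⟩ := IsLocalRing.exists_factor_valuationRing (R := Wv) (ψ.comp Wv.subtype)
  refine ⟨V', fun x => ⟨fun hx => ?_, fun hx => hV' ⟨x, hx⟩⟩⟩
  by_contra hxW
  have hi : x⁻¹ ∈ Wv := (Wv.mem_or_inv_mem x).resolve_left hxW
  have hx0 : x ≠ 0 := fun h => hxW (h ▸ zero_mem Wv)
  have hu : IsUnit (⟨x⁻¹, hi⟩ : Wv) := by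
    refine hloc.map_nonunit _ (IsUnit.of_mul_eq_one ⟨ψ x, hx⟩ (Subtype.ext ?_))
    show ψ x⁻¹ * ψ x = 1
    rw [← map_mul, inv_mul_cancel₀ hx0, map_one]
  obtain ⟨v, hv⟩ := hu.exists_right_inv
  refine hxW ?_
  rw [show x = (v : K) from by
    rw [← inv_inv x]; exact inv_eq_of_mul_eq_one_right (congrArg Subtype.val hv)]
  exact v.2

theorem valuation_le_iff {V' : ValuationSubring K'} (h : ∀ x, ψ x ∈ V' ↔ x ∈ Wv) (x y : K) :
    V'.valuation (ψ x) ≤ V'.valuation (ψ y) ↔ Wv.valuation x ≤ Wv.valuation y := by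
  rcases eq_or_ne y 0 with rfl | hy
  · simp
  have hy' : ψ y ≠ 0 := (_root_.map_ne_zero ψ).mpr hy
  have key := h (x / y)
  rw [← V'.valuation_le_one_iff, ← Wv.valuation_le_one_iff, map_div₀ ψ, map_div₀, map_div₀,
    div_le_one₀ (zero_lt_iff.mpr ((_root_.map_ne_zero _).mpr hy')),
    div_le_one₀ (zero_lt_iff.mpr ((_root_.map_ne_zero _).mpr hy))] at key
  exact key

theorem valuation_eq_iff {V' : ValuationSubring K'} (h : ∀ x, ψ x ∈ V' ↔ x ∈ Wv) (x y : K) :
    V'.valuation (ψ x) = V'.valuation (ψ y) ↔ Wv.valuation x = Wv.valuation y := by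
  rw [le_antisymm_iff, le_antisymm_iff, valuation_le_iff ψ Wv h, valuation_le_iff ψ Wv h]

open scoped Classical in
/-- A uniformiser, when all values are powers of one value. -/
theorem exists_uniformiser {V' : ValuationSubring K'} (h : ∀ x, ψ x ∈ V' ↔ x ∈ Wv)
    {τ : V'.ValueGroup} (hτ0 : τ ≠ 0) (hτ1 : τ < 1)
    (hall : ∀ x : K, x ≠ 0 → ∃ a : ℤ, V'.valuation (ψ x) = τ ^ a) {z : K} {N : ℕ} (hN : 0 < N)
    (hz : V'.valuation (ψ z) = τ ^ N) :
    ∃ u : K, u ≠ 0 ∧ Wv.valuation u < 1 ∧
      (∀ x : K, x ≠ 0 → ∃ n : ℤ, Wv.valuation x = Wv.valuation u ^ n) ∧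
      ∃ n : ℕ, 0 < n ∧ n ∣ N ∧ Wv.valuation z = Wv.valuation u ^ n := by
  have hinj : ∀ a b : ℤ, τ ^ a = τ ^ b → a = b := fun a b hab =>
    (zpow_right_strictAnti₀ (zero_lt_iff.mpr hτ0) hτ1).injective hab
  have hz0 : z ≠ 0 := fun h0 => pow_ne_zero N hτ0 (by rw [← hz, h0, map_zero, map_zero])
  have hex : ∃ d : ℕ, 0 < d ∧ ∃ u : K, u ≠ 0 ∧ V'.valuation (ψ u) = τ ^ d :=
    ⟨N, hN, z, hz0, hz⟩
  obtain ⟨hd0, u, hu0, hu⟩ := Nat.find_spec hex
  set d := Nat.find hex with hd
  have hpow : ∀ (x : K) (a : ℤ), x ≠ 0 → V'.valuation (ψ x) = τ ^ a →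
      (d : ℤ) ∣ a ∧ Wv.valuation x = Wv.valuation u ^ (a / (d : ℤ)) := by
    intro x a hx hxa
    have hr0 := Int.emod_nonneg a (Int.natCast_ne_zero.mpr hd0.ne')
    have hrd : a % (d : ℤ) < d := Int.emod_lt_of_pos a (Int.natCast_pos.mpr hd0)
    have hval : V'.valuation (ψ (x / u ^ (a / (d : ℤ)))) = τ ^ (a % (d : ℤ)) := by
      rw [map_div₀ ψ, map_zpow₀ ψ, map_div₀, map_zpow₀, hxa, hu, ← zpow_natCast, ← zpow_mul,
        ← zpow_sub₀ hτ0]
      congr 1
      rw [Int.emod_def]
    have hmod : a % (d : ℤ) = 0 := by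
      by_contra hne
      obtain ⟨r, hr⟩ := Int.eq_ofNat_of_zero_le hr0
      refine Nat.find_min hex (m := r) (by rw [hr] at hrd; exact_mod_cast hrd) ⟨?_, _,
        div_ne_zero hx (zpow_ne_zero _ hu0), by rw [hval, hr, zpow_natCast]⟩
      rw [hr] at hne
      omega
    refine ⟨Int.dvd_of_emod_eq_zero hmod, ?_⟩
    rw [hmod, zpow_zero, ← map_one V'.valuation, ← map_one ψ, valuation_eq_iff ψ Wv h, map_div₀,
      map_one, map_zpow₀, div_eq_one_iff_eq (zpow_ne_zero _ ((_root_.map_ne_zero _).mpr hu0))] at hval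
    exact hval
  refine ⟨u, hu0, ?_, fun x hx => ?_, ?_⟩
  · refine lt_of_not_ge fun hge => ?_
    have h1 : V'.valuation (ψ 1) ≤ V'.valuation (ψ u) :=
      (valuation_le_iff ψ Wv h 1 u).mpr (by rwa [map_one])
    rw [map_one, map_one, hu] at h1
    exact (pow_lt_one₀ zero_le hτ1 hd0.ne').not_ge h1
  · obtain ⟨a, ha⟩ := hall x hx
    exact ⟨_, (hpow x a hx ha).2⟩
  · obtain ⟨hdvd, hval⟩ := hpow z N hz0 (by rw [hz, zpow_natCast])
    have hdvd' : d ∣ N := Int.natCast_dvd_natCast.mp hdvd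
    refine ⟨N / d, Nat.div_pos (Nat.le_of_dvd hN hdvd') hd0, Nat.div_dvd_of_dvd hdvd', ?_⟩
    rw [hval, ← Int.natCast_div, zpow_natCast]

end Val

variable {M : ℕ} [NeZero M] (A : ValuationSubring Q̄) [hu : Fact (IsUnit (M : A))]

/-- Integral holomorphic functions have all translates with series over `A`. -/
theorem intHol_le_lvlHol : intHol M A ≤ lvlHol A := by
  rintro x ⟨⟨Φ, hΦ⟩, hx⟩
  refine ⟨Φ, ⟨fun γ hγ τ => Φ.2.invariant γ hγ τ, fun γ => ?_⟩, hΦ.symm⟩
  set Ψ := shift M γ Φ with hΨ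
  have hco : ∀ k, (serHom M Ψ).coeff k ∈ AC A := fun k => by
    have h1 := hx γ⁻¹ k
    rwa [coe_shiftA A hΦ.symm, GalRep.Model.wSer_algebraMap, inv_inv] at h1
  obtain ⟨t, ht⟩ := exists_coeffMap_subtype_eq hco
  have hper : ∀ τ : ℍ, (Ψ : ℍ → ℂ) ((M : ℝ) +ᵥ τ) = (Ψ : ℍ → ℂ) τ := fun τ => by
    have hT : ModularGroup.T ^ (M : ℤ) ∈ Gamma M := by
      rw [Gamma_mem, ModularGroup.coe_T_zpow]
      simp
    have h1 := Ψ.2.invariant _ hT τ
    rwa [UpperHalfPlane.modular_T_zpow_smul, Int.cast_natCast] at h1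
  exact ⟨UpperHalfPlane.mdifferentiable_iff.mp Ψ.2.holo, t,
    ht.symm ▸ GalRep.lExp_of_hasQSeries (NeZero.pos M) Ψ.2.holo hper (GalRep.hasQSeries_serHom Ψ)⟩

/-- Reduction is nonzero at every cusp when it is nonzero at infinity. -/
theorem rS_fullG_ne_zero {x : intHol M A} (h : rS A x ≠ 0) {σ : LK M A ≃ₐ[Q̄] LK M A}
    (hσ : σ ∈ fullG M A) :
    ∃ hx : σ (x : LK M A) ∈ intHol M A, rS A ⟨_, hx⟩ ≠ 0 := by
  obtain ⟨g, rfl⟩ := hσ
  exact ⟨shiftA_mem_intHol A g x.2, rS_shiftA_ne_zero A (intHol_le_lvlHol A x.2) h g⟩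

/-! ## The reduced field in the residue field -/

theorem mem_redFld_iff {y : LaurentSeries (ResidueField A)} :
    y ∈ redFld M A ↔ ∃ a b : intHol M A, rS A a / rS A b = y := by
  constructor
  · intro hy
    rw [redFld, Subfield.mem_closure_iff] at hy
    obtain ⟨a, ha, b, hb, rfl⟩ := hy
    have hcl : Subring.closure (Set.range (rS (M := M) A)) ≤ (rS (M := M) A).range :=
      Subring.closure_le.mpr (by rw [RingHom.coe_range])
    obtain ⟨a, rfl⟩ := hcl ha
    obtain ⟨b, rfl⟩ := hcl hb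
    exact ⟨a, b, rfl⟩
  · rintro ⟨a, b, rfl⟩
    exact div_mem (rS_mem_redFld A a) (rS_mem_redFld A b)

/-- The reduced field in the residue field of a Gauss valuation detecting the reduction. -/
theorem exists_redEmb {V : ValuationSubring (LK M A)} (hle : intHol M A ≤ V.toSubring)
    (hker : ∀ x : intHol M A, residue V (Subring.inclusion hle x) = 0 ↔ rS A x = 0) :
    ∃ ψ : redFld M A →+* ResidueField V,
      ∀ x : intHol M A, ψ ⟨rS A x, rS_mem_redFld A x⟩ = residue V (Subring.inclusion hle x) := by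
  classical
  let R : intHol M A →+* ResidueField V := (residue V).comp (Subring.inclusion hle)
  let f : intHol M A →+* redFld M A := (rS A).codRestrict (redFld M A) (rS_mem_redFld A)
  have hfR : ∀ x, f x = 0 ↔ R x = 0 := fun x => by
    refine Iff.trans ?_ (hker x).symm
    exact ⟨fun h => congrArg Subtype.val h, fun h => Subtype.ext h⟩
  have hrep : ∀ y : redFld M A, ∃ a b : intHol M A, R b ≠ 0 ∧ y * f b = f a := fun y => by
    rcases eq_or_ne y 0 with rfl | hy
    · exact ⟨0, 1, by rw [map_one]; exact one_ne_zero, by rw [map_zero, zero_mul]⟩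
    obtain ⟨a, b, hab⟩ := (mem_redFld_iff A).mp y.2
    have hb : rS A b ≠ 0 := fun h => hy (Subtype.ext (by rw [← hab, h, div_zero]; rfl))
    refine ⟨a, b, fun h => hb ((hker b).mp h), Subtype.ext ?_⟩
    show (y : LaurentSeries (ResidueField A)) * rS A b = rS A a
    rw [← hab, div_mul_cancel₀ _ hb]
  choose num den hden hy using hrep
  have key : ∀ (y : redFld M A) (a b : intHol M A), R b ≠ 0 → y * f b = f a →
      R (num y) / R (den y) = R a / R b := fun y a b hb h => by
    have hf : f (num y * b - a * den y) = 0 := by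
      rw [map_sub, map_mul, map_mul, ← hy y, ← h]; ring
    have h0 := (hfR _).mp hf
    rw [map_sub, map_mul, map_mul, sub_eq_zero] at h0
    rw [div_eq_div_iff (hden y) hb, h0]
  refine ⟨{ toFun := fun y => R (num y) / R (den y), map_one' := ?_, map_mul' := ?_,
            map_zero' := ?_, map_add' := ?_ }, fun x => ?_⟩
  · rw [key 1 1 1 (by rw [map_one]; exact one_ne_zero) (by rw [one_mul]), map_one, div_one]
  · intro y z
    rw [key (y * z) (num y * num z) (den y * den z) (by
      rw [map_mul]; exact mul_ne_zero (hden y) (hden z)) (by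
      rw [map_mul, map_mul, ← hy y, ← hy z]; ring), div_mul_div_comm, map_mul, map_mul]
  · rw [key 0 0 1 (by rw [map_one]; exact one_ne_zero) (by simp), map_zero, zero_div]
  · intro y z
    rw [key (y + z) (num y * den z + num z * den y) (den y * den z) (by
      rw [map_mul]; exact mul_ne_zero (hden y) (hden z)) (by
      rw [map_mul, map_add, map_mul, map_mul, ← hy y, ← hy z]; ring),
      div_add_div _ _ (hden y) (hden z), map_add, map_mul, map_mul, map_mul]
    ring
  · show R (num _) / R (den _) = _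
    rw [key _ x 1 (by rw [map_one]; exact one_ne_zero) (by rw [map_one, mul_one]; exact Subtype.ext rfl),
      map_one, div_one]
    rfl

/-! ## The coordinate of level two -/

variable (L : Lev M)

/-- The Legendre relation. -/
theorem jK_mul_w (hm : L.m = 2) :
    jK A L * (L.w (cyc M A) ^ 2 * (L.w (cyc M A) - 1) ^ 2) =
      256 * (L.w (cyc M A) ^ 2 - L.w (cyc M A) + 1) ^ 3 := by
  set Φ := GalRep.Model.ratMF (cyc M A) (L.vq 0 1 0 2 L.valid0 L.valid2 (by decide)) with hΦ
  have e : jMF (Gamma M) * (Φ ^ 2 * (Φ - 1) ^ 2) = 256 * (Φ ^ 2 - Φ + 1) ^ 3 := by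
    refine Subtype.ext (funext fun τ => ?_)
    set v := GalRep.Model.wpDiff M (L.V 0) (L.V 1) τ / GalRep.Model.wpDiff M (L.V 0) (L.V 2) τ
    have hv : (Moduli.halfPeriods L hm τ).lam = v := by
      have hc : ((2 : ℂ) * Real.pi * Complex.I) ^ 2 ≠ 0 :=
        pow_ne_zero _ (by simp [Real.pi_ne_zero, Complex.I_ne_zero])
      simp only [v, Moduli.HalfPeriods.lam, Moduli.HalfPeriods.e, GalRep.Model.wpDiff,
        Moduli.halfPeriods, Moduli.halfIdx, Matrix.cons_val_zero, Matrix.cons_val_one,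
        Matrix.cons_val]
      rw [div_div_div_cancel_right₀ hc, ← neg_div_neg_eq, neg_sub, neg_sub]
    have h := Moduli.jFun_mul_lam τ (Moduli.halfPeriods L hm τ)
    rw [hv] at h
    exact h
  have hw : ((L.w (cyc M A) : LK M A) : WFld M) = algebraMap (modFuns (Gamma M)) (WFld M) Φ := rfl
  refine Subtype.ext ?_
  have := congrArg (algebraMap (modFuns (Gamma M)) (WFld M)) e
  simp only [map_mul, map_pow, map_sub, map_add, map_one, map_ofNat, ← hw] at this
  exact this

theorem cuspPoly_two (hm : L.m = 2) :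
    L.cuspPoly (cyc M A) = (X - 1) * X := by
  have hJ : L.J = {0, 2} := by simp [Lev.J, hm]
  rw [Lev.cuspPoly, hJ, Finset.prod_pair (by decide)]
  simp [Lev.cval]

/-- The numerator of `j` in the coordinate of level two. -/
theorem relW_two (hm : L.m = 2) :
    (exists_relW A L).choose = 256 * (X ^ 2 - X + 1) ^ 3 := by
  refine L.aeval_w_injective (cyc M A) ?_
  rw [← (exists_relW A L).choose_spec.1, cuspPoly_two A L hm, hm]
  simp only [map_mul, map_pow, map_sub, map_add, map_one, map_ofNat, aeval_X]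
  rw [← jK_mul_w A L hm]
  ring

/-- `256 (λ² - λ + 1)³ - c (λ² - λ)²` has no root of multiplicity four. -/
theorem rootMultiplicity_lam_lt {k : Type*} [Field k] (h6 : (6 : k) ≠ 0) (c β : k) :
    rootMultiplicity β (256 * (X ^ 2 - X + 1) ^ 3 - C c * ((X - 1) * X) ^ 2 : k[X]) ≤ 3 := by
  set f : k[X] := 256 * (X ^ 2 - X + 1) ^ 3 - C c * ((X - 1) * X) ^ 2 with hf
  by_contra hlt
  push Not at hlt
  have h2 : (2 : k) ≠ 0 := fun h => h6 (by linear_combination 3 * h)
  have h3 : (3 : k) ≠ 0 := fun h => h6 (by linear_combination 2 * h)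
  have hd : ∀ n : ℕ, n ≤ 3 → ((derivative^[n]) f).IsRoot β := fun n hn =>
    isRoot_iterate_derivative_of_lt_rootMultiplicity (by omega)
  set s := β ^ 2 - β
  set t := 2 * β - 1
  have e0 : 256 * (s + 1) ^ 3 - c * s ^ 2 = 0 := by
    have := hd 0 (by omega)
    simp only [Function.iterate_zero, id_eq, IsRoot.def, hf, eval_sub, eval_mul, eval_pow, eval_add,
      eval_ofNat, eval_X, eval_one, eval_C] at this
    simp only [s]
    linear_combination this
  have e1 : t * (768 * (s + 1) ^ 2 - 2 * c * s) = 0 := by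
    have := hd 1 (by omega)
    simp [hf, Function.iterate_succ_apply', derivative_pow, derivative_mul] at this
    simp only [s, t]
    linear_combination this
  have e2 : 2 * (768 * (s + 1) ^ 2 - 2 * c * s) + t ^ 2 * (1536 * (s + 1) - 2 * c) = 0 := by
    have := hd 2 (by omega)
    simp [hf, Function.iterate_succ_apply', derivative_pow, derivative_mul] at this
    simp only [s, t]
    linear_combination this
  have e3 : 6 * t * (1536 * (s + 1) - 2 * c) + t ^ 3 * 1536 = 0 := by
    have := hd 3 (by omega)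
    simp [hf, Function.iterate_succ_apply', derivative_pow, derivative_mul] at this
    simp only [s, t]
    linear_combination this
  have h64 : (6 : k) ^ 4 ≠ 0 := pow_ne_zero _ h6
  rcases eq_or_ne t 0 with ht | ht
  · have hs : 4 * s + 1 = 0 := by
      have hst : t ^ 2 = 4 * s + 1 := by simp only [s, t]; ring
      rw [← hst, ht]; ring
    have g1 : 768 * (s + 1) ^ 2 - 2 * c * s = 0 := by
      have : (2 : k) * (768 * (s + 1) ^ 2 - 2 * c * s) = 0 := by
        linear_combination e2 - t * (1536 * (s + 1) - 2 * c) * ht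
      exact (mul_eq_zero.mp this).resolve_left h2
    have hs' : (-(4 : k) * s) = 1 := by linear_combination -hs
    -- `c = 1728`
    have hc : 4 * c = 6912 := by
      linear_combination -64 * e0 + (64 * (64 * (s ^ 2) + 176 * s + 148) - 4 * c * (4 * s - 1)) * hs
    refine h64 ((mul_eq_zero.mp (?_ : (2 : k) ^ 4 * 6 ^ 4 = 0)).resolve_left (pow_ne_zero _ h2))
    linear_combination 16 * g1 - 2 * hc - (768 * (4 * s + 7) - 8 * c) * hs
  · have g1 := (mul_eq_zero.mp e1).resolve_left ht
    have g2 : 1536 * (s + 1) - 2 * c = 0 := (mul_eq_zero.mp (show t ^ 2 * _ = 0 by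
      linear_combination e2 - 2 * g1)).resolve_left (pow_ne_zero _ ht)
    refine pow_ne_zero 3 ht ((mul_eq_zero.mp (?_ : (1536 : k) * t ^ 3 = 0)).resolve_left ?_)
    · linear_combination e3 - 6 * t * g2
    · rw [show (1536 : k) = 2 ^ 9 * 3 by norm_num]
      exact mul_ne_zero (pow_ne_zero _ h2) h3

end Fermat.Agent.MCurve.Spec
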