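import Fermat.Agent.MCurve.Spec.TameAux

/-!
Values of reductions in a disc: powers of a uniformiser, multiplicities of polynomials in the
coordinate, and the order of the stabiliser of a disc over a cusp.
-/

set_option autoImplicit false
set_option linter.style.haveILetI false
set_option linter.unusedSectionVars false

noncomputable section

namespace Fermat.Agent.MCurve.Spec

open AlgebraicCurve Polynomial IsLocalRing CongruenceSubgroup
open Fermat.Agent.GalRep.Model (Lev cuspMat)
open scoped MatrixGroups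

local notation "Q̄" => AlgebraicClosure ℚ

section Generic

variable {A : ValuationSubring Q̄} {F : Type*} [Field F] [Algebra Q̄ F]

section Values

open DiscData

variable {D : DiscData A F} {κ : Type*} [Field κ] {Γ₀ : Type*} [LinearOrderedCommGroupWithZero Γ₀]
  {w : Valuation κ Γ₀} {ρ : D.B →+* κ}

theorem DiscData.χ_polyB (P : Polynomial A) :
    D.χ (D.polyB P) = (P.map (residue A)).eval (D.χ D.T') := by
  haveI := D.fin.hasPrincipalDivisors
  rw [eval_map]
  refine RingHom.congr_fun (f := D.χ.comp D.polyB) (g := eval₂RingHom (residue A) (D.χ D.T'))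
    (Polynomial.ringHom_ext (fun a => ?_) ?_) P
  · simp only [RingHom.comp_apply, coe_eval₂RingHom, eval₂_C]
    rw [polyB_C, χ_cst]
  · simp only [RingHom.comp_apply, coe_eval₂RingHom, eval₂_X]
    rw [polyB_X]

theorem DiscData.Compat.rho_t_lt_one (hc : Compat w ρ) (U : D.Unif) : w (ρ U.t) < 1 :=
  (hc.lt_one_iff _).mpr U.χ_t

/-- The values of reductions are powers of the value of the uniformiser. -/
theorem DiscData.Compat.val_eq_zpow (hc : Compat w ρ) (U : D.Unif) {x : D.B}
    (hx : ∀ g : D.Γ, ρ (D.act g x) ≠ 0) : w (ρ x) = w (ρ U.t) ^ D.tot x := by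
  haveI := D.fin.hasPrincipalDivisors
  haveI : Nonempty D.stab := ⟨⟨1, fun y => congrArg D.χ (Subtype.ext rfl)⟩⟩
  have h := hc.eq_zpow_tot U hx
  rw [← hc.rho_t_pow U U.β₀_eq, ← zpow_natCast (w (ρ U.t)), ← zpow_mul, mul_comm, zpow_mul,
    zpow_natCast] at h
  exact (pow_left_inj₀ zero_le zero_le Nat.card_pos.ne').mp h

/-- The value of a polynomial in the coordinate is the multiplicity of its root at the centre. -/
theorem DiscData.Compat.val_polyB (hc : Compat w ρ) (U : D.Unif) {P : Polynomial A}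
    (hP : P.map (residue A) ≠ 0) :
    w (ρ (D.polyB P)) =
      w (ρ U.t) ^ (Nat.card D.stab * rootMultiplicity (D.χ D.T') (P.map (residue A))) := by
  haveI := D.fin.hasPrincipalDivisors
  set m := rootMultiplicity (D.χ D.T') (P.map (residue A))
  obtain ⟨Qb, hQb, hndvd⟩ := exists_eq_pow_rootMultiplicity_mul_and_not_dvd _ hP (D.χ D.T')
  obtain ⟨Q, rfl⟩ := Polynomial.map_surjective (residue A) residue_surjective Qb
  set E := P - (X - C U.β₀) ^ m * Q
  have hE : E.map (residue A) = 0 := by
    rw [Polynomial.map_sub, Polynomial.map_mul, Polynomial.map_pow, Polynomial.map_sub, map_X, map_C,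
      U.β₀_eq, ← hQb, sub_self]
  have hρE : ρ (D.polyB E) = 0 := by
    rw [E.as_sum_range_C_mul_X_pow, map_sum, map_sum]
    refine Finset.sum_eq_zero fun i _ => ?_
    rw [map_mul, map_mul, polyB_C, hc.const _ ((residue_eq_zero_iff _).mp ?_), zero_mul]
    have := congrArg (fun q => q.coeff i) hE
    simpa [coeff_map] using this
  have hQ1 : w (ρ (D.polyB Q)) = 1 := hc.eq_one (by
    rw [D.χ_polyB]
    exact fun h => hndvd (dvd_iff_isRoot.mpr h))
  have e : ρ (D.polyB P) = ρ (D.Tsub U.β₀) ^ m * ρ (D.polyB Q) := by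
    rw [← sub_eq_zero, ← hρE]
    simp only [E, map_sub, map_mul, map_pow, Tsub]
    rw [polyB_X, polyB_C]
  rw [e, map_mul, map_pow, hQ1, mul_one, ← hc.rho_t_pow U U.β₀_eq, ← pow_mul]

end Values

namespace Cover

variable (W : Cover A F) {V : ValuationSubring F} (hV : IsGauss A W.t₀ V)
  [IsAlgClosed (ResidueField A)]

/-- The centre of a valuation of the residue field at which the coordinate is constant. -/
theorem exists_compat (Wv : ValuationSubring (ResidueField V)) (hk : ∀ c, hV.theta c ∈ Wv)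
    (ht : hV.redT ∈ Wv) {c : ResidueField A} (hc : residue Wv ⟨_, ht⟩ = residue Wv ⟨_, hk c⟩) :
    ∃ χ hχ, χ ⟨W.t₀, self_mem_chart A _⟩ = c ∧
      DiscData.Compat (D := W.disc χ hχ) Wv.valuation hV.red := by
  let kW : ResidueField A →+* Wv := hV.theta.codRestrict Wv.toSubring hk
  let cW : Polynomial A →+* Wv :=
    (eval₂RingHom kW ⟨_, ht⟩).comp (mapRingHom (residue A))
  have hcW : ∀ P, (cW P : ResidueField V) = hV.red (polC A W.t₀ P) := fun P => by
    rw [hV.red_polC]
    exact RingHom.congr_fun (f := Wv.subtype.comp (eval₂RingHom kW ⟨_, ht⟩)) (g := hV.redJ)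
      (Polynomial.ringHom_ext (fun c => by simp [kW, IsGauss.redJ])
        (by simp [IsGauss.redJ])) (P.map (residue A))
  have hrel : ∀ y : chart A W.t₀, ∃ p : Polynomial (Polynomial A), p.Monic ∧
      eval₂ (Wv.subtype.comp cW) (hV.red y) p = 0 := fun y => by
    obtain ⟨p, hp, hpy⟩ := y.2
    refine ⟨p, hp, ?_⟩
    rw [show Wv.subtype.comp cW = hV.red.comp (polC A W.t₀) from RingHom.ext hcW, ← hom_eval₂]
    convert map_zero hV.red
    apply Subtype.ext
    rw [← Subring.subtype_apply, hom_eval₂, ZeroMemClass.coe_zero]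
    exact hpy
  have hmem : ∀ y : chart A W.t₀, hV.red y ∈ Wv := fun y => by
    obtain ⟨p, hp, hpy⟩ := hrel y
    have hint : _root_.IsIntegral Wv (hV.red y) :=
      ⟨p.map cW, hp.map _, by rw [eval₂_map]; exact hpy⟩
    obtain ⟨u, hu⟩ := IsIntegrallyClosed.isIntegral_iff.mp hint
    exact hu ▸ u.2
  let π : chart A W.t₀ →+* ResidueField Wv :=
    (residue Wv).comp (hV.red.codRestrict Wv.toSubring hmem)
  let ι : ResidueField A →+* ResidueField Wv := (residue Wv).comp kW
  have hrange : ∀ y, π y ∈ ι.range := fun y => by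
    obtain ⟨p, hp, hpy⟩ := hrel y
    have h1 : eval₂ cW ⟨_, hmem y⟩ p = 0 := Subtype.ext (by
      rw [← ValuationSubring.subtype_apply, hom_eval₂, ZeroMemClass.coe_zero]; exact hpy)
    have h2 := congrArg (residue Wv) h1
    rw [map_zero, hom_eval₂] at h2
    let φ : Polynomial A →+* ResidueField A := (evalRingHom c).comp (mapRingHom (residue A))
    have hφ : (residue Wv).comp cW = ι.comp φ := Polynomial.ringHom_ext (fun a => by
      simp [cW, φ, ι]) (by simp [cW, φ, ι]; exact hc)
    rw [hφ, ← eval₂_map, (IsAlgClosed.splits (p.map φ)).eq_prod_roots, eval₂_mul, eval₂_C,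
      eval₂_multiset_prod, mul_eq_zero, Multiset.prod_eq_zero_iff, (hp.map φ).leadingCoeff,
      map_one] at h2
    obtain ⟨r, hr, hr0⟩ := Multiset.mem_map.mp (h2.resolve_left one_ne_zero)
    obtain ⟨r, -, rfl⟩ := Multiset.mem_map.mp hr
    rw [eval₂_sub, eval₂_X, eval₂_C] at hr0
    exact ⟨r, (sub_eq_zero.mp hr0).symm⟩
  let e := RingEquiv.ofBijective ι.rangeRestrict ⟨fun x y h => ι.injective (congrArg Subtype.val h),
    ι.rangeRestrict_surjective⟩
  let χ : chart A W.t₀ →+* ResidueField A := e.symm.toRingHom.comp (π.codRestrict ι.range hrange)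
  have hιχ : ∀ y, ι (χ y) = π y := fun y =>
    congrArg Subtype.val (e.apply_symm_apply (π.codRestrict ι.range hrange y))
  have hχ : ∀ a : A, χ (W.cst a) = residue A a := fun a => ι.injective (by
    rw [hιχ]
    show residue Wv _ = residue Wv _
    exact congrArg _ (Subtype.ext (hV.theta_residue a).symm))
  have hχt : χ ⟨W.t₀, self_mem_chart A _⟩ = c := ι.injective (by rw [hιχ]; exact hc)
  refine ⟨χ, hχ, hχt,
    { const := fun m hm => ?_
      poly := fun P hP => ?_
      le_one := fun y => (Wv.valuation_le_one_iff _).mpr (hmem y)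
      lt_one_iff := fun y => ?_ }⟩
  · show hV.red (W.cst m) = 0
    rw [show hV.red (W.cst m) = residue V (hV.cA m) from rfl, ← hV.theta_residue,
      (residue_eq_zero_iff m).mpr hm, map_zero]
  · obtain ⟨h0, -, hi⟩ := (Cover.gauss hV).unit P hP
    show residue V _ ≠ 0
    rw [ne_eq, residue_eq_zero_iff, mem_maximalIdeal, mem_nonunits_iff, not_not]
    exact IsUnit.of_mul_eq_one ⟨_, hi⟩ (Subtype.ext (mul_inv_cancel₀ h0))
  · refine (Wv.valuation_lt_one_iff ⟨_, hmem y⟩).symm.trans ?_
    rw [← residue_eq_zero_iff]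
    show π y = 0 ↔ χ y = 0
    rw [show π y = ι (χ y) from (hιχ y).symm, map_eq_zero]

/-- The value of `t₀ - c` in terms of the relation. -/
theorem pol_rel (a : A) :
    ((⟨W.t₀, self_mem_chart A _⟩ : chart A W.t₀) - W.cst a) * W.pol W.D =
      W.pol (W.N - C a * W.D) := by
  refine Subtype.ext ?_
  show (W.t₀ - algebraMap Q̄ F a) * polyA A W.T W.D = polyA A W.T (W.N - C a * W.D)
  rw [map_sub, map_mul, polyA_C, ← W.rel]
  ring

end Cover

variable [IsAlgClosed (ResidueField A)]

theorem IsGauss.red_mem {t : F} {V : ValuationSubring F} (hV : IsGauss A t V)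
    (Wv : ValuationSubring (ResidueField V)) (hk : ∀ c, hV.theta c ∈ Wv) (ht : hV.redT ∈ Wv)
    (y : chart A t) : hV.red y ∈ Wv := by
  let cW : Polynomial A →+* Wv := (hV.redJ.comp (mapRingHom (residue A))).codRestrict Wv.toSubring
    fun P => by
      show eval₂ hV.theta hV.redT (P.map (residue A)) ∈ Wv
      rw [eval₂_eq_sum_range]
      exact Subring.sum_mem _ fun i _ => mul_mem (hk _) (pow_mem ht i)
  obtain ⟨p, hp, hpy⟩ := y.2
  have hint : _root_.IsIntegral Wv (hV.red y) := by
    refine ⟨p.map cW, hp.map _, ?_⟩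
    rw [eval₂_map, show (algebraMap Wv (ResidueField V)).comp cW = hV.red.comp (polC A t) from
      RingHom.ext fun P => (hV.red_polC P).symm, ← hom_eval₂]
    convert map_zero hV.red
    apply Subtype.ext
    rw [← Subring.subtype_apply, hom_eval₂, ZeroMemClass.coe_zero]
    exact hpy
  obtain ⟨u, hu⟩ := IsIntegrallyClosed.isIntegral_iff.mp hint
  exact hu ▸ u.2

/-- If the coordinate specialises to no constant, the valuation is trivial on residues. -/
theorem IsGauss.red_val_eq_one {t : F} {V : ValuationSubring F} (hV : IsGauss A t V)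
    (Wv : ValuationSubring (ResidueField V)) (hk : ∀ c, hV.theta c ∈ Wv) (ht : hV.redT ∈ Wv)
    (hno : ∀ c, ¬ Wv.valuation (hV.redT - hV.theta c) < 1) {y : chart A t} (hy : hV.red y ≠ 0) :
    Wv.valuation (hV.red y) = 1 := by
  letI := hV.redJ.toAlgebra
  have hθ : ∀ c : ResidueField A, c ≠ 0 → Wv.valuation (hV.theta c) = 1 := fun c hc => by
    refine le_antisymm ((Wv.valuation_le_one_iff _).mpr (hk c)) (not_lt.mp fun hlt => ?_)
    have h1 : Wv.valuation (hV.theta c) * Wv.valuation (hV.theta c⁻¹) < 1 :=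
      lt_of_le_of_lt (mul_le_of_le_one_right' ((Wv.valuation_le_one_iff _).mpr (hk c⁻¹))) hlt
    rw [← map_mul, ← map_mul, mul_inv_cancel₀ hc, map_one, map_one] at h1
    exact lt_irrefl _ h1
  have hpoly : ∀ P : (ResidueField A)[X], P ≠ 0 → Wv.valuation (hV.redJ P) = 1 := fun P hP => by
    have hJ : ∀ c, Wv.valuation (hV.redJ (X - C c)) = 1 := fun c => by
      simp only [IsGauss.redJ, coe_eval₂RingHom, eval₂_sub, eval₂_X, eval₂_C]
      exact le_antisymm ((Wv.valuation_le_one_iff _).mpr (sub_mem ht (hk c))) (not_lt.mp (hno c))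
    rw [(IsAlgClosed.splits P).eq_prod_roots, map_mul, map_mul, map_multiset_prod,
      map_multiset_prod, Multiset.map_map, Multiset.map_map]
    rw [show hV.redJ (C P.leadingCoeff) = hV.theta P.leadingCoeff from eval₂_C _ _,
      hθ _ (leadingCoeff_ne_zero.mpr hP), one_mul]
    exact Multiset.prod_eq_one fun v hv => by
      obtain ⟨c, -, rfl⟩ := Multiset.mem_map.mp hv
      exact hJ c
  obtain ⟨q, hq0, hqy⟩ := (hV.algebraic_red y).exists_nonzero_coeff_and_aeval_eq_zero
    (mem_nonZeroDivisors_of_ne_zero hy)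
  rw [← q.X_mul_divX_add, map_add, map_mul, aeval_X, aeval_C, add_eq_zero_iff_eq_neg'] at hqy
  refine le_antisymm ((Wv.valuation_le_one_iff _).mpr (hV.red_mem Wv hk ht y)) (le_of_eq_of_le
    (show (1 : Wv.ValueGroup) = Wv.valuation (hV.red y * aeval (hV.red y) q.divX) from ?_) ?_)
  · rw [← hpoly _ hq0]
    exact (congrArg Wv.valuation hqy).trans (Valuation.map_neg _ _)
  · rw [map_mul]
    refine mul_le_of_le_one_right' ((Wv.valuation_le_one_iff _).mpr ?_)
    rw [aeval_eq_sum_range]
    refine Subring.sum_mem _ fun i _ => ?_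
    rw [Algebra.smul_def]
    refine mul_mem ?_ (pow_mem (hV.red_mem Wv hk ht y) i)
    show eval₂ hV.theta hV.redT _ ∈ Wv
    rw [eval₂_eq_sum_range]
    exact Subring.sum_mem _ fun j _ => mul_mem (hk _) (pow_mem ht j)

end Generic

theorem rootMultiplicity_sq_eq {k : Type*} [Field k] {a b c : k} (hab : a ≠ b)
    (h : IsRoot ((X : k[X]) ^ 2 * ((1 + C a * X) * (1 + C b * X)) ^ 2) c) :
    rootMultiplicity c ((X : k[X]) ^ 2 * ((1 + C a * X) * (1 + C b * X)) ^ 2) = 2 := by
  have key : ∀ g : k[X], g.eval c ≠ 0 →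
      rootMultiplicity c ((X - C c) ^ 2 * g) = 2 := fun g hg => by
    rw [rootMultiplicity_mul (mul_ne_zero (pow_ne_zero _ (X_sub_C_ne_zero c)) fun h0 => hg (by
      rw [h0, eval_zero])), rootMultiplicity_X_sub_C_pow, rootMultiplicity_eq_zero hg, add_zero]
  have h' : c = 0 ∨ 1 + a * c = 0 ∨ 1 + b * c = 0 := by
    simpa [IsRoot] using h
  rcases h' with rfl | h' | h'
  · have := key (((1 + C a * X) * (1 + C b * X)) ^ 2) (by simp)
    rwa [C_0, sub_zero] at this
  · have hc : c ≠ 0 := fun h0 => by simp [h0] at h'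
    have hb : 1 + b * c ≠ 0 := fun hb => hab (mul_right_cancel₀ hc (by linear_combination h' - hb))
    have e : (X : k[X]) ^ 2 * ((1 + C a * X) * (1 + C b * X)) ^ 2 =
        (X - C c) ^ 2 * (C a ^ 2 * X ^ 2 * (1 + C b * X) ^ 2) := by
      have h1 : (1 + C a * X : k[X]) = C a * (X - C c) := by
        have : (C (1 + a * c) : k[X]) = 0 := by rw [h', C_0]
        rw [map_add, map_mul, map_one] at this
        linear_combination this
      rw [h1]; ring
    rw [e]
    exact key _ (by
      have ha : a ≠ 0 := fun h0 => by simp [h0] at h'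
      simp [ha, hc, hb])
  · have hc : c ≠ 0 := fun h0 => by simp [h0] at h'
    have ha : 1 + a * c ≠ 0 := fun ha => hab (mul_right_cancel₀ hc (by linear_combination ha - h'))
    have e : (X : k[X]) ^ 2 * ((1 + C a * X) * (1 + C b * X)) ^ 2 =
        (X - C c) ^ 2 * (C b ^ 2 * X ^ 2 * (1 + C a * X) ^ 2) := by
      have h1 : (1 + C b * X : k[X]) = C b * (X - C c) := by
        have : (C (1 + b * c) : k[X]) = 0 := by rw [h', C_0]
        rw [map_add, map_mul, map_one] at this
        linear_combination this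
      rw [h1]; ring
    rw [e]
    exact key _ (by
      have hb : b ≠ 0 := fun h0 => by simp [h0] at h'
      simp [ha, hc, hb])

variable {M : ℕ} [NeZero M] (A : ValuationSubring Q̄) [hu : Fact (IsUnit (M : A))] (L : Lev M)

theorem reflect_X_add_C {R : Type*} [CommRing R] (a : R) : reflect 1 (X + C a) = 1 + C a * X := by
  rw [reflect_add, ← pow_one (X : R[X]), reflect_monomial, ← monomial_zero_left,
    monomial_zero_left, reflect_C, revAt_le le_rfl, Nat.sub_self, pow_zero, pow_one]

/-- The numerator of `j⁻¹` in the coordinate at infinity of level two. -/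
theorem revT_cusp_two (hm : L.m = 2) :
    revT A L (L.cuspPoly (cyc M A) ^ L.m) =
      X ^ 2 * ((1 + C (beta0 A L - 1) * X) * (1 + C (beta0 A L) * X)) ^ 2 := by
  set β := beta0 A L
  have hdeg : (exists_relW A L).choose.natDegree = 2 + ((1 + 1) + (1 + 1)) := by
    rw [(exists_relW A L).choose_spec.2.2.2, hm]
    simp [Lev.J, hm]
  have ht : taylor β (L.cuspPoly (cyc M A) ^ L.m) =
      1 * (((X + C (β - 1)) * (X + C β)) * ((X + C (β - 1)) * (X + C β))) := by
    rw [cuspPoly_two A L hm, hm, taylor_apply]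
    simp only [pow_comp, mul_comp, sub_comp, X_comp, one_comp, map_sub, map_one]
    ring
  have h1 : ∀ a : A, (X + C a : Polynomial A).natDegree ≤ 1 := fun a =>
    (natDegree_add_le_of_degree_le natDegree_X_le ((natDegree_C a).le.trans zero_le_one))
  have h2 : ∀ a b : A, ((X + C a) * (X + C b) : Polynomial A).natDegree ≤ 1 + 1 := fun a b =>
    natDegree_mul_le.trans (Nat.add_le_add (h1 a) (h1 b))
  rw [revT, ht, hdeg, reflect_mul _ _ (by simp) (natDegree_mul_le.trans (Nat.add_le_add (h2 _ _) (h2 _ _))),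
    reflect_mul _ _ (h2 _ _) (h2 _ _), reflect_mul _ _ (h1 _) (h1 _), reflect_X_add_C, reflect_X_add_C,
    ← C_1, reflect_C, C_1, one_mul, sq, sq]

variable {χ : chart A (jK A L)⁻¹ →+* ResidueField A}
  (hχ : ∀ a, χ ((coverI A L).cst a) = residue A a)

/-- The stabiliser of a disc over a cusp has order dividing the level. -/
theorem card_stab_coverI_dvd (h0 : χ ⟨(jK A L)⁻¹, self_mem_chart A _⟩ = 0) :
    Nat.card ((coverI A L).disc χ hχ).stab ∣ L.e := by
  classical
  set D := (coverI A L).disc χ hχ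
  obtain ⟨i, hi, hiT⟩ := exists_cusp_T A L hχ h0
  obtain ⟨P₀, hP₀⟩ := exists_placeAt A L (cuspMat i)
  obtain ⟨hne₀, hord₀⟩ := ord_TI_sub A L hi (L.isCusp_cuspMat i hi)
  have hpos₀ : 0 < P₀.ord (TI A L - algebraMap Q̄ (LK M A) (Tc A L i : Q̄)) :=
    hP₀.ord_pos hne₀ (by rw [hord₀]; exact_mod_cast L.e_pos)
  obtain ⟨g, hg, hgP⟩ := D.conj P₀ (Tc A L i) hiT hpos₀
  obtain ⟨γ, hγ, rfl⟩ := hg
  set δ := γ⁻¹ * cuspMat i
  have hδ : L.IsCusp i δ := (L.isCusp_mul_iff (inv_mem hγ) i _).mpr (L.isCusp_cuspMat i hi)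
  set P := shiftA M A γ⁻¹ • P₀
  have hP : IsPlaceAt A δ P := hP₀.smul γ⁻¹
  obtain ⟨hne, hord⟩ := ord_TI_sub A L hi hδ
  have hpos : 0 < P.ord (TI A L - algebraMap Q̄ (LK M A) (Tc A L i : Q̄)) :=
    hP.ord_pos hne (by rw [hord]; exact_mod_cast L.e_pos)
  have hPD : D.InDisc P := ⟨⟨Tc A L i, hiT, hpos⟩, fun y a ha => hgP y a (by
    rwa [← hasVal_smul (shiftA M A γ⁻¹) P₀, ← AlgEquiv.mul_apply, ← map_mul, inv_mul_cancel,
      map_one])⟩
  set h := shiftA M A (δ * ModularGroup.T ^ (L.m : ℤ) * δ⁻¹) with hh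
  have hho : orderOf h ∣ L.e := by
    refine orderOf_dvd_of_pow_eq_one ?_
    rw [hh, ← map_pow]
    refine shiftA_of_mem A ?_
    rw [← zpow_natCast, conj_zpow, ← zpow_mul,
      show (L.m : ℤ) * (L.e : ℤ) = (M : ℤ) by rw [← Nat.cast_mul, mul_comm, ← L.eq]]
    refine (Gamma_normal M).conj_mem _ ?_ δ
    rw [Gamma_mem, ModularGroup.coe_T_zpow]
    simp
  let S : Subgroup D.Γ :=
    { carrier := D.stab
      one_mem' := fun y => congrArg D.χ (Subtype.ext rfl)
      mul_mem' := fun {a b} ha hb y =>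
        ((congrArg D.χ (show D.act (a * b) y = D.act a (D.act b y) from Subtype.ext rfl)).trans
          (ha _)).trans (hb y)
      inv_mem' := fun {a} ha y => by
        have := ha (D.act a⁻¹ y)
        rw [show D.act a (D.act a⁻¹ y) = y from
          Subtype.ext ((a : LK M A ≃ₐ[Q̄] LK M A).apply_symm_apply y)] at this
        exact this.symm }
  let f : S →* Subgroup.zpowers h :=
    { toFun := fun x => ⟨_, stab_subset A L hχ hi hδ hP hPD x.2⟩
      map_one' := Subtype.ext rfl
      map_mul' := fun _ _ => Subtype.ext rfl }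
  have hcard := Subgroup.card_dvd_of_injective f fun x y e => Subtype.ext (Subtype.ext
    (congrArg (fun z : Subgroup.zpowers h => (z : LK M A ≃ₐ[Q̄] LK M A)) e))
  rw [Nat.card_zpowers] at hcard
  exact hcard.trans hho

end Fermat.Agent.MCurve.Spec
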